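/-
GATE-J / J2 (helper99, J2 lead): the shared KUMMER GROUP of a function field in the prelude
`Place` API and the interface `EIG` that J2 exports to J4.

* `pDivUnits K F p` : the subgroup of `Fˣ` of units all of whose orders are divisible by `p`;
* `Kum K F p` : `pDivUnits K F p` modulo `p`-th powers of arbitrary units of `F`  (`= Pic⁰[p]`
  when `K` is algebraically closed);
* `heckeNormSeries ℓ u = u(q^ℓ) · N_ℓ(u)` : the multiplicative Hecke operator on Laurent series
  (helper44's `normL`);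
* `EIG N p` : for every mod-`p` eigensystem `θ` of the weight-2 Hecke algebra of level `N` there
  is a nonzero eigenvector in `k0 ⊗ Kum`, in RELATIONAL form (no operator on `Kum` is needed to
  state it).
-/
import Mathlib
import Fermat.Prelude.Def_AlgebraicCurve_DivisorClassGroup
import Fermat.Prelude.Def_ModularCurve_ArithmeticGalois
import Fermat.Prelude.Def_CuspForm_HeckeAlgebra
import Fermat.Agent.GJ.Kum.NormSeries

set_option autoImplicit false

noncomputable section

namespace Fermat.Agent.GJ.KumGroup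

open AlgebraicCurve ModularCurve TensorProduct

section General

variable (K F : Type*) [Field K] [Field F] [Algebra K F] (p : ℕ)

/-- the units of `F` whose divisor is divisible by `p` -/
def pDivUnits : Subgroup Fˣ where
  carrier := {u | ∀ P : Place K F, (p : ℤ) ∣ P.ord (u : F)}
  one_mem' := fun P => by simp [Place.ord_one]
  mul_mem' := by
    intro a b ha hb P
    rw [Units.val_mul, Place.ord_mul _ a.ne_zero b.ne_zero]
    exact dvd_add (ha P) (hb P)
  inv_mem' := by
    intro a ha P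
    rw [Units.val_inv_eq_inv_val, Place.ord_inv]
    exact (dvd_neg).2 (ha P)

variable {K F p} in
theorem mem_pDivUnits {u : Fˣ} :
    u ∈ pDivUnits K F p ↔ ∀ P : Place K F, (p : ℤ) ∣ P.ord (u : F) := Iff.rfl

/-- `p`-th powers of units are `p`-divisible -/
theorem pow_mem_pDivUnits (v : Fˣ) : v ^ p ∈ pDivUnits K F p := by
  intro P
  have : P.ord ((v ^ p : Fˣ) : F) = (p : ℤ) * P.ord (v : F) := by
    rw [Units.val_pow_eq_pow_val, ← zpow_natCast, Place.ord_zpow]
  rw [this]
  exact dvd_mul_right _ _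

/-- the `p`-th powers of (arbitrary) units of `F`, inside `pDivUnits` -/
def pPowers : Subgroup (pDivUnits K F p) :=
  ((powMonoidHom p : Fˣ →* Fˣ).range).subgroupOf (pDivUnits K F p)

/-- the Kummer group `{u | p ∣ div u} / (Fˣ)^p` -/
def Kum : Type _ := pDivUnits K F p ⧸ pPowers K F p

instance : CommGroup (Kum K F p) :=
  inferInstanceAs (CommGroup (pDivUnits K F p ⧸ pPowers K F p))

variable {K F p} in
/-- the class of a `p`-divisible unit -/
def Kum.mk : pDivUnits K F p →* Kum K F p := QuotientGroup.mk' (pPowers K F p)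

variable {K F p} in
theorem Kum.mk_surjective : Function.Surjective (Kum.mk : pDivUnits K F p → Kum K F p) :=
  QuotientGroup.mk'_surjective _

variable {K F p} in
theorem Kum.mk_eq_mk_iff {u v : pDivUnits K F p} :
    Kum.mk u = Kum.mk v ↔ ∃ w : Fˣ, (v : Fˣ) = u * w ^ p := by
  show (QuotientGroup.mk u : pDivUnits K F p ⧸ pPowers K F p) = QuotientGroup.mk v ↔ _
  rw [QuotientGroup.eq]
  constructor
  · rintro ⟨w, hw⟩
    refine ⟨w, ?_⟩
    have h : w ^ p = ((u⁻¹ * v : pDivUnits K F p) : Fˣ) := hw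
    rw [h]
    simp
  · rintro ⟨w, hw⟩
    refine ⟨w, ?_⟩
    show w ^ p = ((u⁻¹ * v : pDivUnits K F p) : Fˣ)
    simp [hw]

end General

section Modular

/-- `ℚ̄` -/
abbrev Kb : Type := AlgebraicClosure ℚ

/-- the function field of `X₀(N)` over `ℚ̄`, inside `ℚ̄((q))` -/
abbrev FK (N : ℕ) : Type := ↥(modularFunctionFieldBar N)

/-- the multiplicative Hecke operator on Laurent series, `u ↦ u(q^ℓ) · ∏_b u(ζ^b q^{1/ℓ})` -/
def heckeNormSeries {R : Type*} [CommRing R] (ℓ : ℕ) [NeZero ℓ] (u : LaurentSeries R) :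
    LaurentSeries R :=
  qExpand R ℓ u * Fermat.Agent.GJ.Kum.normL ℓ u

/-- a finite `k0`-combination of Kummer classes, as an element of `k0 ⊗ Kum` -/
def tens {K F : Type*} [Field K] [Field F] [Algebra K F] {p : ℕ} {k0 : Type*} [CommRing k0]
    {n : ℕ} (c : Fin n → k0) (u : Fin n → pDivUnits K F p) :
    k0 ⊗[ℤ] Additive (Kum K F p) :=
  ∑ i, c i ⊗ₜ[ℤ] Additive.ofMul (Kum.mk (u i))

/-- **Interface (EIG)**, relational form: for every `θ : 𝕋 → k0` there are finitely many
`p`-divisible units `u i` of `F_N = ℚ̄(X₀(N))` and coefficients `c i ∈ k0` with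
`v := ∑ c i ⊗ [u i] ≠ 0` in `k0 ⊗ Kum_p(F_N)` such that for every prime `ℓ ∤ N`, `ℓ ∉ S`, the Hecke
norms `heckeNormSeries ℓ (u i)` are again `p`-divisible units `u' i` of `F_N` and
`∑ c i ⊗ [u' i] = θ(T_ℓ) • v`. -/
def EIG (N : ℕ) [NeZero N] (p : ℕ) : Prop :=
  ∀ (S : Set ℕ) (_ : ∀ ℓ : ℕ, ℓ.Prime → ℓ ∣ N → ℓ ∈ S)
    (k0 : Type) [Field k0] [Finite k0] [CharP k0 p]
    (θ : ↥(CuspForm.heckeAlgebra N 2 S) →+* k0),
    ∃ (n : ℕ) (c : Fin n → k0) (u : Fin n → pDivUnits Kb (FK N) p),
      tens c u ≠ 0 ∧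
      ∀ (ℓ : ℕ) (hℓ : ℓ.Prime) (hℓN : ¬ ℓ ∣ N) (hℓS : ℓ ∉ S),
        ∃ u' : Fin n → pDivUnits Kb (FK N) p,
          (∀ i, (((u' i : (FK N)ˣ) : FK N) : LaurentSeries Kb) =
            @heckeNormSeries Kb _ ℓ ⟨hℓ.ne_zero⟩ (((u i : (FK N)ˣ) : FK N) : LaurentSeries Kb)) ∧
          tens c u' = θ (CuspForm.heckeAlgebra.T hℓ hℓN hℓS) • tens c u

/-- second J2 export: the Kummer group is finite -/
def FIN (N : ℕ) [NeZero N] (p : ℕ) : Prop := Finite (Kum Kb (FK N) p)

end Modular

end Fermat.Agent.GJ.KumGroup
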