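/-
GATE-J / J2-EIS engine (helper94): Eisenstein series twisted by a bounded coefficient function on
bottom rows, and the specialisation to a character of `Γ₀(N)` that is trivial on parabolic
elements.  Mathlib only.
-/
import Mathlib

set_option autoImplicit false

open Complex UpperHalfPlane Set Filter Topology Matrix ModularForm EisensteinSeries
  CongruenceSubgroup ModularGroup
open scoped MatrixGroups Manifold

namespace Fermat.Agent.GJ.TwEis

noncomputable section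

/-- The twisted Eisenstein sum `∑_{v ∈ ℤ²} c v · (v₀ z + v₁)^{-k}`. -/
def twE (c : (Fin 2 → ℤ) → ℂ) (k : ℤ) (z : ℍ) : ℂ :=
  ∑' v : Fin 2 → ℤ, c v * eisSummand k v z

/-- right multiplication by `γ ∈ SL(2,ℤ)` as a permutation of `ℤ²`. -/
def vecMulEquiv (γ : SL(2, ℤ)) : (Fin 2 → ℤ) ≃ (Fin 2 → ℤ) where
  toFun v := v ᵥ* (γ : Matrix (Fin 2) (Fin 2) ℤ)
  invFun v := v ᵥ* ((γ⁻¹ : SL(2, ℤ)) : Matrix (Fin 2) (Fin 2) ℤ)
  left_inv v := by
    show (v ᵥ* (γ : Matrix (Fin 2) (Fin 2) ℤ)) ᵥ*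
      ((γ⁻¹ : SL(2, ℤ)) : Matrix (Fin 2) (Fin 2) ℤ) = v
    rw [vecMul_vecMul, ← Matrix.SpecialLinearGroup.coe_mul]
    simp
  right_inv v := by
    show (v ᵥ* ((γ⁻¹ : SL(2, ℤ)) : Matrix (Fin 2) (Fin 2) ℤ)) ᵥ*
      (γ : Matrix (Fin 2) (Fin 2) ℤ) = v
    rw [vecMul_vecMul, ← Matrix.SpecialLinearGroup.coe_mul]
    simp

@[simp] lemma vecMulEquiv_apply (γ : SL(2, ℤ)) (v : Fin 2 → ℤ) :
    vecMulEquiv γ v = v ᵥ* (γ : Matrix (Fin 2) (Fin 2) ℤ) := rfl

@[simp] lemma vecMulEquiv_symm_apply (γ : SL(2, ℤ)) (v : Fin 2 → ℤ) :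
    (vecMulEquiv γ).symm v = v ᵥ* ((γ⁻¹ : SL(2, ℤ)) : Matrix (Fin 2) (Fin 2) ℤ) := rfl

section general

variable {c : (Fin 2 → ℤ) → ℂ} {k : ℤ}

lemma norm_term_le (hc : ∀ v, ‖c v‖ ≤ 1) (v : Fin 2 → ℤ) (z : ℍ) :
    ‖c v * eisSummand k v z‖ ≤ ‖eisSummand k v z‖ := by
  rw [norm_mul]
  exact mul_le_of_le_one_left (norm_nonneg _) (hc v)

/-- (E1) -/
theorem summable_twE_term (hc : ∀ v, ‖c v‖ ≤ 1) (hk : 3 ≤ k) (z : ℍ) :
    Summable fun v : Fin 2 → ℤ => c v * eisSummand k v z :=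
  Summable.of_norm_bounded (summable_norm_eisSummand hk z) (fun v => norm_term_le hc v z)

/-- (E2) the slash action permutes the coefficient function; no hypothesis on `c`. -/
theorem twE_slash (c : (Fin 2 → ℤ) → ℂ) (k : ℤ) (γ : SL(2, ℤ)) :
    twE c k ∣[k] γ = twE (fun v => c (v ᵥ* ((γ⁻¹ : SL(2, ℤ)) : Matrix (Fin 2) (Fin 2) ℤ))) k := by
  ext1 z
  simp_rw [SL_slash_apply, _root_.zpow_neg,
    mul_inv_eq_iff_eq_mul₀ (zpow_ne_zero _ <| denom_ne_zero _ z), twE, eisSummand_SL2_apply]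
  have h := (vecMulEquiv γ).tsum_eq
    (fun w => c (w ᵥ* ((γ⁻¹ : SL(2, ℤ)) : Matrix (Fin 2) (Fin 2) ℤ)) * eisSummand k w z)
  rw [← h, ← tsum_mul_right]
  refine tsum_congr fun v => ?_
  have hv : (v ᵥ* (γ : Matrix (Fin 2) (Fin 2) ℤ)) ᵥ*
      ((γ⁻¹ : SL(2, ℤ)) : Matrix (Fin 2) (Fin 2) ℤ) = v := (vecMulEquiv γ).left_inv v
  simp only [vecMulEquiv_apply, hv]
  ring

/-- locally uniform convergence of the twisted sum. -/
theorem twE_tendstoLocallyUniformly (hc : ∀ v, ‖c v‖ ≤ 1) (hk : 3 ≤ k) :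
    TendstoLocallyUniformly (fun (s : Finset (Fin 2 → ℤ)) ↦ (∑ x ∈ s, c x * eisSummand k x ·))
      (twE c k ·) Filter.atTop := by
  have hk' : (2 : ℝ) < k := by norm_cast
  have p_sum : Summable fun x : Fin 2 → ℤ ↦ ‖x‖ ^ (-k) :=
    mod_cast (summable_one_div_norm_rpow hk')
  simp only [tendstoLocallyUniformly_iff_forall_isCompact, twE]
  intro K hK
  obtain ⟨A, B, hB, HABK⟩ := subset_verticalStrip_of_isCompact hK
  refine (tendstoUniformlyOn_tsum (hu := p_sum.mul_left <| r ⟨⟨A, B⟩, hB⟩ ^ (-k : ℝ))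
    (fun p z hz ↦ ?_)).mono HABK
  refine (norm_term_le hc p z).trans ?_
  simpa only [eisSummand, one_div, ← _root_.zpow_neg, norm_zpow, ← Real.rpow_intCast,
    Int.cast_neg] using summand_bound_of_mem_verticalStrip (by positivity) p hB hz

lemma twE_tendstoLocallyUniformlyOn (hc : ∀ v, ‖c v‖ ≤ 1) (hk : 3 ≤ k) :
    TendstoLocallyUniformlyOn (fun (s : Finset (Fin 2 → ℤ)) ↦
      ↑ₕ(fun (z : ℍ) ↦ ∑ x ∈ s, c x * eisSummand k x z)) (↑ₕ(twE c k))
          Filter.atTop {z : ℂ | 0 < z.im} := by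
  rw [← upperHalfPlaneSet, ← range_coe, ← image_univ]
  apply TendstoLocallyUniformlyOn.comp (s := ⊤) _ _ _ (OpenPartialHomeomorph.continuousOn_symm _)
  · simp only [Set.top_eq_univ, tendstoLocallyUniformlyOn_univ]
    exact twE_tendstoLocallyUniformly hc hk
  · simp only [IsOpenEmbedding.toOpenPartialHomeomorph_target, Set.top_eq_univ, mapsTo_range_iff,
    Set.mem_univ, forall_const]

lemma term_extension_differentiableOn (c : (Fin 2 → ℤ) → ℂ) (k : ℤ) (a : Fin 2 → ℤ) :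
    DifferentiableOn ℂ (↑ₕ(fun z : ℍ => c a * eisSummand k a z)) {z : ℂ | 0 < z.im} := by
  have h := (eisSummand_extension_differentiableOn k a).const_mul (c a)
  refine h.congr fun z hz => ?_
  simp only [Function.comp_apply]

/-- (E3) the twisted Eisenstein series is holomorphic. -/
theorem mdifferentiable_twE (hc : ∀ v, ‖c v‖ ≤ 1) (hk : 3 ≤ k) :
    MDifferentiable 𝓘(ℂ) 𝓘(ℂ) (twE c k) := by
  intro τ
  suffices DifferentiableAt ℂ (↑ₕ(twE c k)) τ.1 by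
    convert!
      MDifferentiableAt.comp τ (DifferentiableAt.mdifferentiableAt this) τ.mdifferentiable_coe
    exact funext fun z ↦ (comp_ofComplex (twE c k) z).symm
  refine DifferentiableOn.differentiableAt ?_ (isOpen_upperHalfPlaneSet.mem_nhds τ.2)
  exact (twE_tendstoLocallyUniformlyOn hc hk).differentiableOn
    (Eventually.of_forall fun s ↦ by
      have : (↑ₕ(fun (z : ℍ) ↦ ∑ x ∈ s, c x * eisSummand k x z)) =
          fun w => ∑ x ∈ s, (↑ₕ(fun z : ℍ => c x * eisSummand k x z)) w := by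
        funext w; simp [Function.comp_apply]
      rw [this]
      exact DifferentiableOn.fun_sum fun x _ ↦ term_extension_differentiableOn c k x)
    isOpen_upperHalfPlaneSet

end general

section limit

variable {c : (Fin 2 → ℤ) → ℂ} {k : ℤ}

/-- the sum of the norms of the terms with `v 0 ≠ 0`. -/
def offSum (k : ℤ) (z : ℍ) : ℝ :=
  ∑' v : Fin 2 → ℤ, if v 0 = 0 then 0 else ‖eisSummand k v z‖

lemma vecMul_T_zpow_zero (v : Fin 2 → ℤ) (n : ℤ) :
    (v ᵥ* ((T ^ n : SL(2, ℤ)) : Matrix (Fin 2) (Fin 2) ℤ)) 0 = v 0 := by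
  rw [coe_T_zpow]
  simp [vecMul, dotProduct, Fin.sum_univ_two]

lemma vecMul_T_zpow_one (v : Fin 2 → ℤ) (n : ℤ) :
    (v ᵥ* ((T ^ n : SL(2, ℤ)) : Matrix (Fin 2) (Fin 2) ℤ)) 1 = v 0 * n + v 1 := by
  rw [coe_T_zpow]
  simp [vecMul, dotProduct, Fin.sum_univ_two]

lemma eisSummand_T_zpow_smul (k n : ℤ) (v : Fin 2 → ℤ) (z : ℍ) :
    eisSummand k v (T ^ n • z) =
      eisSummand k (v ᵥ* ((T ^ n : SL(2, ℤ)) : Matrix (Fin 2) (Fin 2) ℤ)) z := by
  simp only [eisSummand, vecMul_T_zpow_zero, vecMul_T_zpow_one, coe_T_zpow_smul_eq]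
  congr 1
  push_cast
  ring

lemma offSum_T_zpow_smul (k n : ℤ) (z : ℍ) : offSum k (T ^ n • z) = offSum k z := by
  unfold offSum
  rw [← (vecMulEquiv (T ^ n)).tsum_eq (fun v => if v 0 = 0 then 0 else ‖eisSummand k v z‖)]
  refine tsum_congr fun v => ?_
  simp only [vecMulEquiv_apply, eisSummand_T_zpow_smul, vecMul_T_zpow_zero]

lemma summable_offSum_term (hk : 3 ≤ k) (z : ℍ) :
    Summable fun v : Fin 2 → ℤ => if v 0 = 0 then 0 else ‖eisSummand k v z‖ := by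
  refine Summable.of_nonneg_of_le (fun v => ?_) (fun v => ?_) (summable_norm_eisSummand hk z)
  · split_ifs <;> simp
  · split_ifs <;> simp

lemma im_le_norm_of_ne_zero (v : Fin 2 → ℤ) (hv : v 0 ≠ 0) (z : ℍ) :
    z.im ≤ ‖(v 0 : ℂ) * z + v 1‖ := by
  have h1 : ((v 0 : ℂ) * z + v 1).im = v 0 * z.im := by simp
  have h2 : |((v 0 : ℂ) * z + v 1).im| ≤ ‖(v 0 : ℂ) * z + v 1‖ := Complex.abs_im_le_norm _
  rw [h1, abs_mul, abs_of_pos z.im_pos] at h2
  have h3 : (1 : ℝ) ≤ |(v 0 : ℝ)| := by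
    have : (1 : ℤ) ≤ |v 0| := Int.one_le_abs hv
    exact_mod_cast this
  calc z.im = 1 * z.im := (one_mul _).symm
    _ ≤ |(v 0 : ℝ)| * z.im := by gcongr
    _ ≤ _ := h2

lemma norm_eisSummand_le_of_ne_zero (hk : 3 ≤ k) (v : Fin 2 → ℤ) (hv : v 0 ≠ 0) (z : ℍ)
    {A B : ℝ} (hB : 0 < B) (hz : z ∈ verticalStrip A B) :
    ‖eisSummand k v z‖ ≤ z.im ^ (-(1 / 2 : ℝ)) *
      (r ⟨⟨A, B⟩, hB⟩ ^ (-((k : ℝ) - 1 / 2)) * ‖v‖ ^ (-((k : ℝ) - 1 / 2))) := by
  have hk' : (3 : ℝ) ≤ k := by exact_mod_cast hk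
  set w : ℝ := ‖(v 0 : ℂ) * z + v 1‖ with hw
  have hzw : z.im ≤ w := im_le_norm_of_ne_zero v hv z
  have hwpos : 0 < w := lt_of_lt_of_le z.im_pos hzw
  have e1 : ‖eisSummand k v z‖ = w ^ (-(k : ℝ)) := by
    simp only [eisSummand, norm_zpow]
    rw [← Real.rpow_intCast]
    push_cast
    rfl
  have e2 : w ^ (-(k : ℝ)) = w ^ (-(1 / 2 : ℝ)) * w ^ (-((k : ℝ) - 1 / 2)) := by
    rw [← Real.rpow_add hwpos]
    congr 1
    ring
  rw [e1, e2]
  have b1 : w ^ (-(1 / 2 : ℝ)) ≤ z.im ^ (-(1 / 2 : ℝ)) :=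
    Real.rpow_le_rpow_of_nonpos z.im_pos hzw (by norm_num)
  have b2 : w ^ (-((k : ℝ) - 1 / 2)) ≤
      r ⟨⟨A, B⟩, hB⟩ ^ (-((k : ℝ) - 1 / 2)) * ‖v‖ ^ (-((k : ℝ) - 1 / 2)) :=
    summand_bound_of_mem_verticalStrip (by linarith) v hB hz
  exact mul_le_mul b1 b2 (Real.rpow_nonneg hwpos.le _) (Real.rpow_nonneg z.im_pos.le _)

/-- the constant in the decay estimate of `offSum`. -/
def offConst (k : ℤ) : ℝ :=
  r ⟨⟨1, 1⟩, one_pos⟩ ^ (-((k : ℝ) - 1 / 2)) * ∑' v : Fin 2 → ℤ, ‖v‖ ^ (-((k : ℝ) - 1 / 2))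

lemma offSum_nonneg (k : ℤ) (z : ℍ) : 0 ≤ offSum k z :=
  tsum_nonneg fun v => by split_ifs <;> simp

lemma offSum_le (hk : 3 ≤ k) (z : ℍ) (hz : 1 ≤ z.im) :
    offSum k z ≤ z.im ^ (-(1 / 2 : ℝ)) * offConst k := by
  have hk' : (3 : ℝ) ≤ k := by exact_mod_cast hk
  obtain ⟨n, hn⟩ := ModularGroup_T_zpow_mem_verticalStrip z (N := 1) one_pos
  set z' : ℍ := T ^ ((1 : ℕ) * n : ℤ) • z with hz'
  have him : z'.im = z.im := im_T_zpow_smul z _
  have hmem : z' ∈ verticalStrip 1 1 := by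
    have := verticalStrip_anti_right (1 : ℝ) hz (by simpa using hn)
    simpa using this
  rw [← offSum_T_zpow_smul k ((1 : ℕ) * n : ℤ) z, ← hz', ← him]
  have hsum : Summable fun v : Fin 2 → ℤ => ‖v‖ ^ (-((k : ℝ) - 1 / 2)) :=
    summable_one_div_norm_rpow (by linarith)
  unfold offSum offConst
  rw [← tsum_mul_left, ← tsum_mul_left]
  refine (summable_offSum_term hk z').tsum_le_tsum (fun v => ?_)
    ((hsum.mul_left _).mul_left _)
  split_ifs with h0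
  · have h1 : 0 ≤ r ⟨⟨1, 1⟩, one_pos⟩ := (r_pos _).le
    positivity
  · exact norm_eisSummand_le_of_ne_zero hk v h0 z' one_pos hmem

lemma tendsto_offSum (hk : 3 ≤ k) : Tendsto (offSum k) atImInfty (𝓝 0) := by
  have h1 : Tendsto (fun z : ℍ => z.im ^ (-(1 / 2 : ℝ)) * offConst k) atImInfty (𝓝 0) := by
    have h2 : Tendsto (fun x : ℝ => x ^ (-(1 / 2 : ℝ))) atTop (𝓝 0) :=
      tendsto_rpow_neg_atTop (by norm_num)
    have h3 : Tendsto (fun z : ℍ => z.im) atImInfty atTop := tendsto_comap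
    simpa using (h2.comp h3).mul_const (offConst k)
  refine tendsto_of_tendsto_of_tendsto_of_le_of_le' tendsto_const_nhds h1
    (Eventually.of_forall fun z => offSum_nonneg k z) ?_
  rw [Filter.Eventually, atImInfty_mem]
  exact ⟨1, fun z hz => offSum_le hk z hz⟩

/-- the limit at `i∞`. -/
def limE (c : (Fin 2 → ℤ) → ℂ) (k : ℤ) : ℂ := ∑' d : ℤ, c ![0, d] * (d : ℂ) ^ (-k)

lemma norm_twE_sub_limE_le (hc : ∀ v, ‖c v‖ ≤ 1) (hk : 3 ≤ k) (z : ℍ) :
    ‖twE c k z - limE c k‖ ≤ offSum k z := by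
  classical
  set f : (Fin 2 → ℤ) → ℂ := fun v => c v * eisSummand k v z with hf
  set f₀ : (Fin 2 → ℤ) → ℂ := fun v => if v 0 = 0 then f v else 0 with hf₀
  set f₁ : (Fin 2 → ℤ) → ℂ := fun v => if v 0 = 0 then 0 else f v with hf₁
  have hfs : Summable f := summable_twE_term hc hk z
  have hf₀s : Summable f₀ := by
    refine Summable.of_norm_bounded hfs.norm fun v => ?_
    simp only [hf₀]; split_ifs <;> simp
  have hf₁s : Summable f₁ := by
    refine Summable.of_norm_bounded hfs.norm fun v => ?_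
    simp only [hf₁]; split_ifs <;> simp
  have hsplit : twE c k z = ∑' v, f₀ v + ∑' v, f₁ v := by
    rw [← hf₀s.tsum_add hf₁s]
    refine tsum_congr fun v => ?_
    simp only [hf₀, hf₁]; split_ifs <;> simp [hf]
  have hι : Function.Injective (fun d : ℤ => (![0, d] : Fin 2 → ℤ)) := by
    intro a b hab
    have := congrFun hab 1
    simpa using this
  have h0 : ∑' v, f₀ v = limE c k := by
    rw [limE, ← hι.tsum_eq (f := f₀)]
    · refine tsum_congr fun d => ?_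
      simp [hf₀, hf, eisSummand]
    · intro v hv
      have hv0 : v 0 = 0 := by
        by_contra h
        exact hv (by simp [hf₀, h])
      refine ⟨v 1, ?_⟩
      ext i
      fin_cases i <;> simp [hv0]
  rw [hsplit, h0, add_sub_cancel_left]
  refine (norm_tsum_le_tsum_norm hf₁s.norm).trans ?_
  unfold offSum
  refine hf₁s.norm.tsum_le_tsum (fun v => ?_) (summable_offSum_term hk z)
  simp only [hf₁]
  split_ifs
  · simp
  · exact norm_term_le hc v z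

/-- (E5) the twisted Eisenstein series tends to `limE c k` at `i∞`. -/
theorem tendsto_twE (hc : ∀ v, ‖c v‖ ≤ 1) (hk : 3 ≤ k) :
    Tendsto (twE c k) atImInfty (𝓝 (limE c k)) := by
  rw [tendsto_iff_norm_sub_tendsto_zero]
  exact squeeze_zero (fun z => norm_nonneg _) (fun z => norm_twE_sub_limE_le hc hk z)
    (tendsto_offSum hk)

/-- (E4) the twisted Eisenstein series is bounded at `i∞`. -/
theorem isBoundedAtImInfty_twE (hc : ∀ v, ‖c v‖ ≤ 1) (hk : 3 ≤ k) :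
    IsBoundedAtImInfty (twE c k) := by
  rw [UpperHalfPlane.isBoundedAtImInfty_iff]
  refine ⟨‖limE c k‖ + offConst k, 1, fun z hz => ?_⟩
  have h1 := norm_twE_sub_limE_le hc hk z
  have h2 := offSum_le hk z hz
  have h3 : z.im ^ (-(1 / 2 : ℝ)) ≤ 1 :=
    Real.rpow_le_one_of_one_le_of_nonpos hz (by norm_num)
  have h4 : 0 ≤ offConst k := by
    unfold offConst
    have : 0 ≤ r ⟨⟨1, 1⟩, one_pos⟩ := (r_pos _).le
    have h5 : 0 ≤ ∑' v : Fin 2 → ℤ, ‖v‖ ^ (-((k : ℝ) - 1 / 2)) :=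
      tsum_nonneg fun v => Real.rpow_nonneg (norm_nonneg _) _
    positivity
  calc ‖twE c k z‖ = ‖limE c k + (twE c k z - limE c k)‖ := by ring_nf
    _ ≤ ‖limE c k‖ + ‖twE c k z - limE c k‖ := norm_add_le _ _
    _ ≤ ‖limE c k‖ + offConst k := by
        have : z.im ^ (-(1 / 2 : ℝ)) * offConst k ≤ 1 * offConst k := by gcongr
        linarith

/-- every slash translate is bounded at `i∞`. -/
theorem isBoundedAtImInfty_twE_slash (hc : ∀ v, ‖c v‖ ≤ 1) (hk : 3 ≤ k) (γ : SL(2, ℤ)) :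
    IsBoundedAtImInfty (twE c k ∣[k] γ) := by
  rw [twE_slash]
  exact isBoundedAtImInfty_twE (fun v => hc _) hk

theorem mdifferentiable_twE_slash (hc : ∀ v, ‖c v‖ ≤ 1) (hk : 3 ≤ k) (γ : SL(2, ℤ)) :
    MDifferentiable 𝓘(ℂ) 𝓘(ℂ) (twE c k ∣[k] γ) := by
  rw [twE_slash]
  exact mdifferentiable_twE (fun v => hc _) hk

end limit

end

end Fermat.Agent.GJ.TwEis
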