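/-
GATE-J / J2-EIS, character layer (helper94): the Eisenstein series `Echi χ k` attached to a
unitary character `χ` of `Γ₀(N)` that is trivial on parabolic elements (`trace² = 4`).
Built on `TwistedEis.lean`.
-/
import Fermat.Agent.GJ.J2.TwistedEis

set_option autoImplicit false

open Complex UpperHalfPlane Set Filter Topology Matrix ModularForm EisensteinSeries
  CongruenceSubgroup ModularGroup
open scoped MatrixGroups Manifold

namespace Fermat.Agent.GJ.TwEis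

noncomputable section

/-- the bottom row of a matrix in `SL(2,ℤ)`. -/
def botRow (γ : SL(2, ℤ)) : Fin 2 → ℤ := (γ : Matrix (Fin 2) (Fin 2) ℤ) 1

lemma botRow_mul (δ γ : SL(2, ℤ)) :
    botRow (δ * γ) = botRow δ ᵥ* (γ : Matrix (Fin 2) (Fin 2) ℤ) := by
  unfold botRow
  rw [Matrix.SpecialLinearGroup.coe_mul]
  exact Matrix.mul_apply_eq_vecMul _ _ 1

lemma botRow_one : botRow 1 = ![0, 1] := by
  ext i
  fin_cases i <;> simp [botRow]

lemma botRow_neg_one : botRow (-1) = ![0, -1] := by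
  ext i
  fin_cases i <;> simp [botRow]

/-- an element of `SL(2,ℤ)` with bottom row `(0, 1)` has trace `2`. -/
lemma trace_eq_two_of_botRow (δ : SL(2, ℤ)) (h : botRow δ = ![0, 1]) :
    (δ : Matrix (Fin 2) (Fin 2) ℤ).trace = 2 := by
  have h10 : (δ : Matrix (Fin 2) (Fin 2) ℤ) 1 0 = 0 := by
    have := congrFun h 0; simpa [botRow] using this
  have h11 : (δ : Matrix (Fin 2) (Fin 2) ℤ) 1 1 = 1 := by
    have := congrFun h 1; simpa [botRow] using this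
  have hdet := δ.det_coe
  rw [Matrix.det_fin_two, h10, h11] at hdet
  rw [Matrix.trace_fin_two, h11]
  linarith

section character

variable {N : ℕ} (χ : ↥(Gamma0 N) →* ℂˣ)

/-- the hypothesis "`χ` is trivial on parabolic elements" in the prelude's `trace² = 4` shape. -/
def IsParabolicChar : Prop :=
  ∀ γ : ↥(Gamma0 N), ((γ : SL(2, ℤ)) : Matrix (Fin 2) (Fin 2) ℤ).trace ^ 2 = 4 → χ γ = 1

variable {χ}

lemma IsParabolicChar.eq_of_botRow_eq (hpar : IsParabolicChar χ) {γ γ' : ↥(Gamma0 N)}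
    (h : botRow (γ : SL(2, ℤ)) = botRow (γ' : SL(2, ℤ))) : χ γ = χ γ' := by
  have hδ : botRow (((γ' * γ⁻¹ : ↥(Gamma0 N)) : SL(2, ℤ))) = ![0, 1] := by
    rw [Subgroup.coe_mul, botRow_mul, ← h, ← botRow_mul, Subgroup.coe_inv, mul_inv_cancel,
      botRow_one]
  have h1 : χ (γ' * γ⁻¹) = 1 := by
    apply hpar
    rw [trace_eq_two_of_botRow _ hδ]
    norm_num
  rw [map_mul, map_inv, mul_inv_eq_one] at h1
  exact h1.symm

lemma IsParabolicChar.map_neg_one (hpar : IsParabolicChar χ)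
    (hneg : (-1 : SL(2, ℤ)) ∈ Gamma0 N) : χ ⟨-1, hneg⟩ = 1 := by
  apply hpar
  show ((-1 : SL(2, ℤ)) : Matrix (Fin 2) (Fin 2) ℤ).trace ^ 2 = 4
  simp [Matrix.trace_fin_two]

variable (χ)

open Classical in
/-- the coefficient function on `ℤ²` attached to `χ`: `(χ γ)⁻¹` on the bottom row of
`γ ∈ Γ₀(N)`, zero elsewhere. -/
def botCoeff (v : Fin 2 → ℤ) : ℂ :=
  if h : ∃ γ : ↥(Gamma0 N), botRow (γ : SL(2, ℤ)) = v then ((χ h.choose : ℂˣ) : ℂ)⁻¹ else 0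

variable {χ}

lemma botCoeff_botRow (hpar : IsParabolicChar χ) (γ : ↥(Gamma0 N)) :
    botCoeff χ (botRow (γ : SL(2, ℤ))) = ((χ γ : ℂˣ) : ℂ)⁻¹ := by
  have h : ∃ γ' : ↥(Gamma0 N), botRow (γ' : SL(2, ℤ)) = botRow (γ : SL(2, ℤ)) := ⟨γ, rfl⟩
  rw [botCoeff, dif_pos h, hpar.eq_of_botRow_eq h.choose_spec]

lemma botCoeff_of_not (v : Fin 2 → ℤ)
    (h : ¬ ∃ γ : ↥(Gamma0 N), botRow (γ : SL(2, ℤ)) = v) : botCoeff χ v = 0 := by
  rw [botCoeff, dif_neg h]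

lemma norm_botCoeff_le (hunit : ∀ γ, ‖((χ γ : ℂˣ) : ℂ)‖ = 1) (v : Fin 2 → ℤ) :
    ‖botCoeff χ v‖ ≤ 1 := by
  unfold botCoeff
  split_ifs with h
  · rw [norm_inv, hunit, inv_one]
  · simp

/-- the equivariance of the coefficient function. -/
lemma botCoeff_vecMul_inv (hpar : IsParabolicChar χ) (γ : ↥(Gamma0 N)) (v : Fin 2 → ℤ) :
    botCoeff χ (v ᵥ* (((γ : SL(2, ℤ))⁻¹ : SL(2, ℤ)) : Matrix (Fin 2) (Fin 2) ℤ)) =
      ((χ γ : ℂˣ) : ℂ) * botCoeff χ v := by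
  by_cases h : ∃ δ : ↥(Gamma0 N), botRow (δ : SL(2, ℤ)) = v
  · obtain ⟨δ, rfl⟩ := h
    have e : botRow (δ : SL(2, ℤ)) ᵥ* (((γ : SL(2, ℤ))⁻¹ : SL(2, ℤ)) : Matrix (Fin 2) (Fin 2) ℤ)
        = botRow (((δ * γ⁻¹ : ↥(Gamma0 N)) : SL(2, ℤ))) := by
      rw [Subgroup.coe_mul, Subgroup.coe_inv, botRow_mul]
    rw [e, botCoeff_botRow hpar, botCoeff_botRow hpar, map_mul, map_inv]
    have hne : ((χ γ : ℂˣ) : ℂ) ≠ 0 := Units.ne_zero _
    have hne' : ((χ δ : ℂˣ) : ℂ) ≠ 0 := Units.ne_zero _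
    push_cast
    field_simp
  · have h' : ¬ ∃ δ : ↥(Gamma0 N), botRow (δ : SL(2, ℤ)) =
        v ᵥ* (((γ : SL(2, ℤ))⁻¹ : SL(2, ℤ)) : Matrix (Fin 2) (Fin 2) ℤ) := by
      rintro ⟨δ, hδ⟩
      apply h
      refine ⟨δ * γ, ?_⟩
      rw [Subgroup.coe_mul, botRow_mul, hδ]
      exact (vecMulEquiv (γ : SL(2, ℤ))).right_inv v
    rw [botCoeff_of_not _ h, botCoeff_of_not _ h', mul_zero]

variable (χ)

/-- the Eisenstein series of weight `k` with character `χ` (normalised to tend to `1`). -/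
def Echi (k : ℤ) : ℍ → ℂ := (2 : ℂ)⁻¹ • twE (botCoeff χ) k

variable {χ}

lemma Echi_apply (k : ℤ) (z : ℍ) : Echi χ k z = (2 : ℂ)⁻¹ * twE (botCoeff χ) k z := rfl

/-- (C1) the transformation law under `Γ₀(N)`. -/
theorem Echi_slash (hpar : IsParabolicChar χ) (k : ℤ) (γ : ↥(Gamma0 N)) :
    Echi χ k ∣[k] (γ : SL(2, ℤ)) = ((χ γ : ℂˣ) : ℂ) • Echi χ k := by
  unfold Echi
  rw [ModularForm.SL_smul_slash, twE_slash]
  have : (fun v => botCoeff χ (v ᵥ* (((γ : SL(2, ℤ))⁻¹ : SL(2, ℤ)) :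
      Matrix (Fin 2) (Fin 2) ℤ))) = fun v => ((χ γ : ℂˣ) : ℂ) * botCoeff χ v :=
    funext fun v => botCoeff_vecMul_inv hpar γ v
  rw [this]
  ext z
  simp only [Pi.smul_apply, smul_eq_mul, twE, mul_assoc, tsum_mul_left]
  ring

/-- pointwise form of (C1). -/
theorem Echi_smul (hpar : IsParabolicChar χ) (k : ℤ) (γ : ↥(Gamma0 N)) (z : ℍ) :
    Echi χ k ((γ : SL(2, ℤ)) • z) =
      ((χ γ : ℂˣ) : ℂ) * denom (γ : SL(2, ℤ)) z ^ k * Echi χ k z := by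
  have h := congrFun (Echi_slash hpar k γ) z
  rw [SL_slash_apply, Pi.smul_apply, smul_eq_mul, _root_.zpow_neg,
    mul_inv_eq_iff_eq_mul₀ (zpow_ne_zero _ <| denom_ne_zero _ z)] at h
  rw [h]
  ring

theorem mdifferentiable_Echi (hunit : ∀ γ, ‖((χ γ : ℂˣ) : ℂ)‖ = 1) {k : ℤ} (hk : 3 ≤ k) :
    MDifferentiable 𝓘(ℂ) 𝓘(ℂ) (Echi χ k) :=
  (mdifferentiable_twE (norm_botCoeff_le hunit) hk).const_smul _

lemma neg_one_mem_Gamma0 (N : ℕ) : (-1 : SL(2, ℤ)) ∈ Gamma0 N := by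
  rw [Gamma0_mem]
  simp

/-- a bottom row `(0, d)` forces `d = ±1`. -/
lemma eq_one_or_neg_one_of_botRow (δ : SL(2, ℤ)) (d : ℤ) (h : botRow δ = ![0, d]) :
    d = 1 ∨ d = -1 := by
  have h10 : (δ : Matrix (Fin 2) (Fin 2) ℤ) 1 0 = 0 := by
    have := congrFun h 0; simpa [botRow] using this
  have h11 : (δ : Matrix (Fin 2) (Fin 2) ℤ) 1 1 = d := by
    have := congrFun h 1; simpa [botRow] using this
  have hdet := δ.det_coe
  rw [Matrix.det_fin_two, h10, h11, mul_zero, sub_zero] at hdet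
  exact Int.eq_one_or_neg_one_of_mul_eq_one' (by rw [mul_comm]; exact hdet) |>.imp
    (fun h => h.1) (fun h => h.1)

lemma limE_botCoeff (hpar : IsParabolicChar χ) {k : ℤ} (hk : Even k) :
    limE (botCoeff χ) k = 2 := by
  unfold limE
  have hsupp : ∀ d : ℤ, d ∉ ({1, -1} : Finset ℤ) →
      botCoeff χ ![0, d] * (d : ℂ) ^ (-k) = 0 := by
    intro d hd
    rw [botCoeff_of_not, zero_mul]
    rintro ⟨γ, hγ⟩
    apply hd
    rcases eq_one_or_neg_one_of_botRow _ d hγ with h | h <;> simp [h]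
  rw [tsum_eq_sum hsupp, Finset.sum_pair (by norm_num)]
  have h1 : botCoeff χ ![0, 1] = 1 := by
    have := botCoeff_botRow hpar (1 : ↥(Gamma0 N))
    rw [OneMemClass.coe_one, botRow_one, map_one] at this
    simpa using this
  have h2 : botCoeff χ ![0, -1] = 1 := by
    have := botCoeff_botRow hpar (⟨-1, neg_one_mem_Gamma0 N⟩ : ↥(Gamma0 N))
    rw [hpar.map_neg_one (neg_one_mem_Gamma0 N)] at this
    simp only [botRow_neg_one] at this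
    simpa using this
  rw [h1, h2]
  have h3 : ((-1 : ℤ) : ℂ) ^ (-k) = 1 := by
    push_cast
    exact Even.neg_one_zpow hk.neg
  rw [h3]
  simp
  norm_num

/-- (C2) `Echi χ k → 1` at `i∞` for even `k ≥ 4` (indeed any even `k ≥ 3`). -/
theorem tendsto_Echi (hpar : IsParabolicChar χ) (hunit : ∀ γ, ‖((χ γ : ℂˣ) : ℂ)‖ = 1)
    {k : ℤ} (hk : 3 ≤ k) (hk2 : Even k) : Tendsto (Echi χ k) atImInfty (𝓝 1) := by
  have h := (tendsto_twE (norm_botCoeff_le hunit) hk).const_mul ((2 : ℂ)⁻¹)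
  rw [limE_botCoeff hpar hk2] at h
  have h2 : (2 : ℂ)⁻¹ * 2 = 1 := by norm_num
  rw [h2] at h
  exact h

theorem Echi_ne_zero (hpar : IsParabolicChar χ) (hunit : ∀ γ, ‖((χ γ : ℂˣ) : ℂ)‖ = 1)
    {k : ℤ} (hk : 3 ≤ k) (hk2 : Even k) : Echi χ k ≠ 0 := by
  intro h0
  have h := tendsto_Echi hpar hunit hk hk2
  rw [h0] at h
  have h1 : Tendsto (0 : ℍ → ℂ) atImInfty (𝓝 0) := tendsto_const_nhds
  exact one_ne_zero (tendsto_nhds_unique h h1)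

lemma Echi_slash_eq (k : ℤ) (g : SL(2, ℤ)) :
    Echi χ k ∣[k] g = (2 : ℂ)⁻¹ • (twE (botCoeff χ) k ∣[k] g) := by
  unfold Echi
  rw [ModularForm.SL_smul_slash]

/-- (C3a) every slash translate is holomorphic. -/
theorem mdifferentiable_Echi_slash (hunit : ∀ γ, ‖((χ γ : ℂˣ) : ℂ)‖ = 1) {k : ℤ} (hk : 3 ≤ k)
    (g : SL(2, ℤ)) : MDifferentiable 𝓘(ℂ) 𝓘(ℂ) (Echi χ k ∣[k] g) := by
  rw [Echi_slash_eq]
  exact (mdifferentiable_twE_slash (norm_botCoeff_le hunit) hk g).const_smul _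

/-- (C3b) every slash translate is bounded at `i∞`. -/
theorem isBoundedAtImInfty_Echi_slash (hunit : ∀ γ, ‖((χ γ : ℂˣ) : ℂ)‖ = 1) {k : ℤ}
    (hk : 3 ≤ k) (g : SL(2, ℤ)) : IsBoundedAtImInfty (Echi χ k ∣[k] g) := by
  rw [Echi_slash_eq]
  exact (isBoundedAtImInfty_twE_slash (norm_botCoeff_le hunit) hk g).const_smul_left _

lemma trace_conj_T_zpow (g : SL(2, ℤ)) (w : ℤ) :
    ((g * T ^ w * g⁻¹ : SL(2, ℤ)) : Matrix (Fin 2) (Fin 2) ℤ).trace = 2 := by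
  rw [Matrix.SpecialLinearGroup.coe_mul, Matrix.SpecialLinearGroup.coe_mul,
    Matrix.trace_mul_cycle, ← Matrix.SpecialLinearGroup.coe_mul, inv_mul_cancel,
    Matrix.SpecialLinearGroup.coe_one, one_mul, coe_T_zpow, Matrix.trace_fin_two]
  simp

/-- (C3c) if `g T^w g⁻¹ ∈ Γ₀(N)` then `Echi ∣[k] g` is invariant under `T^w`. -/
theorem Echi_slash_slash_T_zpow (hpar : IsParabolicChar χ) (k : ℤ) (g : SL(2, ℤ)) (w : ℤ)
    (hmem : g * T ^ w * g⁻¹ ∈ Gamma0 N) :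
    (Echi χ k ∣[k] g) ∣[k] (T ^ w : SL(2, ℤ)) = Echi χ k ∣[k] g := by
  have h1 : χ ⟨g * T ^ w * g⁻¹, hmem⟩ = 1 := by
    apply hpar
    show ((g * T ^ w * g⁻¹ : SL(2, ℤ)) : Matrix (Fin 2) (Fin 2) ℤ).trace ^ 2 = 4
    rw [trace_conj_T_zpow]
    norm_num
  have h2 : g * T ^ w = (g * T ^ w * g⁻¹) * g := by group
  rw [← SlashAction.slash_mul, h2, SlashAction.slash_mul]
  have h3 := Echi_slash hpar k ⟨g * T ^ w * g⁻¹, hmem⟩
  simp only [h1, Units.val_one, one_smul] at h3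
  rw [h3]

/-- the lower-left entry of `g T^w g⁻¹`. -/
lemma conj_T_zpow_one_zero (g : SL(2, ℤ)) (w : ℤ) :
    ((g * T ^ w * g⁻¹ : SL(2, ℤ)) : Matrix (Fin 2) (Fin 2) ℤ) 1 0 =
      -(w * (g : Matrix (Fin 2) (Fin 2) ℤ) 1 0 ^ 2) := by
  rw [Matrix.SpecialLinearGroup.SL2_inv_expl g]
  rw [Matrix.SpecialLinearGroup.coe_mul, Matrix.SpecialLinearGroup.coe_mul, coe_T_zpow]
  simp [Matrix.mul_apply, Fin.sum_univ_two]
  ring

lemma conj_T_zpow_mem_Gamma0 (N : ℕ) (g : SL(2, ℤ)) (m : ℤ) :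
    g * T ^ ((N : ℤ) * m) * g⁻¹ ∈ Gamma0 N := by
  rw [Gamma0_mem, conj_T_zpow_one_zero]
  push_cast
  simp

/-- slashing with `T^w` is translation by `w`. -/
lemma slash_T_zpow_apply (F : ℍ → ℂ) (k w : ℤ) (z : ℍ) :
    (F ∣[k] (T ^ w : SL(2, ℤ))) z = F ((w : ℝ) +ᵥ z) := by
  rw [SL_slash_apply, modular_T_zpow_smul]
  have h10 : ((T ^ w : SL(2, ℤ)) : Matrix (Fin 2) (Fin 2) ℤ) 1 0 = 0 := by
    rw [coe_T_zpow]; simp
  have h11 : ((T ^ w : SL(2, ℤ)) : Matrix (Fin 2) (Fin 2) ℤ) 1 1 = 1 := by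
    rw [coe_T_zpow]; simp
  have hd : denom ((T ^ w : SL(2, ℤ)) : GL (Fin 2) ℝ) z = 1 := by
    rw [ModularGroup.denom_apply, h10, h11]
    simp
  rw [hd, _root_.one_zpow, mul_one]

/-- (C3d) `Echi ∣[k] g` is periodic of period `N` (for every `g ∈ SL(2,ℤ)`). -/
theorem Echi_slash_vadd (hpar : IsParabolicChar χ) (k : ℤ) (g : SL(2, ℤ)) (z : ℍ) :
    (Echi χ k ∣[k] g) ((N : ℝ) +ᵥ z) = (Echi χ k ∣[k] g) z := by
  have hmem : g * T ^ ((N : ℤ) * 1) * g⁻¹ ∈ Gamma0 N := conj_T_zpow_mem_Gamma0 N g 1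
  have h := congrFun (Echi_slash_slash_T_zpow hpar k g ((N : ℤ) * 1) hmem) z
  rw [slash_T_zpow_apply] at h
  simpa using h

/-- (C3d') more generally `w`-periodic as soon as `g T^w g⁻¹ ∈ Γ₀(N)` (`w` = cusp width). -/
theorem Echi_slash_vadd_of_mem (hpar : IsParabolicChar χ) (k : ℤ) (g : SL(2, ℤ)) (w : ℤ)
    (hmem : g * T ^ w * g⁻¹ ∈ Gamma0 N) (z : ℍ) :
    (Echi χ k ∣[k] g) ((w : ℝ) +ᵥ z) = (Echi χ k ∣[k] g) z := by
  have h := congrFun (Echi_slash_slash_T_zpow hpar k g w hmem) z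
  rwa [slash_T_zpow_apply] at h

end character

end

end Fermat.Agent.GJ.TwEis
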