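/-
GATE-J / J2-EIS, ratio layer (helper94): the meromorphic function `hChi χ k = E_{k,χ} / E_{k,1}`
in T24's `Mer = Frac(Hol)`, its multiplier, its slash translates at the cusps, and the modular
forms `(E_{k,χ})^p` of weight `p * k` on `Γ₀(N)` when `χ^p = 1`.
-/
import Fermat.Agent.GJ.J2.TwistedEisChar
import Fermat.Agent.S24_helper82.HolOrd
import Fermat.Prelude.Def_ModularCurve_PeriodMap

set_option autoImplicit false

open Complex UpperHalfPlane Set Filter Topology Matrix ModularForm EisensteinSeries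
  CongruenceSubgroup ModularGroup
open scoped MatrixGroups Manifold
open Fermat.Agent.S24_helper82

namespace Fermat.Agent.GJ.TwEis

noncomputable section

/-- the automorphy factor `(cτ+d)^k` as a holomorphic function. -/
def denHol (γ : SL(2, ℤ)) (k : ℤ) : Hol :=
  ⟨fun z : ℍ => denom (γ : GL (Fin 2) ℝ) z ^ k, mdifferentiable_denom_zpow _ k⟩

lemma denHol_apply (γ : SL(2, ℤ)) (k : ℤ) (z : ℍ) :
    (denHol γ k : ℍ → ℂ) z = denom (γ : GL (Fin 2) ℝ) z ^ k := rfl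

lemma denHol_ne_zero (γ : SL(2, ℤ)) (k : ℤ) : denHol γ k ≠ 0 := by
  intro h
  have h1 := congrFun (congrArg (fun f : Hol => (f : ℍ → ℂ)) h) UpperHalfPlane.I
  simp only [denHol_apply] at h1
  exact zpow_ne_zero _ (denom_ne_zero _ _) h1

/-- a slash translate of a holomorphic function, as an element of `Hol`. -/
def slashHol (F : Hol) (k : ℤ) (g : SL(2, ℤ)) : Hol :=
  ⟨(F : ℍ → ℂ) ∣[k] g, by
    have h1 : ((F : ℍ → ℂ) ∣[k] g) =
        fun z : ℍ => (compSL g F : ℍ → ℂ) z * (denHol g (-k) : ℍ → ℂ) z := by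
      funext z
      rw [SL_slash_apply]
      rfl
    rw [h1]
    exact (compSL g F * denHol g (-k)).2⟩

lemma coe_slashHol (F : Hol) (k : ℤ) (g : SL(2, ℤ)) :
    (slashHol F k g : ℍ → ℂ) = (F : ℍ → ℂ) ∣[k] g := rfl

/-- `F ∘ g = (cτ+d)^k · (F ∣[k] g)`. -/
lemma compSL_eq_denHol_mul_slashHol (F : Hol) (k : ℤ) (g : SL(2, ℤ)) :
    compSL g F = denHol g k * slashHol F k g := by
  apply Subtype.ext
  funext z
  show (F : ℍ → ℂ) (g • z) = denom (g : GL (Fin 2) ℝ) z ^ k * ((F : ℍ → ℂ) ∣[k] g) z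
  rw [SL_slash_apply, mul_comm ((F : ℍ → ℂ) (g • z)), ← mul_assoc, ← zpow_add₀ (denom_ne_zero _ _)]
  simp

lemma slashHol_ne_zero {F : Hol} (hF : F ≠ 0) (k : ℤ) (g : SL(2, ℤ)) : slashHol F k g ≠ 0 := by
  intro h
  have h1 := compSL_eq_denHol_mul_slashHol F k g
  rw [h, mul_zero] at h1
  exact compSL_ne_zero g hF h1

section character

variable {N : ℕ} {χ : ↥(Gamma0 N) →* ℂˣ}

/-- `E_{k,χ}` as an element of `Hol`. -/
def EchiHol (hunit : ∀ γ, ‖((χ γ : ℂˣ) : ℂ)‖ = 1) {k : ℤ} (hk : 3 ≤ k) : Hol :=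
  ⟨Echi χ k, mdifferentiable_Echi hunit hk⟩

lemma coe_EchiHol (hunit : ∀ γ, ‖((χ γ : ℂˣ) : ℂ)‖ = 1) {k : ℤ} (hk : 3 ≤ k) :
    (EchiHol hunit hk : ℍ → ℂ) = Echi χ k := rfl

lemma EchiHol_ne_zero (hpar : IsParabolicChar χ) (hunit : ∀ γ, ‖((χ γ : ℂˣ) : ℂ)‖ = 1)
    {k : ℤ} (hk : 3 ≤ k) (hk2 : Even k) : EchiHol hunit hk ≠ 0 := by
  intro h
  apply Echi_ne_zero hpar hunit hk hk2
  rw [← coe_EchiHol hunit hk, h]
  rfl

/-- transformation law in `Hol`. -/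
lemma compSL_EchiHol (hpar : IsParabolicChar χ) (hunit : ∀ γ, ‖((χ γ : ℂˣ) : ℂ)‖ = 1)
    {k : ℤ} (hk : 3 ≤ k) (γ : ↥(Gamma0 N)) :
    compSL (γ : SL(2, ℤ)) (EchiHol hunit hk) =
      algebraMap ℂ Hol ((χ γ : ℂˣ) : ℂ) * denHol (γ : SL(2, ℤ)) k * EchiHol hunit hk := by
  apply Subtype.ext
  funext z
  exact Echi_smul hpar k γ z

lemma isParabolicChar_one : IsParabolicChar (1 : ↥(Gamma0 N) →* ℂˣ) := fun _ _ => rfl

lemma hunit_one : ∀ γ : ↥(Gamma0 N), ‖(((1 : ↥(Gamma0 N) →* ℂˣ) γ : ℂˣ) : ℂ)‖ = 1 := by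
  intro γ; simp

/-- the ratio `h_χ = E_{k,χ} / E_{k,1}` as an element of `Mer`. -/
def hChi (hunit : ∀ γ, ‖((χ γ : ℂˣ) : ℂ)‖ = 1) {k : ℤ} (hk : 3 ≤ k) : Mer :=
  algebraMap Hol Mer (EchiHol hunit hk) /
    algebraMap Hol Mer (EchiHol (χ := (1 : ↥(Gamma0 N) →* ℂˣ)) hunit_one hk)

lemma hChi_ne_zero (hpar : IsParabolicChar χ) (hunit : ∀ γ, ‖((χ γ : ℂˣ) : ℂ)‖ = 1)
    {k : ℤ} (hk : 3 ≤ k) (hk2 : Even k) : hChi hunit hk ≠ 0 := by
  unfold hChi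
  exact div_ne_zero (algebraMap_ne_zero (EchiHol_ne_zero hpar hunit hk hk2))
    (algebraMap_ne_zero (EchiHol_ne_zero isParabolicChar_one hunit_one hk hk2))

/-- (H1) the multiplier of `h_χ` is `χ`. -/
theorem compM_hChi (hpar : IsParabolicChar χ) (hunit : ∀ γ, ‖((χ γ : ℂˣ) : ℂ)‖ = 1)
    {k : ℤ} (hk : 3 ≤ k) (hk2 : Even k) (γ : ↥(Gamma0 N)) :
    compM (γ : SL(2, ℤ)) (hChi hunit hk) =
      algebraMap ℂ Mer ((χ γ : ℂˣ) : ℂ) * hChi hunit hk := by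
  unfold hChi
  rw [compM_div, compSL_EchiHol hpar hunit hk γ, compSL_EchiHol isParabolicChar_one hunit_one hk γ]
  have h1 : algebraMap Hol Mer (denHol (γ : SL(2, ℤ)) k) ≠ 0 :=
    algebraMap_ne_zero (denHol_ne_zero _ _)
  have h2 : algebraMap Hol Mer (EchiHol (χ := (1 : ↥(Gamma0 N) →* ℂˣ)) hunit_one hk) ≠ 0 :=
    algebraMap_ne_zero (EchiHol_ne_zero isParabolicChar_one hunit_one hk hk2)
  simp only [map_mul, MonoidHom.one_apply, Units.val_one, map_one, one_mul]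
  rw [← IsScalarTower.algebraMap_apply ℂ Hol Mer]
  field_simp

/-- (H2) `h_χ^p` is `Γ₀(N)`-invariant when `χ^p = 1`. -/
theorem compM_hChi_pow (hpar : IsParabolicChar χ) (hunit : ∀ γ, ‖((χ γ : ℂˣ) : ℂ)‖ = 1)
    {k : ℤ} (hk : 3 ≤ k) (hk2 : Even k) (p : ℕ) (hχp : ∀ γ, χ γ ^ p = 1) (γ : ↥(Gamma0 N)) :
    compM (γ : SL(2, ℤ)) (hChi hunit hk ^ p) = hChi hunit hk ^ p := by
  rw [map_pow, compM_hChi hpar hunit hk hk2, mul_pow, ← map_pow]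
  have : (((χ γ : ℂˣ) : ℂ)) ^ p = 1 := by
    have := congrArg (fun u : ℂˣ => (u : ℂ)) (hχp γ)
    simpa using this
  rw [this, map_one, one_mul]

/-- (H3) at any cusp: `h_χ ∘ g` is the ratio of the slash translates. -/
theorem compM_hChi_eq_slash (hpar : IsParabolicChar χ) (hunit : ∀ γ, ‖((χ γ : ℂˣ) : ℂ)‖ = 1)
    {k : ℤ} (hk : 3 ≤ k) (g : SL(2, ℤ)) :
    compM g (hChi hunit hk) =
      algebraMap Hol Mer (slashHol (EchiHol hunit hk) k g) /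
        algebraMap Hol Mer
          (slashHol (EchiHol (χ := (1 : ↥(Gamma0 N) →* ℂˣ)) hunit_one hk) k g) := by
  unfold hChi
  rw [compM_div, compSL_eq_denHol_mul_slashHol _ k g, compSL_eq_denHol_mul_slashHol _ k g,
    map_mul, map_mul]
  have h1 : algebraMap Hol Mer (denHol g k) ≠ 0 := algebraMap_ne_zero (denHol_ne_zero _ _)
  rw [mul_div_mul_left _ _ h1]

/-- (H4) at every cusp the numerator of `h_χ ∘ g` is `N`-periodic and bounded at `i∞`. -/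
theorem slashHol_EchiHol_vadd (hpar : IsParabolicChar χ) (hunit : ∀ γ, ‖((χ γ : ℂˣ) : ℂ)‖ = 1)
    {k : ℤ} (hk : 3 ≤ k) (g : SL(2, ℤ)) (z : ℍ) :
    (slashHol (EchiHol hunit hk) k g : ℍ → ℂ) ((N : ℝ) +ᵥ z) =
      (slashHol (EchiHol hunit hk) k g : ℍ → ℂ) z :=
  Echi_slash_vadd hpar k g z

theorem isBoundedAtImInfty_slashHol_EchiHol (hunit : ∀ γ, ‖((χ γ : ℂˣ) : ℂ)‖ = 1)
    {k : ℤ} (hk : 3 ≤ k) (g : SL(2, ℤ)) :
    IsBoundedAtImInfty (slashHol (EchiHol hunit hk) k g : ℍ → ℂ) :=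
  isBoundedAtImInfty_Echi_slash hunit hk g

lemma slashHol_EchiHol_ne_zero (hpar : IsParabolicChar χ)
    (hunit : ∀ γ, ‖((χ γ : ℂˣ) : ℂ)‖ = 1) {k : ℤ} (hk : 3 ≤ k) (hk2 : Even k) (g : SL(2, ℤ)) :
    slashHol (EchiHol hunit hk) k g ≠ 0 :=
  slashHol_ne_zero (EchiHol_ne_zero hpar hunit hk hk2) k g

end character

/-- slash of a power. -/
lemma pow_slash (F : ℍ → ℂ) (k : ℤ) (p : ℕ) (g : SL(2, ℤ)) :
    (F ^ p) ∣[(p : ℤ) * k] g = (F ∣[k] g) ^ p := by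
  induction p with
  | zero =>
    simp only [pow_zero, Nat.cast_zero, zero_mul]
    exact is_invariant_one g
  | succ p ih =>
    rw [pow_succ, pow_succ, ← ih]
    have : ((p + 1 : ℕ) : ℤ) * k = (p : ℤ) * k + k := by push_cast; ring
    rw [this, mul_slash_SL2]

lemma isBoundedAtImInfty_pow {F : ℍ → ℂ} (hF : IsBoundedAtImInfty F) (p : ℕ) :
    IsBoundedAtImInfty (F ^ p) := by
  induction p with
  | zero =>
    simp only [pow_zero]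
    exact Filter.const_boundedAtFilter _ (1 : ℂ)
  | succ p ih =>
    rw [pow_succ]
    exact ih.mul hF

section modform

variable {N : ℕ} [NeZero N] {χ : ↥(Gamma0 N) →* ℂˣ}

/-- (M1) `(E_{k,χ})^p` is a modular form of weight `p * k` on `Γ₀(N)` when `χ^p = 1`. -/
def EchiPowMF (hpar : IsParabolicChar χ) (hunit : ∀ γ, ‖((χ γ : ℂˣ) : ℂ)‖ = 1)
    {k : ℤ} (hk : 3 ≤ k) (p : ℕ) (hχp : ∀ γ, χ γ ^ p = 1) :
    ModularForm (Gamma0 N) ((p : ℤ) * k) where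
  toFun := (Echi χ k) ^ p
  slash_action_eq' := by
    rintro _ ⟨δ, hδ, rfl⟩
    show ((Echi χ k) ^ p) ∣[(p : ℤ) * k] δ = (Echi χ k) ^ p
    rw [pow_slash, Echi_slash hpar k ⟨δ, hδ⟩, smul_pow]
    have : (((χ ⟨δ, hδ⟩ : ℂˣ) : ℂ)) ^ p = 1 := by
      have := congrArg (fun u : ℂˣ => (u : ℂ)) (hχp ⟨δ, hδ⟩)
      simpa using this
    rw [this, one_smul]
  holo' := ((EchiHol hunit hk) ^ p).2
  bdd_at_cusps' := by
    intro c hc
    rw [Subgroup.IsArithmetic.isCusp_iff_isCusp_SL2Z] at hc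
    rw [OnePoint.isBoundedAt_iff_forall_SL2Z hc]
    intro γ _
    rw [pow_slash]
    exact isBoundedAtImInfty_pow (isBoundedAtImInfty_Echi_slash hunit hk γ) p

lemma coe_EchiPowMF (hpar : IsParabolicChar χ) (hunit : ∀ γ, ‖((χ γ : ℂˣ) : ℂ)‖ = 1)
    {k : ℤ} (hk : 3 ≤ k) (p : ℕ) (hχp : ∀ γ, χ γ ^ p = 1) :
    (EchiPowMF hpar hunit hk p hχp : ℍ → ℂ) = (Echi χ k) ^ p := rfl

/-- the modular form `(E_{k,χ})^p` as an element of `Hol` is `(EchiHol)^p`. -/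
lemma EchiPowMF_eq_pow (hpar : IsParabolicChar χ) (hunit : ∀ γ, ‖((χ γ : ℂˣ) : ℂ)‖ = 1)
    {k : ℤ} (hk : 3 ≤ k) (p : ℕ) (hχp : ∀ γ, χ γ ^ p = 1) :
    (⟨(EchiPowMF hpar hunit hk p hχp : ℍ → ℂ), (EchiPowMF hpar hunit hk p hχp).holo'⟩ : Hol) =
      (EchiHol hunit hk) ^ p := rfl

/-- (M2) `h_χ^p` is the quotient of the two modular forms `(E_{k,χ})^p` and `(E_{k,1})^p`. -/
theorem hChi_pow_eq (hpar : IsParabolicChar χ) (hunit : ∀ γ, ‖((χ γ : ℂˣ) : ℂ)‖ = 1)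
    {k : ℤ} (hk : 3 ≤ k) (p : ℕ) (hχp : ∀ γ, χ γ ^ p = 1) :
    hChi hunit hk ^ p =
      algebraMap Hol Mer
        ⟨(EchiPowMF hpar hunit hk p hχp : ℍ → ℂ), (EchiPowMF hpar hunit hk p hχp).holo'⟩ /
      algebraMap Hol Mer
        ⟨(EchiPowMF (χ := (1 : ↥(Gamma0 N) →* ℂˣ)) isParabolicChar_one hunit_one hk p
            (fun _ => by simp) : ℍ → ℂ),
          (EchiPowMF (χ := (1 : ↥(Gamma0 N) →* ℂˣ)) isParabolicChar_one hunit_one hk p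
            (fun _ => by simp)).holo'⟩ := by
  rw [EchiPowMF_eq_pow, EchiPowMF_eq_pow, map_pow, map_pow, ← div_pow]
  rfl

end modform

section wrappers

variable {N : ℕ}

/-- a `μ_p`-valued character as a `ℂˣ`-valued one. -/
def ofRoots (p : ℕ) (χ' : ↥(Gamma0 N) →* rootsOfUnity p ℂ) : ↥(Gamma0 N) →* ℂˣ :=
  (rootsOfUnity p ℂ).subtype.comp χ'

lemma ofRoots_apply (p : ℕ) (χ' : ↥(Gamma0 N) →* rootsOfUnity p ℂ) (γ : ↥(Gamma0 N)) :
    ofRoots p χ' γ = ((χ' γ : rootsOfUnity p ℂ) : ℂˣ) := rfl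

lemma ofRoots_pow (p : ℕ) (χ' : ↥(Gamma0 N) →* rootsOfUnity p ℂ) (γ : ↥(Gamma0 N)) :
    ofRoots p χ' γ ^ p = 1 := by
  rw [ofRoots_apply]
  exact (_root_.mem_rootsOfUnity p _).mp (χ' γ).2

lemma ofRoots_unit (p : ℕ) [NeZero p] (χ' : ↥(Gamma0 N) →* rootsOfUnity p ℂ)
    (γ : ↥(Gamma0 N)) : ‖((ofRoots p χ' γ : ℂˣ) : ℂ)‖ = 1 := by
  have h := congrArg (fun u : ℂˣ => (u : ℂ)) (ofRoots_pow p χ' γ)
  simp only [Units.val_pow_eq_pow_val, Units.val_one] at h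
  exact Complex.norm_eq_one_of_pow_eq_one h (NeZero.ne p)

lemma ofRoots_isParabolicChar (p : ℕ) (χ' : ↥(Gamma0 N) →* rootsOfUnity p ℂ)
    (h : ∀ γ : ↥(Gamma0 N),
      ((γ : SL(2, ℤ)) : Matrix (Fin 2) (Fin 2) ℤ).trace ^ 2 = 4 → χ' γ = 1) :
    IsParabolicChar (ofRoots p χ') := by
  intro γ hγ
  rw [ofRoots_apply, h γ hγ]
  rfl

/-- `n ↦ ζ ^ n` as an additive homomorphism on `ZMod p`. -/
def zetaHom (p : ℕ) [NeZero p] (ζ : rootsOfUnity p ℂ) : ZMod p →+ Additive (rootsOfUnity p ℂ) :=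
  ZMod.lift p ⟨zmultiplesHom (Additive (rootsOfUnity p ℂ)) (Additive.ofMul ζ), by
    show (p : ℤ) • Additive.ofMul ζ = 0
    rw [natCast_zsmul, ← ofMul_pow]
    have : ζ ^ p = 1 := by
      apply Subtype.ext
      rw [Subgroup.coe_pow, Subgroup.coe_one]
      exact (_root_.mem_rootsOfUnity p _).mp ζ.2
    rw [this]; rfl⟩

lemma zetaHom_intCast (p : ℕ) [NeZero p] (ζ : rootsOfUnity p ℂ) (n : ℤ) :
    zetaHom p ζ (n : ZMod p) = Additive.ofMul (ζ ^ n) := by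
  rw [zetaHom, ZMod.lift_coe]
  simp [zmultiplesHom_apply, ofMul_zpow]

/-- the `μ_p`-valued character `γ ↦ ζ ^ φ(γ)` attached to an additive `ZMod p`-valued
homomorphism and a `p`-th root of unity `ζ`. -/
def charOfHom (p : ℕ) [NeZero p] (ζ : rootsOfUnity p ℂ)
    (φ : Additive ↥(Gamma0 N) →+ ZMod p) : ↥(Gamma0 N) →* rootsOfUnity p ℂ :=
  MonoidHom.toAdditive.symm ((zetaHom p ζ).comp φ)

lemma charOfHom_apply' (p : ℕ) [NeZero p] (ζ : rootsOfUnity p ℂ)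
    (φ : Additive ↥(Gamma0 N) →+ ZMod p) (γ : ↥(Gamma0 N)) :
    charOfHom p ζ φ γ = Additive.toMul (zetaHom p ζ (φ (Additive.ofMul γ))) := rfl

lemma charOfHom_apply (p : ℕ) [NeZero p] (ζ : rootsOfUnity p ℂ)
    (φ : Additive ↥(Gamma0 N) →+ ZMod p) (γ : ↥(Gamma0 N)) (n : ℤ)
    (hn : (n : ZMod p) = φ (Additive.ofMul γ)) : charOfHom p ζ φ γ = ζ ^ n := by
  rw [charOfHom_apply', ← hn, zetaHom_intCast]
  rfl

lemma charOfHom_eq_one_of (p : ℕ) [NeZero p] (ζ : rootsOfUnity p ℂ)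
    (φ : Additive ↥(Gamma0 N) →+ ZMod p) (γ : ↥(Gamma0 N))
    (h : φ (Additive.ofMul γ) = 0) : charOfHom p ζ φ γ = 1 := by
  rw [charOfHom_apply p ζ φ γ 0 (by rw [h]; simp)]
  simp

/-- a parabolic `ZMod p`-valued homomorphism (prelude `IsParabolicHom`) gives a parabolic
character. -/
lemma isParabolicChar_charOfHom (p : ℕ) [NeZero p] (ζ : rootsOfUnity p ℂ)
    (φ : Additive ↥(Gamma0 N) →+ ZMod p)
    (hφ : ModularCurve.Period.IsParabolicHom (Gamma0 N) φ) :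
    IsParabolicChar (ofRoots p (charOfHom p ζ φ)) :=
  ofRoots_isParabolicChar p _ fun γ hγ => charOfHom_eq_one_of p ζ φ γ (hφ γ hγ)

end wrappers

end

end Fermat.Agent.GJ.TwEis
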