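/-
GATE-J / J2-EIS, cusp layer (helper94).

* `MerCE h F L` : the meromorphic function `F : Mer` (T24's `Frac(Hol)`) has the cusp expansion
  `L : LaurentSeries ℂ` in the local parameter `𝕢_h = exp (2πi τ / h)`: it is a quotient `a / b`
  of two holomorphic functions meromorphic at the cusp `∞` (S28's `IsMeroCusp h`), and
  `L = laurentExp h a / laurentExp h b`.  The expansion is unique and compatible with the field
  operations, so `(L ^ p).order = p • L.order`.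
* For the twisted Eisenstein ratio `h_χ = E_{k,χ} / E_{k,1}`: every translate `h_χ ∘ g`,
  `g ∈ SL(2,ℤ)`, has a cusp expansion in `𝕢_w` for every `w > 0` with `g T^w g⁻¹ ∈ Γ₀(N)`
  (in particular `w = N`), quotient of two nonzero *power* series, and the translate of
  `h_χ ^ p` has the expansion `L ^ p`: all cusp orders of `h_χ ^ p` are divisible by `p`.
-/
import Fermat.Agent.GJ.J2.TwistedEisRatio
import Fermat.Agent.S28.MeroCuspInv

set_option autoImplicit false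

open Complex UpperHalfPlane Set Filter Topology Matrix ModularForm
  CongruenceSubgroup ModularGroup
open scoped MatrixGroups Manifold
open Fermat.Agent.S24_helper82 Fermat.Agent.S28 Fermat.Agent.S28.MeroCusp

namespace Fermat.Agent.GJ.TwEis

noncomputable section

/-! ### Cusp expansions of elements of `Mer` -/

/-- `F : Mer` has the cusp expansion `L` in the variable `𝕢_h`. -/
def MerCE (h : ℝ) (F : Mer) (L : LaurentSeries ℂ) : Prop :=
  ∃ a b : Hol, b ≠ 0 ∧ IsMeroCusp h (a : ℍ → ℂ) ∧ IsMeroCusp h (b : ℍ → ℂ) ∧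
    algebraMap Hol Mer b * F = algebraMap Hol Mer a ∧
    laurentExp h (b : ℍ → ℂ) * L = laurentExp h (a : ℍ → ℂ)

section generic

variable {h : ℝ}

lemma coe_ne_zero_of_ne_zero {b : Hol} (hb : b ≠ 0) : (b : ℍ → ℂ) ≠ 0 := fun h0 =>
  hb ((coe_eq_zero_iff b).mp h0)

lemma laurentExp_hol_ne_zero (hh : 0 < h) {b : Hol} (hb : b ≠ 0)
    (hbm : IsMeroCusp h (b : ℍ → ℂ)) : laurentExp h (b : ℍ → ℂ) ≠ 0 :=
  laurentExp_ne_zero hh hbm (coe_ne_zero_of_ne_zero hb)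

lemma laurentExp_hol_mul (hh : 0 < h) {a b : Hol} (ha : IsMeroCusp h (a : ℍ → ℂ))
    (hb : IsMeroCusp h (b : ℍ → ℂ)) :
    laurentExp h ((a * b : Hol) : ℍ → ℂ) =
      laurentExp h (a : ℍ → ℂ) * laurentExp h (b : ℍ → ℂ) :=
  laurentExp_mul hh ha hb

lemma isMeroCusp_hol_mul {a b : Hol} (ha : IsMeroCusp h (a : ℍ → ℂ))
    (hb : IsMeroCusp h (b : ℍ → ℂ)) : IsMeroCusp h ((a * b : Hol) : ℍ → ℂ) :=
  ha.mul hb

/-- **Uniqueness** of the cusp expansion of an element of `Mer`. -/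
theorem MerCE.unique (hh : 0 < h) {F : Mer} {L L' : LaurentSeries ℂ} (hL : MerCE h F L)
    (hL' : MerCE h F L') : L = L' := by
  obtain ⟨a, b, hb, ham, hbm, hF, hE⟩ := hL
  obtain ⟨a', b', hb', ham', hbm', hF', hE'⟩ := hL'
  have hcross : a * b' = a' * b := by
    apply IsFractionRing.injective Hol Mer
    rw [map_mul, map_mul, ← hF, ← hF']
    ring
  have h1 : laurentExp h (a : ℍ → ℂ) * laurentExp h (b' : ℍ → ℂ) =
      laurentExp h (a' : ℍ → ℂ) * laurentExp h (b : ℍ → ℂ) := by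
    rw [← laurentExp_hol_mul hh ham hbm', ← laurentExp_hol_mul hh ham' hbm, hcross]
  have hb0 := laurentExp_hol_ne_zero hh hb hbm
  have hb0' := laurentExp_hol_ne_zero hh hb' hbm'
  rw [← hE, ← hE'] at h1
  have h2 : (laurentExp h (b : ℍ → ℂ) * laurentExp h (b' : ℍ → ℂ)) * L =
      (laurentExp h (b : ℍ → ℂ) * laurentExp h (b' : ℍ → ℂ)) * L' := by
    linear_combination h1
  exact mul_left_cancel₀ (mul_ne_zero hb0 hb0') h2

/-- holomorphic functions meromorphic at the cusp. -/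
theorem MerCE.of_hol (hh : 0 < h) (a : Hol) (ha : IsMeroCusp h (a : ℍ → ℂ)) :
    MerCE h (algebraMap Hol Mer a) (laurentExp h (a : ℍ → ℂ)) := by
  refine ⟨a, 1, one_ne_zero, ha, isMeroCusp_one h, by rw [map_one, one_mul], ?_⟩
  have : ((1 : Hol) : ℍ → ℂ) = 1 := rfl
  rw [this, laurentExp_one hh, one_mul]

theorem MerCE.const (hh : 0 < h) (c : ℂ) : MerCE h (algebraMap ℂ Mer c) (HahnSeries.C c) := by
  have h1 := MerCE.of_hol hh (algebraMap ℂ Hol c) (isMeroCusp_const h c)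
  rw [← IsScalarTower.algebraMap_apply ℂ Hol Mer] at h1
  have h2 : ((algebraMap ℂ Hol c : Hol) : ℍ → ℂ) = fun _ => c := rfl
  rw [h2, laurentExp_const hh] at h1
  exact h1

theorem MerCE.one (hh : 0 < h) : MerCE h 1 1 := by
  have := MerCE.const hh 1
  simpa using this

theorem MerCE.zero (hh : 0 < h) : MerCE h 0 0 := by
  have := MerCE.const hh 0
  simpa using this

theorem MerCE.mul (hh : 0 < h) {F G : Mer} {L M : LaurentSeries ℂ} (hF : MerCE h F L)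
    (hG : MerCE h G M) : MerCE h (F * G) (L * M) := by
  obtain ⟨a, b, hb, ham, hbm, hF, hE⟩ := hF
  obtain ⟨a', b', hb', ham', hbm', hF', hE'⟩ := hG
  refine ⟨a * a', b * b', mul_ne_zero hb hb', isMeroCusp_hol_mul ham ham',
    isMeroCusp_hol_mul hbm hbm', ?_, ?_⟩
  · rw [map_mul, map_mul, ← hF, ← hF']
    ring
  · rw [laurentExp_hol_mul hh ham ham', laurentExp_hol_mul hh hbm hbm', ← hE, ← hE']
    ring

theorem MerCE.add (hh : 0 < h) {F G : Mer} {L M : LaurentSeries ℂ} (hF : MerCE h F L)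
    (hG : MerCE h G M) : MerCE h (F + G) (L + M) := by
  obtain ⟨a, b, hb, ham, hbm, hF, hE⟩ := hF
  obtain ⟨a', b', hb', ham', hbm', hF', hE'⟩ := hG
  refine ⟨a * b' + a' * b, b * b', mul_ne_zero hb hb',
    (isMeroCusp_hol_mul ham hbm').add hh (isMeroCusp_hol_mul ham' hbm),
    isMeroCusp_hol_mul hbm hbm', ?_, ?_⟩
  · rw [map_mul, map_add, map_mul, map_mul, ← hF, ← hF']
    ring
  · have h1 : ((a * b' + a' * b : Hol) : ℍ → ℂ) =
        ((a * b' : Hol) : ℍ → ℂ) + ((a' * b : Hol) : ℍ → ℂ) := rfl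
    rw [h1, laurentExp_add hh (isMeroCusp_hol_mul ham hbm') (isMeroCusp_hol_mul ham' hbm),
      laurentExp_hol_mul hh ham hbm', laurentExp_hol_mul hh ham' hbm,
      laurentExp_hol_mul hh hbm hbm', ← hE, ← hE']
    ring

theorem MerCE.neg (hh : 0 < h) {F : Mer} {L : LaurentSeries ℂ} (hF : MerCE h F L) :
    MerCE h (-F) (-L) := by
  have h1 := (MerCE.const hh (-1)).mul hh hF
  have e1 : algebraMap ℂ Mer (-1) * F = -F := by simp
  have e2 : (HahnSeries.C (-1 : ℂ) : LaurentSeries ℂ) * L = -L := by simp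
  rwa [e1, e2] at h1

theorem MerCE.eq_zero_iff (hh : 0 < h) {F : Mer} {L : LaurentSeries ℂ} (hF : MerCE h F L) :
    L = 0 ↔ F = 0 := by
  obtain ⟨a, b, hb, ham, hbm, hF, hE⟩ := hF
  have hb0 := laurentExp_hol_ne_zero hh hb hbm
  have hbM : algebraMap Hol Mer b ≠ 0 := algebraMap_ne_zero hb
  constructor
  · intro hL
    rw [hL, mul_zero] at hE
    have ha0 : (a : ℍ → ℂ) = 0 := laurentExp_eq_zero hh ham hE.symm
    have ha : a = 0 := (coe_eq_zero_iff a).mp ha0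
    rw [ha, map_zero] at hF
    exact (mul_eq_zero.mp hF).resolve_left hbM
  · intro hF0
    rw [hF0, mul_zero] at hF
    have ha : a = 0 := by
      by_contra hne
      exact algebraMap_ne_zero hne hF.symm
    have ha0 : (a : ℍ → ℂ) = 0 := by rw [ha]; rfl
    rw [ha0] at hE
    have hz : laurentExp h (0 : ℍ → ℂ) = 0 := laurentExp_zero hh
    rw [hz] at hE
    exact (mul_eq_zero.mp hE).resolve_left hb0

theorem MerCE.inv (hh : 0 < h) {F : Mer} {L : LaurentSeries ℂ} (hF : MerCE h F L)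
    (hF0 : F ≠ 0) : MerCE h F⁻¹ L⁻¹ := by
  have hL0 : L ≠ 0 := fun h0 => hF0 ((hF.eq_zero_iff hh).mp h0)
  obtain ⟨a, b, hb, ham, hbm, hFe, hE⟩ := hF
  have hbM : algebraMap Hol Mer b ≠ 0 := algebraMap_ne_zero hb
  have ha : a ≠ 0 := by
    rintro rfl
    rw [map_zero] at hFe
    exact hF0 ((mul_eq_zero.mp hFe).resolve_left hbM)
  refine ⟨b, a, ha, hbm, ham, ?_, ?_⟩
  · rw [← hFe, mul_assoc, mul_inv_cancel₀ hF0, mul_one]
  · rw [← hE, mul_assoc, mul_inv_cancel₀ hL0, mul_one]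

theorem MerCE.div (hh : 0 < h) {F G : Mer} {L M : LaurentSeries ℂ} (hF : MerCE h F L)
    (hG : MerCE h G M) (hG0 : G ≠ 0) : MerCE h (F / G) (L / M) := by
  rw [div_eq_mul_inv, div_eq_mul_inv]
  exact hF.mul hh (hG.inv hh hG0)

theorem MerCE.pow (hh : 0 < h) {F : Mer} {L : LaurentSeries ℂ} (hF : MerCE h F L) (n : ℕ) :
    MerCE h (F ^ n) (L ^ n) := by
  induction n with
  | zero => simpa using MerCE.one hh
  | succ n ih =>
    rw [pow_succ, pow_succ]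
    exact ih.mul hh hF

/-- the order of the expansion of a `p`-th power is divisible by `p`. -/
theorem MerCE.order_pow {F : Mer} {L : LaurentSeries ℂ} (_hF : MerCE h F L) (n : ℕ) :
    (L ^ n).order = n • L.order :=
  HahnSeries.order_pow L n

/-- if `F ^ p` has the expansion `L'` and `F` has some expansion, then `p ∣ L'.order`. -/
theorem MerCE.dvd_order_of_pow (hh : 0 < h) {F : Mer} {L L' : LaurentSeries ℂ}
    (hF : MerCE h F L) (n : ℕ) (hF' : MerCE h (F ^ n) L') : (n : ℤ) ∣ L'.order := by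
  have h1 : L' = L ^ n := hF'.unique hh (hF.pow hh n)
  rw [h1, HahnSeries.order_pow, nsmul_eq_mul]
  exact dvd_mul_right _ _

end generic

/-! ### Periodic holomorphic functions bounded at `i∞` -/

section bounded

lemma periodic_comp_ofComplex_of_vadd {h : ℝ} {f : ℍ → ℂ} (hf : ∀ z : ℍ, f (h +ᵥ z) = f z) :
    Function.Periodic (f ∘ ofComplex) h := by
  apply periodic_comp_ofComplex_of_forall
  intro w hw hw'
  have : (⟨w + h, hw'⟩ : ℍ) = h +ᵥ (⟨w, hw⟩ : ℍ) := by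
    apply UpperHalfPlane.ext
    simp [add_comm]
  rw [this, hf]

/-- a holomorphic `h`-periodic function bounded at `i∞` is meromorphic at the cusp, and its
expansion is the power series `qExpansion h f`. -/
theorem isMeroCusp_of_vadd {h : ℝ} {f : ℍ → ℂ} (hmd : MDiff f) (hf : ∀ z : ℍ, f (h +ᵥ z) = f z)
    (hb : IsBoundedAtImInfty f) : IsMeroCusp h f :=
  IsMeroCusp.of_bounded hmd (periodic_comp_ofComplex_of_vadd hf) hb

theorem laurentExp_of_vadd {h : ℝ} (hh : 0 < h) {f : ℍ → ℂ} (hmd : MDiff f)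
    (hf : ∀ z : ℍ, f (h +ᵥ z) = f z) (hb : IsBoundedAtImInfty f) :
    laurentExp h f = HahnSeries.ofPowerSeries ℤ ℂ (qExpansion h f) :=
  laurentExp_of_bounded hh hmd (periodic_comp_ofComplex_of_vadd hf) hb

theorem order_laurentExp_nonneg_of_vadd {h : ℝ} (hh : 0 < h) {f : ℍ → ℂ} (hmd : MDiff f)
    (hf : ∀ z : ℍ, f (h +ᵥ z) = f z) (hb : IsBoundedAtImInfty f) (hf0 : f ≠ 0) :
    0 ≤ (laurentExp h f).order := by
  have hm := isMeroCusp_of_vadd hmd hf hb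
  have := hm.le_order_of_poleBound hh hf0 (m := 0) (poleBound_zero_iff.mpr hb)
  simpa using this

end bounded

/-! ### The twisted Eisenstein series at the cusps -/

section character

variable {N : ℕ} {χ : ↥(Gamma0 N) →* ℂˣ}

/-- the numerator `E_{k,χ} ∣[k] g` is meromorphic at the cusp `∞` with respect to every period
`w > 0` such that `g T^w g⁻¹ ∈ Γ₀(N)`. -/
theorem isMeroCusp_slashHol_EchiHol (hpar : IsParabolicChar χ)
    (hunit : ∀ γ, ‖((χ γ : ℂˣ) : ℂ)‖ = 1) {k : ℤ} (hk : 3 ≤ k) (g : SL(2, ℤ)) (w : ℕ)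
    (hmem : g * T ^ (w : ℤ) * g⁻¹ ∈ Gamma0 N) :
    IsMeroCusp (w : ℝ) (slashHol (EchiHol hunit hk) k g : ℍ → ℂ) := by
  refine isMeroCusp_of_vadd (slashHol (EchiHol hunit hk) k g).2 (fun z => ?_)
    (isBoundedAtImInfty_slashHol_EchiHol hunit hk g)
  have h1 := Echi_slash_vadd_of_mem hpar k g (w : ℤ) hmem z
  rw [Int.cast_natCast] at h1
  exact h1

theorem laurentExp_slashHol_EchiHol (hpar : IsParabolicChar χ)
    (hunit : ∀ γ, ‖((χ γ : ℂˣ) : ℂ)‖ = 1) {k : ℤ} (hk : 3 ≤ k) (g : SL(2, ℤ)) (w : ℕ)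
    (hw : 0 < w) (hmem : g * T ^ (w : ℤ) * g⁻¹ ∈ Gamma0 N) :
    laurentExp (w : ℝ) (slashHol (EchiHol hunit hk) k g : ℍ → ℂ) =
      HahnSeries.ofPowerSeries ℤ ℂ
        (qExpansion (w : ℝ) (slashHol (EchiHol hunit hk) k g : ℍ → ℂ)) := by
  refine laurentExp_of_vadd (by exact_mod_cast hw) (slashHol (EchiHol hunit hk) k g).2
    (fun z => ?_) (isBoundedAtImInfty_slashHol_EchiHol hunit hk g)
  have h1 := Echi_slash_vadd_of_mem hpar k g (w : ℤ) hmem z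
  rw [Int.cast_natCast] at h1
  exact h1

/-- the cusp expansion of `E_{k,χ} ∣[k] g`. -/
def EchiCuspExp (χ : ↥(Gamma0 N) →* ℂˣ) (k : ℤ) (g : SL(2, ℤ)) (w : ℕ) : LaurentSeries ℂ :=
  laurentExp (w : ℝ) ((Echi χ k) ∣[k] g)

lemma EchiCuspExp_ne_zero (hpar : IsParabolicChar χ) (hunit : ∀ γ, ‖((χ γ : ℂˣ) : ℂ)‖ = 1)
    {k : ℤ} (hk : 3 ≤ k) (hk2 : Even k) (g : SL(2, ℤ)) (w : ℕ) (hw : 0 < w)
    (hmem : g * T ^ (w : ℤ) * g⁻¹ ∈ Gamma0 N) : EchiCuspExp χ k g w ≠ 0 :=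
  laurentExp_hol_ne_zero (by exact_mod_cast hw) (slashHol_EchiHol_ne_zero hpar hunit hk hk2 g)
    (isMeroCusp_slashHol_EchiHol hpar hunit hk g w hmem)

lemma EchiCuspExp_order_nonneg (hpar : IsParabolicChar χ) (hunit : ∀ γ, ‖((χ γ : ℂˣ) : ℂ)‖ = 1)
    {k : ℤ} (hk : 3 ≤ k) (hk2 : Even k) (g : SL(2, ℤ)) (w : ℕ) (hw : 0 < w)
    (hmem : g * T ^ (w : ℤ) * g⁻¹ ∈ Gamma0 N) : 0 ≤ (EchiCuspExp χ k g w).order := by
  refine order_laurentExp_nonneg_of_vadd (by exact_mod_cast hw)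
    (slashHol (EchiHol hunit hk) k g).2 (fun z => ?_)
    (isBoundedAtImInfty_slashHol_EchiHol hunit hk g)
    (coe_ne_zero_of_ne_zero (slashHol_EchiHol_ne_zero hpar hunit hk hk2 g))
  have h1 := Echi_slash_vadd_of_mem hpar k g (w : ℤ) hmem z
  rw [Int.cast_natCast] at h1
  exact h1

lemma EchiCuspExp_eq_ofPowerSeries (hpar : IsParabolicChar χ)
    (hunit : ∀ γ, ‖((χ γ : ℂˣ) : ℂ)‖ = 1) {k : ℤ} (hk : 3 ≤ k) (g : SL(2, ℤ)) (w : ℕ)
    (hw : 0 < w) (hmem : g * T ^ (w : ℤ) * g⁻¹ ∈ Gamma0 N) :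
    EchiCuspExp χ k g w =
      HahnSeries.ofPowerSeries ℤ ℂ (qExpansion (w : ℝ) ((Echi χ k) ∣[k] g)) :=
  laurentExp_slashHol_EchiHol hpar hunit hk g w hw hmem

/-- the cusp expansion of `h_χ ∘ g`. -/
def hChiCuspExp (χ : ↥(Gamma0 N) →* ℂˣ) (k : ℤ) (g : SL(2, ℤ)) (w : ℕ) : LaurentSeries ℂ :=
  EchiCuspExp χ k g w / EchiCuspExp (1 : ↥(Gamma0 N) →* ℂˣ) k g w

lemma hChiCuspExp_ne_zero (hpar : IsParabolicChar χ) (hunit : ∀ γ, ‖((χ γ : ℂˣ) : ℂ)‖ = 1)
    {k : ℤ} (hk : 3 ≤ k) (hk2 : Even k) (g : SL(2, ℤ)) (w : ℕ) (hw : 0 < w)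
    (hmem : g * T ^ (w : ℤ) * g⁻¹ ∈ Gamma0 N) : hChiCuspExp χ k g w ≠ 0 :=
  div_ne_zero (EchiCuspExp_ne_zero hpar hunit hk hk2 g w hw hmem)
    (EchiCuspExp_ne_zero isParabolicChar_one hunit_one hk hk2 g w hw hmem)

/-- **(C1)** the translate `h_χ ∘ g` has the cusp expansion `hChiCuspExp` in `𝕢_w`, for every
`w > 0` with `g T^w g⁻¹ ∈ Γ₀(N)`. -/
theorem merCE_compM_hChi (hpar : IsParabolicChar χ) (hunit : ∀ γ, ‖((χ γ : ℂˣ) : ℂ)‖ = 1)
    {k : ℤ} (hk : 3 ≤ k) (hk2 : Even k) (g : SL(2, ℤ)) (w : ℕ) (hw : 0 < w)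
    (hmem : g * T ^ (w : ℤ) * g⁻¹ ∈ Gamma0 N) :
    MerCE (w : ℝ) (compM g (hChi hunit hk)) (hChiCuspExp χ k g w) := by
  have hh : (0 : ℝ) < (w : ℝ) := by exact_mod_cast hw
  rw [compM_hChi_eq_slash hpar hunit hk g]
  exact (MerCE.of_hol hh _ (isMeroCusp_slashHol_EchiHol hpar hunit hk g w hmem)).div hh
    (MerCE.of_hol hh _ (isMeroCusp_slashHol_EchiHol isParabolicChar_one hunit_one hk g w hmem))
    (algebraMap_ne_zero (slashHol_EchiHol_ne_zero isParabolicChar_one hunit_one hk hk2 g))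

/-- **(C2)** the translate `h_χ^p ∘ g` has the cusp expansion `hChiCuspExp ^ p`. -/
theorem merCE_compM_hChi_pow (hpar : IsParabolicChar χ) (hunit : ∀ γ, ‖((χ γ : ℂˣ) : ℂ)‖ = 1)
    {k : ℤ} (hk : 3 ≤ k) (hk2 : Even k) (g : SL(2, ℤ)) (w : ℕ) (hw : 0 < w)
    (hmem : g * T ^ (w : ℤ) * g⁻¹ ∈ Gamma0 N) (p : ℕ) :
    MerCE (w : ℝ) (compM g (hChi hunit hk ^ p)) (hChiCuspExp χ k g w ^ p) := by
  rw [map_pow]
  exact (merCE_compM_hChi hpar hunit hk hk2 g w hw hmem).pow (by exact_mod_cast hw) p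

/-- **(C3)** every cusp expansion of `h_χ^p ∘ g` has order divisible by `p`. -/
theorem dvd_order_of_merCE_compM_hChi_pow (hpar : IsParabolicChar χ)
    (hunit : ∀ γ, ‖((χ γ : ℂˣ) : ℂ)‖ = 1) {k : ℤ} (hk : 3 ≤ k) (hk2 : Even k) (g : SL(2, ℤ))
    (w : ℕ) (hw : 0 < w) (hmem : g * T ^ (w : ℤ) * g⁻¹ ∈ Gamma0 N) (p : ℕ)
    {L : LaurentSeries ℂ} (hL : MerCE (w : ℝ) (compM g (hChi hunit hk ^ p)) L) :
    (p : ℤ) ∣ L.order := by
  have h1 : L = hChiCuspExp χ k g w ^ p :=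
    hL.unique (by exact_mod_cast hw) (merCE_compM_hChi_pow hpar hunit hk hk2 g w hw hmem p)
  rw [h1, HahnSeries.order_pow, nsmul_eq_mul]
  exact dvd_mul_right _ _

/-- the level `N` is always an admissible period. -/
theorem merCE_compM_hChi_pow_level [NeZero N] (hpar : IsParabolicChar χ)
    (hunit : ∀ γ, ‖((χ γ : ℂˣ) : ℂ)‖ = 1) {k : ℤ} (hk : 3 ≤ k) (hk2 : Even k) (g : SL(2, ℤ))
    (p : ℕ) :
    MerCE (N : ℝ) (compM g (hChi hunit hk ^ p)) (hChiCuspExp χ k g N ^ p) := by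
  have hmem : g * T ^ ((N : ℕ) : ℤ) * g⁻¹ ∈ Gamma0 N := by
    have := conj_T_zpow_mem_Gamma0 N g 1
    simpa using this
  exact merCE_compM_hChi_pow hpar hunit hk hk2 g N (NeZero.pos N) hmem p

end character

end

end Fermat.Agent.GJ.TwEis
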