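/-
GATE-J / J2-LAT (helper13), part (A): the cohomological Hecke operators `cohT`, `cohU`, `cohGen`
(helper49, `S16_helper49`) on `Hom(Γ₀(N), A)` preserve the subgroup of PARABOLIC homomorphisms and
the subgroup of homomorphisms killing all elements of finite order, for EVERY coefficient group `A`.

Direct proof by cycles: on a cycle `x, σx, …, σ^{r-1}x` of the permutation `σ = σ_g` one has
`∏ c(g, σ^i x) = c(g^r, x)`, and `c(g^r, x) = α_x g^r α_x⁻¹` in `GL₂(ℝ)`.
-/
import Mathlib
import Fermat.Prelude.Def_ModularCurve_PeriodMap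
import Fermat.Agent.S16_helper49.HeckeGen

set_option autoImplicit false

open scoped MatrixGroups
open CongruenceSubgroup Matrix Matrix.SpecialLinearGroup ModularCurve.Period
open P2MW.S_ModularForm_heckeT_slash_eq_self_of_mem_Gamma0.ModularForm.HeckeSlashInvariance

namespace Fermat.Agent.GJ.J2.Lat

/-! ### Sums over a permutation with vanishing cycle sums -/

section Cycles

variable {X : Type*} [Fintype X] [DecidableEq X] {A : Type*} [AddCommMonoid A]

/-- If all sums of `f` along closed `σ`-paths vanish, then the total sum of `f` vanishes. -/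
theorem sum_eq_zero_of_cycle_sums (σ : Equiv.Perm X) (f : X → A)
    (h : ∀ x r, 0 < r → (σ ^ r) x = x → ∑ i ∈ Finset.range r, f ((σ ^ i) x) = 0) :
    ∑ x, f x = 0 := by
  have key : ∀ S : Finset X, (∀ y ∈ S, σ y ∈ S) → ∑ y ∈ S, f y = 0 := by
    intro S
    induction S using Finset.strongInduction with
    | H S ih =>
      intro hS
      rcases S.eq_empty_or_nonempty with rfl | ⟨x, hx⟩
      · simp
      · have hper : x ∈ Function.periodicPts σ := by
          refine Function.mk_mem_periodicPts (orderOf_pos σ) ?_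
          show (σ^[orderOf σ]) x = x
          rw [Equiv.Perm.iterate_eq_pow, pow_orderOf_eq_one]; rfl
        set r := Function.minimalPeriod σ x with hr
        have hrpos : 0 < r := Function.minimalPeriod_pos_of_mem_periodicPts hper
        have hrx : (σ ^ r) x = x := by
          have := Function.isPeriodicPt_minimalPeriod σ x
          rw [← hr] at this
          have h2 : (σ^[r]) x = x := this
          rwa [Equiv.Perm.iterate_eq_pow] at h2
        have hinj : Set.InjOn (fun i : ℕ => (σ ^ i) x) (Finset.range r : Set ℕ) := by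
          intro i hi j hj hij
          have hi' : i ∈ Set.Iio (Function.minimalPeriod σ x) := by simpa [hr] using hi
          have hj' : j ∈ Set.Iio (Function.minimalPeriod σ x) := by simpa [hr] using hj
          refine Function.iterate_injOn_Iio_minimalPeriod hi' hj' ?_
          show (σ^[i]) x = (σ^[j]) x
          rw [Equiv.Perm.iterate_eq_pow, Equiv.Perm.iterate_eq_pow]
          exact hij
        set C : Finset X := (Finset.range r).image (fun i => (σ ^ i) x) with hC
        have hpowS : ∀ i : ℕ, (σ ^ i) x ∈ S := by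
          intro i
          induction i with
          | zero => simpa using hx
          | succ i ihi =>
            rw [pow_succ', Equiv.Perm.mul_apply]
            exact hS _ ihi
        have hCS : C ⊆ S := by
          intro y hy
          rw [hC, Finset.mem_image] at hy
          obtain ⟨i, _, rfl⟩ := hy
          exact hpowS i
        have hxC : x ∈ C := by
          rw [hC, Finset.mem_image]
          exact ⟨0, Finset.mem_range.mpr hrpos, by simp⟩
        have hCinv : ∀ y ∈ C, σ y ∈ C := by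
          intro y hy
          rw [hC, Finset.mem_image] at hy
          obtain ⟨i, hi, rfl⟩ := hy
          rw [Finset.mem_range] at hi
          have e : σ ((σ ^ i) x) = (σ ^ (i + 1)) x := by
            rw [pow_succ', Equiv.Perm.mul_apply]
          rw [e]
          by_cases hlt : i + 1 < r
          · rw [hC, Finset.mem_image]
            exact ⟨i + 1, Finset.mem_range.mpr hlt, rfl⟩
          · have : i + 1 = r := by omega
            rw [this, hrx]
            exact hxC
        have hSC : ∀ y ∈ S \ C, σ y ∈ S \ C := by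
          intro y hy
          rw [Finset.mem_sdiff] at hy ⊢
          refine ⟨hS y hy.1, fun hσy => hy.2 ?_⟩
          rw [hC, Finset.mem_image] at hσy
          obtain ⟨i, hi, hiy⟩ := hσy
          rw [Finset.mem_range] at hi
          rcases Nat.eq_zero_or_pos i with rfl | hipos
          · -- σ y = x = σ (σ^(r-1) x)
            have e : σ ((σ ^ (r - 1)) x) = σ y := by
              rw [← Equiv.Perm.mul_apply, ← pow_succ', Nat.sub_add_cancel hrpos, hrx]
              simpa using hiy
            have : (σ ^ (r - 1)) x = y := σ.injective e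
            rw [hC, Finset.mem_image]
            exact ⟨r - 1, Finset.mem_range.mpr (by omega), this⟩
          · have e : σ ((σ ^ (i - 1)) x) = σ y := by
              rw [← Equiv.Perm.mul_apply, ← pow_succ', Nat.sub_add_cancel hipos]
              exact hiy
            have : (σ ^ (i - 1)) x = y := σ.injective e
            rw [hC, Finset.mem_image]
            exact ⟨i - 1, Finset.mem_range.mpr (by omega), this⟩
        have hsum := Finset.sum_sdiff (f := f) hCS
        rw [← hsum, ih (S \ C) (Finset.sdiff_ssubset hCS ⟨x, hxC⟩) hSC, zero_add, hC,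
          Finset.sum_image hinj]
        exact h x r hrpos hrx
  simpa using key Finset.univ (fun _ _ => Finset.mem_univ _)

end Cycles

/-! ### Abstract Hecke datum -/

section Datum

variable {G : Type*} [Group G] {X : Type*} [Fintype X] {A : Type*} [AddCommGroup A]

theorem datum_c_one (σ : G → Equiv.Perm X) (c : G → X → G)
    (hc : ∀ g h x, c (g * h) x = c g x * c h (σ g x)) (x : X) : c 1 x = 1 := by
  obtain ⟨y, rfl⟩ := (σ 1).surjective x
  have := hc 1 1 y
  rw [mul_one] at this
  exact mul_eq_left.mp this.symm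

theorem datum_sigma_one (σ : G → Equiv.Perm X)
    (hσ : ∀ g h x, σ (g * h) x = σ h (σ g x)) (x : X) : σ 1 x = x := by
  have := hσ 1 1 x
  rw [mul_one] at this
  exact ((σ 1).injective this).symm

theorem datum_sigma_pow (σ : G → Equiv.Perm X)
    (hσ : ∀ g h x, σ (g * h) x = σ h (σ g x)) (g : G) (r : ℕ) (x : X) :
    σ (g ^ r) x = ((σ g) ^ r) x := by
  induction r generalizing x with
  | zero => rw [pow_zero, pow_zero, datum_sigma_one σ hσ]; rfl
  | succ r ih =>
    rw [pow_succ', hσ, ih, pow_succ, Equiv.Perm.mul_apply]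

theorem datum_phi_c_pow (σ : G → Equiv.Perm X) (c : G → X → G)
    (hc : ∀ g h x, c (g * h) x = c g x * c h (σ g x))
    (φ : Additive G →+ A) (g : G) (r : ℕ) (x : X) :
    φ (Additive.ofMul (c (g ^ r) x))
      = ∑ i ∈ Finset.range r, φ (Additive.ofMul (c g (((σ g) ^ i) x))) := by
  induction r generalizing x with
  | zero =>
    rw [pow_zero, datum_c_one σ c hc, Finset.sum_range_zero]
    exact map_zero φ
  | succ r ih =>
    rw [pow_succ', hc, ofMul_mul, map_add, ih, Finset.sum_range_succ', add_comm]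
    congr 1

/-- Abstract form: if `P` is stable under powers and under passing from `g ^ r` to `c (g ^ r) x`
at fixed points `x` of `σ (g ^ r)`, and `φ` kills `P`, then the Hecke sum of `φ` kills `P`. -/
theorem datum_sum_eq_zero [DecidableEq X] (σ : G → Equiv.Perm X) (c : G → X → G)
    (hσ : ∀ g h x, σ (g * h) x = σ h (σ g x))
    (hc : ∀ g h x, c (g * h) x = c g x * c h (σ g x))
    (P : G → Prop) (hpow : ∀ g (r : ℕ), 0 < r → P g → P (g ^ r))
    (hfix : ∀ g x, σ g x = x → P g → P (c g x))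
    (φ : Additive G →+ A) (hφ : ∀ g, P g → φ (Additive.ofMul g) = 0)
    (g : G) (hg : P g) :
    ∑ x, φ (Additive.ofMul (c g x)) = 0 := by
  refine sum_eq_zero_of_cycle_sums (σ g) _ ?_
  intro x r hr hx
  rw [← datum_phi_c_pow σ c hc φ g r x]
  refine hφ _ (hfix _ _ ?_ (hpow g r hr hg))
  rw [datum_sigma_pow σ hσ, hx]

end Datum

/-! ### Traces of powers and conjugates -/

section Trace

/-- Cayley–Hamilton recurrence for `2 × 2` matrices of determinant one. -/
theorem trace_pow_add_two (M : Matrix (Fin 2) (Fin 2) ℤ) (hdet : M.det = 1) (r : ℕ) :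
    (M ^ (r + 2)).trace = M.trace * (M ^ (r + 1)).trace - (M ^ r).trace := by
  have hCH : M * M = M.trace • M - 1 := by
    rw [Matrix.det_fin_two] at hdet
    ext i j
    fin_cases i <;> fin_cases j <;>
      simp [-zsmul_eq_mul, Matrix.mul_apply, Fin.sum_univ_two, Matrix.trace_fin_two,
        Matrix.smul_apply] <;>
      first | ring1 | linear_combination (-1 : ℤ) * hdet
  have : M ^ (r + 2) = M.trace • M ^ (r + 1) - M ^ r := by
    rw [pow_add, pow_two, hCH, mul_sub, mul_one, mul_smul_comm, ← pow_succ]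
  rw [this, Matrix.trace_sub, Matrix.trace_smul, smul_eq_mul]

theorem trace_pow_sq_eq_four (M : Matrix (Fin 2) (Fin 2) ℤ) (hdet : M.det = 1)
    (ht : M.trace ^ 2 = 4) (r : ℕ) : (M ^ r).trace ^ 2 = 4 := by
  obtain ⟨ε, hε, hε2⟩ : ∃ ε : ℤ, M.trace = 2 * ε ∧ ε * ε = 1 := by
    have h0 : (M.trace - 2) * (M.trace + 2) = 0 := by linear_combination ht
    rcases mul_eq_zero.mp h0 with h | h
    · exact ⟨1, by linarith, by norm_num⟩
    · exact ⟨-1, by linarith, by norm_num⟩
  have key : ∀ r : ℕ, (M ^ r).trace = 2 * ε ^ r ∧ (M ^ (r + 1)).trace = 2 * ε ^ (r + 1) := by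
    intro r
    induction r with
    | zero => simp [hε]
    | succ r ih =>
      refine ⟨ih.2, ?_⟩
      rw [show r + 1 + 1 = r + 2 from rfl, trace_pow_add_two M hdet, ih.1, ih.2, hε]
      have : ε ^ (r + 2) = ε ^ r := by rw [pow_add, pow_two, hε2, mul_one]
      rw [this, pow_succ]
      linear_combination (4 * ε ^ r) * hε2
  rw [(key r).1, mul_pow, ← pow_mul, mul_comm r 2, pow_mul, pow_two ε, hε2, one_pow]
  norm_num

theorem trace_sq_pow_SL (g : SL(2, ℤ)) (hg : (g : Matrix (Fin 2) (Fin 2) ℤ).trace ^ 2 = 4)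
    (r : ℕ) : ((g ^ r : SL(2, ℤ)) : Matrix (Fin 2) (Fin 2) ℤ).trace ^ 2 = 4 := by
  rw [Matrix.SpecialLinearGroup.coe_pow]
  exact trace_pow_sq_eq_four _ g.det_coe hg r

theorem trace_mapGL (g : SL(2, ℤ)) :
    ((mapGL ℝ g : GL (Fin 2) ℝ) : Matrix (Fin 2) (Fin 2) ℝ).trace
      = (((g : Matrix (Fin 2) (Fin 2) ℤ).trace : ℤ) : ℝ) := by
  rw [Matrix.trace_fin_two, Matrix.trace_fin_two]
  simp

/-- Conjugate elements of `SL(2, ℤ)` (conjugate inside `GL₂(ℝ)`) have the same trace. -/
theorem trace_eq_of_conj (g g' : SL(2, ℤ)) (a : GL (Fin 2) ℝ)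
    (h : a * mapGL ℝ g = mapGL ℝ g' * a) :
    (g' : Matrix (Fin 2) (Fin 2) ℤ).trace = (g : Matrix (Fin 2) (Fin 2) ℤ).trace := by
  have h1 : (mapGL ℝ g' : GL (Fin 2) ℝ) = a * mapGL ℝ g * a⁻¹ := by
    rw [h, mul_inv_cancel_right]
  have h2 : ((mapGL ℝ g' : GL (Fin 2) ℝ) : Matrix (Fin 2) (Fin 2) ℝ).trace
      = ((mapGL ℝ g : GL (Fin 2) ℝ) : Matrix (Fin 2) (Fin 2) ℝ).trace := by
    rw [h1]
    exact Matrix.trace_units_conj a _
  rw [trace_mapGL, trace_mapGL] at h2
  exact_mod_cast h2

theorem isOfFinOrder_of_conj (g g' : SL(2, ℤ)) (a : GL (Fin 2) ℝ)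
    (h : a * mapGL ℝ g = mapGL ℝ g' * a) (hg : IsOfFinOrder g) : IsOfFinOrder g' := by
  rw [isOfFinOrder_iff_pow_eq_one] at hg ⊢
  obtain ⟨n, hn, hgn⟩ := hg
  refine ⟨n, hn, ?_⟩
  apply mapGL_injective (R := ℤ) (S := ℝ)
  have h1 : (mapGL ℝ g' : GL (Fin 2) ℝ) = a * mapGL ℝ g * a⁻¹ := by
    rw [h, mul_inv_cancel_right]
  rw [map_pow, h1, conj_pow, ← map_pow, hgn, map_one, mul_one, mul_inv_cancel]

end Trace

/-! ### Conjugation-stable predicates on `Γ₀(N)` -/

open Fermat.Agent.S16_helper49

/-- A predicate on `Γ₀(N)` which is stable under positive powers and under conjugation inside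
`GL₂(ℝ)`. -/
structure IsConjStable {N : ℕ} (P : Gamma0 N → Prop) : Prop where
  pow : ∀ (g : Gamma0 N) (r : ℕ), 0 < r → P g → P (g ^ r)
  conj : ∀ (g g' : Gamma0 N) (a : GL (Fin 2) ℝ),
    a * mapGL ℝ (g : SL(2, ℤ)) = mapGL ℝ (g' : SL(2, ℤ)) * a → P g → P g'

theorem isConjStable_parabolic (N : ℕ) :
    IsConjStable (N := N)
      (fun g => ((g : SL(2, ℤ)) : Matrix (Fin 2) (Fin 2) ℤ).trace ^ 2 = 4) where
  pow g r _ hg := by
    rw [Subgroup.coe_pow]
    exact trace_sq_pow_SL _ hg r
  conj g g' a h hg := by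
    rw [trace_eq_of_conj _ _ a h]
    exact hg

theorem isConjStable_finOrder (N : ℕ) :
    IsConjStable (N := N) (fun g => IsOfFinOrder g) where
  pow g r _ hg := hg.pow
  conj g g' a h hg := by
    have h1 : IsOfFinOrder (g : SL(2, ℤ)) :=
      (Submonoid.isOfFinOrder_coe (H := (Gamma0 N).toSubmonoid) (x := g)).mpr hg
    exact (Submonoid.isOfFinOrder_coe (H := (Gamma0 N).toSubmonoid) (x := g')).mp
      (isOfFinOrder_of_conj _ _ a h h1)

section Concrete

variable {N : ℕ} {A : Type*} [AddCommGroup A]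

/-- `cohT` preserves the homomorphisms killing a conjugation-stable class. -/
theorem cohT_kills {ℓ : ℕ} [Fact ℓ.Prime] (hℓN : ¬ ℓ ∣ N) {P : Gamma0 N → Prop}
    (hP : IsConjStable P) (φ : Additive (Gamma0 N) →+ A)
    (hφ : ∀ g, P g → φ (Additive.ofMul g) = 0) (g : Gamma0 N) (hg : P g) :
    cohT hℓN A φ (Additive.ofMul g) = 0 := by
  classical
  rw [cohT_apply]
  refine datum_sum_eq_zero
    (fun g : Gamma0 N => MulAction.toPerm (redMatrix ℓ (g : SL(2, ℤ)))) (cT hℓN)
    ?_ ?_ P hP.pow ?_ φ hφ g hg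
  · intro g h x
    show redMatrix ℓ ((g * h : Gamma0 N) : SL(2, ℤ)) • x
      = redMatrix ℓ (h : SL(2, ℤ)) • redMatrix ℓ (g : SL(2, ℤ)) • x
    rw [Subgroup.coe_mul, redMatrix_mul, mul_smul]
  · intro g h x
    exact cT_mul hℓN g h x
  · intro g x hx hg
    have hx' : redMatrix ℓ (g : SL(2, ℤ)) • x = x := hx
    have h := cT_rel hℓN g x
    rw [hx'] at h
    exact hP.conj g _ _ h hg

/-- `cohU` preserves the homomorphisms killing a conjugation-stable class. -/
theorem cohU_kills {ℓ : ℕ} [NeZero ℓ] (hℓN : ℓ ∣ N) {P : Gamma0 N → Prop}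
    (hP : IsConjStable P) (φ : Additive (Gamma0 N) →+ A)
    (hφ : ∀ g, P g → φ (Additive.ofMul g) = 0) (g : Gamma0 N) (hg : P g) :
    cohU hℓN A φ (Additive.ofMul g) = 0 := by
  classical
  rw [cohU_apply]
  refine datum_sum_eq_zero (fun g : Gamma0 N => sigU hℓN g) (cU hℓN)
    ?_ ?_ P hP.pow ?_ φ hφ g hg
  · intro g h x
    exact sigU_mul hℓN g h x
  · intro g h x
    exact cU_mul hℓN g h x
  · intro g x hx hg
    have h := cU_rel hℓN g x
    rw [hx] at h
    exact hP.conj g _ _ h hg

/-- `cohGen` preserves the homomorphisms killing a conjugation-stable class. -/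
theorem cohGen_kills [NeZero N] (l : Nat.Primes) {P : Gamma0 N → Prop}
    (hP : IsConjStable P) (φ : Additive (Gamma0 N) →+ A)
    (hφ : ∀ g, P g → φ (Additive.ofMul g) = 0) (g : Gamma0 N) (hg : P g) :
    cohGen N A l φ (Additive.ofMul g) = 0 := by
  haveI : Fact (l : ℕ).Prime := ⟨l.2⟩
  haveI : NeZero (l : ℕ) := ⟨l.2.ne_zero⟩
  by_cases h : (l : ℕ) ∣ N
  · rw [cohGen_of_dvd N A l h]
    exact cohU_kills h hP φ hφ g hg
  · rw [cohGen_of_not_dvd N A l h]
    exact cohT_kills h hP φ hφ g hg

/-- **`T_ℓ` preserves parabolic homomorphisms** (any coefficient group). -/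
theorem cohT_isParabolicHom {ℓ : ℕ} [Fact ℓ.Prime] (hℓN : ¬ ℓ ∣ N)
    (φ : Additive (Gamma0 N) →+ A) (hφ : IsParabolicHom (Gamma0 N) φ) :
    IsParabolicHom (Gamma0 N) (cohT hℓN A φ) :=
  fun g hg => cohT_kills hℓN (isConjStable_parabolic N) φ hφ g hg

theorem cohU_isParabolicHom {ℓ : ℕ} [NeZero ℓ] (hℓN : ℓ ∣ N)
    (φ : Additive (Gamma0 N) →+ A) (hφ : IsParabolicHom (Gamma0 N) φ) :
    IsParabolicHom (Gamma0 N) (cohU hℓN A φ) :=
  fun g hg => cohU_kills hℓN (isConjStable_parabolic N) φ hφ g hg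

/-- **`cohGen l` preserves parabolic homomorphisms** (any level, any prime, any coefficients). -/
theorem cohGen_isParabolicHom [NeZero N] (l : Nat.Primes)
    (φ : Additive (Gamma0 N) →+ A) (hφ : IsParabolicHom (Gamma0 N) φ) :
    IsParabolicHom (Gamma0 N) (cohGen N A l φ) :=
  fun g hg => cohGen_kills l (isConjStable_parabolic N) φ hφ g hg

/-- **`T_ℓ` preserves the homomorphisms killing all elements of finite order.** -/
theorem cohT_kills_finOrder {ℓ : ℕ} [Fact ℓ.Prime] (hℓN : ¬ ℓ ∣ N)
    (φ : Additive (Gamma0 N) →+ A)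
    (hφ : ∀ g : Gamma0 N, IsOfFinOrder g → φ (Additive.ofMul g) = 0)
    (g : Gamma0 N) (hg : IsOfFinOrder g) : cohT hℓN A φ (Additive.ofMul g) = 0 :=
  cohT_kills hℓN (isConjStable_finOrder N) φ hφ g hg

theorem cohU_kills_finOrder {ℓ : ℕ} [NeZero ℓ] (hℓN : ℓ ∣ N)
    (φ : Additive (Gamma0 N) →+ A)
    (hφ : ∀ g : Gamma0 N, IsOfFinOrder g → φ (Additive.ofMul g) = 0)
    (g : Gamma0 N) (hg : IsOfFinOrder g) : cohU hℓN A φ (Additive.ofMul g) = 0 :=
  cohU_kills hℓN (isConjStable_finOrder N) φ hφ g hg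

theorem cohGen_kills_finOrder [NeZero N] (l : Nat.Primes)
    (φ : Additive (Gamma0 N) →+ A)
    (hφ : ∀ g : Gamma0 N, IsOfFinOrder g → φ (Additive.ofMul g) = 0)
    (g : Gamma0 N) (hg : IsOfFinOrder g) : cohGen N A l φ (Additive.ofMul g) = 0 :=
  cohGen_kills l (isConjStable_finOrder N) φ hφ g hg

end Concrete

end Fermat.Agent.GJ.J2.Lat
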