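/-
GATE-J / J2-HECKE-AN (helper86), part 2: the Hecke norms `heckeNormT ℓ`, `heckeNormU q` on T24's
`Mer` and their multipliers.

If `h : Mer` has multiplier `χ` on `Γ₀(N)` (`h(γτ) = χ(γ) h(τ)`), then `heckeNormT ℓ h` has
multiplier `γ ↦ ∏ₓ χ(cT γ x)`; in additive notation (`χ = ζ^ψ`, `ψ : Γ₀(N) → ZMod p`) this is
`ζ^(cohT ψ)`: the analytic Hecke norm realises the cohomological Hecke operator of
`S16_helper49` on multipliers.
-/
import Mathlib
import Fermat.Agent.GJ.J2.HeckeMer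
import Fermat.Agent.S16_helper49.HeckeGen

set_option autoImplicit false

open UpperHalfPlane Complex Filter Topology CongruenceSubgroup
open scoped MatrixGroups Manifold OnePoint

noncomputable section

namespace Fermat.Agent.GJ.HeckeMer

open Fermat.Agent.S24_helper82
open P2MW.S_ModularForm_heckeT_slash_eq_self_of_mem_Gamma0.ModularForm.HeckeSlashInvariance
open ModularForm Matrix.SpecialLinearGroup
open Fermat.Agent.S16_helper49 (cT cT_rel cU cU_rel sigU cohT cohU cohT_apply cohU_apply)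

theorem det_heckeRep_pos' (ℓ : ℕ) (x : OnePoint (ZMod ℓ)) : 0 < (heckeRep ℓ x).det.val := by
  induction x using OnePoint.rec with
  | infty => exact det_heckeDiagMatrix_pos ℓ
  | coe j => exact det_heckeMatrix_pos ℓ j.val

/-! ### Generic telescoping for multipliers -/

/-- **Generic multiplier identity.**  If `h(γτ) = χ(γ) h(τ)` for `γ ∈ Γ₀(N)` and
`α_x γ = t_x α_{σ x}` with `σ` a permutation, then `∏ₓ h ∘ α_x` is multiplied by `∏ₓ χ(t_x)`
under `γ`. -/
theorem compM_prod_compMGL {N : ℕ} {X : Type*} [Fintype X] (α : X → GL (Fin 2) ℝ)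
    (hα : ∀ x, 0 < (α x).det.val) (h : Mer) (χ : Gamma0 N → ℂ)
    (hχ : ∀ γ : Gamma0 N, compM (γ : SL(2, ℤ)) h = algebraMap ℂ Mer (χ γ) * h)
    (γ : Gamma0 N) (σ : Equiv.Perm X) (t : X → Gamma0 N)
    (hmul : ∀ x, α x * mapGL ℝ (γ : SL(2, ℤ)) = mapGL ℝ ((t x : Gamma0 N) : SL(2, ℤ)) * α (σ x)) :
    compM (γ : SL(2, ℤ)) (∏ x, compMGL (α x) (hα x) h)
      = algebraMap ℂ Mer (∏ x, χ (t x)) * ∏ x, compMGL (α x) (hα x) h := by
  rw [map_prod, map_prod, ← Equiv.prod_comp σ (fun x => compMGL (α x) (hα x) h),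
    ← Finset.prod_mul_distrib]
  refine Finset.prod_congr rfl fun x _ => ?_
  rw [← compMGL_mapGL, ← compMGL_mul (hα x) (det_mapGL_pos _),
    compMGL_congr (hmul x) _ (det_mul_pos (det_mapGL_pos _) (hα (σ x))),
    compMGL_mul (det_mapGL_pos _) (hα (σ x)), compMGL_mapGL, hχ (t x), map_mul, compMGL_const]

/-! ### Roots of unity indexed by `ZMod p` -/

section ZPow

variable {p : ℕ} [NeZero p]

/-- `ζ ^ a` for `a : ZMod p`, when `ζ ^ p = 1`. -/
def zmodPow (ζ : ℂ) (a : ZMod p) : ℂ := ζ ^ a.val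

theorem zmodPow_zero (ζ : ℂ) : zmodPow ζ (0 : ZMod p) = 1 := by
  simp [zmodPow]

theorem zmodPow_add {ζ : ℂ} (hζ : ζ ^ p = 1) (a b : ZMod p) :
    zmodPow ζ (a + b) = zmodPow ζ a * zmodPow ζ b := by
  unfold zmodPow
  rw [ZMod.val_add, ← pow_add, ← Nat.mod_add_div (a.val + b.val) p, pow_add, pow_mul, hζ,
    one_pow, mul_one, Nat.mod_add_div]

theorem zmodPow_sum {ζ : ℂ} (hζ : ζ ^ p = 1) {X : Type*} (s : Finset X) (a : X → ZMod p) :
    zmodPow ζ (∑ x ∈ s, a x) = ∏ x ∈ s, zmodPow ζ (a x) := by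
  classical
  induction s using Finset.induction_on with
  | empty => simp [zmodPow_zero]
  | insert i s hi ih => rw [Finset.sum_insert hi, Finset.prod_insert hi, zmodPow_add hζ, ih]

end ZPow

/-! ### The Hecke norm `T_ℓ^×`, `ℓ ∤ N` -/

section T

variable (ℓ : ℕ) [Fact ℓ.Prime]

/-- The multiplicative Hecke operator `T_ℓ^×` on meromorphic functions:
`u ↦ u(ℓτ) · ∏_b u((τ+b)/ℓ)`. -/
def heckeNormT : Mer →* Mer where
  toFun m := ∏ x : OnePoint (ZMod ℓ), compMGL (heckeRep ℓ x) (det_heckeRep_pos' ℓ x) m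
  map_one' := by simp
  map_mul' a b := by simp [Finset.prod_mul_distrib]

theorem heckeNormT_apply (m : Mer) :
    heckeNormT ℓ m = ∏ x : OnePoint (ZMod ℓ), compMGL (heckeRep ℓ x) (det_heckeRep_pos' ℓ x) m :=
  rfl

theorem heckeNormT_ne_zero {m : Mer} (hm : m ≠ 0) : heckeNormT ℓ m ≠ 0 := by
  rw [heckeNormT_apply]
  exact Finset.prod_ne_zero_iff.mpr fun x _ =>
    (map_ne_zero_iff _ (compMGL_injective _ _)).mpr hm

theorem ordM_heckeNormT {m : Mer} (hm : m ≠ 0) (τ : ℍ) :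
    ordM τ (heckeNormT ℓ m) = ∑ x : OnePoint (ZMod ℓ), ordM (heckeRep ℓ x • τ) m := by
  rw [heckeNormT_apply]
  have key : ∀ s : Finset (OnePoint (ZMod ℓ)),
      ordM τ (∏ x ∈ s, compMGL (heckeRep ℓ x) (det_heckeRep_pos' ℓ x) m)
        = ∑ x ∈ s, ordM (heckeRep ℓ x • τ) m := by
    intro s
    classical
    induction s using Finset.induction_on with
    | empty =>
      rw [Finset.prod_empty, Finset.sum_empty]
      have := ordM_const τ (one_ne_zero : (1 : ℂ) ≠ 0)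
      rwa [map_one] at this
    | insert i s hi ih =>
      rw [Finset.prod_insert hi, Finset.sum_insert hi,
        ordM_mul τ ((map_ne_zero_iff _ (compMGL_injective _ _)).mpr hm)
          (Finset.prod_ne_zero_iff.mpr fun x _ =>
            (map_ne_zero_iff _ (compMGL_injective _ _)).mpr hm), ih, ordM_compMGL]
  exact key Finset.univ

theorem heckeNormT_const (c : ℂ) :
    heckeNormT ℓ (algebraMap ℂ Mer c) = algebraMap ℂ Mer (c ^ (ℓ + 1)) := by
  rw [heckeNormT_apply]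
  simp only [compMGL_const, Finset.prod_const, Finset.card_univ]
  rw [map_pow]
  congr 1
  have : Fintype.card (OnePoint (ZMod ℓ)) = Fintype.card (Option (ZMod ℓ)) := rfl
  rw [this, Fintype.card_option, ZMod.card]

variable {ℓ} {N : ℕ}

/-- **Multiplier of the Hecke norm** (`ℓ ∤ N`), multiplicative form. -/
theorem compM_heckeNormT (hℓN : ¬ ℓ ∣ N) (h : Mer) (χ : Gamma0 N → ℂ)
    (hχ : ∀ γ : Gamma0 N, compM (γ : SL(2, ℤ)) h = algebraMap ℂ Mer (χ γ) * h) (γ : Gamma0 N) :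
    compM (γ : SL(2, ℤ)) (heckeNormT ℓ h)
      = algebraMap ℂ Mer (∏ x : OnePoint (ZMod ℓ), χ (cT hℓN γ x)) * heckeNormT ℓ h :=
  compM_prod_compMGL (heckeRep ℓ) (det_heckeRep_pos' ℓ) h χ hχ γ
    (MulAction.toPerm (redMatrix ℓ (γ : SL(2, ℤ)))) (cT hℓN γ) (fun x => cT_rel hℓN γ x)

/-- **Multiplier of the Hecke norm** (`ℓ ∤ N`), additive form: if `h` has multiplier `ζ^ψ` then
`heckeNormT ℓ h` has multiplier `ζ^(cohT ψ)`. -/
theorem compM_heckeNormT_zmod (hℓN : ¬ ℓ ∣ N) {p : ℕ} [NeZero p] {ζ : ℂ} (hζ : ζ ^ p = 1)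
    (h : Mer) (ψ : Additive (Gamma0 N) →+ ZMod p)
    (hψ : ∀ γ : Gamma0 N, compM (γ : SL(2, ℤ)) h
      = algebraMap ℂ Mer (zmodPow ζ (ψ (Additive.ofMul γ))) * h) (γ : Gamma0 N) :
    compM (γ : SL(2, ℤ)) (heckeNormT ℓ h)
      = algebraMap ℂ Mer (zmodPow ζ (cohT hℓN (ZMod p) ψ (Additive.ofMul γ))) * heckeNormT ℓ h := by
  rw [compM_heckeNormT hℓN h (fun γ => zmodPow ζ (ψ (Additive.ofMul γ))) hψ γ, cohT_apply,
    zmodPow_sum hζ]

end T

/-! ### The Hecke norm `U_q^×`, `q ∣ N` -/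

section U

variable (q : ℕ) [NeZero q]

/-- The multiplicative operator `U_q^×` on meromorphic functions: `u ↦ ∏_b u((τ+b)/q)`. -/
def heckeNormU : Mer →* Mer where
  toFun m := ∏ x : ZMod q, compMGL (heckeMatrix q x.val) (det_heckeMatrix_pos q x.val) m
  map_one' := by simp
  map_mul' a b := by simp [Finset.prod_mul_distrib]

theorem heckeNormU_apply (m : Mer) :
    heckeNormU q m = ∏ x : ZMod q, compMGL (heckeMatrix q x.val) (det_heckeMatrix_pos q x.val) m :=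
  rfl

theorem heckeNormU_ne_zero {m : Mer} (hm : m ≠ 0) : heckeNormU q m ≠ 0 := by
  rw [heckeNormU_apply]
  exact Finset.prod_ne_zero_iff.mpr fun x _ =>
    (map_ne_zero_iff _ (compMGL_injective _ _)).mpr hm

variable {q} {N : ℕ}

/-- **Multiplier of `U_q^×`** (`q ∣ N`), multiplicative form. -/
theorem compM_heckeNormU (hqN : q ∣ N) (h : Mer) (χ : Gamma0 N → ℂ)
    (hχ : ∀ γ : Gamma0 N, compM (γ : SL(2, ℤ)) h = algebraMap ℂ Mer (χ γ) * h) (γ : Gamma0 N) :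
    compM (γ : SL(2, ℤ)) (heckeNormU q h)
      = algebraMap ℂ Mer (∏ x : ZMod q, χ (cU hqN γ x)) * heckeNormU q h :=
  compM_prod_compMGL (fun x : ZMod q => heckeMatrix q x.val)
    (fun x => det_heckeMatrix_pos q x.val) h χ hχ γ (sigU hqN γ) (cU hqN γ)
    (fun x => cU_rel hqN γ x)

/-- **Multiplier of `U_q^×`** (`q ∣ N`), additive form. -/
theorem compM_heckeNormU_zmod (hqN : q ∣ N) {p : ℕ} [NeZero p] {ζ : ℂ} (hζ : ζ ^ p = 1)
    (h : Mer) (ψ : Additive (Gamma0 N) →+ ZMod p)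
    (hψ : ∀ γ : Gamma0 N, compM (γ : SL(2, ℤ)) h
      = algebraMap ℂ Mer (zmodPow ζ (ψ (Additive.ofMul γ))) * h) (γ : Gamma0 N) :
    compM (γ : SL(2, ℤ)) (heckeNormU q h)
      = algebraMap ℂ Mer (zmodPow ζ (cohU hqN (ZMod p) ψ (Additive.ofMul γ))) * heckeNormU q h := by
  rw [compM_heckeNormU hqN h (fun γ => zmodPow ζ (ψ (Additive.ofMul γ))) hψ γ, cohU_apply,
    zmodPow_sum hζ]

end U

/-! ### Invariant functions -/

/-- `Γ₀(N)`-invariant functions are mapped to `Γ₀(N)`-invariant functions by `T_ℓ^×`. -/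
theorem compM_heckeNormT_of_invariant {ℓ : ℕ} [Fact ℓ.Prime] {N : ℕ} (hℓN : ¬ ℓ ∣ N) (f : Mer)
    (hf : ∀ γ : Gamma0 N, compM (γ : SL(2, ℤ)) f = f) (γ : Gamma0 N) :
    compM (γ : SL(2, ℤ)) (heckeNormT ℓ f) = heckeNormT ℓ f := by
  have := compM_heckeNormT hℓN f (fun _ => 1) (fun γ => by rw [hf γ, map_one, one_mul]) γ
  rwa [Finset.prod_const_one, map_one, one_mul] at this

theorem compM_heckeNormU_of_invariant {q : ℕ} [NeZero q] {N : ℕ} (hqN : q ∣ N) (f : Mer)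
    (hf : ∀ γ : Gamma0 N, compM (γ : SL(2, ℤ)) f = f) (γ : Gamma0 N) :
    compM (γ : SL(2, ℤ)) (heckeNormU q f) = heckeNormU q f := by
  have := compM_heckeNormU hqN f (fun _ => 1) (fun γ => by rw [hf γ, map_one, one_mul]) γ
  rwa [Finset.prod_const_one, map_one, one_mul] at this

end Fermat.Agent.GJ.HeckeMer
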