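/-
GATE-J / J2-KUM, abstract core (helper86).

Setting: `Γ = Γ₀(N)`, `p` prime, `ζ` a primitive `p`-th root of unity, `F` a field with a ring
homomorphism `real : F →+* Mer` (the realisation of the function field `ℂ(X₀(N))` inside T24's
field `Mer` of meromorphic functions on `ℍ`) such that

* `(I)`   every `real u` is `Γ`-invariant;
* `(SAT)` a `Γ`-invariant `m : Mer` whose `p`-th power lies in the range of `real` lies in the
          range of `real`.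

A *Kummer datum* for `ψ : Γ → ℤ/p` is a pair `(h, u)`, `h : Mer` nonzero with multiplier `ζ^ψ`
and `real u = h ^ p`.  We prove: the class of `u` in `Fˣ/(Fˣ)^p` depends additively on `ψ` (K1),
`ψ ↦ [u_ψ]` is injective (K2), every `h` with `h^p` invariant has a multiplier (K3), and the Hecke
norm of a datum for `ψ` is a datum for `cohT ψ` (K4).
-/
import Mathlib
import Fermat.Agent.GJ.J2.HeckeMerMult

set_option autoImplicit false

open UpperHalfPlane Complex CongruenceSubgroup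
open scoped MatrixGroups

noncomputable section

namespace Fermat.Agent.GJ.KumCore

open Fermat.Agent.S24_helper82 Fermat.Agent.GJ.HeckeMer
open Fermat.Agent.S16_helper49 (cohT cohU)

variable {N : ℕ} {p : ℕ} [NeZero p]

/-! ### Multipliers -/

/-- `h` has multiplier `ζ^ψ` on `Γ₀(N)`: `h(γτ) = ζ^(ψ γ) h(τ)`. -/
def HasMult (ζ : ℂ) (ψ : Additive (Gamma0 N) →+ ZMod p) (h : Mer) : Prop :=
  ∀ γ : Gamma0 N, compM (γ : SL(2, ℤ)) h
    = algebraMap ℂ Mer (zmodPow ζ (ψ (Additive.ofMul γ))) * h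

theorem hasMult_zero_iff (ζ : ℂ) (h : Mer) :
    HasMult (N := N) (p := p) ζ 0 h ↔ ∀ γ : Gamma0 N, compM (γ : SL(2, ℤ)) h = h := by
  unfold HasMult
  simp only [AddMonoidHom.zero_apply, zmodPow_zero, map_one, one_mul]

theorem HasMult.mul {ζ : ℂ} (hζ : ζ ^ p = 1) {ψ ψ' : Additive (Gamma0 N) →+ ZMod p}
    {h h' : Mer} (H : HasMult ζ ψ h) (H' : HasMult ζ ψ' h') : HasMult ζ (ψ + ψ') (h * h') := by
  intro γ
  rw [map_mul, H γ, H' γ, AddMonoidHom.add_apply, zmodPow_add hζ, map_mul]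
  ring

theorem zmodPow_neg {ζ : ℂ} (hζ : ζ ^ p = 1) (a : ZMod p) :
    zmodPow ζ (-a) = (zmodPow ζ a)⁻¹ := by
  have h : zmodPow ζ a * zmodPow ζ (-a) = 1 := by
    rw [← zmodPow_add hζ, add_neg_cancel, zmodPow_zero]
  exact eq_inv_of_mul_eq_one_right h

theorem HasMult.inv {ζ : ℂ} (hζ : ζ ^ p = 1) {ψ : Additive (Gamma0 N) →+ ZMod p}
    {h : Mer} (H : HasMult ζ ψ h) : HasMult ζ (-ψ) h⁻¹ := by
  intro γ
  rw [map_inv₀, H γ, AddMonoidHom.neg_apply, zmodPow_neg hζ, map_inv₀, mul_inv]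

theorem HasMult.pow_invariant {ζ : ℂ} (hζ : ζ ^ p = 1) {ψ : Additive (Gamma0 N) →+ ZMod p}
    {h : Mer} (H : HasMult ζ ψ h) (γ : Gamma0 N) : compM (γ : SL(2, ℤ)) (h ^ p) = h ^ p := by
  rw [map_pow, H γ, mul_pow, ← map_pow]
  unfold zmodPow
  rw [← pow_mul, mul_comm _ p, pow_mul, hζ, one_pow, map_one, one_mul]

theorem zmodPow_eq_one_iff {ζ : ℂ} (hζ : IsPrimitiveRoot ζ p) (a : ZMod p) :
    zmodPow ζ a = 1 ↔ a = 0 := by
  unfold zmodPow
  constructor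
  · intro h
    have hdvd : p ∣ a.val := (hζ.pow_eq_one_iff_dvd _).mp h
    have hlt : a.val < p := ZMod.val_lt a
    have h0 : a.val = 0 := Nat.eq_zero_of_dvd_of_lt hdvd hlt
    exact (ZMod.val_eq_zero a).mp h0
  · rintro rfl
    simp

/-- A nonzero function has at most one multiplier. -/
theorem HasMult.unique {ζ : ℂ} (hζ : IsPrimitiveRoot ζ p) {ψ ψ' : Additive (Gamma0 N) →+ ZMod p}
    {h : Mer} (hh : h ≠ 0) (H : HasMult ζ ψ h) (H' : HasMult ζ ψ' h) : ψ = ψ' := by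
  refine AddMonoidHom.ext fun γ₀ => ?_
  obtain ⟨γ, rfl⟩ : ∃ γ : Gamma0 N, Additive.ofMul γ = γ₀ := ⟨Additive.toMul γ₀, rfl⟩
  have h1 := (H γ).symm.trans (H' γ)
  have h2 : algebraMap ℂ Mer (zmodPow ζ (ψ (Additive.ofMul γ)))
      = algebraMap ℂ Mer (zmodPow ζ (ψ' (Additive.ofMul γ))) := mul_right_cancel₀ hh h1
  have h3 : zmodPow ζ (ψ (Additive.ofMul γ)) = zmodPow ζ (ψ' (Additive.ofMul γ)) :=
    (algebraMap ℂ Mer).injective h2
  have h4 : zmodPow ζ (ψ (Additive.ofMul γ) - ψ' (Additive.ofMul γ)) = 1 := by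
    rw [sub_eq_add_neg, zmodPow_add hζ.pow_eq_one, zmodPow_neg hζ.pow_eq_one, h3,
      mul_inv_cancel₀]
    rw [← h3]
    unfold zmodPow
    exact pow_ne_zero _ (hζ.ne_zero (NeZero.ne p))
  exact sub_eq_zero.mp ((zmodPow_eq_one_iff hζ _).mp h4)

/-- A `p`-th root of unity in `Mer` is a constant. -/
theorem exists_const_of_pow_eq_one {ζ : ℂ} (hζ : IsPrimitiveRoot ζ p) {m : Mer}
    (hm : m ^ p = 1) : ∃ c : ℂ, m = algebraMap ℂ Mer c := by
  have hζ' : IsPrimitiveRoot (algebraMap ℂ Mer ζ) p :=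
    hζ.map_of_injective (algebraMap ℂ Mer).injective
  obtain ⟨i, -, hi⟩ := hζ'.eq_pow_of_pow_eq_one hm
  exact ⟨ζ ^ i, by rw [map_pow, hi]⟩

/-! ### Kummer data -/

variable {F : Type*} [Field F]

/-- A Kummer datum for `ψ`: a nonzero `h : Mer` with multiplier `ζ^ψ` and `u : F` with
`real u = h ^ p`. -/
def IsKumDatum (real : F →+* Mer) (ζ : ℂ) (ψ : Additive (Gamma0 N) →+ ZMod p) (h : Mer) (u : F) :
    Prop :=
  h ≠ 0 ∧ HasMult ζ ψ h ∧ real u = h ^ p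

theorem IsKumDatum.ne_zero {real : F →+* Mer} {ζ : ℂ} {ψ : Additive (Gamma0 N) →+ ZMod p}
    {h : Mer} {u : F} (D : IsKumDatum real ζ ψ h u) : u ≠ 0 := by
  rintro rfl
  have := D.2.2
  rw [map_zero] at this
  exact D.1 (pow_eq_zero_iff (NeZero.ne p) |>.mp this.symm)

/-- **(K1)** The class of `u_ψ` modulo `p`-th powers is additive in `ψ` (and independent of all
choices). -/
theorem IsKumDatum.exists_eq_mul_pow {real : F →+* Mer}
    (hsat : ∀ m : Mer, (∀ γ : Gamma0 N, compM (γ : SL(2, ℤ)) m = m) → m ^ p ∈ Set.range real →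
      m ∈ Set.range real)
    {ζ : ℂ} (hζ : ζ ^ p = 1) {ψ ψ' : Additive (Gamma0 N) →+ ZMod p} {h h' h'' : Mer}
    {u u' u'' : F} (D : IsKumDatum real ζ ψ h u) (D' : IsKumDatum real ζ ψ' h' u')
    (D'' : IsKumDatum real ζ (ψ + ψ') h'' u'') :
    ∃ g : F, g ≠ 0 ∧ u'' = u * u' * g ^ p := by
  set m : Mer := h'' * (h * h')⁻¹ with hm
  have hm0 : m ≠ 0 := mul_ne_zero D''.1 (inv_ne_zero (mul_ne_zero D.1 D'.1))
  have hinv : ∀ γ : Gamma0 N, compM (γ : SL(2, ℤ)) m = m := by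
    have H := D''.2.1.mul hζ ((D.2.1.mul hζ D'.2.1).inv hζ)
    rw [add_neg_cancel] at H
    exact (hasMult_zero_iff ζ m).mp H
  have hpow : m ^ p = real (u'' * (u * u')⁻¹) := by
    rw [hm, mul_pow, inv_pow, mul_pow, map_mul, map_inv₀, map_mul, D.2.2, D'.2.2, D''.2.2]
  obtain ⟨g, hg⟩ := hsat m hinv ⟨_, hpow.symm⟩
  have hg0 : g ≠ 0 := by
    rintro rfl
    rw [map_zero] at hg
    exact hm0 hg.symm
  refine ⟨g, hg0, ?_⟩
  have h1 : real (g ^ p) = real (u'' * (u * u')⁻¹) := by rw [map_pow, hg, hpow]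
  have h2 : g ^ p = u'' * (u * u')⁻¹ := real.injective h1
  have huu : u * u' ≠ 0 := mul_ne_zero D.ne_zero D'.ne_zero
  rw [h2, mul_comm u'' _, ← mul_assoc, mul_inv_cancel₀ huu, one_mul]

/-- **(K2)** `ψ ↦ [u_ψ]` is injective: if `u_ψ` is a `p`-th power then `ψ = 0`. -/
theorem IsKumDatum.eq_zero_of_eq_pow {real : F →+* Mer}
    (hinv : ∀ (γ : Gamma0 N) (u : F), compM (γ : SL(2, ℤ)) (real u) = real u)
    {ζ : ℂ} (hζ : IsPrimitiveRoot ζ p) {ψ : Additive (Gamma0 N) →+ ZMod p} {h : Mer} {u : F}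
    (D : IsKumDatum real ζ ψ h u) {g : F} (hg : u = g ^ p) : ψ = 0 := by
  have hg0 : g ≠ 0 := by
    rintro rfl
    rw [zero_pow (NeZero.ne p)] at hg
    exact D.ne_zero hg
  have hrg : real g ≠ 0 := (map_ne_zero real).mpr hg0
  set m : Mer := h * (real g)⁻¹ with hm
  have hmp : m ^ p = 1 := by
    rw [hm, mul_pow, inv_pow, ← D.2.2, hg, map_pow]
    exact mul_inv_cancel₀ (pow_ne_zero _ hrg)
  obtain ⟨c, hc⟩ := exists_const_of_pow_eq_one hζ hmp
  have hh : h = algebraMap ℂ Mer c * real g := by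
    rw [← hc, hm, inv_mul_cancel_right₀ hrg]
  have H0 : HasMult (N := N) (p := p) ζ 0 h := by
    rw [hasMult_zero_iff]
    intro γ
    rw [hh, map_mul, compM_const, hinv]
  exact HasMult.unique hζ D.1 D.2.1 H0

/-- **(K3)** Kummer direction: a nonzero `h` whose `p`-th power is `Γ₀(N)`-invariant has a
multiplier. -/
theorem exists_hasMult {ζ : ℂ} (hζ : IsPrimitiveRoot ζ p) {h : Mer} (hh : h ≠ 0)
    (hinv : ∀ γ : Gamma0 N, compM (γ : SL(2, ℤ)) (h ^ p) = h ^ p) :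
    ∃ ψ : Additive (Gamma0 N) →+ ZMod p, HasMult ζ ψ h := by
  have hζ' : IsPrimitiveRoot (algebraMap ℂ Mer ζ) p :=
    hζ.map_of_injective (algebraMap ℂ Mer).injective
  have key : ∀ γ : Gamma0 N, ∃ a : ZMod p,
      compM (γ : SL(2, ℤ)) h = algebraMap ℂ Mer (zmodPow ζ a) * h := by
    intro γ
    have h1 : (compM (γ : SL(2, ℤ)) h * h⁻¹) ^ p = 1 := by
      rw [mul_pow, inv_pow, ← map_pow, hinv γ]
      exact mul_inv_cancel₀ (pow_ne_zero _ hh)
    obtain ⟨i, hi, hi'⟩ := hζ'.eq_pow_of_pow_eq_one h1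
    refine ⟨(i : ZMod p), ?_⟩
    unfold zmodPow
    rw [ZMod.val_natCast, Nat.mod_eq_of_lt hi, map_pow, hi', inv_mul_cancel_right₀ hh]
  choose a ha using key
  refine ⟨AddMonoidHom.mk' (fun γ => a (Additive.toMul γ)) ?_, fun γ => ha γ⟩
  intro γ δ
  have h1 : compM (((Additive.toMul γ * Additive.toMul δ : Gamma0 N)) : SL(2, ℤ)) h
      = algebraMap ℂ Mer (zmodPow ζ (a (Additive.toMul γ) + a (Additive.toMul δ))) * h := by
    rw [Subgroup.coe_mul, compM_mul, ha, map_mul, compM_const, ha, zmodPow_add hζ.pow_eq_one,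
      map_mul]
    ring
  have h2 := (ha (Additive.toMul γ * Additive.toMul δ)).symm.trans h1
  have h3 := (algebraMap ℂ Mer).injective (mul_right_cancel₀ hh h2)
  have h4 : zmodPow ζ (a (Additive.toMul γ * Additive.toMul δ)
      - (a (Additive.toMul γ) + a (Additive.toMul δ))) = 1 := by
    rw [sub_eq_add_neg, zmodPow_add hζ.pow_eq_one, zmodPow_neg hζ.pow_eq_one, h3,
      mul_inv_cancel₀]
    unfold zmodPow
    exact pow_ne_zero _ (hζ.ne_zero (NeZero.ne p))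
  exact sub_eq_zero.mp ((zmodPow_eq_one_iff hζ _).mp h4)

/-! ### Hecke equivariance -/

/-- **(K4)** The Hecke norm of a Kummer datum for `ψ` is a Kummer datum for `cohT ψ`. -/
theorem IsKumDatum.heckeNormT {real : F →+* Mer} {ζ : ℂ} (hζ : ζ ^ p = 1)
    {ψ : Additive (Gamma0 N) →+ ZMod p} {h : Mer} {u : F} (D : IsKumDatum real ζ ψ h u)
    {ℓ : ℕ} [Fact ℓ.Prime] (hℓN : ¬ ℓ ∣ N) {Tu : F}
    (hTu : real Tu = Fermat.Agent.GJ.HeckeMer.heckeNormT ℓ (real u)) :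
    IsKumDatum real ζ (cohT hℓN (ZMod p) ψ) (Fermat.Agent.GJ.HeckeMer.heckeNormT ℓ h) Tu :=
  ⟨heckeNormT_ne_zero ℓ D.1, fun γ => compM_heckeNormT_zmod hℓN hζ h ψ D.2.1 γ, by
    rw [hTu, D.2.2, map_pow]⟩

/-- **(K4')** The same for `U_q`, `q ∣ N`. -/
theorem IsKumDatum.heckeNormU {real : F →+* Mer} {ζ : ℂ} (hζ : ζ ^ p = 1)
    {ψ : Additive (Gamma0 N) →+ ZMod p} {h : Mer} {u : F} (D : IsKumDatum real ζ ψ h u)
    {q : ℕ} [NeZero q] (hqN : q ∣ N) {Tu : F}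
    (hTu : real Tu = Fermat.Agent.GJ.HeckeMer.heckeNormU q (real u)) :
    IsKumDatum real ζ (cohU hqN (ZMod p) ψ) (Fermat.Agent.GJ.HeckeMer.heckeNormU q h) Tu :=
  ⟨heckeNormU_ne_zero q D.1, fun γ => compM_heckeNormU_zmod hqN hζ h ψ D.2.1 γ, by
    rw [hTu, D.2.2, map_pow]⟩

end Fermat.Agent.GJ.KumCore
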