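/-
GATE-J / J2-EIS, bridge to J2-KUM (helper94): the twisted Eisenstein ratio `h_φ` attached to a
parabolic homomorphism `φ : Γ₀(N) → ℤ/p` and a `p`-th root of unity `ζ` has multiplier `ζ^φ`
in the sense of `KumCore.HasMult` (helper86).
-/
import Fermat.Agent.GJ.J2.TwistedEisRatio
import Fermat.Agent.GJ.J2.KumCore

set_option autoImplicit false

open Complex UpperHalfPlane CongruenceSubgroup
open scoped MatrixGroups
open Fermat.Agent.S24_helper82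

namespace Fermat.Agent.GJ.TwEis

noncomputable section

variable {N : ℕ} (p : ℕ) [NeZero p]

/-- the character `γ ↦ ζ ^ φ(γ)` with values in `ℂˣ`. -/
def chiPhi (ζ : rootsOfUnity p ℂ) (φ : Additive ↥(Gamma0 N) →+ ZMod p) : ↥(Gamma0 N) →* ℂˣ :=
  ofRoots p (charOfHom p ζ φ)

lemma chiPhi_unit (ζ : rootsOfUnity p ℂ) (φ : Additive ↥(Gamma0 N) →+ ZMod p)
    (γ : ↥(Gamma0 N)) : ‖((chiPhi p ζ φ γ : ℂˣ) : ℂ)‖ = 1 :=
  ofRoots_unit p _ γ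

lemma chiPhi_pow (ζ : rootsOfUnity p ℂ) (φ : Additive ↥(Gamma0 N) →+ ZMod p)
    (γ : ↥(Gamma0 N)) : chiPhi p ζ φ γ ^ p = 1 :=
  ofRoots_pow p _ γ

lemma isParabolicChar_chiPhi (ζ : rootsOfUnity p ℂ) (φ : Additive ↥(Gamma0 N) →+ ZMod p)
    (hφ : ModularCurve.Period.IsParabolicHom (Gamma0 N) φ) : IsParabolicChar (chiPhi p ζ φ) :=
  isParabolicChar_charOfHom p ζ φ hφ

/-- the value of the character in the `zmodPow` form of `KumCore`. -/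
lemma chiPhi_apply (ζ : rootsOfUnity p ℂ) (φ : Additive ↥(Gamma0 N) →+ ZMod p)
    (γ : ↥(Gamma0 N)) :
    ((chiPhi p ζ φ γ : ℂˣ) : ℂ) =
      HeckeMer.zmodPow (((ζ : ℂˣ) : ℂ)) (φ (Additive.ofMul γ)) := by
  have h1 : charOfHom p ζ φ γ = ζ ^ (((φ (Additive.ofMul γ)).val : ℕ) : ℤ) :=
    charOfHom_apply p ζ φ γ _ (by
      rw [Int.cast_natCast, ZMod.natCast_zmod_val])
  unfold chiPhi HeckeMer.zmodPow
  rw [ofRoots_apply, h1, zpow_natCast]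
  simp

/-- the twisted Eisenstein ratio attached to `(ζ, φ)`. -/
def hPhi (ζ : rootsOfUnity p ℂ) (φ : Additive ↥(Gamma0 N) →+ ZMod p) {k : ℤ} (hk : 3 ≤ k) : Mer :=
  hChi (χ := chiPhi p ζ φ) (chiPhi_unit p ζ φ) hk

theorem hPhi_ne_zero (ζ : rootsOfUnity p ℂ) (φ : Additive ↥(Gamma0 N) →+ ZMod p)
    (hφ : ModularCurve.Period.IsParabolicHom (Gamma0 N) φ) {k : ℤ} (hk : 3 ≤ k) (hk2 : Even k) :
    hPhi p ζ φ hk ≠ 0 :=
  hChi_ne_zero (isParabolicChar_chiPhi p ζ φ hφ) _ hk hk2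

/-- **(B1)** `h_φ` has multiplier `ζ^φ` in the sense of `KumCore`. -/
theorem hasMult_hPhi (ζ : rootsOfUnity p ℂ) (φ : Additive ↥(Gamma0 N) →+ ZMod p)
    (hφ : ModularCurve.Period.IsParabolicHom (Gamma0 N) φ) {k : ℤ} (hk : 3 ≤ k) (hk2 : Even k) :
    KumCore.HasMult (((ζ : ℂˣ) : ℂ)) φ (hPhi p ζ φ hk) := by
  intro γ
  unfold hPhi
  rw [compM_hChi (isParabolicChar_chiPhi p ζ φ hφ) _ hk hk2 γ, chiPhi_apply]

/-- `h_φ ^ p` is `Γ₀(N)`-invariant. -/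
theorem compM_hPhi_pow (ζ : rootsOfUnity p ℂ) (φ : Additive ↥(Gamma0 N) →+ ZMod p)
    (hφ : ModularCurve.Period.IsParabolicHom (Gamma0 N) φ) {k : ℤ} (hk : 3 ≤ k) (hk2 : Even k)
    (γ : ↥(Gamma0 N)) :
    compM (γ : SL(2, ℤ)) (hPhi p ζ φ hk ^ p) = hPhi p ζ φ hk ^ p :=
  compM_hChi_pow (isParabolicChar_chiPhi p ζ φ hφ) _ hk hk2 p (chiPhi_pow p ζ φ) γ

/-- a Kummer datum as soon as `h_φ ^ p` is realised by an element `u` of the field `F`. -/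
theorem isKumDatum_hPhi {F : Type*} [Field F] (real : F →+* Mer)
    (ζ : rootsOfUnity p ℂ) (φ : Additive ↥(Gamma0 N) →+ ZMod p)
    (hφ : ModularCurve.Period.IsParabolicHom (Gamma0 N) φ) {k : ℤ} (hk : 3 ≤ k) (hk2 : Even k)
    (u : F) (hu : real u = hPhi p ζ φ hk ^ p) :
    KumCore.IsKumDatum real (((ζ : ℂˣ) : ℂ)) φ (hPhi p ζ φ hk) u :=
  ⟨hPhi_ne_zero p ζ φ hφ hk hk2, hasMult_hPhi p ζ φ hφ hk hk2, hu⟩

end

end Fermat.Agent.GJ.TwEis
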