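/-
GATE-J / J2-EIS, field layer (helper94): quotients of holomorphic functions of equal weight on
`Γ₀(N)` with bounded slash translates lie in the image of the function field `FC N` of `X₀(N)`
over `ℂ` in `Mer` (by helper41's field generation theorem `(F3)` and the discriminant `Δ`).
In particular `h_χ ^ p = realizeC N u` for some `u : FC N`, so `(h_φ, u)` is a Kummer datum.
-/
import Fermat.Agent.GJ.J2.TwistedEisKum
import Fermat.Agent.GJ.J2.Dict.FieldGen

set_option autoImplicit false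

open Complex UpperHalfPlane Set Filter Topology Matrix ModularForm
  CongruenceSubgroup ModularGroup
open scoped MatrixGroups Manifold
open Fermat.Agent.S24_helper82 Fermat.Agent.GJ.Dict Fermat.Agent.GJ.Dict.FieldGen

namespace Fermat.Agent.GJ.TwEis

noncomputable section

local notation "Δ" => ModularForm.discriminant

local notation "𝕢" => Function.Periodic.qParam

/-! ### the automorphy factor -/

lemma denHol_zero (γ : SL(2, ℤ)) : denHol γ 0 = 1 := by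
  apply Subtype.ext
  funext z
  show denom (γ : GL (Fin 2) ℝ) z ^ (0 : ℤ) = 1
  simp

lemma denHol_add (γ : SL(2, ℤ)) (k l : ℤ) : denHol γ (k + l) = denHol γ k * denHol γ l := by
  apply Subtype.ext
  funext z
  show denom (γ : GL (Fin 2) ℝ) z ^ (k + l) =
    denom (γ : GL (Fin 2) ℝ) z ^ k * denom (γ : GL (Fin 2) ℝ) z ^ l
  exact zpow_add₀ (denom_ne_zero _ _) k l

lemma denHol_neg_mul (γ : SL(2, ℤ)) (k : ℤ) : denHol γ (-k) * denHol γ k = 1 := by
  rw [← denHol_add, neg_add_cancel, denHol_zero]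

/-! ### holomorphic functions of weight `k` on `Γ₀(N)`, bounded at all cusps -/

/-- `X` transforms with weight `k` under `Γ₀(N)` and all its slash translates are bounded at
`i∞`. -/
structure IsWt (N : ℕ) (k : ℤ) (X : Hol) : Prop where
  law : ∀ γ ∈ Gamma0 N, compSL γ X = denHol γ k * X
  bdd : ∀ g : SL(2, ℤ), IsBoundedAtImInfty ((X : ℍ → ℂ) ∣[k] g)

section isWt

variable {N : ℕ}

lemma IsWt.one : IsWt N 0 (1 : Hol) where
  law γ _ := by rw [denHol_zero, map_one, mul_one]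
  bdd g := by
    have h1 : (((1 : Hol) : ℍ → ℂ) ∣[(0 : ℤ)] g) = (1 : ℍ → ℂ) := is_invariant_one g
    rw [h1]
    exact Filter.const_boundedAtFilter _ (1 : ℂ)

lemma IsWt.mul {k l : ℤ} {X Y : Hol} (hX : IsWt N k X) (hY : IsWt N l Y) :
    IsWt N (k + l) (X * Y) where
  law γ hγ := by
    rw [map_mul, hX.law γ hγ, hY.law γ hγ, denHol_add]
    ring
  bdd g := by
    have h1 : (((X * Y : Hol) : ℍ → ℂ) ∣[k + l] g) =
        ((X : ℍ → ℂ) ∣[k] g) * ((Y : ℍ → ℂ) ∣[l] g) := mul_slash_SL2 k l g _ _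
    rw [h1]
    exact (hX.bdd g).mul (hY.bdd g)

lemma IsWt.pow {k : ℤ} {X : Hol} (hX : IsWt N k X) (n : ℕ) : IsWt N ((n : ℤ) * k) (X ^ n) := by
  induction n with
  | zero =>
    simp only [Nat.cast_zero, zero_mul, pow_zero]
    exact IsWt.one
  | succ n ih =>
    have h1 : ((n + 1 : ℕ) : ℤ) * k = (n : ℤ) * k + k := by push_cast; ring
    rw [h1, pow_succ]
    exact ih.mul hX

lemma IsWt.congr_weight {k l : ℤ} {X : Hol} (hX : IsWt N k X) (h : k = l) : IsWt N l X := h ▸ hX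

end isWt

/-! ### the discriminant -/

/-- `Δ` as an element of `Hol`. -/
def DeltaHol : Hol := ⟨Δ, CuspForm.discriminant.holo'⟩

/-- `Δ⁻¹` as an element of `Hol`. -/
def DeltaInvHol : Hol :=
  ⟨fun z => (Δ z)⁻¹, by
    have h : MDifferentiable 𝓘(ℂ) 𝓘(ℂ) (Δ : ℍ → ℂ) := CuspForm.discriminant.holo'
    show MDifferentiable 𝓘(ℂ) 𝓘(ℂ) (fun z : ℍ => (Δ z)⁻¹)
    rw [UpperHalfPlane.mdifferentiable_iff] at h ⊢
    have : ((fun z : ℍ => (Δ z)⁻¹) ∘ ofComplex) = ((Δ : ℍ → ℂ) ∘ ofComplex)⁻¹ := by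
      funext z
      simp
    rw [this]
    exact h.inv fun z _ => discriminant_ne_zero _⟩

lemma DeltaInvHol_apply (z : ℍ) : (DeltaInvHol : ℍ → ℂ) z = (Δ z)⁻¹ := rfl

lemma discriminant_smul (g : SL(2, ℤ)) (z : ℍ) :
    Δ (g • z) = denom (g : GL (Fin 2) ℝ) z ^ (12 : ℤ) * Δ z := by
  have h := congrFun (SlashInvariantForm.slash_action_generators_SL2Z
    discriminant_S_invariant discriminant_T_invariant g) z
  rw [SL_slash_apply, _root_.zpow_neg,
    mul_inv_eq_iff_eq_mul₀ (zpow_ne_zero _ <| denom_ne_zero _ z)] at h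
  rw [h]
  ring

lemma compSL_DeltaInvHol (g : SL(2, ℤ)) :
    compSL g DeltaInvHol = denHol g (-12) * DeltaInvHol := by
  apply Subtype.ext
  funext z
  show (Δ (g • z))⁻¹ = denom (g : GL (Fin 2) ℝ) z ^ (-12 : ℤ) * (Δ z)⁻¹
  rw [discriminant_smul, mul_inv, _root_.zpow_neg]

lemma compSL_DeltaInvHol_pow (g : SL(2, ℤ)) (n : ℕ) :
    compSL g (DeltaInvHol ^ n) = denHol g (-(12 * (n : ℤ))) * DeltaInvHol ^ n := by
  induction n with
  | zero =>
    simp only [pow_zero, map_one, Nat.cast_zero, mul_zero, neg_zero, denHol_zero, mul_one]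
  | succ n ih =>
    have h1 : -(12 * ((n + 1 : ℕ) : ℤ)) = -(12 * (n : ℤ)) + (-12) := by push_cast; ring
    rw [pow_succ, map_mul, ih, compSL_DeltaInvHol, h1, denHol_add]
    ring

/-- `𝕢₁ / Δ` is bounded at `i∞`. -/
lemma isBoundedAtImInfty_qParam_div_discriminant :
    IsBoundedAtImInfty fun z : ℍ => 𝕢 1 (z : ℂ) * (Δ z)⁻¹ := by
  obtain ⟨C, hC⟩ := exp_isBigO_discriminant.bound
  rw [IsBoundedAtImInfty, BoundedAtFilter]
  refine Asymptotics.IsBigO.of_bound C ?_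
  filter_upwards [hC] with z hz
  have hq : ‖𝕢 1 (z : ℂ)‖ = Real.exp (-2 * Real.pi * z.im) := by
    simp [Function.Periodic.qParam, Complex.norm_exp]
  rw [Real.norm_of_nonneg (Real.exp_pos _).le] at hz
  have hΔ : 0 < ‖Δ z‖ := norm_pos_iff.mpr (discriminant_ne_zero z)
  rw [norm_mul, norm_inv, hq, Pi.one_apply, norm_one, mul_one, ← div_eq_mul_inv,
    div_le_iff₀ hΔ]
  exact hz

/-! ### weight `12 n` divided by `Δ ^ n` -/

section weightZero

variable {N : ℕ} [NeZero N]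

/-- a holomorphic function of weight `12 n` divided by `Δ ^ n` is `Γ₀(N)`-invariant. -/
lemma compSL_mul_DeltaInv_pow {n : ℕ} {X : Hol} (hX : IsWt N (12 * (n : ℤ)) X) (γ : SL(2, ℤ))
    (hγ : γ ∈ Gamma0 N) : compSL γ (X * DeltaInvHol ^ n) = X * DeltaInvHol ^ n := by
  rw [map_mul, hX.law γ hγ, compSL_DeltaInvHol_pow]
  have h1 := denHol_neg_mul γ (12 * (n : ℤ))
  calc denHol γ (12 * (n : ℤ)) * X * (denHol γ (-(12 * (n : ℤ))) * DeltaInvHol ^ n)
      = (denHol γ (-(12 * (n : ℤ))) * denHol γ (12 * (n : ℤ))) * (X * DeltaInvHol ^ n) := by ring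
    _ = X * DeltaInvHol ^ n := by rw [h1, one_mul]

/-- a holomorphic function of weight `12 n`, bounded at all cusps, divided by `Δ ^ n`, has
moderate growth at every cusp. -/
lemma moderateGrowth_mul_DeltaInv_pow {n : ℕ} {X : Hol} (hX : IsWt N (12 * (n : ℤ)) X) :
    ModerateGrowth N ((X * DeltaInvHol ^ n : Hol) : ℍ → ℂ) := by
  intro g
  refine ⟨N * n, ?_⟩
  -- the translate is `(X ∣ g) * Δ⁻¹ ^ n`
  have h1 : compSL g (X * DeltaInvHol ^ n) =
      slashHol X (12 * (n : ℤ)) g * DeltaInvHol ^ n := by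
    rw [map_mul, compSL_eq_denHol_mul_slashHol X (12 * (n : ℤ)) g, compSL_DeltaInvHol_pow]
    have h2 := denHol_neg_mul g (12 * (n : ℤ))
    calc denHol g (12 * (n : ℤ)) * slashHol X (12 * (n : ℤ)) g *
          (denHol g (-(12 * (n : ℤ))) * DeltaInvHol ^ n)
        = (denHol g (-(12 * (n : ℤ))) * denHol g (12 * (n : ℤ))) *
            (slashHol X (12 * (n : ℤ)) g * DeltaInvHol ^ n) := by ring
      _ = slashHol X (12 * (n : ℤ)) g * DeltaInvHol ^ n := by rw [h2, one_mul]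
  have h3 : (fun z : ℍ => 𝕢 (N : ℝ) (z : ℂ) ^ (N * n) *
      ((X * DeltaInvHol ^ n : Hol) : ℍ → ℂ) (g • z)) =
      fun z : ℍ => ((X : ℍ → ℂ) ∣[12 * (n : ℤ)] g) z * (𝕢 1 (z : ℂ) * (Δ z)⁻¹) ^ n := by
    funext z
    have h4 : ((X * DeltaInvHol ^ n : Hol) : ℍ → ℂ) (g • z) =
        ((slashHol X (12 * (n : ℤ)) g * DeltaInvHol ^ n : Hol) : ℍ → ℂ) z := by
      rw [← h1]
      rfl
    have h5 : ((slashHol X (12 * (n : ℤ)) g * DeltaInvHol ^ n : Hol) : ℍ → ℂ) z =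
        ((X : ℍ → ℂ) ∣[12 * (n : ℤ)] g) z * ((Δ z)⁻¹) ^ n := rfl
    have h6 : 𝕢 (N : ℝ) (z : ℂ) ^ (N * n) = 𝕢 1 (z : ℂ) ^ n := by
      rw [pow_mul]
      congr 1
      have := Fermat.Agent.S28.qParam_mul_natCast_pow 1 N (NeZero.ne N) (z : ℂ)
      rwa [one_mul] at this
    rw [h4, h5, h6, mul_pow]
    ring
  rw [h3]
  exact (hX.bdd g).mul (isBoundedAtImInfty_pow isBoundedAtImInfty_qParam_div_discriminant n)

/-- **(F6, `Hol` form)** a quotient of two holomorphic functions of the same weight `k ≥ 0` on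
`Γ₀(N)`, bounded at all cusps, is in the image of the function field `FC N`. -/
theorem exists_realizeC_eq_div_of_isWt {k : ℕ} {A B : Hol} (hA : IsWt N (k : ℤ) A)
    (hB : IsWt N (k : ℤ) B) (hB0 : B ≠ 0) :
    ∃ f : FC N, realizeC N f = algebraMap Hol Mer A / algebraMap Hol Mer B := by
  have hw : (k : ℤ) + ((11 : ℕ) : ℤ) * (k : ℤ) = 12 * (k : ℤ) := by push_cast; ring
  have hw' : ((12 : ℕ) : ℤ) * (k : ℤ) = 12 * (k : ℤ) := by push_cast; ring
  have hX : IsWt N (12 * (k : ℤ)) (A * B ^ 11) := (hA.mul (hB.pow 11)).congr_weight hw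
  have hY : IsWt N (12 * (k : ℤ)) (B ^ 12) := (hB.pow 12).congr_weight hw'
  have hD : DeltaInvHol ≠ 0 := by
    intro h
    have h1 := congrFun (congrArg (fun f : Hol => (f : ℍ → ℂ)) h) UpperHalfPlane.I
    exact inv_ne_zero (discriminant_ne_zero _) h1
  have hQ : B ^ 12 * DeltaInvHol ^ k ≠ 0 := mul_ne_zero (pow_ne_zero _ hB0) (pow_ne_zero _ hD)
  refine exists_realizeC_eq_div N (A * B ^ 11 * DeltaInvHol ^ k) (B ^ 12 * DeltaInvHol ^ k) hQ
    (fun γ hγ => compSL_mul_DeltaInv_pow hX γ hγ) (moderateGrowth_mul_DeltaInv_pow hX)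
    (fun γ hγ => compSL_mul_DeltaInv_pow hY γ hγ) (moderateGrowth_mul_DeltaInv_pow hY) _ ?_
  have hB' : algebraMap Hol Mer B ≠ 0 := algebraMap_ne_zero hB0
  simp only [map_mul, map_pow]
  field_simp

end weightZero

/-! ### the twisted Eisenstein series -/

section character

variable {N : ℕ} {χ : ↥(Gamma0 N) →* ℂˣ}

/-- `(E_{k,χ})^p` has weight `p k` on `Γ₀(N)` when `χ^p = 1`, and is bounded at all cusps. -/
lemma isWt_EchiHol_pow (hpar : IsParabolicChar χ) (hunit : ∀ γ, ‖((χ γ : ℂˣ) : ℂ)‖ = 1)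
    {k : ℤ} (hk : 3 ≤ k) (p : ℕ) (hχp : ∀ γ, χ γ ^ p = 1) :
    IsWt N ((p : ℤ) * k) (EchiHol hunit hk ^ p) where
  law γ hγ := by
    have h1 := compSL_EchiHol hpar hunit hk ⟨γ, hγ⟩
    have h2 : (((χ ⟨γ, hγ⟩ : ℂˣ) : ℂ)) ^ p = 1 := by
      have := congrArg (fun u : ℂˣ => (u : ℂ)) (hχp ⟨γ, hγ⟩)
      simpa using this
    have h3 : denHol γ ((p : ℤ) * k) = denHol γ k ^ p := by
      apply Subtype.ext
      funext z
      show denom (γ : GL (Fin 2) ℝ) z ^ ((p : ℤ) * k) = (denom (γ : GL (Fin 2) ℝ) z ^ k) ^ p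
      rw [mul_comm, _root_.zpow_mul, zpow_natCast]
    rw [map_pow, h1, mul_pow, mul_pow, ← map_pow, h2, map_one, one_mul, h3]
  bdd g := by
    have h1 : (((EchiHol hunit hk ^ p : Hol) : ℍ → ℂ) ∣[(p : ℤ) * k] g) =
        ((Echi χ k) ∣[k] g) ^ p := pow_slash (Echi χ k) k p g
    rw [h1]
    exact isBoundedAtImInfty_pow (isBoundedAtImInfty_Echi_slash hunit hk g) p

/-- **(B2)** `h_χ ^ p` lies in the image of the function field of `X₀(N)` over `ℂ`. -/
theorem exists_realizeC_eq_hChi_pow [NeZero N] (hpar : IsParabolicChar χ)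
    (hunit : ∀ γ, ‖((χ γ : ℂˣ) : ℂ)‖ = 1) {k : ℤ} (hk : 3 ≤ k) (hk2 : Even k) (p : ℕ)
    (hχp : ∀ γ, χ γ ^ p = 1) :
    ∃ u : FC N, realizeC N u = hChi hunit hk ^ p := by
  have hkk : ((p * k.toNat : ℕ) : ℤ) = (p : ℤ) * k := by
    push_cast
    rw [Int.toNat_of_nonneg (by omega)]
  have hA := (isWt_EchiHol_pow hpar hunit hk p hχp).congr_weight hkk.symm
  have hB := (isWt_EchiHol_pow (χ := (1 : ↥(Gamma0 N) →* ℂˣ)) isParabolicChar_one hunit_one hk p
    (fun _ => by simp)).congr_weight hkk.symm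
  have hB0 : EchiHol (χ := (1 : ↥(Gamma0 N) →* ℂˣ)) hunit_one hk ^ p ≠ 0 :=
    pow_ne_zero _ (EchiHol_ne_zero isParabolicChar_one hunit_one hk hk2)
  obtain ⟨u, hu⟩ := exists_realizeC_eq_div_of_isWt hA hB hB0
  refine ⟨u, ?_⟩
  rw [hu, map_pow, map_pow, ← div_pow]
  rfl

end character

section kummer

variable {N : ℕ} [NeZero N] (p : ℕ) [NeZero p]

/-- **(B2')** for every parabolic `φ : Γ₀(N) → ℤ/p` and every `p`-th root of unity `ζ` there is a
Kummer datum `(h_φ, u)` over the function field `FC N` of `X₀(N)` over `ℂ`. -/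
theorem exists_isKumDatum (ζ : rootsOfUnity p ℂ) (φ : Additive ↥(Gamma0 N) →+ ZMod p)
    (hφ : ModularCurve.Period.IsParabolicHom (Gamma0 N) φ) {k : ℤ} (hk : 3 ≤ k) (hk2 : Even k) :
    ∃ u : FC N, KumCore.IsKumDatum (realizeC N : FC N →+* Mer) (((ζ : ℂˣ) : ℂ)) φ
      (hPhi p ζ φ hk) u := by
  obtain ⟨u, hu⟩ := exists_realizeC_eq_hChi_pow (isParabolicChar_chiPhi p ζ φ hφ)
    (chiPhi_unit p ζ φ) hk hk2 p (chiPhi_pow p ζ φ)
  exact ⟨u, isKumDatum_hPhi p (realizeC N : FC N →+* Mer) ζ φ hφ hk hk2 u hu⟩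

end kummer

end

end Fermat.Agent.GJ.TwEis
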