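/-
GATE-J / J2 EIG-ASM, part 1 (helper86): Kummer data over `ℚ̄` attached to `p`-divisible units of
`FK N = ℚ̄(X₀(N))`, in the language of `EigIface` (`pDivUnits`, `Kum`).

`IsDat N p ζ ψ u` : the `p`-divisible unit `u` is (the `u`-part of) a Kummer datum for
`ψ : Γ₀(N) → ℤ/p` with respect to T24's realisation `realize N : FK N → Mer`.

* `IsDat.one/mul/pow/prod/sum_nsmul` : data multiply as the characters add;
* `IsDat.mk_eq` (K1, needs `SatQ`) : the Kummer class of a datum only depends on `ψ`;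
* `IsDat.eq_zero_of_mk_eq_one` (K2) : the class is trivial only for `ψ = 0`;
* `IsDat.heckeNormT` (K4) : Hecke norms of data are data for `cohT ψ`.
-/
import Mathlib
import Fermat.Agent.GJ.J2.KumCore
import Fermat.Agent.GJ.J2.EigIface
import Fermat.Agent.S24_helper82.Realize

set_option autoImplicit false
set_option linter.unusedSectionVars false

open UpperHalfPlane Complex CongruenceSubgroup AlgebraicCurve ModularCurve
open scoped MatrixGroups

noncomputable section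

namespace Fermat.Agent.GJ.EigAsm

open Fermat.Agent.S24_helper82 Fermat.Agent.GJ.HeckeMer Fermat.Agent.GJ.KumCore
open Fermat.Agent.GJ.KumGroup
open Fermat.Agent.S16_helper49 (cohT)

variable (N : ℕ) [NeZero N] (p : ℕ) [Fact p.Prime]

/-- T24's realisation `ℚ̄(X₀(N)) → Mer` as a ring homomorphism -/
def realQ : FK N →+* Mer := (realize N).toRingHom

theorem realQ_apply (f : FK N) : realQ N f = realize N f := rfl

theorem compM_realQ (γ : Gamma0 N) (f : FK N) : compM (γ : SL(2, ℤ)) (realQ N f) = realQ N f :=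
  compM_realize_of_mem_Gamma0 N γ.2 f

/-- **(SATQ)** saturation over `ℚ̄`: a `Γ₀(N)`-invariant meromorphic function whose `p`-th power
is (the realisation of) an element of `ℚ̄(X₀(N))` is itself one. -/
def SatQ : Prop :=
  ∀ m : Mer, (∀ γ : Gamma0 N, compM (γ : SL(2, ℤ)) m = m) → m ^ p ∈ Set.range (realQ N) →
    m ∈ Set.range (realQ N)

variable {N p}

/-- `u` is the `u`-part of a Kummer datum for `ψ` -/
def IsDat (ζ : ℂ) (ψ : Additive (Gamma0 N) →+ ZMod p) (u : pDivUnits Kb (FK N) p) : Prop :=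
  ∃ h : Mer, IsKumDatum (realQ N) ζ ψ h (((u : (FK N)ˣ) : FK N))

theorem IsDat.one (ζ : ℂ) : IsDat (N := N) (p := p) ζ 0 1 := by
  refine ⟨1, one_ne_zero, ?_, ?_⟩
  · rw [hasMult_zero_iff]
    intro γ
    exact map_one _
  · simp

theorem IsDat.mul {ζ : ℂ} (hζ : ζ ^ p = 1) {ψ ψ' : Additive (Gamma0 N) →+ ZMod p}
    {u u' : pDivUnits Kb (FK N) p} (D : IsDat ζ ψ u) (D' : IsDat ζ ψ' u') :
    IsDat ζ (ψ + ψ') (u * u') := by
  obtain ⟨h, h0, hm, hr⟩ := D
  obtain ⟨h', h0', hm', hr'⟩ := D'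
  refine ⟨h * h', mul_ne_zero h0 h0', hm.mul hζ hm', ?_⟩
  rw [Subgroup.coe_mul, Units.val_mul, map_mul, hr, hr', mul_pow]

theorem IsDat.pow {ζ : ℂ} (hζ : ζ ^ p = 1) {ψ : Additive (Gamma0 N) →+ ZMod p}
    {u : pDivUnits Kb (FK N) p} (D : IsDat ζ ψ u) (n : ℕ) : IsDat ζ (n • ψ) (u ^ n) := by
  induction n with
  | zero => simpa using IsDat.one ζ
  | succ n ih =>
    rw [succ_nsmul, pow_succ]
    exact ih.mul hζ D

theorem IsDat.prod {ζ : ℂ} (hζ : ζ ^ p = 1) {ι : Type*} (s : Finset ι)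
    {ψ : ι → (Additive (Gamma0 N) →+ ZMod p)} {u : ι → pDivUnits Kb (FK N) p}
    (D : ∀ i ∈ s, IsDat ζ (ψ i) (u i)) : IsDat ζ (∑ i ∈ s, ψ i) (∏ i ∈ s, u i) := by
  classical
  induction s using Finset.induction_on with
  | empty => simpa using IsDat.one ζ
  | insert a s ha ih =>
    rw [Finset.sum_insert ha, Finset.prod_insert ha]
    exact (D a (Finset.mem_insert_self a s)).mul hζ
      (ih fun i hi => D i (Finset.mem_insert_of_mem hi))

/-- data for `ψ i` give a datum for `∑ a i • ψ i` -/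
theorem IsDat.sum_nsmul {ζ : ℂ} (hζ : ζ ^ p = 1) {ι : Type*} (s : Finset ι)
    {ψ : ι → (Additive (Gamma0 N) →+ ZMod p)} {u : ι → pDivUnits Kb (FK N) p}
    (D : ∀ i ∈ s, IsDat ζ (ψ i) (u i)) (a : ι → ℕ) :
    IsDat ζ (∑ i ∈ s, a i • ψ i) (∏ i ∈ s, u i ^ a i) :=
  IsDat.prod hζ s fun i hi => (D i hi).pow hζ (a i)

/-- **(K1)** the Kummer class of a datum only depends on `ψ` -/
theorem IsDat.mk_eq (hsat : SatQ N p) {ζ : ℂ} (hζ : ζ ^ p = 1)
    {ψ : Additive (Gamma0 N) →+ ZMod p} {u u' : pDivUnits Kb (FK N) p}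
    (D : IsDat ζ ψ u) (D' : IsDat ζ ψ u') : Kum.mk u = Kum.mk u' := by
  obtain ⟨h, Dh⟩ := D
  obtain ⟨h', Dh'⟩ := D'
  obtain ⟨h1, D1⟩ := IsDat.one (N := N) (p := p) ζ
  have Dh'' : IsKumDatum (realQ N) ζ (ψ + 0) h' (((u' : (FK N)ˣ) : FK N)) := by
    rw [add_zero]
    exact Dh'
  obtain ⟨g, hg0, hg⟩ := IsKumDatum.exists_eq_mul_pow hsat hζ Dh D1 Dh''
  rw [Kum.mk_eq_mk_iff]
  refine ⟨Units.mk0 g hg0, ?_⟩
  apply Units.ext
  rw [hg]
  simp

/-- **(K2)** a datum with trivial Kummer class belongs to `ψ = 0` -/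
theorem IsDat.eq_zero_of_mk_eq_one {ζ : ℂ} (hζ : IsPrimitiveRoot ζ p)
    {ψ : Additive (Gamma0 N) →+ ZMod p} {u : pDivUnits Kb (FK N) p}
    (D : IsDat ζ ψ u) (h1 : Kum.mk u = 1) : ψ = 0 := by
  obtain ⟨h, Dh⟩ := D
  have h2 : Kum.mk (1 : pDivUnits Kb (FK N) p) = Kum.mk u := by rw [h1, map_one]
  rw [Kum.mk_eq_mk_iff] at h2
  obtain ⟨w, hw⟩ := h2
  have hw' : (((u : (FK N)ˣ) : FK N)) = (w : FK N) ^ p := by
    rw [hw]
    simp
  exact Dh.eq_zero_of_eq_pow (fun γ f => compM_realQ N γ f) hζ hw'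

end Fermat.Agent.GJ.EigAsm
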