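/-
GATE-J / J2 EIG-ASM, part 2 (helper86): hypothesis-form assembly of the J2 export
`KumGroup.EIG N p` (board 1334).

Inputs (as `Prop`s, all over `ℚ̄`, `real := realQ N = T24 realize`):

* `SatQ N p`     (saturation; from SAT over `ℂ` + root descent (D4));
* `ExQ N p ζ`    (existence of a Kummer datum for every good `ψ : Γ₀(N) → ℤ/p`;
                  from EIS + ROOT + F6 over `ℂ` and the descent `desc`);
* `PDivQ N p ζ`  (the `u`-part of ANY datum for a good `ψ` is `p`-divisible; (P) + (D1));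
* `HN1Q N`       (the series Hecke norm of `u ∈ FK N` lies in `FK N` and is realised by the
                  analytic Hecke norm `heckeNormT`);
* `LAT N p`      (every mod-`p` eigensystem occurs in the good part of `Hom(Γ₀(N), k0)`).

Output: `eig_of_Q : … → KumGroup.EIG N p`.

Method: write the eigenclass `χ : Γ₀(N) → k0` in an `𝔽_p`-basis `e` of `k0`, `χ = ∑ e i ψ_i`;
choose data `u i` for `ψ_i`; the eigenvector is `∑ e i ⊗ [u i]`.  Nonvanishing is (K2), the
eigen-relation is (K4) + (K1) + linear algebra in `k0 ⊗ Kum`.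
-/
import Mathlib
import Fermat.Agent.GJ.J2.EigData
import Fermat.Agent.GJ.J2.HeckePar

set_option autoImplicit false
set_option linter.unusedSectionVars false

open UpperHalfPlane Complex CongruenceSubgroup AlgebraicCurve ModularCurve ModularCurve.Period
open TensorProduct
open scoped MatrixGroups

noncomputable section

namespace Fermat.Agent.GJ.EigAsm

open Fermat.Agent.S24_helper82 Fermat.Agent.GJ.HeckeMer Fermat.Agent.GJ.KumCore
open Fermat.Agent.GJ.KumGroup
open Fermat.Agent.S16_helper49 (cohT cohT_comp)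

/-! ### Linear algebra in `k0 ⊗[ℤ] V`, `V` a `p`-torsion group -/

section LinAlg

variable {p : ℕ} [Fact p.Prime] {k0 : Type*} [Field k0] [Algebra (ZMod p) k0]
  {V : Type*} [AddCommGroup V]

/-- the `ℤ`-bilinear pairing `(a, v) ↦ π(a) • v` for a `ZMod p`-linear functional `π` on `k0`
and a `p`-torsion group `V` -/
def pairHom (hV : ∀ v : V, p • v = 0) (π : k0 →ₗ[ZMod p] ZMod p) : k0 ⊗[ℤ] V →+ V :=
  letI : Module (ZMod p) V := AddCommGroup.zmodModule hV
  TensorProduct.liftAddHom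
    (AddMonoidHom.mk' (fun a : k0 => AddMonoidHom.mk' (fun v : V => π a • v) (smul_add (π a)))
      (by
        intro a b
        refine AddMonoidHom.ext fun v => ?_
        show π (a + b) • v = π a • v + π b • v
        rw [map_add, add_smul]))
    (by
      intro r a v
      show π (r • a) • v = π a • (r • v)
      rw [map_zsmul, smul_assoc, smul_comm])

theorem pairHom_tmul (hV : ∀ v : V, p • v = 0) (π : k0 →ₗ[ZMod p] ZMod p) (a : k0) (v : V) :
    pairHom hV π (a ⊗ₜ[ℤ] v) = (π a).val • v := by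
  let _ : Module (ZMod p) V := AddCommGroup.zmodModule hV
  show π a • v = (π a).val • v
  conv_lhs => rw [← ZMod.natCast_zmod_val (π a)]
  rw [Nat.cast_smul_eq_nsmul]

/-- **nonvanishing**: for a basis `e` of `k0` over `ZMod p` and a `p`-torsion group `V`,
`∑ e i ⊗ x i = 0` only if all `x i = 0`. -/
theorem eq_zero_of_sum_tmul_eq_zero (hV : ∀ v : V, p • v = 0) {n : ℕ}
    (e : Module.Basis (Fin n) (ZMod p) k0) (x : Fin n → V)
    (h : ∑ i, e i ⊗ₜ[ℤ] x i = 0) (i : Fin n) : x i = 0 := by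
  classical
  have h1 := congrArg (pairHom hV (e.coord i)) h
  rw [map_sum, map_zero] at h1
  simp only [pairHom_tmul] at h1
  rw [Finset.sum_eq_single i] at h1
  · rw [Module.Basis.coord_apply, Module.Basis.repr_self, Finsupp.single_eq_same,
      ZMod.val_one, one_smul] at h1
    exact h1
  · intro j _ hji
    rw [Module.Basis.coord_apply, Module.Basis.repr_self, Finsupp.single_apply, if_neg hji,
      ZMod.val_zero, zero_smul]
  · intro hi
    exact absurd (Finset.mem_univ i) hi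

/-- **eigen-relation**: if `x' j = ∑ i, (coordinate j of t * e i) • x i`, then
`∑ e j ⊗ x' j = t • ∑ e i ⊗ x i`. -/
theorem sum_tmul_eq_smul {n : ℕ} (e : Module.Basis (Fin n) (ZMod p) k0) (t : k0)
    (x x' : Fin n → V)
    (h : ∀ j, x' j = ∑ i, (e.repr (t * e i) j).val • x i) :
    ∑ j, e j ⊗ₜ[ℤ] x' j = t • ∑ i, e i ⊗ₜ[ℤ] x i := by
  have key : ∀ i, t * e i = ∑ j, ((e.repr (t * e i) j).val : ℤ) • e j := by
    intro i
    conv_lhs => rw [← e.sum_repr (t * e i)]
    refine Finset.sum_congr rfl fun j _ => ?_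
    rw [Algebra.smul_def, zsmul_eq_mul, Int.cast_natCast]
    congr 1
    conv_lhs => rw [← ZMod.natCast_zmod_val (e.repr (t * e i) j)]
    rw [map_natCast]
  calc ∑ j, e j ⊗ₜ[ℤ] x' j
      = ∑ j, ∑ i, (((e.repr (t * e i) j).val : ℤ) • e j) ⊗ₜ[ℤ] x i := by
        refine Finset.sum_congr rfl fun j _ => ?_
        rw [h j, TensorProduct.tmul_sum]
        refine Finset.sum_congr rfl fun i _ => ?_
        rw [← natCast_zsmul, TensorProduct.smul_tmul]
    _ = ∑ i, (∑ j, ((e.repr (t * e i) j).val : ℤ) • e j) ⊗ₜ[ℤ] x i := by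
        rw [Finset.sum_comm]
        refine Finset.sum_congr rfl fun i _ => ?_
        rw [TensorProduct.sum_tmul]
    _ = ∑ i, (t * e i) ⊗ₜ[ℤ] x i := by
        refine Finset.sum_congr rfl fun i _ => ?_
        rw [← key i]
    _ = t • ∑ i, e i ⊗ₜ[ℤ] x i := by
        rw [Finset.smul_sum]
        refine Finset.sum_congr rfl fun i _ => ?_
        rw [TensorProduct.smul_tmul', smul_eq_mul]

end LinAlg

/-! ### Coordinates of a `k0`-valued homomorphism -/

section Coord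

variable {N : ℕ} {p : ℕ} [Fact p.Prime] {k0 : Type*} [Field k0] [Algebra (ZMod p) k0]

/-- the `i`-th coordinate of a `k0`-valued homomorphism -/
def coordHom {n : ℕ} (e : Module.Basis (Fin n) (ZMod p) k0) (χ : Additive (Gamma0 N) →+ k0)
    (i : Fin n) : Additive (Gamma0 N) →+ ZMod p :=
  (e.coord i).toAddMonoidHom.comp χ

theorem coordHom_apply {n : ℕ} (e : Module.Basis (Fin n) (ZMod p) k0)
    (χ : Additive (Gamma0 N) →+ k0) (i : Fin n) (g : Additive (Gamma0 N)) :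
    coordHom e χ i g = e.repr (χ g) i := rfl

theorem repr_mul_eq_sum {n : ℕ} (e : Module.Basis (Fin n) (ZMod p) k0) (t y : k0) (j : Fin n) :
    e.repr (t * y) j = ∑ i, (e.repr (t * e i) j).val • e.repr y i := by
  have hy : t * y = ∑ i, e.repr y i • (t * e i) := by
    conv_lhs => rw [← e.sum_repr y, Finset.mul_sum]
    refine Finset.sum_congr rfl fun i _ => ?_
    rw [mul_smul_comm]
  rw [hy, map_sum, Finsupp.finsetSum_apply]
  refine Finset.sum_congr rfl fun i _ => ?_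
  rw [map_smul, Finsupp.smul_apply, smul_eq_mul, nsmul_eq_mul, ZMod.natCast_zmod_val, mul_comm]

/-- coordinates of an eigen-homomorphism: `cohT ψ_j = ∑ i, (coordinate j of t * e i) • ψ_i`. -/
theorem cohT_coordHom {n : ℕ} (e : Module.Basis (Fin n) (ZMod p) k0)
    (χ : Additive (Gamma0 N) →+ k0) {ℓ : ℕ} [Fact ℓ.Prime] (hℓN : ¬ ℓ ∣ N) (t : k0)
    (hχ : ∀ g : Gamma0 N, cohT hℓN k0 χ (Additive.ofMul g) = t * χ (Additive.ofMul g))
    (j : Fin n) :
    cohT hℓN (ZMod p) (coordHom e χ j) = ∑ i, (e.repr (t * e i) j).val • coordHom e χ i := by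
  refine AddMonoidHom.ext fun g₀ => ?_
  obtain ⟨g, rfl⟩ : ∃ g : Gamma0 N, Additive.ofMul g = g₀ := ⟨Additive.toMul g₀, rfl⟩
  unfold coordHom
  rw [cohT_comp, AddMonoidHom.comp_apply, hχ g, AddMonoidHom.finsetSum_apply]
  show e.repr (t * χ (Additive.ofMul g)) j = _
  rw [repr_mul_eq_sum]
  rfl

/-- a homomorphism all of whose coordinates vanish is zero -/
theorem eq_zero_of_coordHom_eq_zero {n : ℕ} (e : Module.Basis (Fin n) (ZMod p) k0)
    (χ : Additive (Gamma0 N) →+ k0) (h : ∀ i, coordHom e χ i = 0) : χ = 0 := by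
  refine AddMonoidHom.ext fun g => ?_
  have h1 : e.repr (χ g) = 0 := by
    ext i
    have := DFunLike.congr_fun (h i) g
    rw [coordHom_apply] at this
    rw [this]
    rfl
  rw [AddMonoidHom.zero_apply, ← e.repr.map_eq_zero_iff]
  exact h1

end Coord

/-! ### Good characters -/

section Good

variable (N : ℕ)

/-- parabolic homomorphisms killing the elements of finite order -/
def IsGood {A : Type*} [AddCommGroup A] (ψ : Additive (Gamma0 N) →+ A) : Prop :=
  IsParabolicHom (Gamma0 N) ψ ∧ ∀ g : Gamma0 N, IsOfFinOrder g → ψ (Additive.ofMul g) = 0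

variable {N}

theorem IsGood.comp {A B : Type*} [AddCommGroup A] [AddCommGroup B]
    {ψ : Additive (Gamma0 N) →+ A} (h : IsGood N ψ) (f : A →+ B) : IsGood N (f.comp ψ) := by
  refine ⟨fun γ hγ => ?_, fun g hg => ?_⟩
  · rw [AddMonoidHom.comp_apply, h.1 γ hγ, map_zero]
  · rw [AddMonoidHom.comp_apply, h.2 g hg, map_zero]

theorem IsGood.cohT {A : Type*} [AddCommGroup A] {ψ : Additive (Gamma0 N) →+ A}
    (h : IsGood N ψ) {ℓ : ℕ} [Fact ℓ.Prime] (hℓN : ¬ ℓ ∣ N) : IsGood N (cohT hℓN A ψ) :=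
  ⟨Fermat.Agent.GJ.J2.Lat.cohT_isParabolicHom hℓN ψ h.1,
    Fermat.Agent.GJ.J2.Lat.cohT_kills_finOrder hℓN ψ h.2⟩

end Good

/-! ### The hypotheses -/

section Hyps

variable (N : ℕ) [NeZero N] (p : ℕ) [Fact p.Prime]

/-- **(EXQ)** every good character has a Kummer datum over `ℚ̄` -/
def ExQ (ζ : ℂ) : Prop :=
  ∀ ψ : Additive (Gamma0 N) →+ ZMod p, IsGood N ψ →
    ∃ (h : Mer) (u : FK N), IsKumDatum (realQ N) ζ ψ h u

/-- **(PDIVQ)** the `u`-part of any Kummer datum of a good character is `p`-divisible -/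
def PDivQ (ζ : ℂ) : Prop :=
  ∀ (ψ : Additive (Gamma0 N) →+ ZMod p) (h : Mer) (u : FK N), IsGood N ψ →
    IsKumDatum (realQ N) ζ ψ h u → ∀ P : Place Kb (FK N), (p : ℤ) ∣ P.ord u

/-- **(HN1Q)** the series Hecke norm of a function on `X₀(N)` is a function on `X₀(N)`, realised
by the analytic Hecke norm -/
def HN1Q : Prop :=
  ∀ (ℓ : ℕ) [Fact ℓ.Prime], ¬ ℓ ∣ N → ∀ u : FK N, u ≠ 0 →
    ∃ Tu : FK N, ((Tu : FK N) : LaurentSeries Kb)
        = heckeNormSeries ℓ ((u : FK N) : LaurentSeries Kb) ∧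
      realQ N Tu = heckeNormT ℓ (realQ N u)

/-- **(LAT)** every mod-`p` eigensystem of the Hecke algebra occurs on a nonzero good
`k0`-valued homomorphism of `Γ₀(N)` -/
def LAT : Prop :=
  ∀ (S : Set ℕ) (_ : ∀ ℓ : ℕ, ℓ.Prime → ℓ ∣ N → ℓ ∈ S)
    (k0 : Type) [Field k0] [Finite k0] [CharP k0 p]
    (θ : ↥(CuspForm.heckeAlgebra N 2 S) →+* k0),
    ∃ χ : Additive (Gamma0 N) →+ k0, χ ≠ 0 ∧ IsGood N χ ∧
      ∀ (ℓ : ℕ) (hℓ : ℓ.Prime) (hℓN : ¬ ℓ ∣ N) (hℓS : ℓ ∉ S) (g : Gamma0 N),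
        (@cohT N ℓ ⟨hℓ⟩ hℓN k0 _ χ) (Additive.ofMul g)
          = θ (CuspForm.heckeAlgebra.T hℓ hℓN hℓS) * χ (Additive.ofMul g)

end Hyps

/-! ### The assembly -/

section Asm

variable {N : ℕ} [NeZero N] {p : ℕ} [Fact p.Prime]

theorem nsmul_kum_eq_zero (v : Additive (Kum Kb (FK N) p)) : p • v = 0 := by
  obtain ⟨x, rfl⟩ : ∃ x : Kum Kb (FK N) p, Additive.ofMul x = v := ⟨Additive.toMul v, rfl⟩
  obtain ⟨u, rfl⟩ := Kum.mk_surjective x
  rw [← ofMul_pow, ← map_pow]
  have h : Kum.mk (1 : pDivUnits Kb (FK N) p) = Kum.mk (u ^ p) := by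
    rw [Kum.mk_eq_mk_iff]
    exact ⟨(u : (FK N)ˣ), by simp⟩
  rw [← h, map_one]
  rfl

/-- **J2 assembly**: `(SATQ) + (EXQ) + (PDIVQ) + (HN1Q) + (LAT) ⇒ EIG`. -/
theorem eig_of_Q {ζ : ℂ} (hζ : IsPrimitiveRoot ζ p) (hsat : SatQ N p) (hex : ExQ N p ζ)
    (hpd : PDivQ N p ζ) (hhn : HN1Q N) (hlat : LAT N p) : EIG N p := by
  intro S hS k0 _ _ _ θ
  obtain ⟨χ, hχ0, hχg, hχe⟩ := hlat S hS k0 θ
  letI : Algebra (ZMod p) k0 := ZMod.algebra k0 p
  haveI : Module.Finite (ZMod p) k0 := Module.Finite.of_finite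
  let e := Module.finBasis (ZMod p) k0
  -- the data
  have hgood : ∀ i, IsGood N (coordHom e χ i) := fun i => hχg.comp _
  choose h u hD using fun i => hex (coordHom e χ i) (hgood i)
  have hu0 : ∀ i, u i ≠ 0 := fun i => (hD i).ne_zero
  have hup : ∀ i, Units.mk0 (u i) (hu0 i) ∈ pDivUnits Kb (FK N) p :=
    fun i P => hpd _ _ _ (hgood i) (hD i) P
  let U : Fin (Module.finrank (ZMod p) k0) → pDivUnits Kb (FK N) p :=
    fun i => ⟨Units.mk0 (u i) (hu0 i), hup i⟩
  have hU : ∀ i, IsDat ζ (coordHom e χ i) (U i) := fun i => ⟨h i, hD i⟩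
  refine ⟨Module.finrank (ZMod p) k0, e, U, ?_, ?_⟩
  · -- nonvanishing
    intro h0
    have hall := eq_zero_of_sum_tmul_eq_zero (nsmul_kum_eq_zero (N := N) (p := p)) e
      (fun i => Additive.ofMul (Kum.mk (U i))) h0
    apply hχ0
    apply eq_zero_of_coordHom_eq_zero e χ
    intro i
    exact (hU i).eq_zero_of_mk_eq_one hζ (hall i)
  · intro ℓ hℓ hℓN hℓS
    haveI : Fact ℓ.Prime := ⟨hℓ⟩
    choose Tu hTs hTr using fun i => hhn ℓ hℓN (u i) (hu0 i)
    have hTD : ∀ i, IsKumDatum (realQ N) ζ (cohT hℓN (ZMod p) (coordHom e χ i))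
        (heckeNormT ℓ (h i)) (Tu i) :=
      fun i => (hD i).heckeNormT hζ.pow_eq_one hℓN (hTr i)
    have hT0 : ∀ i, Tu i ≠ 0 := fun i => (hTD i).ne_zero
    have hTp : ∀ i, Units.mk0 (Tu i) (hT0 i) ∈ pDivUnits Kb (FK N) p :=
      fun i P => hpd _ _ _ ((hgood i).cohT hℓN) (hTD i) P
    let U' : Fin (Module.finrank (ZMod p) k0) → pDivUnits Kb (FK N) p :=
      fun i => ⟨Units.mk0 (Tu i) (hT0 i), hTp i⟩
    refine ⟨U', fun i => hTs i, ?_⟩
    refine sum_tmul_eq_smul e (θ (CuspForm.heckeAlgebra.T hℓ hℓN hℓS))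
      (fun i => Additive.ofMul (Kum.mk (U i))) (fun j => Additive.ofMul (Kum.mk (U' j))) ?_
    intro j
    have hdat1 : IsDat ζ (cohT hℓN (ZMod p) (coordHom e χ j)) (U' j) := ⟨_, hTD j⟩
    rw [cohT_coordHom e χ hℓN _ (hχe ℓ hℓ hℓN hℓS) j] at hdat1
    have hdat2 := IsDat.sum_nsmul hζ.pow_eq_one Finset.univ (fun i _ => hU i)
      (fun i => (e.repr (θ (CuspForm.heckeAlgebra.T hℓ hℓN hℓS) * e i) j).val)
    have h3 := IsDat.mk_eq hsat hζ.pow_eq_one hdat1 hdat2
    show Additive.ofMul (Kum.mk (U' j)) = _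
    rw [h3, map_prod, ofMul_prod]
    refine Finset.sum_congr rfl fun i _ => ?_
    rw [map_pow, ofMul_pow]

end Asm

end Fermat.Agent.GJ.EigAsm
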