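/-
GATE-J / J2 EIG-ASM, part 3 (helper86): transfer `ℂ → ℚ̄`.

The inputs `SatQ`, `ExQ`, `PDivQ` of `eig_of_Q` (part 2) are derived from their `ℂ`-analogues
`SatC`, `ExC`, `PDivC` (about helper49's `realizeC : FC N → Mer`) and the descent bricks of
`GJ/Desc` (helper84), instantiated at `K = ℚ̄`, `L = ℂ` with the algebra structure given by T24's
embedding `iotaC : ℚ̄ → ℂ`:

* `DescP`     : conclusion of `Desc.descent` (every `p`-divisible unit of `FC N` is, modulo `p`-th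
                powers, the base change of a `p`-divisible unit of `FK N`);
* `D1`        : `bc u₀` `p`-divisible over `ℂ` ⇒ `u₀` `p`-divisible over `ℚ̄`   (`exists_place_over`);
* `D1conv`    : the converse (`dvd_ord_bcHom`);
* `IsPowDesc` : `bc u₀ = v ^ p ⇒ u₀ = v₀ ^ p`                                 (`isPow_of_bcHom_eq_pow`).

Glue: `realizeC_bcQ : realizeC N (bcQ N f) = realize N f`.
-/
import Mathlib
import Fermat.Agent.GJ.J2.Eig
import Fermat.Agent.GJ.J2.Dict.RealizeC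
import Fermat.Agent.GJ.Desc.Defs

set_option autoImplicit false
set_option linter.unusedSectionVars false

open UpperHalfPlane Complex CongruenceSubgroup AlgebraicCurve ModularCurve ModularCurve.Period
open scoped MatrixGroups

noncomputable section

namespace Fermat.Agent.GJ.EigAsm

open Fermat.Agent.S24 Fermat.Agent.S24_helper62 Fermat.Agent.S24_helper82
open Fermat.Agent.GJ.HeckeMer Fermat.Agent.GJ.KumCore Fermat.Agent.GJ.KumGroup
open Fermat.Agent.GJ.Dict Fermat.Agent.GJ.Desc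

/-! ### The base change `FK N → FC N` along `iotaC` -/

/-- `ℂ` as a `ℚ̄`-algebra through T24's embedding `iotaC` -/
@[reducible] def algKbC : Algebra Kb ℂ := iotaC.toAlgebra

attribute [local instance] algKbC

theorem algebraMap_Kb_C (a : Kb) : algebraMap Kb ℂ a = iotaC a := rfl

instance isScalarTower_Q_Kb_C : IsScalarTower ℚ Kb ℂ :=
  IsScalarTower.of_algebraMap_eq fun x =>
    RingHom.congr_fun (Subsingleton.elim (algebraMap ℚ ℂ)
      ((algebraMap Kb ℂ).comp (algebraMap ℚ Kb))) x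

variable (N : ℕ) [NeZero N]

/-- the base change `ℚ̄(X₀(N)) → ℂ(X₀(N))`, coefficientwise `iotaC` -/
def bcQ : FK N →+* FC N := bcHom Kb ℂ (modularFunctionFieldFull N)

theorem coe_bcQ (f : FK N) :
    ((bcQ N f : FC N) : LaurentSeries ℂ) = coeffMap iotaC (f : LaurentSeries Kb) := rfl

theorem bcQ_injective : Function.Injective (bcQ N) := (bcQ N).injective

theorem bcQ_algebraMap (a : Kb) :
    bcQ N (algebraMap Kb (FK N) a) = algebraMap ℂ (FC N) (iotaC a) :=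
  bcHom_algebraMap Kb ℂ (modularFunctionFieldFull N) a

theorem bcQ_jdF (d : ℕ) [NeZero d] (hd : d ∣ N) : bcQ N (jdF N d hd) = jdC N d hd := by
  apply Subtype.ext
  show coeffMap (algebraMap Kb ℂ) (coeffEmb Kb (qExpand ℚ d jq)) = jFam ℂ N ⟨d, hd⟩
  rw [coeffMap_coeffEmb', coeffEmb_qExpand, coeffEmb_jq, jFam]

/-- `realizeC ∘ bc` as a `ℚ̄`-algebra homomorphism -/
def realizeCbc : FK N →ₐ[Kb] Mer where
  __ := (realizeC N).toRingHom.comp (bcQ N)
  commutes' a := by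
    show realizeC N (bcQ N (algebraMap Kb (FK N) a)) = algebraMap Kb Mer a
    rw [bcQ_algebraMap, AlgHom.commutes, algebraMap_Kbar_Mer]

/-- **Glue**: the realisation over `ℂ` restricts to the realisation over `ℚ̄`. -/
theorem realizeC_bcQ (f : FK N) : realizeC N (bcQ N f) = realize N f := by
  have h : realizeCbc N = realize N := by
    apply algHom_ext_FN
    intro d _ hd
    show realizeC N (bcQ N (jdF N d hd)) = realize N (jdF N d hd)
    rw [bcQ_jdF, realizeC_jdC, realize_jdF]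
  exact DFunLike.congr_fun h f

/-- the realisation over `ℂ` as a ring homomorphism -/
def realC : FC N →+* Mer := (realizeC N).toRingHom

theorem realC_apply (f : FC N) : realC N f = realizeC N f := rfl

theorem realC_bcQ (f : FK N) : realC N (bcQ N f) = realQ N f := realizeC_bcQ N f

theorem compM_realC (γ : Gamma0 N) (f : FC N) :
    compM (γ : SL(2, ℤ)) (realC N f) = realC N f :=
  compM_realizeC_of_mem_Gamma0 N γ.2 f

/-! ### Hypotheses over `ℂ` and the descent bricks -/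

variable (p : ℕ) [Fact p.Prime]

/-- **(SATC)** saturation over `ℂ` (DICT-5, F5) -/
def SatC : Prop :=
  ∀ m : Mer, (∀ γ : Gamma0 N, compM (γ : SL(2, ℤ)) m = m) → m ^ p ∈ Set.range (realC N) →
    m ∈ Set.range (realC N)

/-- **(EXC)** every good character has a Kummer datum over `ℂ` (EIS + ROOT + F6) -/
def ExC (ζ : ℂ) : Prop :=
  ∀ ψ : Additive (Gamma0 N) →+ ZMod p, IsGood N ψ →
    ∃ (h : Mer) (u : FC N), IsKumDatum (realC N) ζ ψ h u

/-- **(PDIVC)** = (P): the `u`-part of any Kummer datum of a good character is `p`-divisible -/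
def PDivC (ζ : ℂ) : Prop :=
  ∀ (ψ : Additive (Gamma0 N) →+ ZMod p) (h : Mer) (u : FC N), IsGood N ψ →
    IsKumDatum (realC N) ζ ψ h u → ∀ Q : Place ℂ (FC N), (p : ℤ) ∣ Q.ord u

/-- **(DESC)** conclusion of `Desc.descent` at `K = ℚ̄`, `L = ℂ`, `F₀ = ℚ(X₀(N))` -/
def DescP : Prop :=
  ∀ u : FC N, u ≠ 0 → (∀ Q : Place ℂ (FC N), (p : ℤ) ∣ Q.ord u) →
    ∃ u₀ : FK N, u₀ ≠ 0 ∧ (∀ P : Place Kb (FK N), (p : ℤ) ∣ P.ord u₀) ∧
      ∃ v : FC N, v ≠ 0 ∧ u = bcQ N u₀ * v ^ p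

/-- **(D1)** `p`-divisibility descends along the base change (`exists_place_over`) -/
def D1 : Prop :=
  ∀ u₀ : FK N, (∀ Q : Place ℂ (FC N), (p : ℤ) ∣ Q.ord (bcQ N u₀)) →
    ∀ P : Place Kb (FK N), (p : ℤ) ∣ P.ord u₀

/-- **(D1conv)** `p`-divisibility is preserved by the base change (`dvd_ord_bcHom`) -/
def D1conv : Prop :=
  ∀ u₀ : FK N, (∀ P : Place Kb (FK N), (p : ℤ) ∣ P.ord u₀) →
    ∀ Q : Place ℂ (FC N), (p : ℤ) ∣ Q.ord (bcQ N u₀)

/-- **(LD-d)** injectivity of the base change on Kummer classes (`isPow_of_bcHom_eq_pow`) -/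
def IsPowDesc : Prop :=
  ∀ (u₀ : FK N) (v : FC N), bcQ N u₀ = v ^ p → ∃ v₀ : FK N, u₀ = v₀ ^ p

variable {N p}

/-! ### The transfer -/

/-- a Kummer datum over `ℚ̄` is a Kummer datum over `ℂ` -/
theorem isKumDatum_bcQ {ζ : ℂ} {ψ : Additive (Gamma0 N) →+ ZMod p} {h : Mer} {u : FK N}
    (D : IsKumDatum (realQ N) ζ ψ h u) : IsKumDatum (realC N) ζ ψ h (bcQ N u) :=
  ⟨D.1, D.2.1, by rw [realC_bcQ]; exact D.2.2⟩

/-- `(PDIVC) + (D1) ⇒ (PDIVQ)` -/
theorem pDivQ_of {ζ : ℂ} (hP : PDivC N p ζ) (hD1 : D1 N p) : PDivQ N p ζ :=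
  fun ψ h u hψ D => hD1 u (hP ψ h (bcQ N u) hψ (isKumDatum_bcQ D))

/-- `(EXC) + (PDIVC) + (DESC) ⇒ (EXQ)` -/
theorem exQ_of {ζ : ℂ} (hE : ExC N p ζ) (hP : PDivC N p ζ) (hD : DescP N p) : ExQ N p ζ := by
  intro ψ hψ
  obtain ⟨h, u, D⟩ := hE ψ hψ
  obtain ⟨u₀, hu₀, -, v, hv, huv⟩ := hD u D.ne_zero (hP ψ h u hψ D)
  have hrv : realC N v ≠ 0 := (map_ne_zero (realC N)).mpr hv
  refine ⟨h * (realC N v)⁻¹, u₀, mul_ne_zero D.1 (inv_ne_zero hrv), ?_, ?_⟩
  · intro γ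
    rw [map_mul, map_inv₀, compM_realC, D.2.1 γ, mul_assoc]
  · have h1 : realC N u = realQ N u₀ * realC N v ^ p := by
      rw [huv, map_mul, map_pow, realC_bcQ]
    rw [mul_pow, inv_pow, ← D.2.2, h1, mul_assoc, mul_inv_cancel₀ (pow_ne_zero _ hrv), mul_one]

/-- `(SATC) + (LD-d) ⇒ (SATQ)` -/
theorem satQ_of (hS : SatC N p) (hL : IsPowDesc N p) : SatQ N p := by
  intro m hm ⟨u₀, hu₀⟩
  obtain ⟨v, hv⟩ := hS m hm ⟨bcQ N u₀, by rw [realC_bcQ]; exact hu₀⟩
  have h1 : bcQ N u₀ = v ^ p := by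
    apply (realC N).injective
    rw [realC_bcQ, map_pow, hv, hu₀]
  obtain ⟨v₀, hv₀⟩ := hL u₀ v h1
  by_cases hv0 : v₀ = 0
  · refine ⟨0, ?_⟩
    rw [hv0, zero_pow (NeZero.ne p)] at hv₀
    rw [hv₀, map_zero] at hu₀
    rw [map_zero]
    exact (pow_eq_zero_iff (NeZero.ne p)).mp hu₀.symm |>.symm
  · have hr0 : realQ N v₀ ≠ 0 := (map_ne_zero (realQ N)).mpr hv0
    -- a primitive `p`-th root of unity in `ℚ̄`
    haveI : NeZero ((p : ℕ) : ℚ) := ⟨Nat.cast_ne_zero.mpr (NeZero.ne p)⟩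
    obtain ⟨ξ, hξ⟩ := HasEnoughRootsOfUnity.exists_primitiveRoot Kb p
    have hξ' : IsPrimitiveRoot (realQ N (algebraMap Kb (FK N) ξ)) p :=
      hξ.map_of_injective ((realQ N).comp (algebraMap Kb (FK N))).injective
    have hmp : m ^ p = (realQ N v₀) ^ p := by rw [← hu₀, hv₀, map_pow]
    have h2 : (m * (realQ N v₀)⁻¹) ^ p = 1 := by
      rw [mul_pow, inv_pow, hmp]
      exact mul_inv_cancel₀ (pow_ne_zero _ hr0)
    obtain ⟨i, -, hi⟩ := hξ'.eq_pow_of_pow_eq_one h2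
    refine ⟨algebraMap Kb (FK N) ξ ^ i * v₀, ?_⟩
    rw [map_mul, map_pow, hi, inv_mul_cancel_right₀ hr0]

/-- **J2 assembly over `ℂ`**: `EIG` from the `ℂ`-statements, the descent bricks, `HN1Q` and
`LAT`. -/
theorem eig_of_C {ζ : ℂ} (hζ : IsPrimitiveRoot ζ p) (hS : SatC N p) (hE : ExC N p ζ)
    (hP : PDivC N p ζ) (hD : DescP N p) (hD1 : D1 N p) (hL : IsPowDesc N p) (hhn : HN1Q N)
    (hlat : LAT N p) : EIG N p :=
  eig_of_Q hζ (satQ_of hS hL) (exQ_of hE hP hD) (pDivQ_of hP hD1) hhn hlat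

end Fermat.Agent.GJ.EigAsm

/-! ### Finiteness of the Kummer group -/

namespace Fermat.Agent.GJ.EigAsm

open Fermat.Agent.S24 Fermat.Agent.S24_helper62 Fermat.Agent.S24_helper82
open Fermat.Agent.GJ.HeckeMer Fermat.Agent.GJ.KumCore Fermat.Agent.GJ.KumGroup
open Fermat.Agent.GJ.Dict Fermat.Agent.GJ.Desc

variable (N : ℕ) [NeZero N] (p : ℕ) [Fact p.Prime]

/-- **(F_ℂ)** the Kummer group of `ℂ(X₀(N))` is finite -/
def FinC : Prop := Finite (Kum ℂ (FC N) p)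

variable {N p}

/-- base change on `p`-divisible units -/
def bcPDiv (hc : D1conv N p) : pDivUnits Kb (FK N) p →* pDivUnits ℂ (FC N) p :=
  MonoidHom.codRestrict ((Units.map (bcQ N : FK N →* FC N)).comp (pDivUnits Kb (FK N) p).subtype)
    (pDivUnits ℂ (FC N) p) (fun u => hc ((u : (FK N)ˣ) : FK N) u.2)

theorem coe_bcPDiv (hc : D1conv N p) (u : pDivUnits Kb (FK N) p) :
    (((bcPDiv hc u : pDivUnits ℂ (FC N) p) : (FC N)ˣ) : FC N) = bcQ N ((u : (FK N)ˣ) : FK N) :=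
  rfl

/-- base change on Kummer groups -/
def bcKum (hc : D1conv N p) : Kum Kb (FK N) p →* Kum ℂ (FC N) p :=
  QuotientGroup.lift (pPowers Kb (FK N) p) (Kum.mk.comp (bcPDiv hc)) (by
    intro x hx
    obtain ⟨w, hw⟩ := hx
    have hw' : w ^ p = (x : (FK N)ˣ) := hw
    show Kum.mk (bcPDiv hc x) = 1
    have h : Kum.mk (1 : pDivUnits ℂ (FC N) p) = Kum.mk (bcPDiv hc x) := by
      rw [Kum.mk_eq_mk_iff]
      refine ⟨Units.map (bcQ N : FK N →* FC N) w, ?_⟩
      apply Units.ext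
      rw [Subgroup.coe_one, one_mul, coe_bcPDiv, ← hw']
      simp
    rw [← h, map_one])

theorem bcKum_mk (hc : D1conv N p) (u : pDivUnits Kb (FK N) p) :
    bcKum hc (Kum.mk u) = Kum.mk (bcPDiv hc u) := rfl

theorem bcKum_injective (hc : D1conv N p) (hL : IsPowDesc N p) :
    Function.Injective (bcKum hc) := by
  rw [injective_iff_map_eq_one]
  intro x hx
  obtain ⟨u, rfl⟩ := Kum.mk_surjective x
  rw [bcKum_mk] at hx
  have h : Kum.mk (1 : pDivUnits ℂ (FC N) p) = Kum.mk (bcPDiv hc u) := by rw [hx, map_one]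
  rw [Kum.mk_eq_mk_iff] at h
  obtain ⟨w, hw⟩ := h
  have hw' : bcQ N ((u : (FK N)ˣ) : FK N) = (w : FC N) ^ p := by
    rw [← coe_bcPDiv hc, hw]
    simp
  obtain ⟨v₀, hv₀⟩ := hL _ _ hw'
  have hv0 : v₀ ≠ 0 := by
    rintro rfl
    rw [zero_pow (NeZero.ne p)] at hv₀
    exact (u : (FK N)ˣ).ne_zero hv₀
  have h2 : Kum.mk (1 : pDivUnits Kb (FK N) p) = Kum.mk u := by
    rw [Kum.mk_eq_mk_iff]
    refine ⟨Units.mk0 v₀ hv0, ?_⟩
    apply Units.ext
    rw [hv₀]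
    simp
  rw [← h2, map_one]

/-- **FIN**: `(F_ℂ) + (D1conv) + (LD-d) ⇒ FIN`. -/
theorem fin_of_C (hF : FinC N p) (hc : D1conv N p) (hL : IsPowDesc N p) : FIN N p := by
  haveI : Finite (Kum ℂ (FC N) p) := hF
  exact Finite.of_injective _ (bcKum_injective hc hL)

end Fermat.Agent.GJ.EigAsm
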