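/-
GATE-J / J2, cusp half of (P) PDivC (helper94).

* `hasOrdAtImInfty_of_isMeroCusp` : a nonzero function meromorphic at the cusp (S28 `IsMeroCusp`)
  is `𝕢 ^ n * u(𝕢)` with `u` analytic and nonvanishing at `0`, `n` the order of its Laurent
  expansion (bridge to helper65's `Root.HasOrdAtImInfty`).
* `MerCE.merOrdAtImInfty` : an element of `Mer` with cusp expansion `L ≠ 0` has
  `Root.MerOrdAtImInfty` of order `L.order`.
-/
import Fermat.Agent.GJ.J2.TwistedEisCusp
import Fermat.Agent.GJ.J2.RootCusp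

set_option autoImplicit false

open Complex UpperHalfPlane Set Filter Topology Function
open scoped MatrixGroups Manifold
open Fermat.Agent.S24_helper82 Fermat.Agent.S28 Fermat.Agent.S28.MeroCusp Fermat.Agent.GJ.Root

namespace Fermat.Agent.GJ.TwEis

noncomputable section

local notation "𝕢" => Function.Periodic.qParam

/-- **order zero**: a function meromorphic at the cusp whose Laurent expansion has order `0` is
`u(𝕢)` with `u` analytic at `0` and `u 0 ≠ 0`. -/
theorem exists_analytic_of_order_zero {W : ℝ} (hW : 0 < W) {f : ℍ → ℂ} (hf : IsMeroCusp W f)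
    (hL : laurentExp W f ≠ 0) (h0 : (laurentExp W f).order = 0) :
    ∃ u : ℂ → ℂ, AnalyticAt ℂ u 0 ∧ u 0 ≠ 0 ∧ ∀ τ : ℍ, f τ = u (𝕢 W τ) := by
  have hb : IsBoundedAtImInfty f :=
    poleBound_zero_iff.mp (hf.poleBound_of_le_order hW (m := 0) (by simp [h0]))
  have han := analyticAt_cuspFunction_zero hW hf.periodic hf.mdiff hb
  refine ⟨cuspFunction W f, han, ?_, fun τ => (eq_cuspFunction τ hW.ne' hf.periodic).symm⟩
  rw [cuspFunction_apply_zero hW han hf.periodic, ← qExpansion_coeff_zero hW han hf.periodic]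
  have h1 : laurentExp W f = HahnSeries.ofPowerSeries ℤ ℂ (qExpansion W f) :=
    laurentExp_of_bounded hW hf.mdiff hf.periodic hb
  have h2 : (laurentExp W f).coeff 0 ≠ 0 := by
    have := HahnSeries.coeff_order_eq_zero.not.mpr hL
    rwa [h0] at this
  rw [h1] at h2
  have h3 : (HahnSeries.ofPowerSeries ℤ ℂ (qExpansion W f)).coeff ((0 : ℕ) : ℤ) =
      PowerSeries.coeff 0 (qExpansion W f) := HahnSeries.ofPowerSeries_apply_coeff _ 0
  rw [Nat.cast_zero] at h3
  rwa [h3] at h2

/-- **(1)** a nonzero function meromorphic at the cusp has an order at `i∞` in the sense of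
`RootCusp.lean`, equal to the order of its Laurent expansion. -/
theorem hasOrdAtImInfty_of_isMeroCusp {W : ℝ} (hW : 0 < W) {f : ℍ → ℂ} (hf : IsMeroCusp W f)
    (hf0 : f ≠ 0) : HasOrdAtImInfty W f (laurentExp W f).order := by
  have hL : laurentExp W f ≠ 0 := laurentExp_ne_zero hW hf hf0
  set n0 : ℤ := (laurentExp W f).order with hn0
  set r : ℕ := n0.toNat with hr
  set m : ℕ := (-n0).toNat with hm
  have hrm : n0 = (r : ℤ) - (m : ℤ) := by omega
  -- `f'' = f * 𝕢 ^ m / 𝕢 ^ r`
  have hqr : IsMeroCusp W (qPow W r)⁻¹ :=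
    (isMeroCusp_qPow hW r).inv hW (fun τ => qPow_ne_zero r τ)
  set f'' : ℍ → ℂ := f * qPow W m * (qPow W r)⁻¹ with hf''
  have hf''m : IsMeroCusp W f'' := (hf.mul (isMeroCusp_qPow hW m)).mul hqr
  have hrel : f'' * qPow W r = f * qPow W m := by
    funext τ
    simp only [hf'', Pi.mul_apply, Pi.inv_apply]
    rw [mul_assoc, inv_mul_cancel₀ (qPow_ne_zero r τ), mul_one]
  have hLrel : laurentExp W f'' * HahnSeries.single (r : ℤ) (1 : ℂ) =
      laurentExp W f * HahnSeries.single (m : ℤ) (1 : ℂ) := by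
    rw [← laurentExp_qPow hW r, ← laurentExp_qPow hW m,
      ← laurentExp_mul hW hf''m (isMeroCusp_qPow hW r),
      ← laurentExp_mul hW hf (isMeroCusp_qPow hW m), hrel]
  have hs : ∀ a : ℤ, (HahnSeries.single a (1 : ℂ)) ≠ 0 := fun a => by simp
  have hL'' : laurentExp W f'' ≠ 0 := by
    intro h
    rw [h, zero_mul] at hLrel
    exact mul_ne_zero hL (hs _) hLrel.symm
  have hord : (laurentExp W f'').order = 0 := by
    have h1 := congrArg HahnSeries.order hLrel
    rw [HahnSeries.order_mul hL'' (hs _), HahnSeries.order_mul hL (hs _),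
      HahnSeries.order_single one_ne_zero, HahnSeries.order_single one_ne_zero] at h1
    omega
  obtain ⟨u, hu, hu0, huf⟩ := exists_analytic_of_order_zero hW hf''m hL'' hord
  refine ⟨u, hu, hu0, Filter.Eventually.of_forall fun τ => ?_⟩
  have hq : 𝕢 W (τ : ℂ) ≠ 0 := Function.Periodic.qParam_ne_zero _
  have h1 := congrFun hrel τ
  simp only [Pi.mul_apply, qPow_apply] at h1
  rw [huf τ] at h1
  rw [hrm, zpow_sub₀ hq, zpow_natCast, zpow_natCast]
  field_simp
  linear_combination -h1

/-- **(2)** an element of `Mer` with a nonzero cusp expansion `L` has order `L.order` at `i∞` in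
the sense of `RootCusp.lean`. -/
theorem MerCE.merOrdAtImInfty {W : ℝ} (hW : 0 < W) {F : Mer} {L : LaurentSeries ℂ}
    (hF : MerCE W F L) (hL : L ≠ 0) : MerOrdAtImInfty W F L.order := by
  obtain ⟨a, b, hb, ham, hbm, hFe, hE⟩ := hF
  have hb0 : laurentExp W (b : ℍ → ℂ) ≠ 0 := laurentExp_hol_ne_zero hW hb hbm
  have ha0 : laurentExp W (a : ℍ → ℂ) ≠ 0 := by
    rw [← hE]
    exact mul_ne_zero hb0 hL
  have ha : (a : ℍ → ℂ) ≠ 0 := by
    intro h
    apply ha0
    rw [h]
    exact laurentExp_zero hW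
  have hbM : algebraMap Hol Mer b ≠ 0 := algebraMap_ne_zero hb
  have h1 := MerOrdAtImInfty.of_hol hW (hasOrdAtImInfty_of_isMeroCusp hW ham ha)
    (hasOrdAtImInfty_of_isMeroCusp hW hbm (coe_ne_zero_of_ne_zero hb))
  have h2 : algebraMap Hol Mer a / algebraMap Hol Mer b = F := by
    rw [div_eq_iff hbM, mul_comm, hFe]
  have h3 : (laurentExp W (a : ℍ → ℂ)).order - (laurentExp W (b : ℍ → ℂ)).order = L.order := by
    rw [← hE, HahnSeries.order_mul hb0 hL]
    ring
  rwa [h2, h3] at h1

end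

end Fermat.Agent.GJ.TwEis
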