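/-
GATE-J / J2-ROOT (helper65), analytic part: holomorphic `p`-th roots on the upper half plane.
If `A` is holomorphic on `ℍ`, `A ≢ 0`, and `p` divides the order of vanishing of `A` at every point,
then `A = H ^ p` with `H` holomorphic on `ℍ`.
Proof: on a closed disc inside `ℍ` Mathlib's `MeromorphicOn.extract_zeros_poles` factors
`A = ∏ (z - u)^(D u) · g` with `g` analytic and nowhere zero; `g = exp L` on the open disc
(`DifferentiableOn.isExactOn_ball`); roots on different discs through a base point agree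
(identity theorem), so they glue.
Mathlib + `S24_helper82.HolOrd` (only for the final `Hol` wrapper).
-/
import Mathlib
import Fermat.Agent.S24_helper82.HolOrd

set_option autoImplicit false

open Complex Metric Set Filter Topology

namespace Fermat.Agent.GJ.Root

/-! ### logarithms and roots of nowhere vanishing holomorphic functions on a disc -/

/-- a nowhere vanishing holomorphic function on a disc is `exp L` -/
theorem exists_log_ball {c : ℂ} {r : ℝ} {g : ℂ → ℂ} (hg : DifferentiableOn ℂ g (ball c r))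
    (hne : ∀ z ∈ ball c r, g z ≠ 0) :
    ∃ L : ℂ → ℂ, DifferentiableOn ℂ L (ball c r) ∧ ∀ z ∈ ball c r, g z = exp (L z) := by
  by_cases hr : 0 < r
  swap
  · refine ⟨fun _ => 0, differentiableOn_const _, ?_⟩
    intro z hz
    exfalso
    rw [mem_ball] at hz
    exact hr (lt_of_le_of_lt dist_nonneg hz)
  have hc : c ∈ ball c r := mem_ball_self hr
  have hdg : DifferentiableOn ℂ (deriv g) (ball c r) := hg.deriv isOpen_ball
  have hφ : DifferentiableOn ℂ (fun z => deriv g z / g z) (ball c r) := hdg.div hg hne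
  obtain ⟨L, hLc, hL⟩ := (hφ.isExactOn_ball).with_val_at c (Complex.log (g c))
  have hLd : DifferentiableOn ℂ L (ball c r) := fun z hz =>
    (hL z hz).differentiableAt.differentiableWithinAt
  refine ⟨L, hLd, ?_⟩
  -- `k = g * exp (-L)` is constant
  set k : ℂ → ℂ := fun z => g z * exp (-L z) with hk
  have hkd : ∀ z ∈ ball c r, HasDerivAt k 0 z := by
    intro z hz
    have h1 : HasDerivAt g (deriv g z) z :=
      ((hg z hz).differentiableAt (isOpen_ball.mem_nhds hz)).hasDerivAt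
    have h2 : HasDerivAt (fun z => exp (-L z)) (exp (-L z) * -(deriv g z / g z)) z :=
      ((hL z hz).neg).cexp
    have h3 := h1.mul h2
    have h4 : deriv g z * exp (-L z) + g z * (exp (-L z) * -(deriv g z / g z)) = 0 := by
      have := hne z hz
      field_simp
      ring
    rw [h4] at h3
    exact h3
  have hkdiff : DifferentiableOn ℂ k (ball c r) := fun z hz =>
    (hkd z hz).differentiableAt.differentiableWithinAt
  have hconst : ∀ z ∈ ball c r, k z = k c := by
    intro z hz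
    exact isOpen_ball.is_const_of_deriv_eq_zero (convex_ball c r).isPreconnected hkdiff
      (fun w hw => (hkd w hw).deriv) hz hc
  have hkc : k c = 1 := by
    simp only [hk, hLc]
    rw [Complex.exp_neg, Complex.exp_log (hne c hc)]
    exact mul_inv_cancel₀ (hne c hc)
  intro z hz
  have h5 := hconst z hz
  rw [hkc] at h5
  simp only [hk] at h5
  rw [Complex.exp_neg] at h5
  have h6 : exp (L z) ≠ 0 := Complex.exp_ne_zero _
  field_simp at h5
  exact h5

/-- a nowhere vanishing holomorphic function on a disc is a `p`-th power -/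
theorem exists_root_ball_of_ne_zero {p : ℕ} (hp : 0 < p) {c : ℂ} {r : ℝ} {g : ℂ → ℂ}
    (hg : DifferentiableOn ℂ g (ball c r)) (hne : ∀ z ∈ ball c r, g z ≠ 0) :
    ∃ R : ℂ → ℂ, DifferentiableOn ℂ R (ball c r) ∧ ∀ z ∈ ball c r, R z ^ p = g z := by
  obtain ⟨L, hLd, hL⟩ := exists_log_ball hg hne
  refine ⟨fun z => exp (L z / p), ?_, ?_⟩
  · exact (hLd.div_const _).cexp
  · intro z hz
    rw [hL z hz, ← Complex.exp_nat_mul]
    congr 1
    have : (p : ℂ) ≠ 0 := by exact_mod_cast hp.ne'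
    field_simp

/-! ### uniqueness of roots through a base point -/

theorem root_unique {p : ℕ} (hp : 0 < p) {V : Set ℂ} (hV : IsOpen V) (hVc : IsPreconnected V)
    {H₁ H₂ : ℂ → ℂ} (h1 : DifferentiableOn ℂ H₁ V) (h2 : DifferentiableOn ℂ H₂ V)
    (hpow : ∀ z ∈ V, H₁ z ^ p = H₂ z ^ p) {z₀ : ℂ} (hz₀ : z₀ ∈ V) (h0 : H₁ z₀ = H₂ z₀)
    (hne : H₂ z₀ ≠ 0) : EqOn H₁ H₂ V := by
  have a1 := h1.analyticOnNhd hV
  have a2 := h2.analyticOnNhd hV
  refine a1.eqOn_of_preconnected_of_eventuallyEq a2 hVc hz₀ ?_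
  -- the cofactor `S = ∑ H₁^i H₂^(p-1-i)` is nonzero near `z₀`
  set S : ℂ → ℂ := fun z => ∑ i ∈ Finset.range p, H₁ z ^ i * H₂ z ^ (p - 1 - i) with hS
  have hSc : ContinuousAt S z₀ := by
    have c1 : ContinuousAt H₁ z₀ := (a1 z₀ hz₀).continuousAt
    have c2 : ContinuousAt H₂ z₀ := (a2 z₀ hz₀).continuousAt
    simp only [hS]
    exact tendsto_finsetSum _ fun i _ => (c1.pow i).mul (c2.pow _)
  have hS0 : S z₀ ≠ 0 := by
    simp only [hS, h0]
    have : ∀ i ∈ Finset.range p, H₂ z₀ ^ i * H₂ z₀ ^ (p - 1 - i) = H₂ z₀ ^ (p - 1) := by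
      intro i hi
      rw [← pow_add]
      congr 1
      have := Finset.mem_range.1 hi
      omega
    rw [Finset.sum_congr rfl this, Finset.sum_const, Finset.card_range, nsmul_eq_mul]
    exact mul_ne_zero (by exact_mod_cast hp.ne') (pow_ne_zero _ hne)
  have hev : ∀ᶠ z in 𝓝 z₀, S z ≠ 0 := hSc.eventually_ne hS0
  have hevV : ∀ᶠ z in 𝓝 z₀, z ∈ V := hV.mem_nhds hz₀
  filter_upwards [hev, hevV] with z hz hzV
  have key : S z * (H₁ z - H₂ z) = H₁ z ^ p - H₂ z ^ p := (Commute.all _ _).geom_sum₂_mul p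
  rw [hpow z hzV, sub_self] at key
  rcases mul_eq_zero.1 key with h | h
  · exact absurd h hz
  · exact sub_eq_zero.1 h

/-! ### roots on a disc, with zeros -/

/-- holomorphic `p`-th root on a disc whose closure lies in the domain of analyticity -/
theorem exists_root_ball {p : ℕ} (hp : 0 < p) {c : ℂ} {r : ℝ} {A : ℂ → ℂ}
    (hA : AnalyticOnNhd ℂ A (closedBall c r))
    (hne : ∀ z ∈ closedBall c r, analyticOrderAt A z ≠ ⊤)
    (hdiv : ∀ z ∈ closedBall c r, ∃ m : ℕ, analyticOrderAt A z = ((p * m : ℕ) : ℕ∞)) :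
    ∃ H : ℂ → ℂ, DifferentiableOn ℂ H (ball c r) ∧ ∀ z ∈ ball c r, H z ^ p = A z := by
  classical
  set U : Set ℂ := closedBall c r with hU
  have hM : MeromorphicOn A U := hA.meromorphicOn
  have h2 : ∀ u : U, meromorphicOrderAt A u ≠ ⊤ := by
    intro u
    rw [(hA u u.2).meromorphicOrderAt_eq]
    have := hne u u.2
    cases h : analyticOrderAt A (u : ℂ) with
    | top => exact absurd h this
    | coe n => simp
  set D := MeromorphicOn.divisor A U with hD
  have h3 : D.support.Finite := D.finiteSupport (isCompact_closedBall c r)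
  obtain ⟨g, hg_an, hg_ne, hfg⟩ := hM.extract_zeros_poles h2 h3
  -- the divisor is `p` times a natural number everywhere
  have hDp : ∀ u : ℂ, ∃ m : ℕ, D u = ((p * m : ℕ) : ℤ) := by
    intro u
    by_cases hu : u ∈ U
    · obtain ⟨m, hm⟩ := hdiv u hu
      refine ⟨m, ?_⟩
      rw [hD, MeromorphicOn.divisor_apply hM hu, (hA u hu).meromorphicOrderAt_eq, hm]
      simp
    · refine ⟨0, ?_⟩
      rw [hD]
      simp [hu]
  choose e he using hDp
  -- the polynomial part of the root
  set P : ℂ → ℂ := fun z => ∏ᶠ u, (z - u) ^ e u with hP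
  have hsupp : ∀ z : ℂ, (Function.mulSupport fun u => (z - u) ^ e u) ⊆ h3.toFinset := by
    intro z u hu
    simp only [Function.mem_mulSupport] at hu
    rw [Set.Finite.coe_toFinset, Function.mem_support]
    intro h0
    apply hu
    have := he u
    rw [h0] at this
    have h1 : p * e u = 0 := by exact_mod_cast this.symm
    have h2 : e u = 0 := by
      rcases Nat.mul_eq_zero.1 h1 with h | h
      · omega
      · exact h
    rw [h2, pow_zero]
  have hPprod : ∀ z, P z = ∏ u ∈ h3.toFinset, (z - u) ^ e u := by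
    intro z
    exact finprod_eq_prod_of_mulSupport_subset _ (hsupp z)
  have hPdiff : Differentiable ℂ P := by
    have : P = fun z => ∏ u ∈ h3.toFinset, (z - u) ^ e u := funext hPprod
    rw [this]
    exact Differentiable.fun_finsetProd fun u _ => (differentiable_id.sub_const u).fun_pow _
  -- `P^p` is the factorized rational function of Mathlib
  have hPpow : ∀ z, (∏ᶠ u, (fun x : ℂ => x - u) ^ D u) z = P z ^ p := by
    intro z
    rw [Function.FactorizedRational.finprod_eq_fun h3]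
    simp only [hP]
    rw [finprod_pow ((h3.toFinset.finite_toSet).subset (hsupp z))]
    apply finprod_congr
    intro u
    rw [he u, zpow_natCast, pow_mul']
  -- the root of the unit part
  have hgd : DifferentiableOn ℂ g (ball c r) :=
    (hg_an.mono ball_subset_closedBall).differentiableOn
  have hgne : ∀ z ∈ ball c r, g z ≠ 0 := fun z hz => hg_ne ⟨z, ball_subset_closedBall hz⟩
  obtain ⟨R, hRd, hR⟩ := exists_root_ball_of_ne_zero hp hgd hgne
  refine ⟨fun z => P z * R z, hPdiff.differentiableOn.mul hRd, ?_⟩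
  intro z hz
  have hzU : z ∈ U := ball_subset_closedBall hz
  rw [mul_pow, hR z hz]
  -- equality on a punctured neighbourhood, then by continuity
  have hmem := mem_codiscreteWithin.1 hfg z hzU
  have hev : ∀ᶠ y in 𝓝[≠] z, A y = P y ^ p * g y := by
    have h5 : ∀ᶠ y in 𝓝[≠] z, y ∈ ball c r :=
      mem_nhdsWithin_of_mem_nhds (isOpen_ball.mem_nhds hz)
    have h6 : ∀ᶠ y in 𝓝[≠] z, y ∉ U \ {x | A x = ((∏ᶠ u, (fun x : ℂ => x - u) ^ D u) • g) x} := by
      rw [Filter.disjoint_principal_right] at hmem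
      exact hmem
    filter_upwards [h5, h6] with y hy1 hy2
    have hyU : y ∈ U := ball_subset_closedBall hy1
    have : A y = ((∏ᶠ u, (fun x : ℂ => x - u) ^ D u) • g) y := by
      by_contra hcon
      exact hy2 ⟨hyU, hcon⟩
    rw [this, Pi.smul_apply', hPpow y, smul_eq_mul]
  have hcA : ContinuousAt A z := (hA z hzU).continuousAt
  have hcR : ContinuousAt (fun y => P y ^ p * g y) z :=
    ((hPdiff.continuous.continuousAt).pow p).mul (hg_an z hzU).continuousAt
  have := (hcA.eventuallyEq_nhds_iff_eventuallyEq_nhdsNE hcR).1 hev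
  exact this.self_of_nhds.symm

/-! ### discs in the upper half plane -/

/-- two points of the upper half plane lie in a common disc whose closure is in the upper half
plane -/
theorem exists_disc {z₀ z : ℂ} (h0 : 0 < z₀.im) (hz : 0 < z.im) :
    ∃ (c : ℂ) (r : ℝ), closedBall c r ⊆ {w : ℂ | 0 < w.im} ∧ z₀ ∈ ball c r ∧ z ∈ ball c r := by
  set δ : ℝ := min z₀.im z.im / 2 with hδ
  have hδpos : 0 < δ := by
    have : 0 < min z₀.im z.im := lt_min h0 hz
    positivity
  have hδ0 : 2 * δ ≤ z₀.im := by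
    have := min_le_left z₀.im z.im
    linarith
  have hδz : 2 * δ ≤ z.im := by
    have := min_le_right z₀.im z.im
    linarith
  set t : ℝ := δ + 1 + (normSq z₀ + normSq z) / (2 * δ) with ht
  have hn0 : 0 ≤ normSq z₀ := normSq_nonneg _
  have hnz : 0 ≤ normSq z := normSq_nonneg _
  have hq : 0 ≤ (normSq z₀ + normSq z) / (2 * δ) := by positivity
  have htδ : δ + 1 ≤ t := by linarith
  have h2tδ : normSq z₀ + normSq z < 2 * t * δ := by
    have h1 : (normSq z₀ + normSq z) / (2 * δ) * (2 * δ) = normSq z₀ + normSq z := by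
      field_simp
    have h2 : 2 * t * δ = (δ + 1) * (2 * δ) + (normSq z₀ + normSq z) / (2 * δ) * (2 * δ) := by
      rw [ht]; ring
    rw [h2, h1]
    nlinarith
  -- a point `w` with `2δ ≤ Im w` and `|w|² < 2tδ` lies in the ball
  have key : ∀ w : ℂ, 2 * δ ≤ w.im → normSq w < 2 * t * δ → w ∈ ball ((t : ℂ) * I) (t - δ) := by
    intro w hw1 hw2
    rw [mem_ball, Complex.dist_eq]
    have hpos : 0 < t - δ := by linarith
    have hsq : ‖w - (t : ℂ) * I‖ ^ 2 < (t - δ) ^ 2 := by
      rw [← Complex.normSq_eq_norm_sq, Complex.normSq_apply]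
      simp only [sub_re, mul_re, ofReal_re, I_re, mul_zero, ofReal_im, I_im, mul_one, sub_self,
        sub_zero, sub_im, mul_im, add_zero]
      rw [Complex.normSq_apply] at hw2
      nlinarith
    exact lt_of_pow_lt_pow_left₀ 2 hpos.le hsq
  refine ⟨(t : ℂ) * I, t - δ, ?_, ?_, ?_⟩
  · intro w hw
    rw [mem_closedBall, Complex.dist_eq] at hw
    have h1 : |(w - (t : ℂ) * I).im| ≤ ‖w - (t : ℂ) * I‖ := Complex.abs_im_le_norm _
    have h2 : (w - (t : ℂ) * I).im = w.im - t := by simp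
    rw [h2] at h1
    have h3 := neg_abs_le (w.im - t)
    show 0 < w.im
    linarith
  · exact key z₀ hδ0 (by linarith)
  · exact key z hδz (by linarith)

/-! ### the global root -/

/-- **holomorphic `p`-th roots on the upper half plane** (function form) -/
theorem exists_root_uhp {p : ℕ} (hp : 0 < p) {A : ℂ → ℂ}
    (hA : AnalyticOnNhd ℂ A {w : ℂ | 0 < w.im})
    (hne : ∀ z ∈ {w : ℂ | 0 < w.im}, analyticOrderAt A z ≠ ⊤)
    (hdiv : ∀ z ∈ {w : ℂ | 0 < w.im}, ∃ m : ℕ, analyticOrderAt A z = ((p * m : ℕ) : ℕ∞)) :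
    ∃ H : ℂ → ℂ, DifferentiableOn ℂ H {w : ℂ | 0 < w.im} ∧
      ∀ z ∈ {w : ℂ | 0 < w.im}, H z ^ p = A z := by
  classical
  set U : Set ℂ := {w : ℂ | 0 < w.im} with hU
  have hUo : IsOpen U := isOpen_lt continuous_const Complex.continuous_im
  -- a base point where `A` does not vanish
  obtain ⟨z₀, hz₀, hAz₀⟩ : ∃ z₀ ∈ U, A z₀ ≠ 0 := by
    have hI : I ∈ U := by simp [hU]
    have h1 : ¬ ∀ᶠ z in 𝓝 I, A z = 0 := fun h => hne I hI (analyticOrderAt_eq_top.2 h)
    have h2 : ∀ᶠ z in 𝓝[≠] I, A z ≠ 0 :=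
      ((hA I hI).eventually_eq_zero_or_eventually_ne_zero).resolve_left h1
    have h3 : ∀ᶠ z in 𝓝[≠] I, z ∈ U := mem_nhdsWithin_of_mem_nhds (hUo.mem_nhds hI)
    obtain ⟨z, hz⟩ := (h2.and h3).exists
    exact ⟨z, hz.2, hz.1⟩
  set c₀ : ℂ := exp (Complex.log (A z₀) / p) with hc₀
  have hpC : (p : ℂ) ≠ 0 := by exact_mod_cast hp.ne'
  have hc₀p : c₀ ^ p = A z₀ := by
    rw [hc₀, ← Complex.exp_nat_mul, mul_div_cancel₀ _ hpC, Complex.exp_log hAz₀]
  have hc₀ne : c₀ ≠ 0 := Complex.exp_ne_zero _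
  -- normalised roots on good discs
  have hdisc : ∀ (c : ℂ) (r : ℝ), closedBall c r ⊆ U → z₀ ∈ ball c r →
      ∃ H : ℂ → ℂ, DifferentiableOn ℂ H (ball c r) ∧ (∀ z ∈ ball c r, H z ^ p = A z) ∧
        H z₀ = c₀ := by
    intro c r hcr hz₀b
    obtain ⟨H', hH'd, hH'⟩ := exists_root_ball hp (hA.mono hcr) (fun z hz => hne z (hcr hz))
      (fun z hz => hdiv z (hcr hz))
    have hH'0 : H' z₀ ≠ 0 := by
      intro h
      have := hH' z₀ hz₀b
      rw [h, zero_pow hp.ne'] at this
      exact hAz₀ this.symm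
    refine ⟨fun z => c₀ / H' z₀ * H' z, hH'd.const_mul _, ?_, ?_⟩
    · intro z hz
      rw [mul_pow, div_pow, hc₀p, hH' z₀ hz₀b, div_self hAz₀, one_mul, hH' z hz]
    · show c₀ / H' z₀ * H' z₀ = c₀
      field_simp
  choose Hb hHbd hHbp hHb0 using hdisc
  -- a disc for every point
  have hex : ∀ z : ℂ, z ∈ U → ∃ (c : ℂ) (r : ℝ), closedBall c r ⊆ U ∧ z₀ ∈ ball c r ∧
      z ∈ ball c r := fun z hz => exists_disc hz₀ hz
  choose cz rz hcz1 hcz2 hcz3 using hex
  set H : ℂ → ℂ := fun z => if hz : z ∈ U then Hb (cz z hz) (rz z hz) (hcz1 z hz) (hcz2 z hz) z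
    else 0 with hH
  -- `H` agrees with every normalised disc root
  have hagree : ∀ (c : ℂ) (r : ℝ) (h1 : closedBall c r ⊆ U) (h2 : z₀ ∈ ball c r),
      ∀ w ∈ ball c r, H w = Hb c r h1 h2 w := by
    intro c r h1 h2 w hw
    have hwU : w ∈ U := h1 (ball_subset_closedBall hw)
    simp only [hH, dif_pos hwU]
    set c' := cz w hwU
    set r' := rz w hwU
    have h1' := hcz1 w hwU
    have h2' := hcz2 w hwU
    have h3' := hcz3 w hwU
    set V : Set ℂ := ball c r ∩ ball c' r' with hV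
    have hVo : IsOpen V := isOpen_ball.inter isOpen_ball
    have hVc : IsPreconnected V := ((convex_ball c r).inter (convex_ball c' r')).isPreconnected
    have hz₀V : z₀ ∈ V := ⟨h2, h2'⟩
    have hwV : w ∈ V := ⟨hw, h3'⟩
    have := root_unique hp hVo hVc ((hHbd c' r' h1' h2').mono inter_subset_right)
      ((hHbd c r h1 h2).mono inter_subset_left)
      (fun z hz => by rw [hHbp c' r' h1' h2' z hz.2, hHbp c r h1 h2 z hz.1]) hz₀V
      (by rw [hHb0, hHb0]) (by rw [hHb0]; exact hc₀ne)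
    exact this hwV
  refine ⟨H, ?_, ?_⟩
  · intro z hz
    have hb := hcz3 z hz
    have hd : DifferentiableAt ℂ (Hb (cz z hz) (rz z hz) (hcz1 z hz) (hcz2 z hz)) z :=
      (hHbd _ _ (hcz1 z hz) (hcz2 z hz) z hb).differentiableAt (isOpen_ball.mem_nhds hb)
    have hev : H =ᶠ[𝓝 z] Hb (cz z hz) (rz z hz) (hcz1 z hz) (hcz2 z hz) := by
      filter_upwards [isOpen_ball.mem_nhds hb] with w hw
      exact hagree _ _ (hcz1 z hz) (hcz2 z hz) w hw
    exact (hd.congr_of_eventuallyEq hev).differentiableWithinAt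
  · intro z hz
    rw [hagree _ _ (hcz1 z hz) (hcz2 z hz) z (hcz3 z hz)]
    exact hHbp _ _ _ _ z (hcz3 z hz)

open Fermat.Agent.S24_helper82 UpperHalfPlane

/-- **(R-H)** a nonzero holomorphic function on `ℍ` all of whose vanishing orders are divisible by
`p` is a `p`-th power of a holomorphic function -/
theorem exists_pow_eq_hol {p : ℕ} (hp : 0 < p) (A : Hol) (hA : A ≠ 0)
    (hdiv : ∀ τ : ℍ, p ∣ ordNat τ A) : ∃ H : Hol, H ^ p = A := by
  have hAn : AnalyticOnNhd ℂ ((A : ℍ → ℂ) ∘ ofComplex) {w : ℂ | 0 < w.im} :=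
    analyticOnNhd_of_mem_Hol A.2
  obtain ⟨H, hHd, hHp⟩ := exists_root_uhp hp hAn
    (fun z hz => ordAt_ne_top hA ⟨z, hz⟩)
    (fun z hz => by
      obtain ⟨m, hm⟩ := hdiv ⟨z, hz⟩
      refine ⟨m, ?_⟩
      have h1 := coe_ordNat hA ⟨z, hz⟩
      rw [hm] at h1
      exact h1.symm)
  have hmem : (fun τ : ℍ => H τ) ∈ Hol := by
    rw [mem_Hol_iff, UpperHalfPlane.mdifferentiable_iff]
    refine hHd.congr ?_
    intro z hz
    simp [Function.comp, ofComplex_apply_of_im_pos hz]
  refine ⟨⟨fun τ : ℍ => H τ, hmem⟩, ?_⟩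
  apply Subtype.ext
  funext τ
  rw [SubmonoidClass.coe_pow, Pi.pow_apply]
  show H τ ^ p = (A : ℍ → ℂ) τ
  have := hHp τ τ.im_pos
  simpa [ofComplex_apply] using this

end Fermat.Agent.GJ.Root
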