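/-
GATE-J / J2-ROOT (helper65), algebraic part: `p`-th roots in T24's field `Mer = Frac(Hol)` of
meromorphic functions on `ℍ`, their uniqueness up to `μ_p`, and the multiplier character
`χ : Γ → μ_p`, `h ∘ γ = χ(γ) h`, of a `p`-th root `h` of a `Γ`-invariant function; its value at
elliptic elements.
-/
import Mathlib
import Fermat.Agent.S24_helper82.HolOrd
import Fermat.Agent.GJ.J2.RootHol

set_option autoImplicit false

open UpperHalfPlane Complex
open scoped MatrixGroups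

namespace Fermat.Agent.GJ.Root

open Fermat.Agent.S24_helper82

/-! ### (R-M): existence of roots in `Mer` -/

/-- **(R-M)** a nonzero meromorphic function on `ℍ` all of whose orders are divisible by `p` is a
`p`-th power in `Mer = Frac(Hol)`. -/
theorem exists_pow_eq_mer {p : ℕ} (hp : 0 < p) (m : Mer) (hm : m ≠ 0)
    (hdiv : ∀ τ : ℍ, (p : ℤ) ∣ ordM τ m) : ∃ h : Mer, h ^ p = m := by
  obtain ⟨a, b, ha, hb, rfl⟩ := exists_div_eq m hm
  obtain ⟨q, rfl⟩ : ∃ q, p = q + 1 := ⟨p - 1, by omega⟩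
  have hA : a * b ^ q ≠ 0 := mul_ne_zero ha (pow_ne_zero _ hb)
  obtain ⟨H, hH⟩ := exists_pow_eq_hol hp (a * b ^ q) hA (by
    intro τ
    have h1 := hdiv τ
    rw [ordM_mk τ ha hb] at h1
    rw [ordNat_mul ha (pow_ne_zero _ hb), ordNat_pow hb]
    have h2 : ((q + 1 : ℕ) : ℤ) ∣ ((ordNat τ a + q * ordNat τ b : ℕ) : ℤ) := by
      have : ((ordNat τ a + q * ordNat τ b : ℕ) : ℤ)
          = ((ordNat τ a : ℤ) - ordNat τ b) + ((q + 1 : ℕ) : ℤ) * ordNat τ b := by
        push_cast; ring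
      rw [this]
      exact dvd_add h1 (dvd_mul_right _ _)
    exact_mod_cast h2)
  refine ⟨algebraMap Hol Mer H / algebraMap Hol Mer b, ?_⟩
  have hb' := algebraMap_ne_zero hb
  rw [div_pow, ← map_pow, hH, map_mul, map_pow, pow_succ]
  field_simp

/-! ### (R-U): uniqueness up to a root of unity -/

theorem algebraMap_C_injective : Function.Injective (algebraMap ℂ Mer) :=
  (algebraMap ℂ Mer).injective

/-- **(R-U)** two `p`-th roots of the same nonzero element of `Mer` differ by a constant `p`-th root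
of unity. -/
theorem eq_smul_of_pow_eq {p : ℕ} (hp : 0 < p) (h₁ h₂ : Mer) (h2 : h₂ ≠ 0)
    (e : h₁ ^ p = h₂ ^ p) : ∃ ζ : ℂ, ζ ^ p = 1 ∧ h₁ = algebraMap ℂ Mer ζ * h₂ := by
  have hprim : IsPrimitiveRoot (algebraMap ℂ Mer (exp (2 * Real.pi * Complex.I / p))) p :=
    (Complex.isPrimitiveRoot_exp p hp.ne').map_of_injective algebraMap_C_injective
  have hq : (h₁ / h₂) ^ p = 1 := by
    rw [div_pow, e, div_self (pow_ne_zero _ h2)]
  have : NeZero p := ⟨hp.ne'⟩
  obtain ⟨i, _, hi⟩ := hprim.eq_pow_of_pow_eq_one hq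
  refine ⟨exp (2 * Real.pi * Complex.I / p) ^ i, ?_, ?_⟩
  · rw [pow_right_comm, (Complex.isPrimitiveRoot_exp p hp.ne').pow_eq_one, one_pow]
  · rw [map_pow, hi, div_mul_cancel₀ _ h2]

/-! ### (R-χ): the multiplier character -/

section multiplier

variable {p : ℕ} (hp : 0 < p) (Γ : Subgroup SL(2, ℤ)) (h : Mer) (hh : h ≠ 0)
  (hinv : ∀ γ ∈ Γ, compM γ (h ^ p) = h ^ p)

include hp hh hinv in
theorem exists_multiplier (γ : SL(2, ℤ)) (hγ : γ ∈ Γ) :
    ∃ ζ : ℂ, ζ ^ p = 1 ∧ compM γ h = algebraMap ℂ Mer ζ * h := by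
  apply eq_smul_of_pow_eq hp _ _ hh
  rw [← map_pow, hinv γ hγ]

/-- the multiplier `χ(γ)` of `h` at `γ ∈ Γ` (as a complex number) -/
noncomputable def multVal (γ : Γ) : ℂ :=
  (exists_multiplier hp Γ h hh hinv γ γ.2).choose

theorem multVal_pow (γ : Γ) : multVal hp Γ h hh hinv γ ^ p = 1 :=
  (exists_multiplier hp Γ h hh hinv γ γ.2).choose_spec.1

theorem compM_eq_multVal (γ : Γ) :
    compM (γ : SL(2, ℤ)) h = algebraMap ℂ Mer (multVal hp Γ h hh hinv γ) * h :=
  (exists_multiplier hp Γ h hh hinv γ γ.2).choose_spec.2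

include hh in
/-- the multiplier is determined by the equation `h ∘ γ = ζ h` -/
theorem multVal_unique (γ : Γ) {ζ : ℂ} (hζ : compM (γ : SL(2, ℤ)) h = algebraMap ℂ Mer ζ * h) :
    multVal hp Γ h hh hinv γ = ζ := by
  have h1 := compM_eq_multVal hp Γ h hh hinv γ
  rw [hζ] at h1
  exact (algebraMap_C_injective (mul_right_cancel₀ hh h1)).symm

theorem multVal_ne_zero (γ : Γ) : multVal hp Γ h hh hinv γ ≠ 0 := by
  intro h0
  have := multVal_pow hp Γ h hh hinv γ
  rw [h0, zero_pow hp.ne'] at this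
  exact zero_ne_one this

theorem multVal_one : multVal hp Γ h hh hinv 1 = 1 := by
  apply multVal_unique
  rw [Subgroup.coe_one, compM_one, map_one, one_mul]

theorem multVal_mul (γ γ' : Γ) :
    multVal hp Γ h hh hinv (γ * γ') = multVal hp Γ h hh hinv γ * multVal hp Γ h hh hinv γ' := by
  apply multVal_unique
  rw [Subgroup.coe_mul, compM_mul, compM_eq_multVal hp Γ h hh hinv γ, map_mul, compM_const,
    compM_eq_multVal hp Γ h hh hinv γ', map_mul]
  ring

/-- **(R-χ)** the multiplier character `χ : Γ →* ℂˣ` of a `p`-th root `h` of a `Γ`-invariant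
meromorphic function: `h ∘ γ = χ(γ) • h`. -/
noncomputable def multiplier : Γ →* ℂˣ where
  toFun γ := Units.mk0 (multVal hp Γ h hh hinv γ) (multVal_ne_zero hp Γ h hh hinv γ)
  map_one' := Units.ext (multVal_one hp Γ h hh hinv)
  map_mul' γ γ' := Units.ext (multVal_mul hp Γ h hh hinv γ γ')

@[simp] theorem coe_multiplier (γ : Γ) :
    ((multiplier hp Γ h hh hinv γ : ℂˣ) : ℂ) = multVal hp Γ h hh hinv γ := rfl

theorem multiplier_pow (γ : Γ) : multiplier hp Γ h hh hinv γ ^ p = 1 :=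
  Units.ext (by rw [Units.val_pow_eq_pow_val, coe_multiplier, multVal_pow]; rfl)

theorem multiplier_mem_rootsOfUnity (γ : Γ) :
    multiplier hp Γ h hh hinv γ ∈ rootsOfUnity p ℂ :=
  (_root_.mem_rootsOfUnity _ _).2 (multiplier_pow hp Γ h hh hinv γ)

theorem compM_eq_multiplier (γ : Γ) :
    compM (γ : SL(2, ℤ)) h = algebraMap ℂ Mer ((multiplier hp Γ h hh hinv γ : ℂˣ) : ℂ) * h :=
  compM_eq_multVal hp Γ h hh hinv γ

/-- `χ(γ) = 1` iff `h` is `γ`-invariant -/
theorem multiplier_eq_one_iff (γ : Γ) :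
    multiplier hp Γ h hh hinv γ = 1 ↔ compM (γ : SL(2, ℤ)) h = h := by
  constructor
  · intro h1
    rw [compM_eq_multiplier hp Γ h hh hinv γ, h1, Units.val_one, map_one, one_mul]
  · intro h1
    apply Units.ext
    rw [coe_multiplier, Units.val_one]
    apply multVal_unique
    rw [h1, map_one, one_mul]

/-- the multiplier character is trivial iff `h` is `Γ`-invariant -/
theorem multiplier_eq_one_iff_invariant :
    multiplier hp Γ h hh hinv = 1 ↔ ∀ γ ∈ Γ, compM γ h = h := by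
  constructor
  · intro h1 γ hγ
    have := (multiplier_eq_one_iff hp Γ h hh hinv ⟨γ, hγ⟩).1 (by rw [h1]; rfl)
    exact this
  · intro h1
    ext γ : 1
    exact (multiplier_eq_one_iff hp Γ h hh hinv γ).2 (h1 γ γ.2)

end multiplier

/-! ### (R-ell): the multiplier at an elliptic fixed point -/

theorem ordNat_algebraMap_C {ζ : ℂ} (hζ : ζ ≠ 0) (τ : ℍ) : ordNat τ (algebraMap ℂ Hol ζ) = 0 := by
  show (ordAt τ (fun _ => ζ)).toNat = 0
  rw [ordAt_const hζ]
  rfl

theorem algebraMap_C_ne_zero {ζ : ℂ} (hζ : ζ ≠ 0) : algebraMap ℂ Hol ζ ≠ 0 := by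
  intro h
  have := congrArg (fun f : Hol => (f : ℍ → ℂ) UpperHalfPlane.I) h
  exact hζ this

theorem lcAt_algebraMap_C {ζ : ℂ} (hζ : ζ ≠ 0) (τ : ℍ) : lcAt τ (algebraMap ℂ Hol ζ) = ζ := by
  refine lcAt_eq (algebraMap_C_ne_zero hζ) τ (g := fun _ => ζ) continuousAt_const ?_
  filter_upwards with z
  rw [ordNat_algebraMap_C hζ, pow_zero, one_mul]
  rfl

/-- **(R-ell)** if `s` fixes `τ` and `h ∘ s = ζ h` then `ζ = (mult s τ) ^ (ord_τ h)` -/
theorem eq_mult_zpow_of_fixed {s : SL(2, ℤ)} {τ : ℍ} (hfix : s • τ = τ) {h : Mer} (hh : h ≠ 0)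
    {ζ : ℂ} (hζ : compM s h = algebraMap ℂ Mer ζ * h) : ζ = mult s τ ^ (ordM τ h) := by
  have hζ0 : ζ ≠ 0 := by
    rintro rfl
    rw [map_zero, zero_mul] at hζ
    exact hh ((map_eq_zero (compM s)).1 hζ)
  obtain ⟨a, b, ha, hb, rfl⟩ := exists_div_eq h hh
  rw [compM_div, IsScalarTower.algebraMap_apply ℂ Hol Mer] at hζ
  have hb' := algebraMap_ne_zero hb
  have hsb' := algebraMap_ne_zero (compSL_ne_zero s hb)
  rw [← mul_div_assoc, div_eq_div_iff hsb' hb', ← map_mul, ← map_mul, ← map_mul] at hζ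
  have hm' : compSL s a * b = algebraMap ℂ Hol ζ * a * compSL s b :=
    IsFractionRing.injective Hol Mer hζ
  have hc := algebraMap_C_ne_zero hζ0
  have hlc := congrArg (lcAt τ) hm'
  rw [lcAt_mul (compSL_ne_zero s ha) hb, lcAt_mul (mul_ne_zero hc ha) (compSL_ne_zero s hb),
    lcAt_mul hc ha, lcAt_compSL_of_fixed hfix ha, lcAt_compSL_of_fixed hfix hb,
    lcAt_algebraMap_C hζ0] at hlc
  have hla := lcAt_ne_zero ha τ
  have hlb := lcAt_ne_zero hb τ
  have hμ := mult_ne_zero s τ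
  have hpow : mult s τ ^ (ordNat τ a) = ζ * mult s τ ^ (ordNat τ b) := by
    have : mult s τ ^ (ordNat τ a) * (lcAt τ a * lcAt τ b)
        = ζ * mult s τ ^ (ordNat τ b) * (lcAt τ a * lcAt τ b) := by
      linear_combination hlc
    exact mul_right_cancel₀ (mul_ne_zero hla hlb) this
  rw [ordM_mk τ ha hb, zpow_sub₀ hμ, zpow_natCast, zpow_natCast, hpow]
  field_simp

/-- the multiplier character at an elliptic element -/
theorem multiplier_of_fixed {p : ℕ} (hp : 0 < p) (Γ : Subgroup SL(2, ℤ)) (h : Mer) (hh : h ≠ 0)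
    (hinv : ∀ γ ∈ Γ, compM γ (h ^ p) = h ^ p) (γ : Γ) {τ : ℍ} (hfix : (γ : SL(2, ℤ)) • τ = τ) :
    ((multiplier hp Γ h hh hinv γ : ℂˣ) : ℂ) = mult (γ : SL(2, ℤ)) τ ^ (ordM τ h) :=
  eq_mult_zpow_of_fixed hfix hh (compM_eq_multiplier hp Γ h hh hinv γ)

/-- the multiplier is trivial at an elliptic element as soon as the order of the stabiliser
divides `ord_τ h` -/
theorem multiplier_eq_one_of_fixed {p : ℕ} (hp : 0 < p) (Γ : Subgroup SL(2, ℤ)) (h : Mer)
    (hh : h ≠ 0) (hinv : ∀ γ ∈ Γ, compM γ (h ^ p) = h ^ p) (γ : Γ) {τ : ℍ}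
    (hfix : (γ : SL(2, ℤ)) • τ = τ) {k : ℕ} (hk : mult (γ : SL(2, ℤ)) τ ^ k = 1)
    (hdvd : (k : ℤ) ∣ ordM τ h) : multiplier hp Γ h hh hinv γ = 1 := by
  apply Units.ext
  rw [multiplier_of_fixed hp Γ h hh hinv γ hfix, Units.val_one]
  obtain ⟨e, he⟩ := hdvd
  rw [he, zpow_mul, zpow_natCast, hk, one_zpow]

/-- `-1` acts trivially -/
theorem compM_neg_one (m : Mer) : compM (-1) m = m := by
  by_cases hm : m = 0
  · subst hm; simp
  obtain ⟨a, b, ha, hb, rfl⟩ := exists_div_eq m hm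
  have key : ∀ f : Hol, compSL (-1) f = f := by
    intro f
    apply Subtype.ext
    funext τ
    show (f : ℍ → ℂ) ((-1 : SL(2, ℤ)) • τ) = (f : ℍ → ℂ) τ
    rw [ModularGroup.SL_neg_smul, one_smul]
  rw [compM_div, key, key]

theorem multiplier_neg_one {p : ℕ} (hp : 0 < p) (Γ : Subgroup SL(2, ℤ)) (h : Mer) (hh : h ≠ 0)
    (hinv : ∀ γ ∈ Γ, compM γ (h ^ p) = h ^ p) (hneg : (-1 : SL(2, ℤ)) ∈ Γ) :
    multiplier hp Γ h hh hinv ⟨-1, hneg⟩ = 1 :=
  (multiplier_eq_one_iff hp Γ h hh hinv ⟨-1, hneg⟩).2 (compM_neg_one h)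

end Fermat.Agent.GJ.Root
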