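/-
GATE-J / J2-HECKE-AN (helper86), part 1: precomposition with `GL(2, ℝ)⁺` on T24's `Hol` and
`Mer = FractionRing Hol` (T24's `HolOrd` has it for `SL(2, ℤ)` only).

EXPORTS (namespace `Fermat.Agent.GJ.HeckeMer`): `compGL`, `compMGL`, `compMGL_mul`,
`compMGL_mapGL` (`= compM`), `compMGL_one`, `compMGL_const`, `ordM_compMGL`, `compMGL_congr`.
Convention as in `HolOrd`: `(compMGL α m)(τ) = m(α τ)`, so `compMGL (α β) = compMGL β ∘ compMGL α`.
-/
import Mathlib
import Fermat.Agent.S24_helper82.HolOrd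
import Fermat.Prelude.Sol.S_ModularForm_heckeT_slash_eq_self_of_mem_Gamma0

set_option autoImplicit false

open UpperHalfPlane Complex Filter Topology
open scoped MatrixGroups Manifold

noncomputable section

namespace Fermat.Agent.GJ.HeckeMer

open Fermat.Agent.S24_helper82

/-! ### Precomposition with `GL(2, ℝ)⁺` on `Hol` -/

theorem mdifferentiable_comp_smulGL {f : ℍ → ℂ} (hf : f ∈ Hol) (α : GL (Fin 2) ℝ)
    (hα : 0 < α.det.val) : (fun τ : ℍ => f (α • τ)) ∈ Hol :=
  (show MDifferentiable 𝓘(ℂ) 𝓘(ℂ) f from hf).comp (mdifferentiable_smul hα)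

/-- Precomposition with the action of `α ∈ GL(2, ℝ)⁺`, as an algebra endomorphism of `Hol`. -/
def compGL (α : GL (Fin 2) ℝ) (hα : 0 < α.det.val) : Hol →ₐ[ℂ] Hol where
  toFun f := ⟨fun τ => (f : ℍ → ℂ) (α • τ), mdifferentiable_comp_smulGL f.2 α hα⟩
  map_one' := rfl
  map_mul' _ _ := rfl
  map_zero' := rfl
  map_add' _ _ := rfl
  commutes' _ := rfl

@[simp] theorem compGL_apply (α : GL (Fin 2) ℝ) (hα : 0 < α.det.val) (f : Hol) (τ : ℍ) :
    (compGL α hα f : ℍ → ℂ) τ = (f : ℍ → ℂ) (α • τ) := rfl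

theorem det_mul_pos {α β : GL (Fin 2) ℝ} (hα : 0 < α.det.val) (hβ : 0 < β.det.val) :
    0 < (α * β).det.val := by
  rw [map_mul, Units.val_mul]
  exact mul_pos hα hβ

theorem det_inv_pos {α : GL (Fin 2) ℝ} (hα : 0 < α.det.val) : 0 < (α⁻¹).det.val := by
  rw [map_inv, Units.val_inv_eq_inv_val]
  exact inv_pos.mpr hα

theorem det_one_pos : 0 < (1 : GL (Fin 2) ℝ).det.val := by
  rw [map_one, Units.val_one]; exact one_pos

theorem det_mapGL_pos (g : SL(2, ℤ)) : 0 < (Matrix.SpecialLinearGroup.mapGL ℝ g).det.val := by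
  rw [Matrix.SpecialLinearGroup.det_mapGL]; exact one_pos

theorem compGL_congr {α β : GL (Fin 2) ℝ} (h : α = β) (hα : 0 < α.det.val) (hβ : 0 < β.det.val)
    (f : Hol) : compGL α hα f = compGL β hβ f := by
  subst h; rfl

theorem compGL_one (f : Hol) : compGL 1 det_one_pos f = f := by
  ext τ; simp

theorem compGL_mul {α β : GL (Fin 2) ℝ} (hα : 0 < α.det.val) (hβ : 0 < β.det.val) (f : Hol) :
    compGL (α * β) (det_mul_pos hα hβ) f = compGL β hβ (compGL α hα f) := by
  ext τ; simp [mul_smul]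

theorem compGL_mapGL (g : SL(2, ℤ)) (f : Hol) :
    compGL (Matrix.SpecialLinearGroup.mapGL ℝ g) (det_mapGL_pos g) f = compSL g f := by
  ext τ; rfl

theorem compGL_injective (α : GL (Fin 2) ℝ) (hα : 0 < α.det.val) :
    Function.Injective (compGL α hα) := by
  intro f₁ f₂ h
  have := congrArg (compGL α⁻¹ (det_inv_pos hα)) h
  rw [← compGL_mul, ← compGL_mul] at this
  rwa [compGL_congr (mul_inv_cancel α) _ det_one_pos, compGL_congr (mul_inv_cancel α) _ det_one_pos,
    compGL_one, compGL_one] at this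

theorem compGL_ne_zero (α : GL (Fin 2) ℝ) (hα : 0 < α.det.val) {f : Hol} (hf : f ≠ 0) :
    compGL α hα f ≠ 0 := fun h =>
  hf (compGL_injective α hα (h.trans (map_zero _).symm))

/-- The Möbius map of `α`, as a function `ℂ → ℂ` (junk outside the upper half plane). -/
def moebGL (α : GL (Fin 2) ℝ) (z : ℂ) : ℂ := ((α • ofComplex z : ℍ) : ℂ)

theorem comp_ofComplex_compGL (α : GL (Fin 2) ℝ) (hα : 0 < α.det.val) (f : Hol) :
    ((compGL α hα f : ℍ → ℂ) ∘ ofComplex) = ((f : ℍ → ℂ) ∘ ofComplex) ∘ moebGL α := by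
  funext z
  simp [moebGL, ofComplex_apply]

theorem moebGL_coe (α : GL (Fin 2) ℝ) (τ : ℍ) : moebGL α (τ : ℂ) = ((α • τ : ℍ) : ℂ) := by
  simp [moebGL, ofComplex_apply]

theorem analyticAt_moebGL (α : GL (Fin 2) ℝ) (hα : 0 < α.det.val) (τ : ℍ) :
    AnalyticAt ℂ (moebGL α) (τ : ℂ) :=
  τ.analyticAt_smul hα

theorem deriv_moebGL_ne_zero (α : GL (Fin 2) ℝ) (hα : 0 < α.det.val) (τ : ℍ) :
    deriv (moebGL α) (τ : ℂ) ≠ 0 :=
  τ.deriv_smul_ne_zero hα

/-- Orders transform under the action: `ord_τ (f ∘ α) = ord_{ατ} f`. -/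
theorem ordAt_compGL (α : GL (Fin 2) ℝ) (hα : 0 < α.det.val) (f : Hol) (τ : ℍ) :
    ordAt τ (compGL α hα f : ℍ → ℂ) = ordAt (α • τ) (f : ℍ → ℂ) := by
  rw [ordAt, comp_ofComplex_compGL,
    analyticOrderAt_comp_of_deriv_ne_zero (analyticAt_moebGL α hα τ) (deriv_moebGL_ne_zero α hα τ),
    moebGL_coe]
  rfl

theorem ordNat_compGL (α : GL (Fin 2) ℝ) (hα : 0 < α.det.val) (f : Hol) (τ : ℍ) :
    ordNat τ (compGL α hα f) = ordNat (α • τ) f := by
  rw [ordNat, ordNat, ordAt_compGL]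


/-! ### The action on meromorphic functions -/

theorem algebraMap_comp_compGL_injective (α : GL (Fin 2) ℝ) (hα : 0 < α.det.val) :
    Function.Injective ((algebraMap Hol Mer).comp (compGL α hα).toRingHom) :=
  (IsFractionRing.injective Hol Mer).comp (compGL_injective α hα)

/-- Precomposition with `α ∈ GL(2, ℝ)⁺` on meromorphic functions. -/
def compMGL (α : GL (Fin 2) ℝ) (hα : 0 < α.det.val) : Mer →+* Mer :=
  IsFractionRing.lift (algebraMap_comp_compGL_injective α hα)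

@[simp] theorem compMGL_algebraMap (α : GL (Fin 2) ℝ) (hα : 0 < α.det.val) (f : Hol) :
    compMGL α hα (algebraMap Hol Mer f) = algebraMap Hol Mer (compGL α hα f) :=
  IsFractionRing.lift_algebraMap (algebraMap_comp_compGL_injective α hα) f

theorem compMGL_div (α : GL (Fin 2) ℝ) (hα : 0 < α.det.val) (a b : Hol) :
    compMGL α hα (algebraMap Hol Mer a / algebraMap Hol Mer b)
      = algebraMap Hol Mer (compGL α hα a) / algebraMap Hol Mer (compGL α hα b) := by
  rw [map_div₀, compMGL_algebraMap, compMGL_algebraMap]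

theorem ordM_compMGL (α : GL (Fin 2) ℝ) (hα : 0 < α.det.val) (m : Mer) (τ : ℍ) :
    ordM τ (compMGL α hα m) = ordM (α • τ) m := by
  by_cases hm : m = 0
  · subst hm; simp
  obtain ⟨a, b, ha, hb, rfl⟩ := exists_div_eq m hm
  rw [compMGL_div, ordM_mk τ (compGL_ne_zero α hα ha) (compGL_ne_zero α hα hb), ordM_mk _ ha hb,
    ordNat_compGL, ordNat_compGL]

theorem compMGL_congr {α β : GL (Fin 2) ℝ} (h : α = β) (hα : 0 < α.det.val) (hβ : 0 < β.det.val)
    (m : Mer) : compMGL α hα m = compMGL β hβ m := by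
  subst h; rfl

theorem compMGL_one (m : Mer) : compMGL 1 det_one_pos m = m := by
  by_cases hm : m = 0
  · subst hm; simp
  obtain ⟨a, b, ha, hb, rfl⟩ := exists_div_eq m hm
  rw [compMGL_div, compGL_one, compGL_one]

theorem compMGL_mul {α β : GL (Fin 2) ℝ} (hα : 0 < α.det.val) (hβ : 0 < β.det.val) (m : Mer) :
    compMGL (α * β) (det_mul_pos hα hβ) m = compMGL β hβ (compMGL α hα m) := by
  by_cases hm : m = 0
  · subst hm; simp
  obtain ⟨a, b, ha, hb, rfl⟩ := exists_div_eq m hm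
  rw [compMGL_div, compMGL_div, compMGL_div, compGL_mul, compGL_mul]

theorem compMGL_mapGL (g : SL(2, ℤ)) (m : Mer) :
    compMGL (Matrix.SpecialLinearGroup.mapGL ℝ g) (det_mapGL_pos g) m = compM g m := by
  by_cases hm : m = 0
  · subst hm; simp
  obtain ⟨a, b, ha, hb, rfl⟩ := exists_div_eq m hm
  rw [compMGL_div, compM_div, compGL_mapGL, compGL_mapGL]

theorem compMGL_const (α : GL (Fin 2) ℝ) (hα : 0 < α.det.val) (c : ℂ) :
    compMGL α hα (algebraMap ℂ Mer c) = algebraMap ℂ Mer c := by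
  rw [IsScalarTower.algebraMap_apply ℂ Hol Mer, compMGL_algebraMap, AlgHom.commutes]

theorem compMGL_injective (α : GL (Fin 2) ℝ) (hα : 0 < α.det.val) :
    Function.Injective (compMGL α hα) :=
  (compMGL α hα).injective

end Fermat.Agent.GJ.HeckeMer
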