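/-
GATE-J / J2 (helper97): precomposition with elements of `GL(2, ℝ)⁺` on T24's rings `Hol` and
`Mer = Frac Hol` (generalising `compSL` / `compM` of `S24_helper82.HolOrd`), the order formula
`ord_τ (m ∘ g) = ord_{gτ} m`, compatibility with `compM`, and the prelude Hecke representatives
`heckeRep ℓ x` as elements of `GL(2, ℝ)⁺` with the coset relation `α_x γ = cT γ x · α_{x·γ}`.
-/
import Mathlib
import Fermat.Agent.S24_helper82.HolOrd
import Fermat.Agent.S16_helper49.HeckeHom

set_option autoImplicit false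

open UpperHalfPlane Complex Filter Topology
open scoped MatrixGroups Manifold
open CongruenceSubgroup Matrix Matrix.SpecialLinearGroup
open P2MW.S_ModularForm_heckeT_slash_eq_self_of_mem_Gamma0.ModularForm.HeckeSlashInvariance
open Fermat.Agent.S24_helper82 Fermat.Agent.S16_helper49

noncomputable section

namespace Fermat.Agent.GJ.MerGL

/-- `GL(2, ℝ)⁺`, the group of real `2 × 2` matrices of positive determinant. -/
abbrev P : Type := ↥(Matrix.GLPos (Fin 2) ℝ)

theorem det_pos (g : P) : 0 < (g : GL (Fin 2) ℝ).det.val := g.2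

theorem P_smul_def (g : P) (τ : ℍ) : g • τ = (g : GL (Fin 2) ℝ) • τ := rfl

/-! ### The action on holomorphic functions -/

theorem mem_Hol_comp_smul {f : ℍ → ℂ} (hf : f ∈ Hol) (g : P) :
    (fun τ : ℍ => f (g • τ)) ∈ Hol :=
  (show MDifferentiable 𝓘(ℂ) 𝓘(ℂ) f from hf).comp (mdifferentiable_smul (det_pos g))

/-- Precomposition with the action of `g ∈ GL(2, ℝ)⁺`, as an algebra endomorphism of `Hol`. -/
def compP (g : P) : Hol →ₐ[ℂ] Hol where
  toFun f := ⟨fun τ => (f : ℍ → ℂ) (g • τ), mem_Hol_comp_smul f.2 g⟩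
  map_one' := rfl
  map_mul' _ _ := rfl
  map_zero' := rfl
  map_add' _ _ := rfl
  commutes' _ := rfl

@[simp] theorem compP_apply (g : P) (f : Hol) (τ : ℍ) :
    (compP g f : ℍ → ℂ) τ = (f : ℍ → ℂ) (g • τ) := rfl

theorem compP_one (f : Hol) : compP 1 f = f := by
  ext τ; simp

theorem compP_mul (g h : P) (f : Hol) : compP (g * h) f = compP h (compP g f) := by
  ext τ; simp [mul_smul]

theorem compP_injective (g : P) : Function.Injective (compP g) := by
  intro f₁ f₂ h
  have := congrArg (compP g⁻¹) h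
  rwa [← compP_mul, ← compP_mul, mul_inv_cancel, compP_one, compP_one] at this

theorem compP_ne_zero (g : P) {f : Hol} (hf : f ≠ 0) : compP g f ≠ 0 := fun h =>
  hf (compP_injective g (h.trans (map_zero _).symm))

/-- The Möbius map of `g`, as a function `ℂ → ℂ` (junk outside the upper half plane). -/
def moebP (g : P) (z : ℂ) : ℂ := ((g • ofComplex z : ℍ) : ℂ)

theorem comp_ofComplex_compP (g : P) (f : Hol) :
    ((compP g f : ℍ → ℂ) ∘ ofComplex) = ((f : ℍ → ℂ) ∘ ofComplex) ∘ moebP g := by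
  funext z
  simp [moebP, ofComplex_apply]

theorem moebP_coe (g : P) (τ : ℍ) : moebP g (τ : ℂ) = ((g • τ : ℍ) : ℂ) := by
  simp [moebP, ofComplex_apply]

theorem analyticAt_moebP (g : P) (τ : ℍ) : AnalyticAt ℂ (moebP g) (τ : ℂ) :=
  τ.analyticAt_smul (det_pos g)

theorem deriv_moebP_ne_zero (g : P) (τ : ℍ) : deriv (moebP g) (τ : ℂ) ≠ 0 :=
  τ.deriv_smul_ne_zero (det_pos g)

/-- Orders transform under the group action: `ord_τ (f ∘ g) = ord_{gτ} f`. -/
theorem ordAt_compP (g : P) (f : Hol) (τ : ℍ) :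
    ordAt τ (compP g f : ℍ → ℂ) = ordAt (g • τ) (f : ℍ → ℂ) := by
  rw [ordAt, comp_ofComplex_compP,
    analyticOrderAt_comp_of_deriv_ne_zero (analyticAt_moebP g τ) (deriv_moebP_ne_zero g τ),
    moebP_coe]
  rfl

theorem ordNat_compP (g : P) (f : Hol) (τ : ℍ) :
    ordNat τ (compP g f) = ordNat (g • τ) f := by
  rw [ordNat, ordNat, ordAt_compP]

/-! ### The action on meromorphic functions -/

theorem algebraMap_comp_compP_injective (g : P) :
    Function.Injective ((algebraMap Hol Mer).comp (compP g).toRingHom) :=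
  (IsFractionRing.injective Hol Mer).comp (compP_injective g)

/-- Precomposition with `g ∈ GL(2, ℝ)⁺` on meromorphic functions. -/
def compPM (g : P) : Mer →+* Mer :=
  IsFractionRing.lift (algebraMap_comp_compP_injective g)

@[simp] theorem compPM_algebraMap (g : P) (f : Hol) :
    compPM g (algebraMap Hol Mer f) = algebraMap Hol Mer (compP g f) :=
  IsFractionRing.lift_algebraMap (algebraMap_comp_compP_injective g) f

theorem compPM_div (g : P) (a b : Hol) :
    compPM g (algebraMap Hol Mer a / algebraMap Hol Mer b)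
      = algebraMap Hol Mer (compP g a) / algebraMap Hol Mer (compP g b) := by
  rw [map_div₀, compPM_algebraMap, compPM_algebraMap]

theorem ordM_compPM (g : P) (m : Mer) (τ : ℍ) :
    ordM τ (compPM g m) = ordM (g • τ) m := by
  by_cases hm : m = 0
  · subst hm; simp
  obtain ⟨a, b, ha, hb, rfl⟩ := exists_div_eq m hm
  rw [compPM_div, ordM_mk τ (compP_ne_zero g ha) (compP_ne_zero g hb), ordM_mk _ ha hb,
    ordNat_compP, ordNat_compP]

theorem compPM_one (m : Mer) : compPM 1 m = m := by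
  by_cases hm : m = 0
  · subst hm; simp
  obtain ⟨a, b, ha, hb, rfl⟩ := exists_div_eq m hm
  rw [compPM_div, compP_one, compP_one]

theorem compPM_mul (g h : P) (m : Mer) : compPM (g * h) m = compPM h (compPM g m) := by
  by_cases hm : m = 0
  · subst hm; simp
  obtain ⟨a, b, ha, hb, rfl⟩ := exists_div_eq m hm
  rw [compPM_div, compPM_div, compPM_div, compP_mul, compP_mul]

theorem compPM_const (g : P) (c : ℂ) :
    compPM g (algebraMap ℂ Mer c) = algebraMap ℂ Mer c := by
  rw [IsScalarTower.algebraMap_apply ℂ Hol Mer, compPM_algebraMap, AlgHom.commutes]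

theorem compPM_injective (g : P) : Function.Injective (compPM g) := (compPM g).injective

theorem compPM_inv_compPM (g : P) (m : Mer) : compPM g⁻¹ (compPM g m) = m := by
  rw [← compPM_mul, mul_inv_cancel, compPM_one]

theorem compPM_compPM_inv (g : P) (m : Mer) : compPM g (compPM g⁻¹ m) = m := by
  rw [← compPM_mul, inv_mul_cancel, compPM_one]

/-- `compPM g` as a ring automorphism of `Mer` (a RIGHT action: `compPMEquiv (g * h) =
(compPMEquiv g).trans (compPMEquiv h)`). -/
def compPMEquiv (g : P) : Mer ≃+* Mer :=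
  { compPM g with
    invFun := compPM g⁻¹
    left_inv := fun m => compPM_inv_compPM g m
    right_inv := fun m => compPM_compPM_inv g m }

@[simp] theorem compPMEquiv_apply (g : P) (m : Mer) : compPMEquiv g m = compPM g m := rfl

theorem compPM_ne_zero (g : P) {m : Mer} (hm : m ≠ 0) : compPM g m ≠ 0 :=
  (map_ne_zero_iff _ (compPM_injective g)).mpr hm

/-! ### `SL(2, ℤ)` inside `GL(2, ℝ)⁺` -/

/-- `SL(2, ℤ) → GL(2, ℝ)⁺`. -/
def slP : SL(2, ℤ) →* P where
  toFun γ := ⟨mapGL ℝ γ, by
    show 0 < (mapGL ℝ γ).det.val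
    rw [Matrix.SpecialLinearGroup.det_mapGL]; exact one_pos⟩
  map_one' := Subtype.ext (map_one _)
  map_mul' a b := Subtype.ext (map_mul _ a b)

@[simp] theorem coe_slP (γ : SL(2, ℤ)) : ((slP γ : P) : GL (Fin 2) ℝ) = mapGL ℝ γ := rfl

theorem slP_smul (γ : SL(2, ℤ)) (τ : ℍ) : slP γ • τ = γ • τ := rfl

theorem slP_injective : Function.Injective slP := by
  intro a b h
  exact mapGL_injective (R := ℤ) (S := ℝ) (congrArg Subtype.val h)

theorem compP_slP (γ : SL(2, ℤ)) (f : Hol) : compP (slP γ) f = compSL γ f := rfl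

/-- Compatibility with T24's `compM`. -/
theorem compPM_slP (γ : SL(2, ℤ)) (m : Mer) : compPM (slP γ) m = compM γ m := by
  by_cases hm : m = 0
  · subst hm; simp
  obtain ⟨a, b, ha, hb, rfl⟩ := exists_div_eq m hm
  rw [compPM_div, compM_div, compP_slP, compP_slP]

/-! ### The Hecke representatives -/

section Hecke

variable {ℓ : ℕ}

theorem heckeRep_det_pos (x : OnePoint (ZMod ℓ)) : 0 < (heckeRep ℓ x).det.val := by
  induction x using OnePoint.rec with
  | infty => exact ModularForm.det_heckeDiagMatrix_pos ℓ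
  | coe j => exact ModularForm.det_heckeMatrix_pos ℓ j.val

/-- The prelude Hecke representative `α_x` as an element of `GL(2, ℝ)⁺`. -/
def heckeP (ℓ : ℕ) (x : OnePoint (ZMod ℓ)) : P :=
  ⟨heckeRep ℓ x, heckeRep_det_pos x⟩

@[simp] theorem coe_heckeP (x : OnePoint (ZMod ℓ)) :
    ((heckeP ℓ x : P) : GL (Fin 2) ℝ) = heckeRep ℓ x := rfl

/-- The coset relation `α_x γ = cT γ x · α_{x·γ}` inside `GL(2, ℝ)⁺`. -/
theorem heckeP_mul_slP [Fact ℓ.Prime] {N : ℕ} (hℓN : ¬ ℓ ∣ N) (γ : Gamma0 N) (x : OnePoint (ZMod ℓ)) :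
    heckeP ℓ x * slP (γ : SL(2, ℤ))
      = slP (cT hℓN γ x : SL(2, ℤ)) * heckeP ℓ (redMatrix ℓ (γ : SL(2, ℤ)) • x) :=
  Subtype.ext (cT_rel hℓN γ x)

end Hecke

end Fermat.Agent.GJ.MerGL
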