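/-
# GATE-J / J2-ALG-EIG (helper53): existence of Hecke eigenvectors mod `p` — pure algebra

Let `T` be a commutative ring acting faithfully on a `ℤ`-lattice `Λ` (free of finite rank), `k0` a
field of characteristic `p` and `θ : T →+* k0` a ring homomorphism.  Then `k0 ⊗_ℤ Λ` contains a
nonzero `θ`-eigenvector.  (Deligne–Serre lifting lemma, mod `p` half.)

Proof: `θ`-eigenvectors in `k0 ⊗ Λ` are the `T`-linear maps `Hom_ℤ(Λ, ℤ) → k0_θ`; the dual lattice
is again finite and faithful over `T`, so `M ≠ 𝔪 M` for `𝔪 = ker θ` by Nakayama, and any nonzero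
`T/𝔪`-linear functional on `M/𝔪M` works.  In coordinates the dual lattice is `ℤ^ι` with `t` acting
by `x ↦ x ᵥ* ρ t`.

* `exists_eigenvector_matrix`  — matrix form (`ρ : T →+* Matrix ι ι ℤ` injective);
* `exists_eigenvector_of_basis` — `Λ` with a `ℤ`-basis `b`;
* `exists_eigenvector_tensor`  — `v : k0 ⊗[ℤ] Λ`.
Mathlib only.
-/
import Mathlib

set_option autoImplicit false
set_option linter.style.haveILetI false

namespace Fermat.Agent.GJ.J2.EigenAlg

open Matrix

section Core

variable {T : Type*} [CommRing T] {ι : Type*} [Fintype ι] [DecidableEq ι]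

/-- The ring hom `T → End_ℤ(ℤ^ι)`, `t ↦ (x ↦ x ᵥ* ρ t)`; multiplicative because `T` is
commutative. -/
def rowAction (ρ : T →+* Matrix ι ι ℤ) : T →+* Module.End ℤ (ι → ℤ) where
  toFun t := Matrix.vecMulLinear (ρ t)
  map_one' := by
    apply LinearMap.ext
    intro x
    simp
  map_mul' s t := by
    apply LinearMap.ext
    intro x
    rw [Module.End.mul_apply, Matrix.vecMulLinear_apply, Matrix.vecMulLinear_apply,
      Matrix.vecMulLinear_apply, Matrix.vecMul_vecMul, ← map_mul, mul_comm]
  map_zero' := by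
    apply LinearMap.ext
    intro x
    simp
  map_add' s t := by
    apply LinearMap.ext
    intro x
    simp

theorem rowAction_apply (ρ : T →+* Matrix ι ι ℤ) (t : T) (x : ι → ℤ) :
    rowAction ρ t x = x ᵥ* ρ t := rfl

/-- **Core**: a faithful integral matrix representation of a commutative ring has, for every
maximal ideal `m`, a nonzero eigenvector over `T ⧸ m` with the tautological eigencharacter. -/
theorem exists_eigenvector_quotient (ρ : T →+* Matrix ι ι ℤ) (hρ : Function.Injective ρ)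
    (m : Ideal T) [hm : m.IsMaximal] :
    ∃ c : ι → T ⧸ m, c ≠ 0 ∧ ∀ t : T,
      ((ρ t).map (Int.cast : ℤ → T ⧸ m)) *ᵥ c = Ideal.Quotient.mk m t • c := by
  classical
  letI : Module T (ι → ℤ) := Module.compHom (ι → ℤ) (rowAction ρ)
  have hsmul : ∀ (t : T) (x : ι → ℤ), t • x = x ᵥ* ρ t := fun t x => rfl
  letI : Field (T ⧸ m) := Ideal.Quotient.field m
  -- Nakayama: `m M ≠ M`
  have hfin : Module.Finite T (ι → ℤ) := Module.Finite.of_restrictScalars_finite ℤ T (ι → ℤ)
  obtain ⟨x₀, hx₀⟩ : ∃ x₀ : ι → ℤ, x₀ ∉ (m • ⊤ : Submodule T (ι → ℤ)) := by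
    by_contra hcon
    push Not at hcon
    have hle : (⊤ : Submodule T (ι → ℤ)) ≤ m • ⊤ := fun x _ => hcon x
    obtain ⟨r, hr1, hr0⟩ := Submodule.exists_sub_one_mem_and_smul_eq_zero_of_fg_of_le_smul m ⊤
      hfin.fg_top hle
    have hr : r = 0 := by
      apply hρ
      rw [map_zero]
      ext i j
      have := congrFun (hr0 (Pi.single i 1) Submodule.mem_top) j
      rw [hsmul, Matrix.single_one_vecMul] at this
      simpa using this
    rw [hr, zero_sub] at hr1
    exact hm.ne_top ((Ideal.eq_top_iff_one m).2 (by simpa using m.neg_mem hr1))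
  -- a functional on the `T ⧸ m`-vector space `M ⧸ m M`
  have hx₀' : (Submodule.Quotient.mk x₀ : (ι → ℤ) ⧸ (m • ⊤ : Submodule T (ι → ℤ))) ≠ 0 := by
    rwa [Ne, Submodule.Quotient.mk_eq_zero]
  obtain ⟨f, hf⟩ := Module.Projective.exists_dual_ne_zero (T ⧸ m) hx₀'
  -- `f ∘ mk` is additive, hence `ℤ`-linear
  set g : (ι → ℤ) →+ T ⧸ m :=
    (f : ((ι → ℤ) ⧸ (m • ⊤ : Submodule T (ι → ℤ))) →+ T ⧸ m).comp
      ((m • ⊤ : Submodule T (ι → ℤ)).mkQ : (ι → ℤ) →+ _) with hg
  have hgT : ∀ (t : T) (x : ι → ℤ), g (x ᵥ* ρ t) = Ideal.Quotient.mk m t * g x := by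
    intro t x
    rw [← hsmul]
    change f (Submodule.Quotient.mk (t • x)) = _
    rw [← Module.Quotient.mk_smul_mk, map_smul, smul_eq_mul]
    rfl
  have hgsum : ∀ x : ι → ℤ, g x = ∑ j, ((x j : ℤ) : T ⧸ m) * g (Pi.single j 1) := by
    intro x
    conv_lhs => rw [pi_eq_sum_univ' x]
    rw [map_sum]
    apply Finset.sum_congr rfl
    intro j _
    rw [map_zsmul, zsmul_eq_mul]
  refine ⟨fun i => g (Pi.single i 1), ?_, ?_⟩
  · intro hc
    apply hf
    change g x₀ = 0
    rw [hgsum]
    apply Finset.sum_eq_zero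
    intro j _
    have := congrFun hc j
    simp only [Pi.zero_apply] at this
    rw [this, mul_zero]
  · intro t
    funext i
    rw [Matrix.mulVec, Pi.smul_apply, smul_eq_mul, ← hgT, Matrix.single_one_vecMul, hgsum]
    rfl

/-- `ker θ` is a maximal ideal when `T` is integral over `ℤ` and `θ` takes values in a field of
characteristic `p`. -/
theorem ker_isMaximal_of_injective_matrix (ρ : T →+* Matrix ι ι ℤ) (hρ : Function.Injective ρ)
    {k0 : Type*} [Field k0] (p : ℕ) [Fact p.Prime] [CharP k0 p] (θ : T →+* k0) :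
    (RingHom.ker θ).IsMaximal := by
  have hfin : Module.Finite ℤ T :=
    Module.Finite.of_injective (ρ.toIntAlgHom.toLinearMap) hρ
  have hint : Algebra.IsIntegral ℤ T := Algebra.IsIntegral.of_finite ℤ T
  have hprime : (RingHom.ker θ).IsPrime := RingHom.ker_isPrime θ
  apply Ideal.isMaximal_of_isIntegral_of_isMaximal_comap (R := ℤ) (RingHom.ker θ)
  have hcomap : (RingHom.ker θ).comap (algebraMap ℤ T) = Ideal.span {(p : ℤ)} := by
    rw [RingHom.comap_ker, ← CharP.ker_intAlgebraMap_eq_span (R := k0) p]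
    congr 1
    exact RingHom.ext_int _ _
  rw [hcomap]
  exact PrincipalIdealRing.isMaximal_of_irreducible
    (Nat.prime_iff_prime_int.1 (Fact.out : p.Prime)).irreducible

/-- **Matrix form.** A faithful integral matrix representation `ρ` of a commutative ring `T` has,
for every ring hom `θ : T → k0` to a field of characteristic `p`, a nonzero `θ`-eigenvector in
`k0^ι`. -/
theorem exists_eigenvector_matrix (ρ : T →+* Matrix ι ι ℤ) (hρ : Function.Injective ρ)
    {k0 : Type*} [Field k0] (p : ℕ) [Fact p.Prime] [CharP k0 p] (θ : T →+* k0) :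
    ∃ c : ι → k0, c ≠ 0 ∧ ∀ t : T, ((ρ t).map (Int.cast : ℤ → k0)) *ᵥ c = θ t • c := by
  haveI := ker_isMaximal_of_injective_matrix ρ hρ p θ
  obtain ⟨c', hc'0, hc'⟩ := exists_eigenvector_quotient ρ hρ (RingHom.ker θ)
  letI : Field (T ⧸ RingHom.ker θ) := Ideal.Quotient.field _
  have hinj : Function.Injective (RingHom.kerLift θ) := RingHom.kerLift_injective θ
  refine ⟨fun i => RingHom.kerLift θ (c' i), ?_, ?_⟩
  · intro h0
    apply hc'0
    funext i
    apply hinj
    rw [Pi.zero_apply, map_zero]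
    exact congrFun h0 i
  · intro t
    funext i
    have h := congrArg (RingHom.kerLift θ) (congrFun (hc' t) i)
    rw [Matrix.mulVec, dotProduct, map_sum, Pi.smul_apply, smul_eq_mul, map_mul,
      RingHom.kerLift_mk] at h
    rw [Matrix.mulVec, dotProduct, Pi.smul_apply, smul_eq_mul, ← h]
    apply Finset.sum_congr rfl
    intro j _
    rw [map_mul, Matrix.map_apply, Matrix.map_apply, map_intCast]

end Core

section Basis

variable {T Λ : Type*} [CommRing T] [AddCommGroup Λ] [Module T Λ]
  {ι : Type*} [Fintype ι] [DecidableEq ι]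

/-- The matrix representation of `T` on a `ℤ`-free module with basis `b`. -/
noncomputable def matrixRep (b : Module.Basis ι ℤ Λ) : T →+* Matrix ι ι ℤ :=
  ((LinearMap.toMatrixAlgEquiv b).toAlgHom.toRingHom).comp (Module.toModuleEnd ℤ (S := T) Λ)

theorem matrixRep_apply (b : Module.Basis ι ℤ Λ) (t : T) (i j : ι) :
    matrixRep b t i j = b.repr (t • b j) i := by
  unfold matrixRep
  simp [LinearMap.toMatrixAlgEquiv_apply]

theorem matrixRep_injective (b : Module.Basis ι ℤ Λ)
    (hfaith : ∀ t : T, (∀ x : Λ, t • x = 0) → t = 0) :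
    Function.Injective (matrixRep (T := T) b) := by
  rw [injective_iff_map_eq_zero]
  intro t ht
  apply hfaith
  intro x
  have h0 : Module.toModuleEnd ℤ (S := T) Λ t = 0 := by
    have : (LinearMap.toMatrixAlgEquiv b) (Module.toModuleEnd ℤ (S := T) Λ t) = 0 := ht
    exact (LinearMap.toMatrixAlgEquiv b).injective (by rw [this, map_zero])
  have := LinearMap.congr_fun h0 x
  simpa using this

/-- **Basis form.** Let `Λ` be a `T`-module, free of finite rank over `ℤ` with basis `b`, and
faithful over `T`.  For every ring hom `θ : T → k0` to a field of characteristic `p` there is a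
nonzero `c : ι → k0` such that `v = ∑ c j ⊗ b j ∈ k0 ⊗ Λ` satisfies `(1 ⊗ t) v = θ t • v`. -/
theorem exists_eigenvector_of_basis (b : Module.Basis ι ℤ Λ)
    (hfaith : ∀ t : T, (∀ x : Λ, t • x = 0) → t = 0)
    {k0 : Type*} [Field k0] (p : ℕ) [Fact p.Prime] [CharP k0 p] (θ : T →+* k0) :
    ∃ c : ι → k0, c ≠ 0 ∧ ∀ (t : T) (i : ι),
      ∑ j, ((b.repr (t • b j) i : ℤ) : k0) * c j = θ t * c i := by
  obtain ⟨c, hc0, hc⟩ := exists_eigenvector_matrix (matrixRep (T := T) b)
    (matrixRep_injective b hfaith) p θ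
  refine ⟨c, hc0, fun t i => ?_⟩
  have h := congrFun (hc t) i
  rw [Matrix.mulVec, dotProduct, Pi.smul_apply, smul_eq_mul] at h
  rw [← h]
  apply Finset.sum_congr rfl
  intro j _
  rw [Matrix.map_apply, matrixRep_apply]

open TensorProduct in
/-- **Tensor form.** -/
theorem exists_eigenvector_tensor [Module.Free ℤ Λ] [Module.Finite ℤ Λ]
    (hfaith : ∀ t : T, (∀ x : Λ, t • x = 0) → t = 0)
    {k0 : Type*} [Field k0] (p : ℕ) [Fact p.Prime] [CharP k0 p] (θ : T →+* k0) :
    ∃ v : k0 ⊗[ℤ] Λ, v ≠ 0 ∧ ∀ t : T,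
      LinearMap.lTensor k0 (Module.toModuleEnd ℤ (S := T) Λ t) v = θ t • v := by
  classical
  let b := Module.Free.chooseBasis ℤ Λ
  obtain ⟨c, hc0, hc⟩ := exists_eigenvector_of_basis b hfaith p θ
  let B := Algebra.TensorProduct.basis k0 b
  refine ⟨∑ j, c j • B j, ?_, ?_⟩
  · intro h0
    apply hc0
    funext j
    have := congrArg (fun v => B.repr v j) h0
    simpa [Finsupp.single_apply] using this
  · intro t
    rw [map_sum, Finset.smul_sum]
    have key : ∀ j, LinearMap.lTensor k0 (Module.toModuleEnd ℤ (S := T) Λ t) (c j • B j) =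
        ∑ i, (((b.repr (t • b j) i : ℤ) : k0) * c j) • B i := by
      intro j
      rw [Algebra.TensorProduct.basis_apply, TensorProduct.smul_tmul', LinearMap.lTensor_tmul,
        smul_eq_mul, mul_one]
      change c j ⊗ₜ[ℤ] (t • b j) = _
      conv_lhs => rw [← b.sum_repr (t • b j)]
      rw [TensorProduct.tmul_sum]
      apply Finset.sum_congr rfl
      intro i _
      rw [Algebra.TensorProduct.basis_apply, TensorProduct.smul_tmul', TensorProduct.tmul_smul,
        smul_eq_mul, mul_one, TensorProduct.smul_tmul', zsmul_eq_mul]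
    rw [Finset.sum_congr rfl (fun j _ => key j), Finset.sum_comm]
    apply Finset.sum_congr rfl
    intro i _
    rw [← Finset.sum_smul, hc t i, mul_smul]

end Basis

end Fermat.Agent.GJ.J2.EigenAlg
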