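/-
GATE-J / J2 (helper64).  Generic integral structure of `Hom_Ps(Γ, A)`:
for a finitely generated group `Γ` and a set `Ps ⊆ Γ`, there are finitely many homomorphisms
`Φ i : Γ → ℤ` killing `Ps` and elements `β i : Γ` with `Φ i (β j) = δ_ij` such that EVERY homomorphism
`φ : Γ → A` killing `Ps`, `A` torsion-free, satisfies `φ γ = ∑ i, Φ i γ • φ (β i)`.
(So `Hom_Ps(Γ, ℤ)` is free with basis `Φ`, and `Hom_Ps(Γ, ℂ)` has the same basis over `ℂ`.)
Mathlib only.
-/
import Mathlib

set_option autoImplicit false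

namespace Fermat.Agent.GJ.J2.ZStruct

noncomputable section

variable {Γ : Type*} [Group Γ] (Ps : Set Γ)

/-- `φ` kills the set `Ps`. -/
def KillsOn {A : Type*} [AddZeroClass A] (φ : Additive Γ →+ A) : Prop :=
  ∀ γ ∈ Ps, φ (Additive.ofMul γ) = 0

/-- the abelianisation, written additively -/
abbrev Ab (Γ : Type*) [Group Γ] : Type _ := Additive (Abelianization Γ)

/-- the canonical map to the additive abelianisation -/
def toAb : Additive Γ →+ Ab Γ := MonoidHom.toAdditive (Abelianization.of (G := Γ))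

lemma toAb_surjective : Function.Surjective (toAb (Γ := Γ)) := by
  intro y
  obtain ⟨x, hx⟩ := QuotientGroup.mk_surjective (s := commutator Γ) (Additive.toMul y)
  exact ⟨Additive.ofMul x, by
    show Additive.ofMul (Abelianization.of x) = y
    rw [show Abelianization.of x = Additive.toMul y from hx]
    rfl⟩

/-- the subgroup generated by the image of `Ps` -/
def Ksub : AddSubgroup (Ab Γ) :=
  AddSubgroup.closure ((fun γ => toAb (Additive.ofMul γ)) '' Ps)

/-- the quotient `Γ^ab / ⟨Ps⟩` -/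
abbrev Q : Type _ := Ab Γ ⧸ Ksub Ps

/-- the canonical map `Γ → Q` -/
def toQ : Additive Γ →+ Q Ps := (QuotientAddGroup.mk' (Ksub Ps)).comp toAb

lemma toQ_surjective : Function.Surjective (toQ Ps) :=
  (QuotientAddGroup.mk'_surjective (Ksub Ps)).comp toAb_surjective

lemma toQ_kills : KillsOn Ps (toQ Ps) := by
  intro γ hγ
  show QuotientAddGroup.mk' (Ksub Ps) (toAb (Additive.ofMul γ)) = 0
  rw [QuotientAddGroup.mk'_apply, QuotientAddGroup.eq_zero_iff]
  exact AddSubgroup.subset_closure ⟨γ, hγ, rfl⟩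

section lift

variable {A : Type*} [AddCommGroup A] (φ : Additive Γ →+ A)

/-- `φ` as a multiplicative hom -/
def mulHom : Γ →* Multiplicative A where
  toFun γ := Multiplicative.ofAdd (φ (Additive.ofMul γ))
  map_one' := by
    show Multiplicative.ofAdd (φ 0) = 1
    rw [map_zero]; rfl
  map_mul' x y := by
    show Multiplicative.ofAdd (φ (Additive.ofMul x + Additive.ofMul y)) = _
    rw [map_add]; rfl

/-- `φ` factored through the abelianisation -/
def liftAb : Ab Γ →+ A where
  toFun y := Multiplicative.toAdd (Abelianization.lift (mulHom φ) (Additive.toMul y))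
  map_zero' := by
    show Multiplicative.toAdd (Abelianization.lift (mulHom φ) 1) = 0
    rw [map_one]; rfl
  map_add' x y := by
    show Multiplicative.toAdd (Abelianization.lift (mulHom φ) (Additive.toMul x * Additive.toMul y))
      = _
    rw [map_mul]; rfl

lemma liftAb_toAb (x : Additive Γ) : liftAb φ (toAb x) = φ x := by
  show Multiplicative.toAdd (Abelianization.lift (mulHom φ) (Abelianization.of (Additive.toMul x)))
    = φ x
  rw [Abelianization.lift_apply_of]
  rfl

variable {Ps} in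
lemma Ksub_le_ker (hφ : KillsOn Ps φ) : Ksub Ps ≤ (liftAb φ).ker := by
  unfold Ksub
  rw [AddSubgroup.closure_le]
  rintro _ ⟨γ, hγ, rfl⟩
  show liftAb φ (toAb (Additive.ofMul γ)) = 0
  rw [liftAb_toAb]
  exact hφ γ hγ

variable {Ps} in
/-- `φ` factored through `Q` -/
def liftQ (hφ : KillsOn Ps φ) : Q Ps →+ A :=
  QuotientAddGroup.lift (Ksub Ps) (liftAb φ) (Ksub_le_ker φ hφ)

variable {Ps} in
lemma liftQ_toQ (hφ : KillsOn Ps φ) (x : Additive Γ) : liftQ φ hφ (toQ Ps x) = φ x := by
  show QuotientAddGroup.lift (Ksub Ps) (liftAb φ) _ (QuotientAddGroup.mk' _ (toAb x)) = φ x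
  rw [QuotientAddGroup.mk'_apply, QuotientAddGroup.lift_mk, liftAb_toAb]

end lift

/-- the torsion-free quotient of `Q` -/
abbrev F : Type _ := Q Ps ⧸ Submodule.torsion ℤ (Q Ps)

/-- the canonical map `Γ → F` -/
def toF : Additive Γ →+ F Ps :=
  ((Submodule.torsion ℤ (Q Ps)).mkQ.toAddMonoidHom).comp (toQ Ps)

lemma toF_surjective : Function.Surjective (toF Ps) :=
  (Submodule.mkQ_surjective _).comp (toQ_surjective Ps)

lemma toF_kills : KillsOn Ps (toF Ps) := by
  intro γ hγ
  show (Submodule.torsion ℤ (Q Ps)).mkQ (toQ Ps (Additive.ofMul γ)) = 0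
  rw [toQ_kills Ps γ hγ, map_zero]

section liftF

variable {A : Type*} [AddCommGroup A] (hA : ∀ (n : ℤ) (a : A), n ≠ 0 → n • a = 0 → a = 0)
  (φ : Additive Γ →+ A)

variable {Ps} in
include hA in
lemma torsion_le_ker (hφ : KillsOn Ps φ) :
    Submodule.torsion ℤ (Q Ps) ≤ LinearMap.ker (liftQ φ hφ).toIntLinearMap := by
  intro x hx
  rw [Submodule.mem_torsion_iff] at hx
  obtain ⟨⟨n, hn⟩, hnx⟩ := hx
  rw [LinearMap.mem_ker]
  have hn0 : n ≠ 0 := nonZeroDivisors.ne_zero hn
  have h1 : n • (liftQ φ hφ x) = 0 := by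
    have : (n • x : Q Ps) = 0 := hnx
    rw [← map_zsmul, this, map_zero]
  exact hA n _ hn0 h1

variable {Ps} in
/-- `φ` factored through `F` -/
def liftF (hφ : KillsOn Ps φ) : F Ps →ₗ[ℤ] A :=
  (Submodule.torsion ℤ (Q Ps)).liftQ (liftQ φ hφ).toIntLinearMap (torsion_le_ker hA φ hφ)

variable {Ps} in
lemma liftF_toF (hφ : KillsOn Ps φ) (x : Additive Γ) : liftF hA φ hφ (toF Ps x) = φ x := by
  show (Submodule.torsion ℤ (Q Ps)).liftQ _ _ ((Submodule.torsion ℤ (Q Ps)).mkQ (toQ Ps x)) = φ x
  rw [Submodule.mkQ_apply, Submodule.liftQ_apply]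
  exact liftQ_toQ φ hφ x

end liftF

variable [Group.FG Γ]

instance finite_Q : Module.Finite ℤ (Q Ps) := by
  rw [Module.Finite.iff_addGroup_fg]
  exact AddGroup.fg_of_surjective (toQ_surjective Ps)

instance finite_F : Module.Finite ℤ (F Ps) :=
  Module.Finite.of_surjective (Submodule.torsion ℤ (Q Ps)).mkQ (Submodule.mkQ_surjective _)

instance free_F : Module.Free ℤ (F Ps) := Module.free_of_finite_type_torsion_free'

/-- the index type of the basis -/
abbrev Idx : Type _ := Module.Free.ChooseBasisIndex ℤ (F Ps)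

instance : Fintype (Idx Ps) := Module.Free.ChooseBasisIndex.fintype ℤ (F Ps)

/-- the chosen basis of `F` -/
def bas : Module.Basis (Idx Ps) ℤ (F Ps) := Module.Free.chooseBasis ℤ (F Ps)

/-- the basis of integral homomorphisms -/
def PhiB (i : Idx Ps) : Additive Γ →+ ℤ :=
  ((bas Ps).coord i).toAddMonoidHom.comp (toF Ps)

/-- dual elements of `Γ` -/
def betaB (i : Idx Ps) : Additive Γ := Function.surjInv (toF_surjective Ps) (bas Ps i)

lemma toF_betaB (i : Idx Ps) : toF Ps (betaB Ps i) = bas Ps i :=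
  Function.surjInv_eq (toF_surjective Ps) _

lemma PhiB_kills (i : Idx Ps) : KillsOn Ps (PhiB Ps i) := by
  intro γ hγ
  show (bas Ps).coord i (toF Ps (Additive.ofMul γ)) = 0
  rw [toF_kills Ps γ hγ, map_zero]

lemma PhiB_betaB [DecidableEq (Idx Ps)] (i j : Idx Ps) :
    PhiB Ps i (betaB Ps j) = if i = j then 1 else 0 := by
  show (bas Ps).coord i (toF Ps (betaB Ps j)) = _
  rw [toF_betaB, Module.Basis.coord_apply, Module.Basis.repr_self, Finsupp.single_apply]
  by_cases h : i = j
  · rw [if_pos h, if_pos h.symm]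
  · rw [if_neg h, if_neg (fun h' => h h'.symm)]

/-- **Expansion formula**: every hom killing `Ps` into a torsion-free group is determined by its
values on the `betaB i`. -/
theorem expansion {A : Type*} [AddCommGroup A]
    (hA : ∀ (n : ℤ) (a : A), n ≠ 0 → n • a = 0 → a = 0)
    (φ : Additive Γ →+ A) (hφ : KillsOn Ps φ) (γ : Additive Γ) :
    φ γ = ∑ i, PhiB Ps i γ • φ (betaB Ps i) := by
  have h1 : φ γ = liftF hA φ hφ (toF Ps γ) := (liftF_toF hA φ hφ γ).symm
  have h2 : toF Ps γ = ∑ i, (bas Ps).repr (toF Ps γ) i • bas Ps i :=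
    ((bas Ps).sum_repr (toF Ps γ)).symm
  rw [h1, h2, map_sum]
  apply Finset.sum_congr rfl
  intro i _
  rw [map_zsmul, ← toF_betaB, liftF_toF]
  rfl

end

end Fermat.Agent.GJ.J2.ZStruct
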