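/-
GATE-J / J2 (helper97): the multiplicative Hecke operator `h ↦ ∏_x h ∘ α_x` on T24's field
`Mer` of meromorphic functions on `ℍ`, and its effect on multipliers: if `h ∘ γ = χ(γ) h` for
`γ ∈ Γ₀(N)` then `(∏_x h ∘ α_x) ∘ γ = (cohT χ)(γ) · ∏_x h ∘ α_x`, where `cohT` is the
cohomological Hecke operator of `S16_helper49.HeckeHom` (written multiplicatively).
-/
import Mathlib
import Fermat.Agent.GJ.J2.MerGL

set_option autoImplicit false

open UpperHalfPlane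
open scoped MatrixGroups
open CongruenceSubgroup Matrix Matrix.SpecialLinearGroup
open P2MW.S_ModularForm_heckeT_slash_eq_self_of_mem_Gamma0.ModularForm.HeckeSlashInvariance
open Fermat.Agent.S24_helper82 Fermat.Agent.S16_helper49 Fermat.Agent.GJ.MerGL

noncomputable section

namespace Fermat.Agent.GJ.HeckeMult

variable {ℓ : ℕ} [Fact ℓ.Prime]

/-- The multiplicative Hecke operator `h ↦ ∏_{x ∈ ℙ¹(𝔽_ℓ)} h ∘ α_x` on meromorphic functions. -/
def heckeProd (ℓ : ℕ) [Fact ℓ.Prime] (h : Mer) : Mer :=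
  ∏ x : OnePoint (ZMod ℓ), compPM (heckeP ℓ x) h

theorem heckeProd_def (h : Mer) :
    heckeProd ℓ h = ∏ x : OnePoint (ZMod ℓ), compPM (heckeP ℓ x) h := rfl

@[simp] theorem heckeProd_one : heckeProd ℓ (1 : Mer) = 1 := by
  simp [heckeProd]

@[simp] theorem heckeProd_zero : heckeProd ℓ (0 : Mer) = 0 := by
  rw [heckeProd]
  exact Finset.prod_eq_zero (Finset.mem_univ (OnePoint.infty)) (map_zero _)

theorem heckeProd_mul (h₁ h₂ : Mer) :
    heckeProd ℓ (h₁ * h₂) = heckeProd ℓ h₁ * heckeProd ℓ h₂ := by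
  simp only [heckeProd, map_mul, Finset.prod_mul_distrib]

/-- `heckeProd` as a monoid homomorphism. -/
def heckeProdHom (ℓ : ℕ) [Fact ℓ.Prime] : Mer →* Mer where
  toFun := heckeProd ℓ
  map_one' := heckeProd_one
  map_mul' := heckeProd_mul

@[simp] theorem heckeProdHom_apply (h : Mer) : heckeProdHom ℓ h = heckeProd ℓ h := rfl

theorem heckeProd_pow (h : Mer) (n : ℕ) : heckeProd ℓ (h ^ n) = heckeProd ℓ h ^ n :=
  map_pow (heckeProdHom ℓ) h n

theorem heckeProd_inv (h : Mer) : heckeProd ℓ h⁻¹ = (heckeProd ℓ h)⁻¹ := by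
  simp only [heckeProd, map_inv₀, Finset.prod_inv_distrib]

theorem heckeProd_div (h₁ h₂ : Mer) :
    heckeProd ℓ (h₁ / h₂) = heckeProd ℓ h₁ / heckeProd ℓ h₂ := by
  rw [div_eq_mul_inv, heckeProd_mul, heckeProd_inv, div_eq_mul_inv]

theorem heckeProd_zpow (h : Mer) (n : ℤ) : heckeProd ℓ (h ^ n) = heckeProd ℓ h ^ n := by
  cases n with
  | ofNat n => simpa using heckeProd_pow h n
  | negSucc n => simp only [zpow_negSucc, heckeProd_inv, heckeProd_pow]

theorem heckeProd_ne_zero {h : Mer} (hh : h ≠ 0) : heckeProd ℓ h ≠ 0 := by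
  rw [heckeProd]
  exact Finset.prod_ne_zero_iff.mpr fun x _ => compPM_ne_zero _ hh

theorem card_onePoint_zmod : Fintype.card (OnePoint (ZMod ℓ)) = ℓ + 1 := by
  have : NeZero ℓ := ⟨(Fact.out : ℓ.Prime).ne_zero⟩
  show Fintype.card (Option (ZMod ℓ)) = ℓ + 1
  rw [Fintype.card_option, ZMod.card]

theorem heckeProd_const (c : ℂ) :
    heckeProd ℓ (algebraMap ℂ Mer c) = algebraMap ℂ Mer (c ^ (ℓ + 1)) := by
  simp only [heckeProd, compPM_const, Finset.prod_const, Finset.card_univ, card_onePoint_zmod,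
    map_pow]

theorem heckeProd_const_mul (c : ℂ) (h : Mer) :
    heckeProd ℓ (algebraMap ℂ Mer c * h) = algebraMap ℂ Mer (c ^ (ℓ + 1)) * heckeProd ℓ h := by
  rw [heckeProd_mul, heckeProd_const]

/-- Orders: `ord_τ (∏_x h ∘ α_x) = ∑_x ord_{α_x τ} h`. -/
theorem ordM_heckeProd {h : Mer} (hh : h ≠ 0) (τ : ℍ) :
    ordM τ (heckeProd ℓ h) = ∑ x : OnePoint (ZMod ℓ), ordM (heckeP ℓ x • τ) h := by
  have key : ∀ s : Finset (OnePoint (ZMod ℓ)),
      ordM τ (∏ x ∈ s, compPM (heckeP ℓ x) h) = ∑ x ∈ s, ordM (heckeP ℓ x • τ) h := by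
    intro s
    classical
    induction s using Finset.induction_on with
    | empty =>
      simp only [Finset.prod_empty, Finset.sum_empty]
      have := ordM_const τ (c := (1 : ℂ)) one_ne_zero
      simp only [map_one] at this
      exact this
    | insert a s ha ih =>
      rw [Finset.prod_insert ha, Finset.sum_insert ha,
        ordM_mul τ (compPM_ne_zero _ hh)
          (Finset.prod_ne_zero_iff.mpr fun x _ => compPM_ne_zero _ hh), ih, ordM_compPM]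
  exact key Finset.univ

/-- **The multiplier of the Hecke product.**  If `h ∘ γ = χ(γ) · h` for all `γ ∈ Γ₀(N)`, then
`(∏_x h ∘ α_x) ∘ γ = (∏_x χ(cT γ x)) · ∏_x h ∘ α_x`. -/
theorem compM_heckeProd {N : ℕ} (hℓN : ¬ ℓ ∣ N) (χ : Gamma0 N →* ℂˣ) (h : Mer)
    (hχ : ∀ γ : Gamma0 N, compM (γ : SL(2, ℤ)) h = algebraMap ℂ Mer (χ γ : ℂ) * h)
    (γ : Gamma0 N) :
    compM (γ : SL(2, ℤ)) (heckeProd ℓ h)
      = algebraMap ℂ Mer ((∏ x : OnePoint (ZMod ℓ), χ (cT hℓN γ x) : ℂˣ) : ℂ) * heckeProd ℓ h := by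
  have step : ∀ x : OnePoint (ZMod ℓ),
      compM (γ : SL(2, ℤ)) (compPM (heckeP ℓ x) h)
        = algebraMap ℂ Mer (χ (cT hℓN γ x) : ℂ)
          * compPM (heckeP ℓ (redMatrix ℓ (γ : SL(2, ℤ)) • x)) h := by
    intro x
    rw [← compPM_slP, ← compPM_mul, heckeP_mul_slP hℓN γ x, compPM_mul, compPM_slP, hχ, map_mul,
      compPM_const]
  rw [heckeProd, map_prod]
  simp_rw [step]
  rw [Finset.prod_mul_distrib]
  congr 1
  · rw [Units.coe_prod, map_prod]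
  · exact Equiv.prod_comp (MulAction.toPerm (redMatrix ℓ ((γ : Gamma0 N) : SL(2, ℤ))))
      (fun x => compPM (heckeP ℓ x) h)

/-- The multiplier `∏_x χ(cT γ x)` is the cohomological Hecke operator `cohT` of
`S16_helper49.HeckeHom` applied to `χ` (written additively). -/
theorem prod_cT_eq_cohT {N : ℕ} (hℓN : ¬ ℓ ∣ N) (χ : Gamma0 N →* ℂˣ) (γ : Gamma0 N) :
    (∏ x : OnePoint (ZMod ℓ), χ (cT hℓN γ x))
      = Additive.toMul (cohT hℓN (Additive ℂˣ) (MonoidHom.toAdditive χ) (Additive.ofMul γ)) := by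
  rw [cohT_apply, toMul_sum]
  rfl

/-- The multiplicative cohomological Hecke operator on characters `Γ₀(N) → ℂˣ`. -/
def cohTChar {N : ℕ} (hℓN : ¬ ℓ ∣ N) (χ : Gamma0 N →* ℂˣ) : Gamma0 N →* ℂˣ :=
  MonoidHom.toAdditive.symm (cohT hℓN (Additive ℂˣ) (MonoidHom.toAdditive χ))

theorem cohTChar_apply {N : ℕ} (hℓN : ¬ ℓ ∣ N) (χ : Gamma0 N →* ℂˣ) (γ : Gamma0 N) :
    cohTChar hℓN χ γ = ∏ x : OnePoint (ZMod ℓ), χ (cT hℓN γ x) :=
  (prod_cT_eq_cohT hℓN χ γ).symm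

/-- Multiplier of the Hecke product in terms of `cohTChar`. -/
theorem compM_heckeProd' {N : ℕ} (hℓN : ¬ ℓ ∣ N) (χ : Gamma0 N →* ℂˣ) (h : Mer)
    (hχ : ∀ γ : Gamma0 N, compM (γ : SL(2, ℤ)) h = algebraMap ℂ Mer (χ γ : ℂ) * h)
    (γ : Gamma0 N) :
    compM (γ : SL(2, ℤ)) (heckeProd ℓ h)
      = algebraMap ℂ Mer (cohTChar hℓN χ γ : ℂ) * heckeProd ℓ h := by
  rw [cohTChar_apply]
  exact compM_heckeProd hℓN χ h hχ γ

/-- The Hecke product of a `Γ₀(N)`-invariant function is `Γ₀(N)`-invariant. -/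
theorem compM_heckeProd_of_invariant {N : ℕ} (hℓN : ¬ ℓ ∣ N) (F : Mer)
    (hF : ∀ γ : Gamma0 N, compM (γ : SL(2, ℤ)) F = F) (γ : Gamma0 N) :
    compM (γ : SL(2, ℤ)) (heckeProd ℓ F) = heckeProd ℓ F := by
  have := compM_heckeProd hℓN (1 : Gamma0 N →* ℂˣ) F (fun γ => by simpa using hF γ) γ
  simpa using this

end Fermat.Agent.GJ.HeckeMult
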