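/-
GATE-J / J2 (F) KUM-FIN over `ℂ` (helper41): the Kummer group `Kum ℂ (FC N) p` of the function
field of `X₀(N)` over `ℂ` is FINITE.

The multiplier of a `p`-th root of `realizeC u` (a homomorphism `Γ₀(N) → ℤ/p`) determines the
class of `u`: if two roots `h`, `h'` of `realizeC u`, `realizeC v` have the same multiplier, then
`h'/h` is `Γ₀(N)`-invariant with `p`-th power in the function field, hence in the function field
(`FieldGen.exists_realizeC_eq_of_pow`), so `v = u w^p`.  The group of homomorphisms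
`Γ₀(N) → ℤ/p` is finite because `Γ₀(N)` is finitely generated.

The only open input is the interior dictionary (E1) of J2-DICT, used as a hypothesis.
-/
import Mathlib
import Fermat.Agent.GJ.J2.EigIface
import Fermat.Agent.GJ.J2.KumCore
import Fermat.Agent.GJ.J2.RootMer
import Fermat.Agent.GJ.J2.Dict.FieldGenCor
import Fermat.Agent.S22_helper71.Gamma0FG

set_option autoImplicit false

open UpperHalfPlane Complex CongruenceSubgroup AlgebraicCurve
open scoped MatrixGroups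

noncomputable section

namespace Fermat.Agent.GJ.KumFin

open Fermat.Agent.S24_helper82 Fermat.Agent.GJ.Dict Fermat.Agent.GJ.KumGroup
open Fermat.Agent.GJ.KumCore Fermat.Agent.GJ.HeckeMer

/-- the interior dictionary (E1) of J2-DICT, in the weakest form that suffices here: the order
at a point of the upper half plane is a multiple of the order at a place of `FC N`. -/
def E1 (N : ℕ) [NeZero N] : Prop :=
  ∀ τ : ℍ, ∃ (P : Place ℂ (FC N)) (e : ℕ), ∀ f : FC N, f ≠ 0 →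
    ordM τ (realizeC N f) = (e : ℤ) * P.ord f

section Finite

variable {N : ℕ} [NeZero N] {p : ℕ}

theorem dvd_ordM_of_mem (hE1 : E1 N) {u : (FC N)ˣ} (hu : u ∈ pDivUnits ℂ (FC N) p) (τ : ℍ) :
    (p : ℤ) ∣ ordM τ (realizeC N (u : FC N)) := by
  obtain ⟨P, e, hPe⟩ := hE1 τ
  rw [hPe _ u.ne_zero]
  exact Dvd.dvd.mul_left (hu P) _

theorem realizeC_unit_ne_zero (u : (FC N)ˣ) : realizeC N (u : FC N) ≠ 0 :=
  (map_ne_zero (realizeC N)).mpr u.ne_zero

/-- every `p`-divisible unit has a `p`-th root in `Mer` -/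
theorem exists_root (hE1 : E1 N) (hp : 0 < p) {u : (FC N)ˣ} (hu : u ∈ pDivUnits ℂ (FC N) p) :
    ∃ h : Mer, h ≠ 0 ∧ h ^ p = realizeC N (u : FC N) := by
  obtain ⟨h, hh⟩ := Fermat.Agent.GJ.Root.exists_pow_eq_mer hp _ (realizeC_unit_ne_zero u)
    (dvd_ordM_of_mem hE1 hu)
  refine ⟨h, ?_, hh⟩
  rintro rfl
  rw [zero_pow hp.ne'] at hh
  exact realizeC_unit_ne_zero u hh.symm

theorem compM_pow_of_root {h : Mer} {f : FC N} (hh : h ^ p = realizeC N f) (γ : Gamma0 N) :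
    compM (γ : SL(2, ℤ)) (h ^ p) = h ^ p := by
  rw [hh]
  exact compM_realizeC_of_mem_Gamma0 N γ.2 f

variable [NeZero p]

/-- **Same multiplier ⇒ same Kummer class.** -/
theorem mk_eq_mk_of_hasMult {ζ : ℂ} (hζ : IsPrimitiveRoot ζ p) {u v : pDivUnits ℂ (FC N) p}
    {h h' : Mer} (hh0 : h ≠ 0) (hh : h ^ p = realizeC N ((u : (FC N)ˣ) : FC N))
    (hh' : h' ^ p = realizeC N ((v : (FC N)ˣ) : FC N))
    {ψ : Additive (Gamma0 N) →+ ZMod p} (H : HasMult ζ ψ h) (H' : HasMult ζ ψ h') :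
    Kum.mk u = Kum.mk v := by
  have hp : 0 < p := Nat.pos_of_ne_zero (NeZero.ne p)
  have hζ1 : ζ ^ p = 1 := hζ.pow_eq_one
  -- `m = h'/h` is invariant
  have hm : HasMult ζ (ψ + -ψ) (h' * h⁻¹) := H'.mul hζ1 (H.inv hζ1)
  rw [add_neg_cancel, hasMult_zero_iff] at hm
  have hminv : ∀ γ ∈ Gamma0 N, compM γ (h' * h⁻¹) = h' * h⁻¹ := fun γ hγ => hm ⟨γ, hγ⟩
  have hpow : (h' * h⁻¹) ^ p
      = realizeC N ((((v : (FC N)ˣ) * (u : (FC N)ˣ)⁻¹ : (FC N)ˣ)) : FC N) := by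
    rw [mul_pow, inv_pow, hh, hh', Units.val_mul, map_mul, Units.val_inv_eq_inv_val, map_inv₀]
  obtain ⟨w, hw⟩ := FieldGen.exists_realizeC_eq_of_pow N hp _ hminv _ hpow
  have hw0 : w ≠ 0 := by
    rintro rfl
    rw [map_zero] at hw
    have h'0 : h' ≠ 0 := by
      rintro rfl
      rw [zero_pow hp.ne'] at hh'
      exact realizeC_unit_ne_zero _ hh'.symm
    exact mul_ne_zero h'0 (inv_ne_zero hh0) hw.symm
  have hwp : w ^ p = (((v : (FC N)ˣ) * (u : (FC N)ˣ)⁻¹ : (FC N)ˣ) : FC N) := by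
    apply realizeC_injective N
    rw [map_pow, hw, hpow]
  rw [Kum.mk_eq_mk_iff]
  refine ⟨Units.mk0 w hw0, Units.ext ?_⟩
  rw [Units.val_mul, Units.val_pow_eq_pow_val, Units.val_mk0, hwp, Units.val_mul,
    Units.val_inv_eq_inv_val]
  field_simp

/-- `Γ₀(N)` is finitely generated, so it has finitely many homomorphisms to `ℤ/p`. -/
theorem finite_hom (N : ℕ) [NeZero N] (p : ℕ) [NeZero p] :
    Finite (Additive (Gamma0 N) →+ ZMod p) := by
  obtain ⟨s, hs, hcl⟩ := Fermat.Agent.S22_helper71.exists_finset_closure_eq_gamma0 N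
  -- evaluation on the generators is injective
  let ev : (Additive (Gamma0 N) →+ ZMod p) → (s → ZMod p) :=
    fun φ x => φ (Additive.ofMul ⟨x.1, hs x.2⟩)
  refine Finite.of_injective ev fun φ φ' hφ => ?_
  -- the two homs agree on the closure of the generators
  have key : ∀ g : SL(2, ℤ), ∀ hg : g ∈ Gamma0 N,
      φ (Additive.ofMul ⟨g, hg⟩) = φ' (Additive.ofMul ⟨g, hg⟩) := by
    intro g hg
    have hg' : g ∈ Subgroup.closure (↑s : Set SL(2, ℤ)) := by rw [hcl]; exact hg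
    have hsub : Subgroup.closure (↑s : Set SL(2, ℤ)) ≤ Gamma0 N := hcl.le
    suffices h : ∀ (g : SL(2, ℤ)) (hgc : g ∈ Subgroup.closure (↑s : Set SL(2, ℤ))),
        φ (Additive.ofMul ⟨g, hsub hgc⟩) = φ' (Additive.ofMul ⟨g, hsub hgc⟩) from h g hg'
    intro g hgc
    induction hgc using Subgroup.closure_induction with
    | mem x hx => exact congrFun hφ ⟨x, hx⟩
    | one =>
      have e : (⟨1, hsub (Subgroup.one_mem _)⟩ : Gamma0 N) = 1 := rfl
      rw [e, ofMul_one, map_zero, map_zero]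
    | mul x y hx hy ihx ihy =>
      have e : (⟨x * y, hsub (Subgroup.mul_mem _ hx hy)⟩ : Gamma0 N)
          = ⟨x, hsub hx⟩ * ⟨y, hsub hy⟩ := rfl
      rw [e, ofMul_mul, map_add, map_add, ihx, ihy]
    | inv x hx ih =>
      have e : (⟨x⁻¹, hsub (Subgroup.inv_mem _ hx)⟩ : Gamma0 N) = (⟨x, hsub hx⟩ : Gamma0 N)⁻¹ :=
        rfl
      rw [e, ofMul_inv, map_neg, map_neg, ih]
  refine AddMonoidHom.ext fun γ₀ => ?_
  obtain ⟨γ, rfl⟩ : ∃ γ : Gamma0 N, Additive.ofMul γ = γ₀ := ⟨Additive.toMul γ₀, rfl⟩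
  exact key γ.1 γ.2

/-- a choice of multiplier for every `p`-divisible unit -/
theorem exists_mult (hE1 : E1 N) {ζ : ℂ} (hζ : IsPrimitiveRoot ζ p) (u : pDivUnits ℂ (FC N) p) :
    ∃ (ψ : Additive (Gamma0 N) →+ ZMod p) (h : Mer), h ≠ 0 ∧
      h ^ p = realizeC N ((u : (FC N)ˣ) : FC N) ∧ HasMult ζ ψ h := by
  have hp : 0 < p := Nat.pos_of_ne_zero (NeZero.ne p)
  obtain ⟨h, hh0, hh⟩ := exists_root hE1 hp u.2
  obtain ⟨ψ, hψ⟩ := exists_hasMult hζ hh0 (compM_pow_of_root hh)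
  exact ⟨ψ, h, hh0, hh, hψ⟩

/-- the multiplier map on `p`-divisible units (a choice; see `kappaU_eq` for independence) -/
def kappaU (hE1 : E1 N) {ζ : ℂ} (hζ : IsPrimitiveRoot ζ p) (u : pDivUnits ℂ (FC N) p) :
    Additive (Gamma0 N) →+ ZMod p :=
  (exists_mult hE1 hζ u).choose

theorem kappaU_spec (hE1 : E1 N) {ζ : ℂ} (hζ : IsPrimitiveRoot ζ p) (u : pDivUnits ℂ (FC N) p) :
    ∃ h : Mer, h ≠ 0 ∧ h ^ p = realizeC N ((u : (FC N)ˣ) : FC N) ∧
      HasMult ζ (kappaU hE1 hζ u) h :=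
  (exists_mult hE1 hζ u).choose_spec

/-- the multiplier does not depend on the choice of the root -/
theorem kappaU_eq (hE1 : E1 N) {ζ : ℂ} (hζ : IsPrimitiveRoot ζ p) (u : pDivUnits ℂ (FC N) p)
    {h : Mer} (hh : h ^ p = realizeC N ((u : (FC N)ˣ) : FC N))
    {ψ : Additive (Gamma0 N) →+ ZMod p} (H : HasMult ζ ψ h) : kappaU hE1 hζ u = ψ := by
  have hp : 0 < p := Nat.pos_of_ne_zero (NeZero.ne p)
  obtain ⟨h₁, h₁0, hh₁, H₁⟩ := kappaU_spec hE1 hζ u
  obtain ⟨c, hc, hch⟩ := Fermat.Agent.GJ.Root.eq_smul_of_pow_eq hp h h₁ h₁0 (hh.trans hh₁.symm)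
  -- `h = c h₁` has the same multiplier as `h₁`
  have H' : HasMult ζ (kappaU hE1 hζ u) h := by
    intro γ
    rw [hch, map_mul, compM_const, H₁ γ]
    ring
  have hh0 : h ≠ 0 := by
    rintro rfl
    rw [zero_pow hp.ne'] at hh
    exact realizeC_unit_ne_zero _ hh.symm
  exact HasMult.unique hζ hh0 H' H

theorem kappaU_injective_mod (hE1 : E1 N) {ζ : ℂ} (hζ : IsPrimitiveRoot ζ p)
    {u v : pDivUnits ℂ (FC N) p} (h : kappaU hE1 hζ u = kappaU hE1 hζ v) :
    Kum.mk u = Kum.mk v := by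
  obtain ⟨h₁, h₁0, hh₁, H₁⟩ := kappaU_spec hE1 hζ u
  obtain ⟨h₂, -, hh₂, H₂⟩ := kappaU_spec hE1 hζ v
  rw [← h] at H₂
  exact mk_eq_mk_of_hasMult hζ h₁0 hh₁ hh₂ H₁ H₂

/-- **(F) KUM-FIN over `ℂ`**: the Kummer group of `ℂ(X₀(N))` is finite. -/
theorem finite_kum (hE1 : E1 N) {ζ : ℂ} (hζ : IsPrimitiveRoot ζ p) :
    Finite (Kum ℂ (FC N) p) := by
  have := finite_hom N p
  let g : Kum ℂ (FC N) p → (Additive (Gamma0 N) →+ ZMod p) :=
    fun x => kappaU hE1 hζ (Function.surjInv Kum.mk_surjective x)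
  refine Finite.of_injective g fun x y hxy => ?_
  have h1 := kappaU_injective_mod hE1 hζ hxy
  have e1 : Kum.mk (Function.surjInv (Kum.mk_surjective (K := ℂ) (F := FC N) (p := p)) x) = x :=
    Function.surjInv_eq _ x
  have e2 : Kum.mk (Function.surjInv (Kum.mk_surjective (K := ℂ) (F := FC N) (p := p)) y) = y :=
    Function.surjInv_eq _ y
  rw [← e1, ← e2]
  exact h1

/-- the same with the standard primitive root `exp (2πi/p)` -/
theorem finite_kum' (hE1 : E1 N) : Finite (Kum ℂ (FC N) p) :=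
  finite_kum hE1 (Complex.isPrimitiveRoot_exp p (NeZero.ne p))

end Finite

end Fermat.Agent.GJ.KumFin
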