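/-
GATE-J / J2 (F) KUM-FIN over `ℂ`, unconditional (helper41): the interior dictionary `E1` from
helper49's `Dict/InteriorValC.lean` (the valuation `ord_τ ∘ realizeC` is a nontrivial `IntVal`,
hence a positive multiple of the order at a place), and `Finite (Kum ℂ (FC N) p)`.
-/
import Mathlib
import Fermat.Agent.GJ.J2.KumFin
import Fermat.Agent.GJ.J2.Dict.InteriorValC

set_option autoImplicit false

open UpperHalfPlane Complex CongruenceSubgroup AlgebraicCurve
open scoped MatrixGroups

noncomputable section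

namespace Fermat.Agent.GJ.KumFin

open Fermat.Agent.S24 Fermat.Agent.S24_helper82 Fermat.Agent.GJ.Dict Fermat.Agent.GJ.KumGroup

variable (N : ℕ) [NeZero N]

/-- the valuation `f ↦ ord_τ (realizeC f)` on `FC N` is nontrivial -/
theorem VC_one_isNontrivial (τ : ℍ) : (VC N τ 1).IsNontrivial := by
  refine ⟨jC N - algebraMap ℂ (FC N) (Fermat.Agent.S28.jFun τ), jC_sub_ne_zero N _, ?_⟩
  rw [VC_jC_sub N rfl 1]
  have := card_Stab_div_two_pos τ
  exact_mod_cast this.ne'

/-- **(E1)**: the place of `FC N` at a point of the upper half plane, with its multiplicity. -/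
theorem exists_place_at (τ : ℍ) : ∃ (P : Place ℂ (FC N)) (e : ℕ), 0 < e ∧ ∀ f : FC N, f ≠ 0 →
    ordM τ (realizeC N f) = (e : ℤ) * P.ord f := by
  have hnt := VC_one_isNontrivial N τ
  have hpos := IntVal.mult_pos hnt
  refine ⟨IntVal.placeOf hnt, (IntVal.mult hnt).toNat, by omega, fun f hf => ?_⟩
  have h1 := IntVal.eq_mult_mul_ord hnt hf
  rw [VC_apply', inv_one, one_smul] at h1
  rw [h1, Int.toNat_of_nonneg hpos.le]

theorem e1 : E1 N := fun τ => by
  obtain ⟨P, e, -, h⟩ := exists_place_at N τ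
  exact ⟨P, e, h⟩

/-- **(F) KUM-FIN over `ℂ`, unconditional.** -/
theorem finite_kum_C (p : ℕ) [NeZero p] : Finite (Kum ℂ (FC N) p) := finite_kum' (e1 N)

end Fermat.Agent.GJ.KumFin
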