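/-
GATE-J / J2 (helper41): the two `ℂ`-inputs of helper86's `EigDesc.lean` that come from DICT-5
and KUM-FIN, discharged:

* `satC : SatC N p`   (saturation over `ℂ` = `FieldGen.exists_realizeC_eq_of_pow`);
* `finC : FinC N p`   (finiteness of the Kummer group of `ℂ(X₀(N))` = `KumFin.finite_kum_C`).
-/
import Mathlib
import Fermat.Agent.GJ.J2.EigDesc
import Fermat.Agent.GJ.J2.KumFinE1

set_option autoImplicit false

open UpperHalfPlane Complex CongruenceSubgroup
open scoped MatrixGroups

noncomputable section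

namespace Fermat.Agent.GJ.EigAsm

open Fermat.Agent.S24_helper82 Fermat.Agent.GJ.Dict Fermat.Agent.GJ.KumGroup

variable (N : ℕ) [NeZero N] (p : ℕ) [Fact p.Prime]

/-- **(SATC)** discharged: saturation over `ℂ`. -/
theorem satC : SatC N p := by
  intro m hm hpow
  obtain ⟨f, hf⟩ := hpow
  obtain ⟨f', hf'⟩ := FieldGen.exists_realizeC_eq_of_pow N (Fact.out : p.Prime).pos m
    (fun γ hγ => hm ⟨γ, hγ⟩) f hf.symm
  exact ⟨f', hf'⟩

/-- **(F_ℂ)** discharged: the Kummer group of `ℂ(X₀(N))` is finite. -/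
theorem finC : FinC N p :=
  haveI : NeZero p := ⟨(Fact.out : p.Prime).ne_zero⟩
  KumFin.finite_kum_C N p

end Fermat.Agent.GJ.EigAsm
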