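/-
GATE-J / J2 EIG-ASM, part 4 (helper86): the leaves of `eig_of_C` / `fin_of_C` that are closed on
main, in the exact shapes of `EigDesc.lean`, and the reduced assembly.

* `satC`  : `SatC N p`      (helper41, `EigInputsC.lean`, imported);
* `exC`   : `ExC N p ζ`     (helper94 `hPhi` + helper57 (F6) `Auto.exists_isKumDatum`);
* `finC`  : `FinC N p`      (helper41, `EigInputsC.lean`, imported);
* `hn1Q`  : `HN1Q N`        (helper43/helper82, `GJ/HN/HN1Q.lean`);
* `pDivC_of_cusp` : `PDivC` from its cusp half (interior half: helper49 `dvd_ord_of_datum_interior`).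

Remaining inputs: `PDivCusp` (cusp half of (P)), the four descent bricks, `LAT`.
-/
import Mathlib
import Fermat.Agent.GJ.J2.EigDesc
import Fermat.Agent.GJ.J2.EigInputsC
import Fermat.Agent.GJ.J2.Dict.PDivInterior
import Fermat.Agent.GJ.J2.Auto.EisField
import Fermat.Agent.GJ.J2.KumFinE1
import Fermat.Agent.GJ.HN.HN1Q

set_option autoImplicit false
set_option linter.unusedSectionVars false

open UpperHalfPlane Complex CongruenceSubgroup AlgebraicCurve ModularCurve ModularCurve.Period
open scoped MatrixGroups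

noncomputable section

namespace Fermat.Agent.GJ.EigAsm

open Fermat.Agent.S24_helper82
open Fermat.Agent.GJ.HeckeMer Fermat.Agent.GJ.KumCore Fermat.Agent.GJ.KumGroup
open Fermat.Agent.GJ.Dict

variable (N : ℕ) [NeZero N] (p : ℕ) [Fact p.Prime]

/-- **(EXC)** holds (helper94 + helper57). -/
theorem exC {ζ : ℂ} (hζ : ζ ^ p = 1) : ExC N p ζ := by
  intro ψ hψ
  obtain ⟨h, u, D⟩ := Fermat.Agent.GJ.Auto.exists_isKumDatum (N := N) p
    (rootsOfUnity.mkOfPowEq ζ hζ) ψ hψ.1
  refine ⟨h, u, ?_⟩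
  rw [rootsOfUnity.coe_mkOfPowEq] at D
  exact D

/-- **(P), cusp half**: the `u`-part of any Kummer datum of a good character has `p`-divisible
order at every place over `j = ∞`. -/
def PDivCusp (ζ : ℂ) : Prop :=
  ∀ (ψ : Additive (Gamma0 N) →+ ZMod p) (h : Mer) (u : FC N), IsGood N ψ →
    IsKumDatum (realC N) ζ ψ h u → ∀ Q : Place ℂ (FC N), Q.ord (jC N) < 0 → (p : ℤ) ∣ Q.ord u

variable {N p}

/-- `(P)` from its cusp half (the interior half is helper49's `dvd_ord_of_datum_interior`). -/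
theorem pDivC_of_cusp {ζ : ℂ} (hc : PDivCusp N p ζ) : PDivC N p ζ := by
  intro ψ h u hψ D Q
  by_cases hQ : Q.ord (jC N) < 0
  · exact hc ψ h u hψ D Q hQ
  · exact dvd_ord_of_datum_interior N D hψ.2 Q hQ

/-- **Reduced J2 assembly**: `EIG` from the cusp half of (P), the descent bricks and `LAT`. -/
theorem eig_of_leaves {ζ : ℂ} (hζ : IsPrimitiveRoot ζ p) (hc : PDivCusp N p ζ)
    (hD : DescP N p) (hD1 : D1 N p) (hL : IsPowDesc N p) (hlat : LAT N p) : EIG N p :=
  eig_of_C hζ (satC N p) (exC N p hζ.pow_eq_one) (pDivC_of_cusp hc) hD hD1 hL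
    (Fermat.Agent.GJ.HN.hn1Q N) hlat

/-- **Reduced FIN**: from two descent bricks. -/
theorem fin_of_leaves (hc : D1conv N p) (hL : IsPowDesc N p) : FIN N p :=
  fin_of_C (finC N p) hc hL

end Fermat.Agent.GJ.EigAsm
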