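/-
GATE-J / J2 EIG-ASM, part 5 (helper86): the four descent leaves of `eig_of_leaves` /
`fin_of_leaves` are closed by the DESC bricks on main (helper84, helper80, helper66, helper21,
helper99), instantiated at `K = ℚ̄`, `L = ℂ` (`algKbC`), `F₀ = ℚ(X₀(N))`, `x₀ = j`:

* `descP`     : `DescP N p`      (`Desc.descent_of_gen` + `PlaceOver.exists_place_over` + `finC`);
* `d1`        : `D1 N p`         (`PlaceOver.exists_place_over`);
* `d1conv`    : `D1conv N p`     (`Desc.dvd_ord_bcHom`);
* `isPowDesc` : `IsPowDesc N p`  (`Desc.isPow_of_bcHom_eq_pow`).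

Hence `EIG` needs only `PDivCusp` and `LAT`, and `FIN` is unconditional.
-/
import Mathlib
import Fermat.Agent.GJ.J2.EigLeaves
import Fermat.Agent.GJ.Desc.Modular
import Fermat.Agent.GJ.Desc.PlaceOver
import Fermat.Agent.GJ.Desc.Places
import Fermat.Agent.S24_helper62.CuspFibre

set_option autoImplicit false
set_option linter.unusedSectionVars false

open UpperHalfPlane Complex CongruenceSubgroup AlgebraicCurve ModularCurve ModularCurve.Period
open scoped MatrixGroups

noncomputable section

namespace Fermat.Agent.GJ.EigAsm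

open Fermat.Agent.S24 Fermat.Agent.S24_helper82
open Fermat.Agent.GJ.HeckeMer Fermat.Agent.GJ.KumCore Fermat.Agent.GJ.KumGroup
open Fermat.Agent.GJ.Dict Fermat.Agent.GJ.Desc

attribute [local instance] algKbC

variable (N : ℕ) [NeZero N] (p : ℕ) [Fact p.Prime]

/-- places of `ℚ̄(X₀(N))` extend to `ℂ(X₀(N))` without ramification -/
theorem exists_place_over_bcQ (P : Place Kb (FK N)) :
    ∃ Q : Place ℂ (FC N), ∀ f : FK N, Q.ord (bcQ N f) = P.ord f := by
  haveI : IsGen Kbar (jF N) := Fermat.Agent.S24_helper62.isGen_jF N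
  exact Fermat.Agent.GJ.Desc.PlaceOver.exists_place_over Kb ℂ (modularFunctionFieldFull N)
    (jF N) P

/-- **(D1)** holds. -/
theorem d1 : D1 N p := by
  intro u₀ h P
  obtain ⟨Q, hQ⟩ := exists_place_over_bcQ N P
  rw [← hQ u₀]
  exact h Q

/-- **(D1conv)** holds. -/
theorem d1conv : D1conv N p := fun u₀ h Q =>
  dvd_ord_bcHom Kb ℂ (modularFunctionFieldFull N) p u₀ h Q

/-- **(LD-d)** holds. -/
theorem isPowDesc : IsPowDesc N p := by
  intro u₀ v h
  haveI : CharZero Kb := charZero_of_injective_algebraMap (algebraMap ℚ Kb).injective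
  exact isPow_of_bcHom_eq_pow Kb ℂ (modularFunctionFieldFull N) p
    (Nat.pos_of_ne_zero (NeZero.ne p)) u₀ v h

/-- **(DESC)** holds. -/
theorem descP : DescP N p := by
  intro u hu hdiv
  haveI : IsGen Kbar (jF N) := Fermat.Agent.S24_helper62.isGen_jF N
  haveI : CharZero Kb := charZero_of_injective_algebraMap (algebraMap ℚ Kb).injective
  haveI : IsGen ℂ (bcHom Kb ℂ (modularFunctionFieldFull N) (jF N)) :=
    isGen_bcHom Kb ℂ (modularFunctionFieldFull N) (jF N)
  exact descent_of_gen Kb ℂ (modularFunctionFieldFull N)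
    (bcHom Kb ℂ (modularFunctionFieldFull N) (jF N)) (exists_place_over_bcQ N)
    (Fermat.Agent.GJ.Desc.Modular.exists_order_ne_zero N) p (Nat.pos_of_ne_zero (NeZero.ne p))
    (Fermat.Agent.GJ.Desc.Modular.exists_finset_of_finite p (finC N p)) u hu hdiv

variable {N p}

/-- **J2, final reduction**: `EIG` from the cusp half of (P) and `LAT`. -/
theorem eig_of_cusp_lat {ζ : ℂ} (hζ : IsPrimitiveRoot ζ p) (hc : PDivCusp N p ζ)
    (hlat : LAT N p) : EIG N p :=
  eig_of_leaves hζ hc (descP N p) (d1 N p) (isPowDesc N p) hlat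

variable (N p)

/-- **FIN** holds: the Kummer group of `ℚ̄(X₀(N))` is finite. -/
theorem fin : FIN N p := fin_of_leaves (d1conv N p) (isPowDesc N p)

end Fermat.Agent.GJ.EigAsm
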