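/-
GATE-J / J2 (helper64).  Orbit sums for the cyclic group generated by `t` acting on a finite
set, and the integral "correction lemma": if `G = ⟨S, t⟩` acts transitively on `X`, `S` acts as an
involution, and `c₀ : X → ℤ` has total sum `0` and all `t`-orbit sums divisible by `n`, then there is
`k : X → ℤ` with `k + S·k = 0` such that `c₀ - n • (k ∘ t)` has all `t`-orbit sums zero.
Mathlib only.
-/
import Mathlib

set_option autoImplicit false

namespace Fermat.Agent.GJ.J2.OrbitSum

open scoped Classical
open Finset

noncomputable section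

variable {G : Type*} [Group G] {X : Type*} [MulAction G X]

/-- the set of orbits of the cyclic group generated by `t` -/
abbrev Orb (t : G) (X : Type*) [MulAction G X] : Type _ :=
  MulAction.orbitRel.Quotient (Subgroup.zpowers t) X

/-- the projection to the orbit set -/
def proj (t : G) (x : X) : Orb t X := Quotient.mk'' x

lemma proj_surjective (t : G) : Function.Surjective (proj t : X → Orb t X) :=
  Quotient.mk''_surjective

lemma proj_eq_iff (t : G) (x y : X) : proj t y = proj t x ↔ ∃ k : ℤ, y = t ^ k • x := by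
  unfold proj
  rw [Quotient.eq'']
  show MulAction.orbitRel (Subgroup.zpowers t) X y x ↔ _
  rw [MulAction.orbitRel_apply, MulAction.mem_orbit_iff]
  constructor
  · rintro ⟨⟨g, hg⟩, rfl⟩
    obtain ⟨k, rfl⟩ := Subgroup.mem_zpowers_iff.mp hg
    exact ⟨k, rfl⟩
  · rintro ⟨k, rfl⟩
    exact ⟨⟨t ^ k, Subgroup.zpow_mem_zpowers t k⟩, rfl⟩

lemma proj_zpow_smul (t : G) (k : ℤ) (x : X) : proj t (t ^ k • x) = proj t x :=
  (proj_eq_iff t x _).mpr ⟨k, rfl⟩

lemma proj_smul (t : G) (x : X) : proj t (t • x) = proj t x := by
  have := proj_zpow_smul t 1 x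
  simpa using this

lemma proj_pow_smul (t : G) (j : ℕ) (x : X) : proj t (t ^ j • x) = proj t x := by
  have := proj_zpow_smul t (j : ℤ) x
  simpa using this

/-- invariance under `t` implies invariance under all integer powers -/
lemma apply_zpow_smul {B : Type*} (t : G) (f : X → B) (hf : ∀ x, f (t • x) = f x) (k : ℤ) (x : X) :
    f (t ^ k • x) = f x := by
  have hnat : ∀ (j : ℕ) (y : X), f (t ^ j • y) = f y := by
    intro j
    induction j with
    | zero => intro y; simp
    | succ j ih => intro y; rw [pow_succ, mul_smul, ih, hf]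
  obtain ⟨j, rfl | rfl⟩ := Int.eq_nat_or_neg k
  · rw [zpow_natCast]; exact hnat j x
  · have := hnat j (t ^ (-(j : ℤ)) • x)
    rw [← this, ← zpow_natCast, ← mul_smul, ← zpow_add]
    simp

variable [Fintype X]

section sums

variable {A : Type*} [AddCommGroup A]

/-- the orbit sums of `c` -/
def orbSum (t : G) (c : X → A) (q : Orb t X) : A := ∑ x, if proj t x = q then c x else 0

lemma orbSum_add (t : G) (c d : X → A) :
    orbSum t (fun x => c x + d x) = fun q => orbSum t c q + orbSum t d q := by
  funext q
  simp only [orbSum, ← Finset.sum_add_distrib]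
  apply Finset.sum_congr rfl
  intro x _
  split_ifs <;> simp

lemma orbSum_sub (t : G) (c d : X → A) :
    orbSum t (fun x => c x - d x) = fun q => orbSum t c q - orbSum t d q := by
  funext q
  simp only [orbSum, ← Finset.sum_sub_distrib]
  apply Finset.sum_congr rfl
  intro x _
  split_ifs <;> simp

lemma orbSum_zsmul (t : G) (m : ℤ) (c : X → A) :
    orbSum t (fun x => m • c x) = fun q => m • orbSum t c q := by
  funext q
  simp only [orbSum, Finset.smul_sum]
  apply Finset.sum_congr rfl
  intro x _
  split_ifs <;> simp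

lemma orbSum_sub_mul (t : G) (n : ℤ) (c d : X → ℤ) (q : Orb t X) :
    orbSum t (fun x => c x - n * d x) q = orbSum t c q - n * orbSum t d q := by
  simp only [orbSum, Finset.mul_sum, ← Finset.sum_sub_distrib]
  apply Finset.sum_congr rfl
  intro x _
  split_ifs <;> simp

lemma orbSum_comp_smul (t : G) (c : X → A) : orbSum t (fun x => c (t • x)) = orbSum t c := by
  funext q
  simp only [orbSum]
  have h := Equiv.sum_comp (MulAction.toPerm t : Equiv.Perm X)
    (fun y => if proj t y = q then c y else 0)
  simp only [MulAction.toPerm_apply, proj_smul] at h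
  exact h

lemma orbSum_single (t : G) (y : X) (a : A) :
    orbSum t (Pi.single y a : X → A) = Pi.single (proj t y) a := by
  funext q
  simp only [orbSum]
  rw [Finset.sum_eq_single y]
  · rw [Pi.single_eq_same]
    by_cases h : proj t y = q
    · rw [if_pos h, ← h, Pi.single_eq_same]
    · rw [if_neg h, Pi.single_eq_of_ne (fun h' => h h'.symm)]
  · intro x _ hx
    rw [Pi.single_eq_of_ne hx]; simp
  · intro h; exact absurd (Finset.mem_univ _) h

lemma sum_orbSum (t : G) (c : X → A) : ∑ q, orbSum t c q = ∑ x, c x := by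
  simp only [orbSum]
  rw [Finset.sum_comm]
  apply Finset.sum_congr rfl
  intro x _
  rw [Finset.sum_ite_eq]
  simp

/-- orbit sum via the period -/
lemma orbSum_proj_eq (t : G) (c : X → A) (x : X) (w : ℕ) (hw : 0 < w)
    (hper : MulAction.period t x = w) :
    orbSum t c (proj t x) = ∑ j ∈ Finset.range w, c (t ^ j • x) := by
  simp only [orbSum]
  rw [← Finset.sum_filter]
  symm
  apply Finset.sum_bij (fun j _ => t ^ j • x)
  · intro j _
    simp only [Finset.mem_filter, Finset.mem_univ, true_and]
    exact proj_pow_smul t j x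
  · intro i hi j hj hij
    rw [Finset.mem_range] at hi hj
    -- t^i x = t^j x with i, j < w
    wlog hle : i ≤ j generalizing i j
    · exact (this j hj i hi hij.symm (le_of_not_ge hle)).symm
    have h1 : t ^ (j - i) • x = x := by
      have : t ^ j • x = t ^ i • t ^ (j - i) • x := by
        rw [← mul_smul, ← pow_add, Nat.add_sub_cancel' hle]
      rw [this] at hij
      exact (smul_left_cancel _ hij).symm
    have h2 : w ∣ j - i := by
      rw [← hper]
      exact MulAction.pow_smul_eq_iff_period_dvd.mp h1
    have h3 : j - i < w := lt_of_le_of_lt (Nat.sub_le _ _) hj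
    have h4 : j - i = 0 := Nat.eq_zero_of_dvd_of_lt h2 h3
    omega
  · intro y hy
    simp only [Finset.mem_filter, Finset.mem_univ, true_and] at hy
    obtain ⟨k, rfl⟩ := (proj_eq_iff t x y).mp hy
    refine ⟨(k % (w : ℤ)).toNat, ?_, ?_⟩
    · rw [Finset.mem_range]
      have hw' : (0 : ℤ) < w := by exact_mod_cast hw
      have h1 := Int.emod_nonneg k hw'.ne'
      have h2 := Int.emod_lt_of_pos k hw'
      omega
    · have hw' : (0 : ℤ) < w := by exact_mod_cast hw
      have h1 := Int.emod_nonneg k hw'.ne'
      have : t ^ (k % (w : ℤ)).toNat • x = t ^ (k % (w : ℤ)) • x := by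
        rw [← zpow_natCast, Int.toNat_of_nonneg h1]
      rw [this, ← hper, MulAction.zpow_mod_period_smul]
  · intro j _
    rfl

end sums

/-- pairing with invariant functions factors through the orbit sums -/
lemma sum_mul_eq_zero_of_orbSum_eq_zero (t : G) (c : X → ℤ) (hc : orbSum t c = 0)
    (f : X → ℂ) (hf : ∀ x, f (t • x) = f x) : ∑ x, ((c x : ℤ) : ℂ) * f x = 0 := by
  -- `f` factors through the orbit set
  set f' : Orb t X → ℂ := fun q => f q.out with hf'
  have hff' : ∀ x, f x = f' (proj t x) := by
    intro x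
    have h1 : proj t (proj t x).out = proj t x := Quotient.out_eq' _
    obtain ⟨k, hk⟩ := (proj_eq_iff t x _).mp h1
    show f x = f (proj t x).out
    rw [hk, apply_zpow_smul t f hf]
  have h1 : ∑ x, ((c x : ℤ) : ℂ) * f x
      = ∑ q, ((orbSum t c q : ℤ) : ℂ) * f' q := by
    simp only [orbSum]
    have : ∀ q, ((∑ x, if proj t x = q then c x else 0 : ℤ) : ℂ) * f' q
        = ∑ x, if proj t x = q then ((c x : ℤ) : ℂ) * f' q else 0 := by
      intro q
      rw [Int.cast_sum, Finset.sum_mul]
      apply Finset.sum_congr rfl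
      intro x _
      split_ifs <;> simp
    simp_rw [this]
    rw [Finset.sum_comm]
    apply Finset.sum_congr rfl
    intro x _
    rw [Finset.sum_ite_eq, hff' x]
    simp
  rw [h1, hc]
  simp

section correction

variable (S t : G) (hgen : Subgroup.closure ({S, t} : Set G) = ⊤)
  (hS : ∀ x : X, S • S • x = x)

/-- the map `v ↦ orbit sums of (v - v ∘ S)` -/
def Dmap : (X → ℤ) →+ (Orb t X → ℤ) where
  toFun v := orbSum t (fun y => v y - v (S • y))
  map_zero' := by
    funext q; simp [orbSum]
  map_add' v v' := by
    have : (fun y => (v + v') y - (v + v') (S • y))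
        = fun y => (v y - v (S • y)) + (v' y - v' (S • y)) := by
      funext y; simp only [Pi.add_apply]; ring
    rw [this, orbSum_add]; rfl

omit [Fintype X] in
include hS in
lemma single_comp_S (x : X) :
    (fun y => (Pi.single x (1 : ℤ) : X → ℤ) (S • y)) = Pi.single (S • x) (1 : ℤ) := by
  funext y
  by_cases h : y = S • x
  · rw [h, hS, Pi.single_eq_same, Pi.single_eq_same]
  · rw [Pi.single_eq_of_ne h, Pi.single_eq_of_ne]
    intro h'
    apply h
    rw [← h', hS]

include hS in
lemma Dmap_single (x : X) :
    Dmap S t (Pi.single x (1 : ℤ)) = Pi.single (proj t x) 1 - Pi.single (proj t (S • x)) 1 := by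
  show orbSum t (fun y => (Pi.single x (1 : ℤ) : X → ℤ) y - (Pi.single x (1 : ℤ) : X → ℤ) (S • y)) = _
  rw [orbSum_sub]
  have h1 := orbSum_single (A := ℤ) t x 1
  have h2 : orbSum t (fun y => (Pi.single x (1 : ℤ) : X → ℤ) (S • y))
      = Pi.single (proj t (S • x)) 1 := by
    rw [single_comp_S S hS x, orbSum_single]
  funext q
  simp only [Pi.sub_apply]
  rw [← h1, ← h2]

include hgen hS in
lemma single_sub_single_mem_range (g : G) :
    ∀ x : X, (Pi.single (proj t (g • x)) (1 : ℤ) - Pi.single (proj t x) 1 : Orb t X → ℤ)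
      ∈ (Dmap S t).range := by
  have hg : g ∈ Subgroup.closure ({S, t} : Set G) := by rw [hgen]; trivial
  induction hg using Subgroup.closure_induction with
  | mem y hy =>
    intro x
    rcases hy with rfl | rfl
    · refine ⟨-(Pi.single x (1 : ℤ)), ?_⟩
      rw [map_neg, Dmap_single y t hS x]
      abel
    · rw [proj_smul, sub_self]
      exact zero_mem _
  | one => intro x; rw [one_smul, sub_self]; exact zero_mem _
  | mul y y' _ _ hy hy' =>
    intro x
    have h1 := hy (y' • x)
    have h2 := hy' x
    have := add_mem h1 h2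
    rw [mul_smul]
    convert this using 1
    abel
  | inv y _ hy =>
    intro x
    have h1 := hy (y⁻¹ • x)
    rw [smul_inv_smul] at h1
    have := neg_mem h1
    convert this using 1
    abel

include hgen hS in
/-- every function on the orbit set with total sum zero is `Dmap` of something -/
lemma mem_range_of_sum_eq_zero [MulAction.IsPretransitive G X] (s : Orb t X → ℤ)
    (hs : ∑ q, s q = 0) : s ∈ (Dmap S t).range := by
  by_cases hX : IsEmpty X
  · have : IsEmpty (Orb t X) := by
      constructor
      intro q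
      obtain ⟨x, _⟩ := proj_surjective t q
      exact hX.false x
    have : s = 0 := by funext q; exact (IsEmpty.false q).elim
    rw [this]; exact zero_mem _
  rw [not_isEmpty_iff] at hX
  obtain ⟨x₀⟩ := hX
  set q₀ := proj t x₀ with hq₀
  have hdiff : ∀ q : Orb t X, (Pi.single q (1 : ℤ) - Pi.single q₀ 1 : Orb t X → ℤ)
      ∈ (Dmap S t).range := by
    intro q
    obtain ⟨x, rfl⟩ := proj_surjective t q
    obtain ⟨g, rfl⟩ := MulAction.exists_smul_eq G x₀ x
    exact single_sub_single_mem_range S t hgen hS g x₀
  have hdecomp : s = ∑ q, s q • (Pi.single q (1 : ℤ) - Pi.single q₀ 1 : Orb t X → ℤ) := by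
    funext r
    rw [Finset.sum_apply]
    simp only [Pi.smul_apply, Pi.sub_apply, smul_eq_mul, mul_sub, Finset.sum_sub_distrib]
    rw [← Finset.sum_mul, hs, zero_mul, sub_zero]
    simp only [Pi.single_apply, mul_ite, mul_one, mul_zero]
    rw [Finset.sum_ite_eq]
    simp
  rw [hdecomp]
  exact sum_mem (fun q _ => zsmul_mem (hdiff q) _)

include hgen hS in
/-- **Correction lemma.** -/
theorem exists_correction [MulAction.IsPretransitive G X] (n : ℤ) (hn : n ≠ 0) (c₀ : X → ℤ)
    (hsum : ∑ x, c₀ x = 0)
    (hper : ∀ (x : X) (w : ℕ), 0 < w → t ^ w • x = x →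
      n ∣ ∑ j ∈ Finset.range w, c₀ (t ^ j • x)) :
    ∃ k : X → ℤ, (∀ x, k x + k (S • x) = 0) ∧
      ∀ f : X → ℂ, (∀ x, f (t • x) = f x) →
        ∑ x, (((c₀ x - n * k (t • x) : ℤ)) : ℂ) * f x = 0 := by
  -- orbit sums are divisible by `n`
  have hdiv : ∀ q : Orb t X, n ∣ orbSum t c₀ q := by
    intro q
    obtain ⟨x, rfl⟩ := proj_surjective t q
    -- the period is positive
    have hord : 0 < orderOf (MulAction.toPermHom G X t) := orderOf_pos _
    have hfix : t ^ orderOf (MulAction.toPermHom G X t) • x = x := by
      have := pow_orderOf_eq_one (MulAction.toPermHom G X t)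
      rw [← map_pow] at this
      have h2 := congrArg (fun σ : Equiv.Perm X => σ x) this
      simpa using h2
    have hw : 0 < MulAction.period t x := MulAction.period_pos_of_fixed hord hfix
    rw [orbSum_proj_eq t c₀ x _ hw rfl]
    exact hper x _ hw (MulAction.pow_period_smul t x)
  choose s' hs' using hdiv
  have hs'sum : ∑ q, s' q = 0 := by
    have h1 := sum_orbSum t c₀
    rw [hsum] at h1
    simp_rw [hs'] at h1
    rw [← Finset.mul_sum] at h1
    rcases mul_eq_zero.mp h1 with h | h
    · exact absurd h hn
    · exact h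
  obtain ⟨v, hv⟩ := mem_range_of_sum_eq_zero S t hgen hS s' hs'sum
  set kfun : X → ℤ := fun y => v y - v (S • y) with hkfun
  refine ⟨kfun, ?_, ?_⟩
  · intro x
    show v x - v (S • x) + (v (S • x) - v (S • S • x)) = 0
    rw [hS]; ring
  · intro f hf
    apply sum_mul_eq_zero_of_orbSum_eq_zero t _ _ f hf
    funext q
    rw [orbSum_sub_mul]
    have h2 : orbSum t kfun q = s' q := congrFun hv q
    have h3 := congrFun (orbSum_comp_smul t kfun) q
    rw [h3, h2, hs' q]
    simp

end correction

end

end Fermat.Agent.GJ.J2.OrbitSum
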