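/-
GATE-J / J2 (helper64): the parabolic lifting lemma for GENERAL level `N`.

A homomorphism `phi : Γ₀(N) → ZMod n` killing the parabolic elements and the elements of finite
order lifts to a PARABOLIC homomorphism `Γ₀(N) → ℤ`.

Same proof as helper95's prime-level `S16/LB/ShimuraLift.lean`, with the one-line correction at the
base point replaced by the general correction lemma `OrbitSum.exists_correction`
(all `T`-orbit sums of `b - T·a` are made to vanish) and `exists_parabolic_prime` replaced by the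
level-general `RangeTheta.exists_parabolic_of_kap_eq_zero` + `exists_sub_of_orth`.
-/
import Fermat.Agent.S16.LB.ShimuraLift
import Fermat.Agent.GJ.J2.OrbitSum

set_option autoImplicit false

open CongruenceSubgroup ModularGroup
open scoped MatrixGroups

namespace Fermat.Agent.GJ.J2

open Fermat.Agent.S21_helper64 Fermat.Agent.S16.LB.RangeTheta Fermat.Agent.S16.LB.SH
open ModularCurve.Period

noncomputable section

lemma trace_conj_T_pow_sq (g : SL(2, ℤ)) (w : ℕ) :
    ((g⁻¹ * T ^ w * g : SL(2, ℤ)) : Matrix (Fin 2) (Fin 2) ℤ).trace ^ 2 = 4 := by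
  have htr : ((g⁻¹ * T ^ w * g : SL(2, ℤ)) : Matrix (Fin 2) (Fin 2) ℤ).trace
      = ((T ^ w : SL(2, ℤ)) : Matrix (Fin 2) (Fin 2) ℤ).trace := by
    rw [Matrix.SpecialLinearGroup.coe_mul, Matrix.SpecialLinearGroup.coe_mul,
      Matrix.trace_mul_cycle, ← Matrix.SpecialLinearGroup.coe_mul, mul_inv_cancel,
      Matrix.SpecialLinearGroup.coe_one, one_mul]
  rw [htr]
  have hT : ((T ^ w : SL(2, ℤ)) : Matrix (Fin 2) (Fin 2) ℤ) = !![1, (w : ℤ); 0, 1] := by
    have := ModularGroup.coe_T_zpow (w : ℤ)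
    rwa [zpow_natCast] at this
  rw [hT, Matrix.trace_fin_two_of]
  norm_num

lemma closure_S_T : Subgroup.closure ({S, T} : Set SL(2, ℤ)) = ⊤ :=
  SpecialLinearGroup.SL2Z_generators

variable (N : ℕ) [NeZero N]

/-- **LIFT for general level.** -/
theorem exists_parabolic_lift_level (n : ℕ) [NeZero n]
    (phi : Additive (Gamma0 N) →+ ZMod n)
    (hfin : ∀ g : Gamma0 N, IsOfFinOrder g → phi (Additive.ofMul g) = 0)
    (hpar : IsParabolicHom (Gamma0 N) phi) :
    ∃ Phi : Additive (Gamma0 N) →+ ℤ, IsParabolicHom (Gamma0 N) Phi ∧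
      ∀ g, ((Phi g : ℤ) : ZMod n) = phi g := by
  classical
  have instF : Fintype (SL(2, ℤ) ⧸ Gamma0 N) := Fintype.ofFinite _
  -- the `ZMod n`-valued cocycle
  set Ψ : SL(2, ℤ) → (SL(2, ℤ) ⧸ Gamma0 N) → ZMod n := cocOfR (Gamma0 N) phi with hΨdef
  have hΨ : IsCocR Ψ := cocOfR_isCocR (Gamma0 N) phi
  -- values at fixed points of finite-order elements vanish
  have hfix : ∀ (h : SL(2, ℤ)) (k : ℕ), 0 < k → h ^ k = 1 →
      ∀ x : SL(2, ℤ) ⧸ Gamma0 N, h • x = x → Ψ h x = 0 := by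
    intro h k hk hh x hx
    rw [hΨdef, cocOfR_apply_of_fixed (Gamma0 N) phi h x hx]
    exact hfin _ (isOfFinOrder_conj_mem (Gamma0 N) h x.out k hk hh _)
  have hz : Ψ (-1) = 0 := by
    funext x
    exact hfix (-1) 2 (by norm_num) Fermat.Agent.S16.LB.SH.neg_one_sq x ((setup_Gamma0 N).z_smul x)
  -- the relations of `abar = Ψ S`, `bbar = Ψ (S*T)`
  have habar1 : ∀ x, Ψ S x + Ψ S (S • x) = 0 := by
    intro x
    have h := congrFun (hΨ S S) x
    rw [S_mul_S_SL, hz] at h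
    simp only [Pi.zero_apply, Pi.add_apply, RopR_apply] at h
    rw [add_comm]; exact h.symm
  have habar0 : ∀ x, S • x = x → Ψ S x = 0 := fun x hx =>
    hfix S 4 (by norm_num) S_pow_four x hx
  have hbbar1 : ∀ x, Ψ (S * T) x + Ψ (S * T) ((S * T) • x)
      + Ψ (S * T) ((S * T) • (S * T) • x) = 0 := by
    intro x
    have h1 := congrFun (hΨ ((S * T) * (S * T)) (S * T)) x
    have h2 := congrFun (hΨ (S * T) (S * T)) ((S * T) • x)
    rw [ST_cube, hz] at h1
    simp only [Pi.zero_apply, Pi.add_apply, RopR_apply] at h1 h2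
    rw [h2] at h1
    rw [h1]; ring
  have hbbar0 : ∀ x, (S * T) • x = x → Ψ (S * T) x = 0 := fun x hx =>
    hfix (S * T) 6 (by norm_num) ST_pow_six x hx
  -- `Ψ T = bbar - T·abar`
  have hΨT : ∀ y, Ψ T y = Ψ (S * T) y - Ψ S (T • y) := by
    intro y
    have h1 := congrFun (hΨ S T) y
    simp only [Pi.add_apply, RopR_apply] at h1
    rw [h1]; ring
  -- sums of `Ψ T` over closed `T`-paths vanish (parabolicity)
  have hΨTsum : ∀ (x : SL(2, ℤ) ⧸ Gamma0 N) (w : ℕ), T ^ w • x = x →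
      ∑ j ∈ Finset.range w, Ψ T (T ^ j • x) = 0 := by
    intro x w hx
    have h1 := congrFun (hΨ.map_pow T w) x
    rw [Finset.sum_apply] at h1
    have h2 : ∀ j : ℕ, ((RopR (ZMod n) (T : SL(2, ℤ)) :
        Module.End (ZMod n) ((SL(2, ℤ) ⧸ Gamma0 N) → ZMod n)) ^ j) (Ψ T) x
        = Ψ T (T ^ j • x) := by
      intro j
      rw [← IsCocR.RopR_pow]
      rfl
    simp_rw [h2] at h1
    rw [← h1, hΨdef, cocOfR_apply_of_fixed (Gamma0 N) phi (T ^ w) x hx]
    apply hpar
    exact trace_conj_T_pow_sq x.out w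
  -- integral lifts
  obtain ⟨a₀, ha₀1, ha₀c⟩ := exists_lift_invol (fun x : SL(2, ℤ) ⧸ Gamma0 N => S • x)
    (fun x => S_smul_smul N x) n (Ψ S) habar1 habar0
  obtain ⟨b, hb1, hbc⟩ := exists_lift_three (fun x : SL(2, ℤ) ⧸ Gamma0 N => (S * T) • x)
    (fun x => ST_smul_smul_smul N x) n (Ψ (S * T)) hbbar1 hbbar0
  -- the defect
  set c₀ : (SL(2, ℤ) ⧸ Gamma0 N) → ℤ := fun x => b x - a₀ (T • x) with hc₀
  have hsa : ∑ x, a₀ x = 0 := by
    have h1 : ∑ x, (a₀ x + a₀ ((S : SL(2, ℤ)) • x)) = 0 :=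
      Finset.sum_eq_zero (fun x _ => ha₀1 x)
    rw [Finset.sum_add_distrib] at h1
    have h2 := Equiv.sum_comp (MulAction.toPerm (S : SL(2, ℤ)) :
      Equiv.Perm (SL(2, ℤ) ⧸ Gamma0 N)) a₀
    simp only [MulAction.toPerm_apply] at h2
    rw [h2] at h1
    omega
  have hsb : ∑ x, b x = 0 := by
    have h1 : ∑ x, (b x + b ((S * T : SL(2, ℤ)) • x) + b ((S * T : SL(2, ℤ)) • (S * T) • x)) = 0 :=
      Finset.sum_eq_zero (fun x _ => hb1 x)
    rw [Finset.sum_add_distrib, Finset.sum_add_distrib] at h1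
    have h2 := Equiv.sum_comp (MulAction.toPerm (S * T : SL(2, ℤ)) :
      Equiv.Perm (SL(2, ℤ) ⧸ Gamma0 N)) b
    have h3 := Equiv.sum_comp (MulAction.toPerm (S * T : SL(2, ℤ)) :
      Equiv.Perm (SL(2, ℤ) ⧸ Gamma0 N)) (fun x => b ((S * T : SL(2, ℤ)) • x))
    simp only [MulAction.toPerm_apply] at h2 h3
    rw [h3, h2] at h1
    omega
  have hsum : ∑ x, c₀ x = 0 := by
    simp only [hc₀]
    rw [Finset.sum_sub_distrib, hsb]
    have h2 := Equiv.sum_comp (MulAction.toPerm (T : SL(2, ℤ)) :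
      Equiv.Perm (SL(2, ℤ) ⧸ Gamma0 N)) a₀
    simp only [MulAction.toPerm_apply] at h2
    rw [h2, hsa, sub_zero]
  have hper : ∀ (x : SL(2, ℤ) ⧸ Gamma0 N) (w : ℕ), 0 < w → T ^ w • x = x →
      (n : ℤ) ∣ ∑ j ∈ Finset.range w, c₀ (T ^ j • x) := by
    intro x w _ hx
    rw [← ZMod.intCast_zmod_eq_zero_iff_dvd]
    rw [Int.cast_sum, ← hΨTsum x w hx]
    apply Finset.sum_congr rfl
    intro j _
    rw [hΨT]
    simp only [hc₀]
    rw [Int.cast_sub, hbc, ha₀c]
  have hn0 : (n : ℤ) ≠ 0 := by exact_mod_cast NeZero.ne n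
  obtain ⟨k, hk1, hkorth⟩ := OrbitSum.exists_correction (S : SL(2, ℤ)) T closure_S_T
    (S_smul_smul N) (n : ℤ) hn0 c₀ hsum hper
  -- the corrected `a`
  set a : (SL(2, ℤ) ⧸ Gamma0 N) → ℤ := fun x => a₀ x + (n : ℤ) * k x with ha
  have ha1 : ∀ x, a x + a (S • x) = 0 := by
    intro x
    simp only [ha]
    have h1 := ha₀1 x
    have h2 := hk1 x
    linear_combination h1 + (n : ℤ) * h2
  have hac : ∀ x, ((a x : ℤ) : ZMod n) = Ψ S x := by
    intro x
    simp only [ha]
    rw [Int.cast_add, Int.cast_mul, ha₀c]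
    simp
  -- complex versions
  set aC : Vsp (Gamma0 N) := fun x => ((a x : ℤ) : ℂ) with haC
  set bC : Vsp (Gamma0 N) := fun x => ((b x : ℤ) : ℂ) with hbC
  have haC1 : ∀ x, aC x + aC (S • x) = 0 := fun x => by
    simp only [haC]; exact_mod_cast ha1 x
  have hbC1 : ∀ x, bC x + bC ((S * T) • x) + bC ((S * T) • (S * T) • x) = 0 := fun x => by
    simp only [hbC]; exact_mod_cast hb1 x
  have hw : ∃ w : Vsp (Gamma0 N), ∀ x, bC x - aC (T • x) = w (T • x) - w x := by
    apply exists_sub_of_orth (T : SL(2, ℤ)) (fun x => bC x - aC ((T : SL(2, ℤ)) • x))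
    intro f hf
    have := hkorth f hf
    rw [← this]
    apply Finset.sum_congr rfl
    intro x _
    simp only [haC, hbC, ha, hc₀]
    push_cast
    ring
  obtain ⟨φ, hφ, v, hv0, hvS, hvU⟩ := exists_parabolic_of_kap_eq_zero N aC bC haC1 hbC1 hw
  -- the complex cocycle
  set Φ : SL(2, ℤ) → Vsp (Gamma0 N) := fun g => cocOf (Gamma0 N) φ g + cobd v g with hΦdef
  have hΦ : IsCoc Φ := (cocOf_isCoc (Gamma0 N) φ).add (cobd_isCoc v)
  -- integrality and congruence by closure induction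
  have key : ∀ g : SL(2, ℤ), ∀ x, ∃ m : ℤ, Φ g x = (m : ℂ) ∧ ((m : ℤ) : ZMod n) = Ψ g x := by
    intro g
    have hg : g ∈ Subgroup.closure ({S, S * T} : Set SL(2, ℤ)) := by
      rw [closure_S_ST]; trivial
    induction hg using Subgroup.closure_induction with
    | mem y hy =>
      intro x
      rcases hy with rfl | rfl
      · refine ⟨a x, ?_, hac x⟩
        have := hvS x
        simp only [hΦdef, Pi.add_apply, cobd, Pi.sub_apply, Rop_apply]
        rw [this]
      · refine ⟨b x, ?_, hbc x⟩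
        have := hvU x
        simp only [hΦdef, Pi.add_apply, cobd, Pi.sub_apply, Rop_apply]
        rw [this]
    | one =>
      intro x
      refine ⟨0, ?_, ?_⟩
      · rw [hΦ.map_one]; simp
      · rw [hΨ.map_one]; simp
    | mul y y' _ _ hy hy' =>
      intro x
      obtain ⟨m1, h1, h1'⟩ := hy (y' • x)
      obtain ⟨m2, h2, h2'⟩ := hy' x
      refine ⟨m1 + m2, ?_, ?_⟩
      · rw [hΦ y y']
        simp only [Pi.add_apply, Rop_apply]
        rw [h1, h2]; push_cast; ring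
      · rw [hΨ y y']
        simp only [Pi.add_apply, RopR_apply]
        rw [← h1', ← h2']; push_cast; ring
    | inv y _ hy =>
      intro x
      obtain ⟨m1, h1, h1'⟩ := hy (y⁻¹ • x)
      refine ⟨-m1, ?_, ?_⟩
      · rw [hΦ.map_inv]
        simp only [Pi.neg_apply, Rop_apply]
        rw [h1]; push_cast; ring
      · rw [hΨ.map_inv]
        simp only [Pi.neg_apply, RopR_apply]
        rw [← h1']; push_cast; ring
  -- values of `φ`
  have hval : ∀ γ : Gamma0 N, ∃ m : ℤ, φ (Additive.ofMul γ) = (m : ℂ) ∧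
      ((m : ℤ) : ZMod n) = phi (Additive.ofMul γ) := by
    intro γ
    obtain ⟨m, h1, h2⟩ := key (γ : SL(2, ℤ)) (x0 (Gamma0 N))
    refine ⟨m, ?_, ?_⟩
    · rw [← h1, ← cocycle_apply_x0 N φ v γ]
      simp only [hΦdef, Pi.add_apply, cobd, Pi.sub_apply, Rop_apply]
    · rw [h2, hΨdef, cocOfR_apply_x0]
  choose mval hm1 hm2 using hval
  refine ⟨AddMonoidHom.mk' (fun γ => mval (Additive.toMul γ)) ?_, ?_, ?_⟩
  · intro γ γ'
    have h1 := hm1 (Additive.toMul γ)
    have h2 := hm1 (Additive.toMul γ')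
    have h3 := hm1 (Additive.toMul (γ + γ'))
    have h4 : φ (γ + γ') = φ γ + φ γ' := map_add φ γ γ'
    have : ((mval (Additive.toMul (γ + γ')) : ℤ) : ℂ)
        = ((mval (Additive.toMul γ) + mval (Additive.toMul γ') : ℤ) : ℂ) := by
      push_cast
      rw [← h1, ← h2, ← h3]
      exact h4
    exact_mod_cast this
  · intro γ hγ
    show mval γ = 0
    have h1 := hm1 γ
    rw [mem_parabolicHoms_iff] at hφ
    rw [hφ γ hγ] at h1
    exact_mod_cast h1.symm
  · intro γ
    exact hm2 (Additive.toMul γ)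

end

end Fermat.Agent.GJ.J2
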