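/-
GATE-J / J2 (helper64).  Integral structure of the parabolic homomorphisms of `Γ₀(N)`:
`Λ := parabolicHoms ℤ Γ₀(N) ℤ` is a free `ℤ`-module of finite rank `r`, with a basis `Φ i` whose
complexifications form a `ℂ`-basis of `parabolicHoms ℂ Γ₀(N) ℂ`; `r = 2·genus`.
-/
import Fermat.Agent.GJ.J2.ZStructGen
import Fermat.Agent.S22_helper71.Gamma0FG
import Fermat.Agent.S16.LB.RangeTheta

set_option autoImplicit false

open CongruenceSubgroup
open scoped MatrixGroups

namespace Fermat.Agent.GJ.J2.ZStruct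

open ModularCurve ModularCurve.Period

noncomputable section

variable (N : ℕ) [NeZero N]

instance fg_Gamma0 : Group.FG (Gamma0 N) := Fermat.Agent.S22_helper71.gamma0_fg N

/-- the set of parabolic elements (`trace² = 4`) of `Γ₀(N)` -/
def parSet : Set (Gamma0 N) :=
  {γ | ((γ : SL(2, ℤ)) : Matrix (Fin 2) (Fin 2) ℤ).trace ^ 2 = 4}

omit [NeZero N] in
lemma killsOn_iff {A : Type*} [AddCommGroup A] (φ : Additive (Gamma0 N) →+ A) :
    KillsOn (parSet N) φ ↔ IsParabolicHom (Gamma0 N) φ := Iff.rfl

/-- index type of the basis -/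
abbrev I : Type := Idx (parSet N)

/-- the basis of integral parabolic homomorphisms -/
def Phi (i : I N) : Additive (Gamma0 N) →+ ℤ := PhiB (parSet N) i

/-- the dual elements -/
def beta (i : I N) : Additive (Gamma0 N) := betaB (parSet N) i

lemma Phi_isParabolicHom (i : I N) : IsParabolicHom (Gamma0 N) (Phi N i) :=
  PhiB_kills (parSet N) i

lemma Phi_beta [DecidableEq (I N)] (i j : I N) : Phi N i (beta N j) = if i = j then 1 else 0 :=
  PhiB_betaB (parSet N) i j

/-- complexification of an integral hom -/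
def intHom (Φ : Additive (Gamma0 N) →+ ℤ) : Additive (Gamma0 N) →+ ℂ :=
  (Int.castAddHom ℂ).comp Φ

omit [NeZero N] in
@[simp] lemma intHom_apply (Φ : Additive (Gamma0 N) →+ ℤ) (γ : Additive (Gamma0 N)) :
    intHom N Φ γ = ((Φ γ : ℤ) : ℂ) := rfl

omit [NeZero N] in
lemma intHom_isParabolicHom {Φ : Additive (Gamma0 N) →+ ℤ} (h : IsParabolicHom (Gamma0 N) Φ) :
    IsParabolicHom (Gamma0 N) (intHom N Φ) := by
  intro γ hγ
  rw [intHom_apply, h γ hγ, Int.cast_zero]

/-- expansion of a complex parabolic hom in the integral basis -/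
theorem expansion_complex (φ : Additive (Gamma0 N) →+ ℂ) (hφ : IsParabolicHom (Gamma0 N) φ)
    (γ : Additive (Gamma0 N)) : φ γ = ∑ i, φ (beta N i) * ((Phi N i γ : ℤ) : ℂ) := by
  have hA : ∀ (n : ℤ) (a : ℂ), n ≠ 0 → n • a = 0 → a = 0 := by
    intro n a hn h
    rw [zsmul_eq_mul] at h
    rcases mul_eq_zero.mp h with h | h
    · exact absurd (by exact_mod_cast h) hn
    · exact h
  have := expansion (parSet N) hA φ hφ γ
  rw [this]
  apply Finset.sum_congr rfl
  intro i _
  rw [zsmul_eq_mul, mul_comm]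
  rfl

/-- expansion of an integral parabolic hom in the integral basis -/
theorem expansion_int (Φ : Additive (Gamma0 N) →+ ℤ) (hΦ : IsParabolicHom (Gamma0 N) Φ)
    (γ : Additive (Gamma0 N)) : Φ γ = ∑ i, Φ (beta N i) * Phi N i γ := by
  have hA : ∀ (n : ℤ) (a : ℤ), n ≠ 0 → n • a = 0 → a = 0 := by
    intro n a hn h
    rw [smul_eq_mul] at h
    rcases mul_eq_zero.mp h with h | h
    · exact absurd h hn
    · exact h
  have := expansion (parSet N) hA Φ hΦ γ
  rw [this]
  apply Finset.sum_congr rfl
  intro i _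
  rw [smul_eq_mul, mul_comm]
  rfl

/-- **Every complex parabolic hom is a `ℂ`-combination of `ℤ`-valued parabolic homs.** -/
theorem span_intHom_eq :
    Submodule.span ℂ {φ : Additive (Gamma0 N) →+ ℂ |
      ∃ Φ : Additive (Gamma0 N) →+ ℤ, IsParabolicHom (Gamma0 N) Φ ∧ φ = intHom N Φ}
      = parabolicHoms ℂ (Gamma0 N) ℂ := by
  apply le_antisymm
  · rw [Submodule.span_le]
    rintro _ ⟨Φ, hΦ, rfl⟩
    exact intHom_isParabolicHom N hΦ
  · intro φ hφ
    have hφ' : IsParabolicHom (Gamma0 N) φ := hφ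
    have : φ = ∑ i, φ (beta N i) • intHom N (Phi N i) := by
      refine DFunLike.ext _ _ (fun γ => ?_)
      rw [expansion_complex N φ hφ' γ, AddMonoidHom.finsetSum_apply]
      apply Finset.sum_congr rfl
      intro i _
      rfl
    rw [this]
    apply Submodule.sum_mem
    intro i _
    apply Submodule.smul_mem
    apply Submodule.subset_span
    exact ⟨Phi N i, Phi_isParabolicHom N i, rfl⟩

/-- coordinates of the integral lattice -/
def equivInt : ↥(parabolicHoms ℤ (Gamma0 N) ℤ) ≃ₗ[ℤ] (I N → ℤ) where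
  toFun Φ := fun i => (Φ : Additive (Gamma0 N) →+ ℤ) (beta N i)
  map_add' Φ Ψ := by funext i; rfl
  map_smul' c Φ := by funext i; rfl
  invFun c := ⟨∑ i, c i • Phi N i, by
    apply Submodule.sum_mem
    intro i _
    exact Submodule.smul_mem _ _ (Phi_isParabolicHom N i)⟩
  left_inv Φ := by
    apply Subtype.ext
    refine DFunLike.ext _ _ (fun γ => ?_)
    have h := expansion_int N (Φ : Additive (Gamma0 N) →+ ℤ) Φ.2 γ
    show (∑ i, (Φ : Additive (Gamma0 N) →+ ℤ) (beta N i) • Phi N i) γ = _
    rw [AddMonoidHom.finsetSum_apply, h]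
    apply Finset.sum_congr rfl
    intro i _
    rfl
  right_inv c := by
    classical
    funext j
    show (∑ i, c i • Phi N i) (beta N j) = c j
    rw [AddMonoidHom.finsetSum_apply]
    have : ∀ i, (c i • Phi N i) (beta N j) = if i = j then c i else 0 := by
      intro i
      show c i • (Phi N i (beta N j)) = _
      rw [Phi_beta]
      split_ifs <;> simp
    simp_rw [this]
    rw [Finset.sum_ite_eq']
    simp

/-- coordinates of the complex parabolic homs -/
def equivComplex : ↥(parabolicHoms ℂ (Gamma0 N) ℂ) ≃ₗ[ℂ] (I N → ℂ) where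
  toFun φ := fun i => (φ : Additive (Gamma0 N) →+ ℂ) (beta N i)
  map_add' φ ψ := by funext i; rfl
  map_smul' c φ := by funext i; rfl
  invFun c := ⟨∑ i, c i • intHom N (Phi N i), by
    apply Submodule.sum_mem
    intro i _
    exact Submodule.smul_mem _ _ (intHom_isParabolicHom N (Phi_isParabolicHom N i))⟩
  left_inv φ := by
    apply Subtype.ext
    refine DFunLike.ext _ _ (fun γ => ?_)
    have h := expansion_complex N (φ : Additive (Gamma0 N) →+ ℂ) φ.2 γ
    show (∑ i, (φ : Additive (Gamma0 N) →+ ℂ) (beta N i) • intHom N (Phi N i)) γ = _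
    rw [AddMonoidHom.finsetSum_apply, h]
    apply Finset.sum_congr rfl
    intro i _
    rfl
  right_inv c := by
    classical
    funext j
    show (∑ i, c i • intHom N (Phi N i)) (beta N j) = c j
    rw [AddMonoidHom.finsetSum_apply]
    have : ∀ i, (c i • intHom N (Phi N i)) (beta N j) = if i = j then c i else 0 := by
      intro i
      show c i • (((Phi N i (beta N j) : ℤ)) : ℂ) = _
      rw [Phi_beta]
      split_ifs <;> simp
    simp_rw [this]
    rw [Finset.sum_ite_eq']
    simp

instance free_parabolicHoms_int : Module.Free ℤ ↥(parabolicHoms ℤ (Gamma0 N) ℤ) :=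
  Module.Free.of_equiv (equivInt N).symm

instance finite_parabolicHoms_int : Module.Finite ℤ ↥(parabolicHoms ℤ (Gamma0 N) ℤ) :=
  Module.Finite.equiv (equivInt N).symm

theorem finrank_parabolicHoms_int_eq_card :
    Module.finrank ℤ ↥(parabolicHoms ℤ (Gamma0 N) ℤ) = Fintype.card (I N) := by
  rw [(equivInt N).finrank_eq, Module.finrank_fintype_fun_eq_card]

theorem finrank_parabolicHoms_complex_eq_card :
    Module.finrank ℂ ↥(parabolicHoms ℂ (Gamma0 N) ℂ) = Fintype.card (I N) := by
  rw [(equivComplex N).finrank_eq, Module.finrank_fintype_fun_eq_card]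

/-- the rank of the integral lattice equals the complex dimension -/
theorem finrank_parabolicHoms_int :
    Module.finrank ℤ ↥(parabolicHoms ℤ (Gamma0 N) ℤ)
      = Module.finrank ℂ ↥(parabolicHoms ℂ (Gamma0 N) ℂ) := by
  rw [finrank_parabolicHoms_int_eq_card, finrank_parabolicHoms_complex_eq_card]

/-- the rank of the integral lattice is `2·genus` -/
theorem finrank_parabolicHoms_int_eq :
    (Module.finrank ℤ ↥(parabolicHoms ℤ (Gamma0 N) ℤ) : ℚ) = 2 * genusFormula N := by
  rw [finrank_parabolicHoms_int]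
  exact Fermat.Agent.S16.LB.RangeTheta.finrank_parabolicHoms_eq N

end

end Fermat.Agent.GJ.J2.ZStruct
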