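/-
GATE-J / J2 (helper64).  The mod-`n` parabolic classes of `Γ₀(N)`:
`{phi : Γ₀(N) → ℤ/n | parabolic, killing the elements of finite order} ≃ (I N → ZMod n)`,
hence this group has exactly `n ^ (2g)` elements (`LIFT-N` + `Z-STRUCT`).
-/
import Fermat.Agent.GJ.J2.LiftLevel
import Fermat.Agent.GJ.J2.ZStruct

set_option autoImplicit false

open CongruenceSubgroup
open scoped MatrixGroups

namespace Fermat.Agent.GJ.J2.ModCount

open ModularCurve ModularCurve.Period Fermat.Agent.GJ.J2.ZStruct

noncomputable section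

variable (N : ℕ) [NeZero N] (n : ℕ) [NeZero n]

/-- the mod-`n` parabolic classes killing the elements of finite order -/
def IsParFin (phi : Additive (Gamma0 N) →+ ZMod n) : Prop :=
  IsParabolicHom (Gamma0 N) phi ∧ ∀ g : Gamma0 N, IsOfFinOrder g → phi (Additive.ofMul g) = 0

/-- reduction mod `n` of an integral hom -/
def red (Φ : Additive (Gamma0 N) →+ ℤ) : Additive (Gamma0 N) →+ ZMod n :=
  (Int.castAddHom (ZMod n)).comp Φ

omit [NeZero N] [NeZero n] in
@[simp] lemma red_apply (Φ : Additive (Gamma0 N) →+ ℤ) (γ : Additive (Gamma0 N)) :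
    red N n Φ γ = ((Φ γ : ℤ) : ZMod n) := rfl

omit [NeZero N] [NeZero n] in
/-- an integral hom kills the elements of finite order -/
lemma int_kills_finOrder (Φ : Additive (Gamma0 N) →+ ℤ) (g : Gamma0 N) (hg : IsOfFinOrder g) :
    Φ (Additive.ofMul g) = 0 := by
  rw [isOfFinOrder_iff_pow_eq_one] at hg
  obtain ⟨k, hk, hgk⟩ := hg
  have h1 : Φ (Additive.ofMul (g ^ k)) = k • Φ (Additive.ofMul g) := by
    rw [ofMul_pow, map_nsmul]
  rw [hgk] at h1
  have h2 : Φ (Additive.ofMul (1 : Gamma0 N)) = 0 := by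
    rw [ofMul_one, map_zero]
  rw [h2] at h1
  have h3 : (k : ℤ) * Φ (Additive.ofMul g) = 0 := by
    rw [← nsmul_eq_mul]; exact h1.symm
  rcases mul_eq_zero.mp h3 with h | h
  · exact absurd (by exact_mod_cast h) hk.ne'
  · exact h

omit [NeZero N] [NeZero n] in
lemma red_isParFin {Φ : Additive (Gamma0 N) →+ ℤ} (hΦ : IsParabolicHom (Gamma0 N) Φ) :
    IsParFin N n (red N n Φ) := by
  refine ⟨fun γ hγ => ?_, fun g hg => ?_⟩
  · rw [red_apply, hΦ γ hγ, Int.cast_zero]
  · rw [red_apply, int_kills_finOrder N Φ g hg, Int.cast_zero]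

/-- expansion of a mod-`n` class in the reductions of the integral basis -/
theorem expansion_mod (phi : Additive (Gamma0 N) →+ ZMod n) (hphi : IsParFin N n phi)
    (γ : Additive (Gamma0 N)) :
    phi γ = ∑ i, phi (beta N i) * ((Phi N i γ : ℤ) : ZMod n) := by
  obtain ⟨Φ, hΦpar, hΦ⟩ := exists_parabolic_lift_level N n phi hphi.2 hphi.1
  have h := expansion_int N Φ hΦpar γ
  rw [← hΦ γ, h, Int.cast_sum]
  apply Finset.sum_congr rfl
  intro i _
  rw [Int.cast_mul, hΦ]

/-- **coordinates of the mod-`n` parabolic classes** -/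
def equivMod : {phi : Additive (Gamma0 N) →+ ZMod n // IsParFin N n phi} ≃ (I N → ZMod n) where
  toFun phi := fun i => (phi : Additive (Gamma0 N) →+ ZMod n) (beta N i)
  invFun c := ⟨∑ i, c i • red N n (Phi N i), by
    refine ⟨fun γ hγ => ?_, fun g hg => ?_⟩
    · rw [AddMonoidHom.finsetSum_apply]
      apply Finset.sum_eq_zero
      intro i _
      show c i • (red N n (Phi N i) (Additive.ofMul γ)) = 0
      rw [(red_isParFin N n (Phi_isParabolicHom N i)).1 γ hγ, smul_zero]
    · rw [AddMonoidHom.finsetSum_apply]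
      apply Finset.sum_eq_zero
      intro i _
      show c i • (red N n (Phi N i) (Additive.ofMul g)) = 0
      rw [(red_isParFin N n (Phi_isParabolicHom N i)).2 g hg, smul_zero]⟩
  left_inv phi := by
    apply Subtype.ext
    refine DFunLike.ext _ _ (fun γ => ?_)
    have h := expansion_mod N n (phi : Additive (Gamma0 N) →+ ZMod n) phi.2 γ
    show (∑ i, (phi : Additive (Gamma0 N) →+ ZMod n) (beta N i) • red N n (Phi N i)) γ = _
    rw [AddMonoidHom.finsetSum_apply, h]
    apply Finset.sum_congr rfl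
    intro i _
    rfl
  right_inv c := by
    classical
    funext j
    show (∑ i, c i • red N n (Phi N i)) (beta N j) = c j
    rw [AddMonoidHom.finsetSum_apply]
    have : ∀ i, (c i • red N n (Phi N i)) (beta N j) = if i = j then c i else 0 := by
      intro i
      show c i • (((Phi N i (beta N j) : ℤ)) : ZMod n) = _
      rw [Phi_beta]
      split_ifs <;> simp
    simp_rw [this]
    rw [Finset.sum_ite_eq']
    simp

/-- the number of mod-`n` parabolic classes -/
theorem card_isParFin :
    Nat.card {phi : Additive (Gamma0 N) →+ ZMod n // IsParFin N n phi}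
      = n ^ Module.finrank ℤ ↥(parabolicHoms ℤ (Gamma0 N) ℤ) := by
  rw [Nat.card_congr (equivMod N n), finrank_parabolicHoms_int_eq_card, Nat.card_eq_fintype_card,
    Fintype.card_fun, ZMod.card]

/-- the number of mod-`n` parabolic classes is `n ^ (2 dim S₂(Γ₀(N)))`. -/
theorem card_isParFin_eq :
    Nat.card {phi : Additive (Gamma0 N) →+ ZMod n // IsParFin N n phi}
      = n ^ (2 * Module.finrank ℂ (CuspForm (Gamma0 N) 2)) := by
  rw [card_isParFin]
  congr 1
  have h1 := finrank_parabolicHoms_int_eq N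
  have h2 := Fermat.Agent.S20.result N
  rw [← h2] at h1
  have : (Module.finrank ℤ ↥(parabolicHoms ℤ (Gamma0 N) ℤ) : ℚ)
      = ((2 * Module.finrank ℂ (CuspForm (Gamma0 N) 2) : ℕ) : ℚ) := by
    rw [h1]; push_cast; ring
  exact_mod_cast this

end

end Fermat.Agent.GJ.J2.ModCount
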