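/-
GATE-J / J2 DESC-INST (helper66): the four DESC inputs of helper86's `EigDesc.lean`
(`DescP`, `D1`, `D1conv`, `IsPowDesc`) discharged, by instantiating the generic descent bricks of
`GJ/Desc` at `K = ℚ̄`, `L = ℂ` (algebra structure `algKbC`, i.e. T24's embedding `iotaC`),
`F₀ = modularFunctionFieldFull N`.

The `_raw` forms are stated for an arbitrary modulus `m` (no primality), for the Kummer tower.
-/
import Mathlib
import Fermat.Agent.GJ.J2.EigDesc
import Fermat.Agent.GJ.J2.EigInputsC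
import Fermat.Agent.GJ.Desc.Modular
import Fermat.Agent.GJ.Desc.Places
import Fermat.Agent.GJ.Desc.Gen
import Fermat.Agent.RR.ModularBar

set_option autoImplicit false
set_option linter.unusedSectionVars false

open AlgebraicCurve ModularCurve

noncomputable section

namespace Fermat.Agent.GJ.EigAsm.Inst

open Fermat.Agent.S24 Fermat.Agent.GJ.KumGroup Fermat.Agent.GJ.Dict Fermat.Agent.GJ.Desc
open Fermat.Agent.GJ.EigAsm

attribute [local instance] Fermat.Agent.GJ.EigAsm.algKbC

variable (N : ℕ) [NeZero N]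

/-! ### Raw forms, any modulus -/

/-- (D1conv), any modulus: divisibility of the divisor is preserved by the base change. -/
theorem d1conv_raw (m : ℕ) (u₀ : FK N) (h : ∀ P : Place Kb (FK N), (m : ℤ) ∣ P.ord u₀)
    (Q : Place ℂ (FC N)) : (m : ℤ) ∣ Q.ord (bcQ N u₀) :=
  dvd_ord_bcHom Kb ℂ (modularFunctionFieldFull N) m u₀ h Q

/-- every place of `ℚ̄(X₀(N))` has an unramified place of `ℂ(X₀(N))` above it -/
theorem exists_place_over_bcQ (P : Place Kb (FK N)) :
    ∃ Q : Place ℂ (FC N), ∀ f : FK N, Q.ord (bcQ N f) = P.ord f := by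
  have : IsGen Kb (jF N) := Fermat.Agent.RR.ModularBar.isGen_jF N
  exact exists_place_over Kb ℂ (modularFunctionFieldFull N) (jF N) P

/-- (D1), any modulus: divisibility of the divisor descends along the base change. -/
theorem d1_raw (m : ℕ) (u₀ : FK N) (h : ∀ Q : Place ℂ (FC N), (m : ℤ) ∣ Q.ord (bcQ N u₀))
    (P : Place Kb (FK N)) : (m : ℤ) ∣ P.ord u₀ := by
  obtain ⟨Q, hQ⟩ := exists_place_over_bcQ N P
  rw [← hQ u₀]
  exact h Q

/-- (LD-d), any positive modulus: an `m`-th power over `ℂ` is an `m`-th power over `ℚ̄`. -/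
theorem isPowDesc_raw (m : ℕ) (hm : 0 < m) (u₀ : FK N) (v : FC N) (h : bcQ N u₀ = v ^ m) :
    ∃ v₀ : FK N, u₀ = v₀ ^ m := by
  have : CharZero Kb := charZero_of_injective_algebraMap (algebraMap ℚ Kb).injective
  exact isPow_of_bcHom_eq_pow Kb ℂ (modularFunctionFieldFull N) m hm u₀ v h

/-- (DESC), any positive modulus: every `m`-divisible function over `ℂ` is, up to an `m`-th power,
the base change of an `m`-divisible function over `ℚ̄`. -/
theorem descP_raw (m : ℕ) (hm : 0 < m) (u : FC N) (hu : u ≠ 0)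
    (hdiv : ∀ Q : Place ℂ (FC N), (m : ℤ) ∣ Q.ord u) :
    ∃ u₀ : FK N, u₀ ≠ 0 ∧ (∀ P : Place Kb (FK N), (m : ℤ) ∣ P.ord u₀) ∧
      ∃ v : FC N, v ≠ 0 ∧ u = bcQ N u₀ * v ^ m := by
  have : NeZero m := ⟨hm.ne'⟩
  have hfin : Finite (Kum ℂ (FC N) m) := Fermat.Agent.GJ.KumFin.finite_kum_C N m
  have : CharZero Kb := charZero_of_injective_algebraMap (algebraMap ℚ Kb).injective
  have : IsGen Kb (jF N) := Fermat.Agent.RR.ModularBar.isGen_jF N
  have : IsGen ℂ (bcHom Kb ℂ (modularFunctionFieldFull N) (jF N)) :=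
    isGen_bcHom Kb ℂ (modularFunctionFieldFull N) (jF N)
  exact descent_of_gen Kb ℂ (modularFunctionFieldFull N)
    (bcHom Kb ℂ (modularFunctionFieldFull N) (jF N)) (exists_place_over_bcQ N)
    (Modular.exists_order_ne_zero N) m hm (Modular.exists_finset_of_finite m hfin) u hu hdiv

/-! ### The four `EigDesc` Props -/

variable (p : ℕ) [Fact p.Prime]

/-- **(DESC)** discharged. -/
theorem descP : DescP N p := fun u hu hdiv =>
  descP_raw N p (Fact.out : p.Prime).pos u hu hdiv

/-- **(D1)** discharged. -/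
theorem d1 : D1 N p := fun u₀ h P => d1_raw N p u₀ h P

/-- **(D1conv)** discharged. -/
theorem d1conv : D1conv N p := fun u₀ h Q => d1conv_raw N p u₀ h Q

/-- **(LD-d)** discharged. -/
theorem isPowDesc : IsPowDesc N p := fun u₀ v h =>
  isPowDesc_raw N p (Fact.out : p.Prime).pos u₀ v h

/-- **FIN** : the Kummer group of `ℚ̄(X₀(N))` is finite. -/
theorem fin : FIN N p := fin_of_C (finC N p) (d1conv N p) (isPowDesc N p)

/-- **EIG** from the remaining inputs `ExC`, `PDivC`, `LAT` (and `HN1Q`). -/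
theorem eig_of_C' {ζ : ℂ} (hζ : IsPrimitiveRoot ζ p) (hE : ExC N p ζ) (hP : PDivC N p ζ)
    (hhn : HN1Q N) (hlat : LAT N p) : EIG N p :=
  eig_of_C hζ (satC N p) hE hP (descP N p) (d1 N p) (isPowDesc N p) hhn hlat

end Fermat.Agent.GJ.EigAsm.Inst
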