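/-
GATE-J / J2-ROOT (helper65), cusp part **(R-par)**: the multiplier of a `p`-th root `h` of a
meromorphic function `m = h ^ p` on `ℍ` at a parabolic element.  If `m` is invariant under
`τ ↦ τ + w` and has order `n` at `i∞` in the parameter `𝕢 (w * e)` (so `n = e * n'`, `n'` the order
in `𝕢 w`), then `h (τ + w) = exp (2 π i n' / p) h τ`.  Conjugated form for a cusp `g ∞`, and the
consequences for the multiplier character of `RootMer.lean`.
-/
import Mathlib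
import Fermat.Agent.S24_helper82.HolOrd
import Fermat.Agent.GJ.J2.RootHol
import Fermat.Agent.GJ.J2.RootMer

set_option autoImplicit false

open UpperHalfPlane hiding I
open Complex Filter Topology Metric Set
open scoped MatrixGroups Real

namespace Fermat.Agent.GJ.Root

open Fermat.Agent.S24_helper82

local notation "𝕢" => Function.Periodic.qParam

/-! ### elementary facts on `𝕢` -/

theorem qParam_add_nat {w e : ℕ} (hw : 0 < w) (he : 0 < e) (z : ℂ) :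
    𝕢 ((w * e : ℕ) : ℝ) (z + w) = 𝕢 ((w * e : ℕ) : ℝ) z * exp (2 * π * I / e) := by
  unfold Function.Periodic.qParam
  rw [← Complex.exp_add]
  congr 1
  have hw' : (w : ℂ) ≠ 0 := by exact_mod_cast hw.ne'
  have he' : (e : ℂ) ≠ 0 := by exact_mod_cast he.ne'
  push_cast
  field_simp

theorem qParam_zpow_mul {w e : ℕ} (hw : 0 < w) (he : 0 < e) (n' : ℤ) (z : ℂ) :
    𝕢 ((w * e : ℕ) : ℝ) z ^ ((e : ℤ) * n') = exp (2 * π * I * n' * z / w) := by
  unfold Function.Periodic.qParam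
  rw [← Complex.exp_int_mul]
  congr 1
  have hw' : (w : ℂ) ≠ 0 := by exact_mod_cast hw.ne'
  have he' : (e : ℂ) ≠ 0 := by exact_mod_cast he.ne'
  push_cast
  field_simp

theorem norm_exp_two_pi_I_div (e : ℕ) : ‖exp (2 * π * I / e)‖ = 1 := by
  rw [Complex.norm_exp]
  have : (2 * (π : ℂ) * I / e).re = 0 := by
    have : (2 * (π : ℂ) * I / e) = ((2 * π / e : ℝ) : ℂ) * I := by push_cast; ring
    rw [this]; simp
  rw [this, Real.exp_zero]

/-- identity theorem for `Hol`, on a half plane -/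
theorem hol_eq_of_eqOn {f g : Hol} {c : ℝ}
    (h : ∀ τ : ℍ, c < τ.im → (f : ℍ → ℂ) τ = (g : ℍ → ℂ) τ) : f = g := by
  have hf := analyticOnNhd_of_mem_Hol f.2
  have hg := analyticOnNhd_of_mem_Hol g.2
  set y : ℝ := max c 0 + 1 with hy
  have hy0 : 0 < y := by positivity
  let z₀ : ℂ := ⟨0, y⟩
  have hz₀ : z₀ ∈ uhpSet := hy0
  have hev : ((f : ℍ → ℂ) ∘ ofComplex) =ᶠ[𝓝 z₀] ((g : ℍ → ℂ) ∘ ofComplex) := by
    have hopen : IsOpen {z : ℂ | max c 0 < z.im} :=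
      isOpen_lt continuous_const Complex.continuous_im
    have hmem : z₀ ∈ {z : ℂ | max c 0 < z.im} := by
      show max c 0 < y
      rw [hy]; linarith
    filter_upwards [hopen.mem_nhds hmem] with z hz
    have hz0 : 0 < z.im := lt_of_le_of_lt (le_max_right _ _) hz
    simp only [Function.comp, ofComplex_apply_of_im_pos hz0]
    exact h ⟨z, hz0⟩ (lt_of_le_of_lt (le_max_left _ _) hz)
  have key := hf.eqOn_of_preconnected_of_eventuallyEq hg isPreconnected_uhpSet hz₀ hev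
  apply Subtype.ext
  funext τ
  have := key (coe_mem_uhpSet τ)
  simpa [Function.comp, ofComplex_apply] using this

/-- the local `p`-th root at the cusp -/
theorem exists_cusp_root {p : ℕ} (hp : 0 < p) {w e : ℕ} (hw : 0 < w) (he : 0 < e) {n : ℤ}
    {u : ℂ → ℂ} (hu : AnalyticAt ℂ u 0) (hu0 : u 0 ≠ 0) {ρ : ℝ} (hρ : 0 < ρ)
    (hsym : ∀ t : ℂ, t ≠ 0 → ‖t‖ < ρ →
      exp (2 * π * I / e) ^ n * u (exp (2 * π * I / e) * t) = u t)
    (c₀ : ℝ) :
    ∃ n' : ℤ, n = e * n' ∧ ∃ c' : ℝ, c₀ ≤ c' ∧ ∃ H0 : ℂ → ℂ,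
      DifferentiableOn ℂ H0 {z : ℂ | c' < z.im} ∧
      ∀ z : ℂ, c' < z.im → H0 z ≠ 0 ∧
        H0 z ^ p = 𝕢 ((w * e : ℕ) : ℝ) z ^ n * u (𝕢 ((w * e : ℕ) : ℝ) z) ∧
        H0 (z + w) = exp (2 * π * I * n' / p) * H0 z := by
  set ζ : ℂ := exp (2 * π * I / e) with hζ
  have hζprim : IsPrimitiveRoot ζ e := Complex.isPrimitiveRoot_exp e he.ne'
  have hζnorm : ‖ζ‖ = 1 := norm_exp_two_pi_I_div e
  -- Step A: `ζ ^ n = 1`
  have hcont1 : ContinuousAt (fun t : ℂ => ζ ^ n * u (ζ * t)) 0 := by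
    have h1 : ContinuousAt (fun t : ℂ => ζ * t) 0 := (continuous_const.mul continuous_id).continuousAt
    have h2 : ContinuousAt u (ζ * 0) := by rw [mul_zero]; exact hu.continuousAt
    exact continuousAt_const.mul (ContinuousAt.comp (f := fun t : ℂ => ζ * t) (g := u) h2 h1)
  have hevq : (fun t : ℂ => ζ ^ n * u (ζ * t)) =ᶠ[𝓝[≠] 0] u := by
    have hball : ball (0 : ℂ) ρ ∈ 𝓝 (0 : ℂ) := ball_mem_nhds _ hρ
    filter_upwards [mem_nhdsWithin_of_mem_nhds hball, self_mem_nhdsWithin] with t ht ht0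
    exact hsym t ht0 (by simpa using ht)
  have hA : ζ ^ n * u (ζ * 0) = u 0 := by
    have t1 : Tendsto (fun t : ℂ => ζ ^ n * u (ζ * t)) (𝓝[≠] 0) (𝓝 (ζ ^ n * u (ζ * 0))) :=
      tendsto_nhdsWithin_of_tendsto_nhds hcont1.tendsto
    have t2 : Tendsto u (𝓝[≠] 0) (𝓝 (u 0)) :=
      tendsto_nhdsWithin_of_tendsto_nhds hu.continuousAt.tendsto
    exact tendsto_nhds_unique t1 (t2.congr' hevq.symm)
  have hζn : ζ ^ n = 1 := by
    rw [mul_zero] at hA
    exact mul_right_cancel₀ hu0 (by rw [hA, one_mul])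
  obtain ⟨n', hn'⟩ := (hζprim.zpow_eq_one_iff_dvd n).1 hζn
  refine ⟨n', hn', ?_⟩
  -- Step B
  have hsym' : ∀ t : ℂ, ‖t‖ < ρ → u (ζ * t) = u t := by
    intro t ht
    by_cases ht0 : t = 0
    · subst ht0; rw [mul_zero]
    · have := hsym t ht0 ht
      rwa [hζn, one_mul] at this
  -- Step C
  obtain ⟨r₁, hr₁, han⟩ := hu.exists_ball_analyticOnNhd
  obtain ⟨r₂, hr₂, hne⟩ := Metric.eventually_nhds_iff_ball.1 (hu.continuousAt.eventually_ne hu0)
  set r : ℝ := min (min r₁ r₂) ρ with hr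
  have hr0 : 0 < r := lt_min (lt_min hr₁ hr₂) hρ
  have hrr₁ : r ≤ r₁ := (min_le_left _ _).trans (min_le_left _ _)
  have hrr₂ : r ≤ r₂ := (min_le_left _ _).trans (min_le_right _ _)
  have hrρ : r ≤ ρ := min_le_right _ _
  have hud : DifferentiableOn ℂ u (ball 0 r) :=
    (han.differentiableOn).mono (ball_subset_ball hrr₁)
  have hune : ∀ t ∈ ball (0 : ℂ) r, u t ≠ 0 := fun t ht => hne t (ball_subset_ball hrr₂ ht)
  -- Step D
  obtain ⟨V, hVd, hVp⟩ := exists_root_ball_of_ne_zero hp hud hune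
  have h0mem : (0 : ℂ) ∈ ball (0 : ℂ) r := mem_ball_self hr0
  have hVne : ∀ t ∈ ball (0 : ℂ) r, V t ≠ 0 := by
    intro t ht h0
    have := hVp t ht
    rw [h0, zero_pow hp.ne'] at this
    exact hune t ht this.symm
  have hmaps : MapsTo (fun t : ℂ => ζ * t) (ball 0 r) (ball 0 r) := by
    intro t ht
    simp only [mem_ball, dist_zero_right] at ht ⊢
    rwa [norm_mul, hζnorm, one_mul]
  have hVsym : ∀ t ∈ ball (0 : ℂ) r, V (ζ * t) = V t := by
    have h1 : DifferentiableOn ℂ (fun t : ℂ => V (ζ * t)) (ball 0 r) :=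
      hVd.comp ((differentiable_const _).mul differentiable_id).differentiableOn hmaps
    have := root_unique hp isOpen_ball (convex_ball (0 : ℂ) r).isPreconnected h1 hVd
      (fun z hz => by
        have hz' : ‖z‖ < ρ := lt_of_lt_of_le (by simpa using hz) hrρ
        rw [hVp _ (hmaps hz), hVp z hz, hsym' z hz'])
      h0mem (by simp) (hVne 0 h0mem)
    exact fun t ht => this ht
  -- Step E
  have hW : (0 : ℝ) < ((w * e : ℕ) : ℝ) := by exact_mod_cast Nat.mul_pos hw he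
  set W : ℝ := ((w * e : ℕ) : ℝ) with hWdef
  set A₀ : ℝ := -W * Real.log r / (2 * π) with hA₀
  have hexpA₀ : Real.exp (-2 * π * A₀ / W) = r := by
    have : -2 * π * A₀ / W = Real.log r := by
      rw [hA₀]; field_simp
    rw [this, Real.exp_log hr0]
  refine ⟨max c₀ A₀, le_max_left _ _, ?_⟩
  have hqmem : ∀ z : ℂ, max c₀ A₀ < z.im → 𝕢 W z ∈ ball (0 : ℂ) r := by
    intro z hz
    have : A₀ < z.im := lt_of_le_of_lt (le_max_right _ _) hz
    have := (Function.Periodic.norm_qParam_lt_iff hW A₀ z).2 this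
    rw [hexpA₀] at this
    simpa using this
  have hw' : (w : ℂ) ≠ 0 := by exact_mod_cast hw.ne'
  have hp' : (p : ℂ) ≠ 0 := by exact_mod_cast hp.ne'
  refine ⟨fun z => exp (2 * π * I * n' * z / (w * p)) * V (𝕢 W z), ?_, ?_⟩
  · refine DifferentiableOn.mul ?_ ?_
    · exact (Differentiable.cexp (by fun_prop)).differentiableOn
    · exact hVd.comp (Function.Periodic.differentiable_qParam).differentiableOn
        (fun z hz => hqmem z hz)
  · intro z hz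
    have hq := hqmem z hz
    refine ⟨mul_ne_zero (exp_ne_zero _) (hVne _ hq), ?_, ?_⟩
    · rw [mul_pow, hVp _ hq, hn', qParam_zpow_mul hw he, ← Complex.exp_nat_mul]
      congr 2
      field_simp
    · show exp (2 * π * I * n' * (z + w) / (w * p)) * V (𝕢 W (z + w)) = _
      rw [qParam_add_nat hw he, mul_comm (𝕢 _ z) _, hVsym _ hq, ← mul_assoc, ← Complex.exp_add]
      congr 2
      field_simp
      ring

/-! ### order at `i∞` -/

/-- `f : ℍ → ℂ` equals `t ^ n * u t`, `t = 𝕢 W τ`, near `i∞`, with `u` analytic and nonvanishing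
at `0`. -/
def HasOrdAtImInfty (W : ℝ) (f : ℍ → ℂ) (n : ℤ) : Prop :=
  ∃ u : ℂ → ℂ, AnalyticAt ℂ u 0 ∧ u 0 ≠ 0 ∧
    ∀ᶠ τ : ℍ in atImInfty, f τ = 𝕢 W τ ^ n * u (𝕢 W τ)

/-- the meromorphic function `m` on `ℍ` has order `n` at `i∞` in the parameter `𝕢 W`:
`m = a / b` with `a = t ^ n * u t * b` near `i∞`. -/
def MerOrdAtImInfty (W : ℝ) (m : Mer) (n : ℤ) : Prop :=
  ∃ (a b : Hol) (u : ℂ → ℂ), b ≠ 0 ∧ m = algebraMap Hol Mer a / algebraMap Hol Mer b ∧
    AnalyticAt ℂ u 0 ∧ u 0 ≠ 0 ∧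
    ∀ᶠ τ : ℍ in atImInfty, (b : ℍ → ℂ) τ ≠ 0 ∧
      (a : ℍ → ℂ) τ = 𝕢 W τ ^ n * u (𝕢 W τ) * (b : ℍ → ℂ) τ

theorem HasOrdAtImInfty.eventually_ne_zero {W : ℝ} (hW : 0 < W) {f : ℍ → ℂ} {n : ℤ}
    (hf : HasOrdAtImInfty W f n) : ∀ᶠ τ : ℍ in atImInfty, f τ ≠ 0 := by
  obtain ⟨u, hu, hu0, hev⟩ := hf
  have h1 : ∀ᶠ t in 𝓝 (0 : ℂ), u t ≠ 0 := hu.continuousAt.eventually_ne hu0
  have h2 : Tendsto (fun τ : ℍ => 𝕢 W (τ : ℂ)) atImInfty (𝓝 0) := by
    have := (Function.Periodic.qParam_tendsto hW).mono_right nhdsWithin_le_nhds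
    exact this.comp (UpperHalfPlane.tendsto_coe_atImInfty)
  filter_upwards [hev, h2.eventually h1] with τ h3 h4
  rw [h3]
  exact mul_ne_zero (zpow_ne_zero _ (Function.Periodic.qParam_ne_zero _)) h4

theorem MerOrdAtImInfty.of_hol {W : ℝ} (hW : 0 < W) {a b : Hol} {na nb : ℤ}
    (ha : HasOrdAtImInfty W (a : ℍ → ℂ) na) (hb : HasOrdAtImInfty W (b : ℍ → ℂ) nb) :
    MerOrdAtImInfty W (algebraMap Hol Mer a / algebraMap Hol Mer b) (na - nb) := by
  have hbne := hb.eventually_ne_zero hW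
  obtain ⟨ua, hua, hua0, heva⟩ := ha
  obtain ⟨ub, hub, hub0, hevb⟩ := hb
  have hb0 : b ≠ 0 := by
    rintro rfl
    obtain ⟨τ, hτ⟩ := hbne.exists
    exact hτ rfl
  refine ⟨a, b, fun t => ua t / ub t, hb0, rfl, hua.div hub hub0, div_ne_zero hua0 hub0, ?_⟩
  have h1 : ∀ᶠ t in 𝓝 (0 : ℂ), ub t ≠ 0 := hub.continuousAt.eventually_ne hub0
  have h2 : Tendsto (fun τ : ℍ => 𝕢 W (τ : ℂ)) atImInfty (𝓝 0) := by
    have := (Function.Periodic.qParam_tendsto hW).mono_right nhdsWithin_le_nhds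
    exact this.comp (UpperHalfPlane.tendsto_coe_atImInfty)
  filter_upwards [heva, hevb, hbne, h2.eventually h1] with τ h3 h4 h5 h6
  refine ⟨h5, ?_⟩
  have hq : 𝕢 W (τ : ℂ) ≠ 0 := Function.Periodic.qParam_ne_zero _
  rw [h3, h4, zpow_sub₀ hq]
  field_simp

/-- `p`-th roots on a half plane agree up to a `p`-th root of unity -/
theorem eq_const_mul_of_pow_eq {p : ℕ} (hp : 0 < p) {c : ℝ} {A G : ℂ → ℂ}
    (hA : DifferentiableOn ℂ A {z : ℂ | c < z.im}) (hG : DifferentiableOn ℂ G {z : ℂ | c < z.im})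
    (hpow : ∀ z : ℂ, c < z.im → A z ^ p = G z ^ p) {z₀ : ℂ} (hz₀ : c < z₀.im) (hG0 : G z₀ ≠ 0) :
    ∃ ζ : ℂ, ζ ^ p = 1 ∧ ∀ z : ℂ, c < z.im → A z = ζ * G z := by
  refine ⟨A z₀ / G z₀, ?_, ?_⟩
  · rw [div_pow, hpow z₀ hz₀, div_self (pow_ne_zero _ hG0)]
  · have hopen : IsOpen {z : ℂ | c < z.im} := isOpen_lt continuous_const Complex.continuous_im
    have hconn : IsPreconnected {z : ℂ | c < z.im} := (convex_halfSpace_im_gt c).isPreconnected
    have hA0 : A z₀ ≠ 0 := by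
      intro h0
      have := hpow z₀ hz₀
      rw [h0, zero_pow hp.ne'] at this
      exact pow_ne_zero _ hG0 this.symm
    have := root_unique hp hopen hconn hA (hG.const_mul (A z₀ / G z₀))
      (fun z hz => by
        rw [mul_pow, div_pow, hpow z₀ hz₀, div_self (pow_ne_zero _ hG0), one_mul]
        exact hpow z hz)
      (show z₀ ∈ {z : ℂ | c < z.im} from hz₀) (by field_simp)
      (by rw [div_mul_cancel₀ _ hG0]; exact hA0)
    exact fun z hz => this hz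

theorem coe_T_pow_smul (w : ℕ) (τ : ℍ) :
    ((ModularGroup.T ^ w • τ : ℍ) : ℂ) = (τ : ℂ) + w := by
  have := ModularGroup.coe_T_zpow_smul_eq (z := τ) (n := (w : ℤ))
  rw [zpow_natCast] at this
  rw [this]; push_cast; rfl

theorem im_T_pow_smul (w : ℕ) (τ : ℍ) : (ModularGroup.T ^ w • τ : ℍ).im = τ.im := by
  have := ModularGroup.im_T_zpow_smul τ (w : ℤ)
  rwa [zpow_natCast] at this

/-- **(R-par)** the multiplier of a `p`-th root at the translation `T ^ w` is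
`exp (2 π i n' / p)`, where `n'` is the order at the cusp `i∞` in the parameter `𝕢 w`. The order
`n` is measured in any parameter `𝕢 (w * e)`. -/
theorem compM_T_pow_of_merOrd {p : ℕ} (hp : 0 < p) {w e : ℕ} (hw : 0 < w) (he : 0 < e)
    {h : Mer} (hh : h ≠ 0) {n : ℤ}
    (hord : MerOrdAtImInfty ((w * e : ℕ) : ℝ) (h ^ p) n)
    (hT : compM (ModularGroup.T ^ w) (h ^ p) = h ^ p) :
    ∃ n' : ℤ, n = e * n' ∧
      compM (ModularGroup.T ^ w) h = algebraMap ℂ Mer (exp (2 * π * I * n' / p)) * h := by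
  obtain ⟨a, b, u, hb, hm, hu, hu0, hev⟩ := hord
  obtain ⟨A, B, hA, hB, rfl⟩ := exists_div_eq h hh
  set Tw : SL(2, ℤ) := ModularGroup.T ^ w with hTw
  set W : ℝ := ((w * e : ℕ) : ℝ) with hWdef
  have hW : 0 < W := by rw [hWdef]; exact_mod_cast Nat.mul_pos hw he
  have hb' := algebraMap_ne_zero hb
  have hB' := algebraMap_ne_zero hB
  -- the relation `A ^ p * b = B ^ p * a`
  have hrel : A ^ p * b = B ^ p * a := by
    have h1 := hm
    rw [div_pow, div_eq_div_iff (pow_ne_zero _ hB') hb', ← map_pow, ← map_pow, ← map_mul,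
      ← map_mul, mul_comm a] at h1
    exact IsFractionRing.injective Hol Mer h1
  -- invariance
  have hinv : compSL Tw a * b = a * compSL Tw b := by
    have h1 := hT
    rw [hm, compM_div, div_eq_div_iff (algebraMap_ne_zero (compSL_ne_zero _ hb)) hb', ← map_mul,
      ← map_mul] at h1
    exact IsFractionRing.injective Hol Mer h1
  obtain ⟨c, hc⟩ := (atImInfty_mem _).1 hev
  set c₁ : ℝ := max c 0 with hc₁
  have hc' : ∀ τ : ℍ, c₁ < τ.im → (b : ℍ → ℂ) τ ≠ 0 ∧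
      (a : ℍ → ℂ) τ = 𝕢 W τ ^ n * u (𝕢 W τ) * (b : ℍ → ℂ) τ := fun τ hτ =>
    hc τ ((le_max_left _ _).trans hτ.le)
  -- symmetry of `u`
  have hsym : ∀ t : ℂ, t ≠ 0 → ‖t‖ < Real.exp (-2 * π * c₁ / W) →
      exp (2 * π * I / e) ^ n * u (exp (2 * π * I / e) * t) = u t := by
    intro t ht0 ht
    set z : ℂ := Function.Periodic.invQParam W t with hz
    have hqz : 𝕢 W z = t := Function.Periodic.qParam_right_inv hW.ne' ht0
    have hzim : c₁ < z.im := by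
      rw [← hqz] at ht
      exact (Function.Periodic.norm_qParam_lt_iff hW c₁ z).1 ht
    have hz0 : 0 < z.im := lt_of_le_of_lt (le_max_right _ _) hzim
    set τ : ℍ := ⟨z, hz0⟩ with hτ
    have hτim : c₁ < τ.im := hzim
    have hτ'im : c₁ < (Tw • τ).im := by rw [hTw, im_T_pow_smul]; exact hτim
    obtain ⟨hb1, ha1⟩ := hc' τ hτim
    obtain ⟨hb2, ha2⟩ := hc' (Tw • τ) hτ'im
    have hcoe : ((Tw • τ : ℍ) : ℂ) = z + w := by rw [hTw, coe_T_pow_smul]
    have hq2 : 𝕢 W ((Tw • τ : ℍ) : ℂ) = t * exp (2 * π * I / e) := by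
      rw [hcoe, hWdef, qParam_add_nat hw he, ← hWdef, hqz]
    have hq1 : 𝕢 W (τ : ℂ) = t := hqz
    rw [hq2] at ha2
    rw [hq1] at ha1
    have hev := congrArg (fun f : Hol => (f : ℍ → ℂ) τ) hinv
    simp only [Subalgebra.coe_mul, Pi.mul_apply, compSL_apply] at hev
    rw [ha1, ha2, mul_zpow] at hev
    have htn : t ^ n ≠ 0 := zpow_ne_zero _ ht0
    have : (exp (2 * π * I / e) ^ n * u (exp (2 * π * I / e) * t))
        * (t ^ n * (b : ℍ → ℂ) (Tw • τ) * (b : ℍ → ℂ) τ)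
        = u t * (t ^ n * (b : ℍ → ℂ) (Tw • τ) * (b : ℍ → ℂ) τ) := by
      rw [mul_comm (exp (2 * π * I / e)) t]
      linear_combination hev
    exact mul_right_cancel₀ (mul_ne_zero (mul_ne_zero htn hb2) hb1) this
  obtain ⟨n', hn', c', hc₁c', H0, hH0d, hH0⟩ :=
    exists_cusp_root hp hw he hu hu0 (Real.exp_pos _) hsym c₁
  refine ⟨n', hn', ?_⟩
  have hc'0 : 0 ≤ c' := (le_max_right _ _).trans hc₁c'
  set ξ : ℂ := exp (2 * π * I * n' / p) with hξ
  -- functions on `ℂ`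
  set At : ℂ → ℂ := (A : ℍ → ℂ) ∘ ofComplex with hAt
  set Bt : ℂ → ℂ := (B : ℍ → ℂ) ∘ ofComplex with hBt
  have hsub : {z : ℂ | c' < z.im} ⊆ uhpSet := fun z hz => lt_of_le_of_lt hc'0 hz
  have hAd : DifferentiableOn ℂ At {z : ℂ | c' < z.im} :=
    ((analyticOnNhd_of_mem_Hol A.2).differentiableOn).mono hsub
  have hBd : DifferentiableOn ℂ Bt {z : ℂ | c' < z.im} :=
    ((analyticOnNhd_of_mem_Hol B.2).differentiableOn).mono hsub
  have hval : ∀ (F : Hol) (τ : ℍ), ((F : ℍ → ℂ) ∘ ofComplex) (τ : ℂ) = (F : ℍ → ℂ) τ := by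
    intro F τ
    simp only [Function.comp, ofComplex_apply]
  set G : ℂ → ℂ := fun z => Bt z * H0 z with hG
  have hGd : DifferentiableOn ℂ G {z : ℂ | c' < z.im} := hBd.mul hH0d
  -- `A ^ p = (B H0) ^ p` on the half plane
  have hpow : ∀ z : ℂ, c' < z.im → At z ^ p = G z ^ p := by
    intro z hz
    have hz0 : 0 < z.im := lt_of_le_of_lt hc'0 hz
    set τ : ℍ := ⟨z, hz0⟩ with hτ
    have hτz : (τ : ℂ) = z := rfl
    obtain ⟨hb1, ha1⟩ := hc' τ (lt_of_le_of_lt hc₁c' hz)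
    obtain ⟨-, hH0p, -⟩ := hH0 z hz
    have hev := congrArg (fun f : Hol => (f : ℍ → ℂ) τ) hrel
    simp only [Subalgebra.coe_mul, Subalgebra.coe_pow, Pi.mul_apply, Pi.pow_apply] at hev
    have hAz : At z = (A : ℍ → ℂ) τ := by rw [← hτz, hAt, hval A τ]
    have hBz : Bt z = (B : ℍ → ℂ) τ := by rw [← hτz, hBt, hval B τ]
    rw [hG]
    show At z ^ p = (Bt z * H0 z) ^ p
    rw [hAz, hBz, mul_pow, hH0p]
    rw [hτz] at ha1
    have : (A : ℍ → ℂ) τ ^ p * (b : ℍ → ℂ) τ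
        = ((B : ℍ → ℂ) τ ^ p * (𝕢 W z ^ n * u (𝕢 W z))) * (b : ℍ → ℂ) τ := by
      rw [hev, ha1]; ring
    exact mul_right_cancel₀ hb1 this
  -- a point where `B` does not vanish
  have hBz : ∃ z₀ : ℂ, c' < z₀.im ∧ Bt z₀ ≠ 0 := by
    by_contra hcon
    push Not at hcon
    apply hB
    apply hol_eq_of_eqOn (c := c')
    intro τ hτ
    have := hcon (τ : ℂ) hτ
    rw [hBt, hval B τ] at this
    exact this
  obtain ⟨z₀, hz₀, hBz₀⟩ := hBz
  obtain ⟨ζ', -, hAeq⟩ := eq_const_mul_of_pow_eq hp hAd hGd hpow hz₀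
    (mul_ne_zero hBz₀ (hH0 z₀ hz₀).1)
  -- the functional equation on the half plane
  have key : compSL Tw A * B = algebraMap ℂ Hol ξ * A * compSL Tw B := by
    apply hol_eq_of_eqOn (c := c')
    intro τ hτ
    have hτ' : c' < (Tw • τ).im := by rw [hTw, im_T_pow_smul]; exact hτ
    have hcoe : ((Tw • τ : ℍ) : ℂ) = (τ : ℂ) + w := by rw [hTw, coe_T_pow_smul]
    have e1 : At (τ : ℂ) = ζ' * (Bt (τ : ℂ) * H0 (τ : ℂ)) := hAeq (τ : ℂ) hτ
    have e2 : At ((Tw • τ : ℍ) : ℂ)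
        = ζ' * (Bt ((Tw • τ : ℍ) : ℂ) * H0 ((Tw • τ : ℍ) : ℂ)) := hAeq ((Tw • τ : ℍ) : ℂ) hτ'
    rw [hAt, hBt, hval A τ, hval B τ] at e1
    rw [hAt, hBt, hval A (Tw • τ), hval B (Tw • τ), hcoe, (hH0 (τ : ℂ) hτ).2.2] at e2
    show (A : ℍ → ℂ) (Tw • τ) * (B : ℍ → ℂ) τ = ξ * (A : ℍ → ℂ) τ * (B : ℍ → ℂ) (Tw • τ)
    rw [e1, e2]
    ring
  rw [compM_div, IsScalarTower.algebraMap_apply ℂ Hol Mer, ← mul_div_assoc,
    div_eq_div_iff (algebraMap_ne_zero (compSL_ne_zero _ hB)) hB', ← map_mul, ← map_mul, ← map_mul,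
    key]

/-- **(R-par)** at a general cusp `g ∞`: the parabolic element is `g T^w g⁻¹` and the order is that
of `m ∘ g` at `i∞`. -/
theorem compM_conj_T_pow_of_merOrd {p : ℕ} (hp : 0 < p) {w e : ℕ} (hw : 0 < w) (he : 0 < e)
    {h : Mer} (hh : h ≠ 0) {n : ℤ} (g : SL(2, ℤ))
    (hord : MerOrdAtImInfty ((w * e : ℕ) : ℝ) (compM g (h ^ p)) n)
    (hT : compM (g * ModularGroup.T ^ w * g⁻¹) (h ^ p) = h ^ p) :
    ∃ n' : ℤ, n = e * n' ∧
      compM (g * ModularGroup.T ^ w * g⁻¹) h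
        = algebraMap ℂ Mer (exp (2 * π * I * n' / p)) * h := by
  have hγg : g * ModularGroup.T ^ w = (g * ModularGroup.T ^ w * g⁻¹) * g := by group
  have hh' : compM g h ≠ 0 := fun h0 => hh ((map_eq_zero (compM g)).1 h0)
  have hT' : compM (ModularGroup.T ^ w) (compM g h ^ p) = compM g h ^ p := by
    rw [← map_pow, ← compM_mul, hγg, compM_mul, hT]
  rw [← map_pow] at hT'
  have hord' : MerOrdAtImInfty ((w * e : ℕ) : ℝ) (compM g h ^ p) n := by rwa [← map_pow]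
  rw [map_pow] at hT'
  obtain ⟨n', hn', hc⟩ := compM_T_pow_of_merOrd hp hw he hh' hord' hT'
  refine ⟨n', hn', ?_⟩
  rw [← compM_mul, hγg, compM_mul, ← compM_const g, ← map_mul] at hc
  exact (compM g).injective hc

theorem exp_two_pi_I_div_eq_one_iff {p : ℕ} (hp : 0 < p) (n' : ℤ) :
    exp (2 * π * I * n' / p) = 1 ↔ (p : ℤ) ∣ n' := by
  have hp' : (p : ℂ) ≠ 0 := by exact_mod_cast hp.ne'
  rw [Complex.exp_eq_one_iff]
  constructor
  · rintro ⟨k, hk⟩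
    refine ⟨k, ?_⟩
    have h1 : (n' : ℂ) = (p : ℂ) * k := by
      have h2 : (2 * π * I : ℂ) ≠ 0 := Complex.two_pi_I_ne_zero
      field_simp at hk
      linear_combination hk
    exact_mod_cast h1
  · rintro ⟨k, rfl⟩
    refine ⟨k, ?_⟩
    push_cast
    field_simp

section multiplier

variable {p : ℕ} (hp : 0 < p) (Γ : Subgroup SL(2, ℤ)) (h : Mer) (hh : h ≠ 0)
  (hinv : ∀ γ ∈ Γ, compM γ (h ^ p) = h ^ p)

/-- **(R-par)** for the multiplier character: its value at the parabolic element `g T^w g⁻¹ ∈ Γ`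
is `exp (2 π i n' / p)`, `n'` the order of `h ^ p` at the cusp `g ∞` in the parameter `𝕢 w`. -/
theorem multiplier_conj_T_pow {w e : ℕ} (hw : 0 < w) (he : 0 < e) (g : SL(2, ℤ))
    (hγ : g * ModularGroup.T ^ w * g⁻¹ ∈ Γ) {n : ℤ}
    (hord : MerOrdAtImInfty ((w * e : ℕ) : ℝ) (compM g (h ^ p)) n) :
    ∃ n' : ℤ, n = e * n' ∧
      ((multiplier hp Γ h hh hinv ⟨g * ModularGroup.T ^ w * g⁻¹, hγ⟩ : ℂˣ) : ℂ)
        = exp (2 * π * I * n' / p) := by
  obtain ⟨n', hn', hc⟩ := compM_conj_T_pow_of_merOrd hp hw he hh g hord (hinv _ hγ)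
  exact ⟨n', hn', multVal_unique hp Γ h hh hinv ⟨_, hγ⟩ hc⟩

/-- the multiplier is trivial at the parabolic element `g T^w g⁻¹` iff `p` divides the order of
`h ^ p` at the cusp `g ∞` (measured in `𝕢 w`; `n = e * (order in 𝕢 w)`). -/
theorem multiplier_conj_T_pow_eq_one_iff {w e : ℕ} (hw : 0 < w) (he : 0 < e) (g : SL(2, ℤ))
    (hγ : g * ModularGroup.T ^ w * g⁻¹ ∈ Γ) {n : ℤ}
    (hord : MerOrdAtImInfty ((w * e : ℕ) : ℝ) (compM g (h ^ p)) n) :
    multiplier hp Γ h hh hinv ⟨g * ModularGroup.T ^ w * g⁻¹, hγ⟩ = 1 ↔ ((p * e : ℕ) : ℤ) ∣ n := by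
  obtain ⟨n', hn', hc⟩ := multiplier_conj_T_pow hp Γ h hh hinv hw he g hγ hord
  have he' : (e : ℤ) ≠ 0 := by exact_mod_cast he.ne'
  rw [← Units.val_inj, hc, Units.val_one, exp_two_pi_I_div_eq_one_iff hp, hn']
  push_cast
  rw [mul_comm (p : ℤ) (e : ℤ)]
  exact (mul_dvd_mul_iff_left he').symm

/-- the cusp `i∞` itself (`g = 1`) -/
theorem multiplier_T_pow {w e : ℕ} (hw : 0 < w) (he : 0 < e)
    (hγ : ModularGroup.T ^ w ∈ Γ) {n : ℤ}
    (hord : MerOrdAtImInfty ((w * e : ℕ) : ℝ) (h ^ p) n) :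
    ∃ n' : ℤ, n = e * n' ∧
      ((multiplier hp Γ h hh hinv ⟨ModularGroup.T ^ w, hγ⟩ : ℂˣ) : ℂ)
        = exp (2 * π * I * n' / p) := by
  obtain ⟨n', hn', hc⟩ := compM_T_pow_of_merOrd hp hw he hh hord (hinv _ hγ)
  exact ⟨n', hn', multVal_unique hp Γ h hh hinv ⟨_, hγ⟩ hc⟩

end multiplier

end Fermat.Agent.GJ.Root
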