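/-
GATE-J / J2, leaf `ExC` of helper86's EIG-ASM (helper94): every parabolic homomorphism
`ψ : Γ₀(N) → ℤ/p` has a Kummer datum over `ℂ(X₀(N))`, namely the twisted Eisenstein ratio
`h_ψ = E_{4,ζ^ψ} / E_{4,1}` and `u` with `realizeC u = h_ψ ^ p`.
-/
import Fermat.Agent.GJ.J2.TwistedEisField
import Fermat.Agent.GJ.J2.EigDesc

set_option autoImplicit false

open Complex UpperHalfPlane CongruenceSubgroup
open scoped MatrixGroups
open Fermat.Agent.S24_helper82 Fermat.Agent.GJ.Dict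

namespace Fermat.Agent.GJ.TwEis

noncomputable section

/-- a complex number with `ζ ^ p = 1` as an element of `rootsOfUnity p ℂ`. -/
def rootOfPow (p : ℕ) [NeZero p] (ζ : ℂ) (hζ : ζ ^ p = 1) : rootsOfUnity p ℂ :=
  ⟨Units.mk0 ζ (fun h => by
      rw [h, zero_pow (NeZero.ne p)] at hζ
      exact zero_ne_one hζ),
    by
      rw [_root_.mem_rootsOfUnity]
      apply Units.ext
      simpa using hζ⟩

lemma coe_rootOfPow (p : ℕ) [NeZero p] (ζ : ℂ) (hζ : ζ ^ p = 1) :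
    (((rootOfPow p ζ hζ : rootsOfUnity p ℂ) : ℂˣ) : ℂ) = ζ := rfl

/-- **(ExC)** existence of Kummer data over `ℂ` for every parabolic homomorphism; any `ζ` with
`ζ ^ p = 1`, any `p ≠ 0`. -/
theorem exists_isKumDatum_realC (N : ℕ) [NeZero N] (p : ℕ) [NeZero p] {ζ : ℂ} (hζ : ζ ^ p = 1)
    (ψ : Additive ↥(Gamma0 N) →+ ZMod p)
    (hψ : ModularCurve.Period.IsParabolicHom (Gamma0 N) ψ) :
    ∃ (h : Mer) (u : FC N), KumCore.IsKumDatum (EigAsm.realC N) ζ ψ h u := by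
  obtain ⟨u, hu⟩ := exists_isKumDatum p (rootOfPow p ζ hζ) ψ hψ (k := 4) (by norm_num)
    ⟨2, by norm_num⟩
  exact ⟨_, u, hu⟩

/-- helper86's leaf Prop `ExC`. -/
theorem exC (N : ℕ) [NeZero N] (p : ℕ) [Fact p.Prime] {ζ : ℂ} (hζ : ζ ^ p = 1) :
    EigAsm.ExC N p ζ := fun ψ hψ =>
  exists_isKumDatum_realC N p hζ ψ hψ.1

end

end Fermat.Agent.GJ.TwEis
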