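import Fermat.Agent.GJ.J2.Dict.PDivInterior
import Fermat.Agent.GJ.J2.Dict.CuspC
import Fermat.Agent.GJ.J2.RootCusp
import Fermat.Agent.GJ.J2.EigDesc

/-!
# GATE-J / J2 (P): `PDivC N p ζ` — the `u`-part of any Kummer datum of a good character over `ℂ` is
`p`-divisible at every place of `ℂ(X₀(N))`

Interior places: `Dict.dvd_ord_of_datum_interior`.  Cusp places: helper71's `cuspPlaceC` +
helper65's `(R-par)`, given the analytic bridge `CuspBridge N` (the `t`-expansion `cuspSigmaC N q f`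
is the expansion at `i∞` of `SigQC N q f`, as far as the order is concerned).
-/

set_option autoImplicit false

noncomputable section

namespace Fermat.Agent.GJ.PDiv

open UpperHalfPlane AlgebraicCurve CongruenceSubgroup MulAction ModularCurve.Period
open Fermat.Agent.S24 Fermat.Agent.S24_helper82
open Fermat.Agent.GJ.Dict Fermat.Agent.GJ.Dict.Cusp Fermat.Agent.GJ.Root
open Fermat.Agent.GJ.KumCore Fermat.Agent.GJ.HeckeMer Fermat.Agent.GJ.EigAsm
open scoped MatrixGroups

/-- **The analytic bridge at the cusps** (order form): the order of the algebraic `t`-expansion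
`cuspSigmaC N q f` (`t = q^{1/N}`) is the order at `i∞`, in the parameter `𝕢 N`, of the translate
`SigQC N q f = (realizeC N f) ∘ (out q)⁻¹`. -/
def CuspBridge (N : ℕ) [NeZero N] : Prop :=
  ∀ (q : I0 N) (f : FC N), f ≠ 0 →
    MerOrdAtImInfty (N : ℝ) (SigQC N q f) (cuspSigmaC N q f).order

section Group

theorem pow_card_orbit_smul {G α : Type*} [Group G] [MulAction G α] (g : G) (a : α)
    [Finite (orbit (Subgroup.zpowers g) a)] :
    g ^ Nat.card (orbit (Subgroup.zpowers g) a) • a = a := by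
  have := Fintype.ofFinite (orbit (Subgroup.zpowers g) a)
  rw [Nat.card_eq_fintype_card, ← MulAction.minimalPeriod_eq_card,
    ← MulAction.period_eq_minimalPeriod]
  exact MulAction.pow_period_smul g a

theorem trace_T_pow (w : ℕ) :
    ((ModularGroup.T ^ w : SL(2, ℤ)) : Matrix (Fin 2) (Fin 2) ℤ).trace = 2 := by
  have h := ModularGroup.coe_T_zpow (w : ℤ)
  rw [zpow_natCast] at h
  show ((ModularGroup.T ^ w).1).trace = 2
  rw [h, Matrix.trace_fin_two]
  simp

theorem trace_conj_T_pow (g : SL(2, ℤ)) (w : ℕ) :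
    ((g⁻¹ * ModularGroup.T ^ w * g : SL(2, ℤ)) : Matrix (Fin 2) (Fin 2) ℤ).trace = 2 := by
  have h1 := Interior.RealizationC.trace_conj g (ModularGroup.T ^ w)
  have h2 := trace_T_pow w
  rw [Matrix.trace_fin_two] at h2 ⊢
  rw [h1]
  exact h2

end Group

variable {N : ℕ} [NeZero N] {p : ℕ} [NeZero p] {ζ : ℂ}

/-- **(P) at the cusps**, for any Kummer datum of a parabolic character (any modulus `p ≠ 0`). -/
theorem dvd_ord_cuspPlaceC (hB : CuspBridge N) {ψ : Additive (Gamma0 N) →+ ZMod p} {h : Mer}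
    {u : FC N} (D : IsKumDatum (realC N) ζ ψ h u) (hpar : IsParabolicHom (Gamma0 N) ψ)
    (q : I0 N) : (p : ℤ) ∣ (cuspPlaceC N q).ord u := by
  have hp : 0 < p := Nat.pos_of_ne_zero (NeZero.ne p)
  have hu : u ≠ 0 := D.ne_zero
  have hh : h ≠ 0 := D.1
  have hpow : realizeC N u = h ^ p := D.2.2
  have hmult : HasMult ζ ψ h := D.2.1
  -- the width and the multiplicity
  set w : ℕ := Nat.card (orbit (Subgroup.zpowers ModularGroup.T) q) with hw
  have hwe := cuspMultC_mul_width N q
  rw [← hw] at hwe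
  have hepos := cuspMultC_pos N q
  set e : ℕ := (cuspMultC N q).toNat with he
  have hee : (e : ℤ) = cuspMultC N q := Int.toNat_of_nonneg hepos.le
  have he0 : 0 < e := by
    have : (0 : ℤ) < (e : ℤ) := by rw [hee]; exact hepos
    exact_mod_cast this
  have hwN : w * e = N := by
    have : ((w * e : ℕ) : ℤ) = (N : ℤ) := by
      push_cast
      rw [hee, mul_comm]
      exact hwe
    exact_mod_cast this
  have hw0 : 0 < w := by
    rcases Nat.eq_zero_or_pos w with h0 | h0
    · rw [h0, zero_mul] at hwN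
      exact absurd hwN.symm (NeZero.ne N)
    · exact h0
  -- the parabolic element
  set g : SL(2, ℤ) := (Quotient.out q)⁻¹ with hg
  have hfixq : ModularGroup.T ^ w • q = q := pow_card_orbit_smul ModularGroup.T q
  have hγ : g * ModularGroup.T ^ w * g⁻¹ ∈ Gamma0 N := by
    have h1 : ModularGroup.T ^ w • ((Quotient.out q : SL(2, ℤ)) : I0 N) =
        ((Quotient.out q : SL(2, ℤ)) : I0 N) := by
      rw [QuotientGroup.out_eq']
      exact hfixq
    have h2 := conj_mem_Gamma0_of_smul_eq N h1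
    rwa [hg, inv_inv]
  have htr : ((g * ModularGroup.T ^ w * g⁻¹ : SL(2, ℤ)) : Matrix (Fin 2) (Fin 2) ℤ).trace ^ 2
      = 4 := by
    have h1 := trace_conj_T_pow (g⁻¹) w
    rw [inv_inv] at h1
    rw [h1]
    norm_num
  have hψ : ψ (Additive.ofMul (⟨g * ModularGroup.T ^ w * g⁻¹, hγ⟩ : Gamma0 N)) = 0 :=
    hpar ⟨_, hγ⟩ htr
  have hinvh : compM (g * ModularGroup.T ^ w * g⁻¹) h = h := by
    have h1 := hmult ⟨_, hγ⟩
    rw [hψ, zmodPow_zero, map_one, one_mul] at h1
    exact h1
  have hinvhp : compM (g * ModularGroup.T ^ w * g⁻¹) (h ^ p) = h ^ p := by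
    rw [map_pow, hinvh]
  -- the order at the cusp
  have hord : MerOrdAtImInfty ((w * e : ℕ) : ℝ) (compM g (h ^ p)) (cuspSigmaC N q u).order := by
    have h1 := hB q u hu
    rw [hwN]
    have h2 : SigQC N q u = compM g (h ^ p) := by
      show SigC N (Quotient.out q) u = _
      rw [SigC_apply, hpow]
    rwa [h2] at h1
  obtain ⟨n', hn', hc⟩ := compM_conj_T_pow_of_merOrd hp hw0 he0 hh g hord hinvhp
  -- `p ∣ n'`
  have h1 : algebraMap ℂ Mer (Complex.exp (2 * Real.pi * Complex.I * n' / p)) * h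
      = algebraMap ℂ Mer 1 * h := by
    rw [← hc, hinvh, map_one, one_mul]
  have h2 : Complex.exp (2 * Real.pi * Complex.I * n' / p) = 1 :=
    (algebraMap ℂ Mer).injective (mul_right_cancel₀ hh h1)
  have h3 : (p : ℤ) ∣ n' := (exp_two_pi_I_div_eq_one_iff hp n').mp h2
  -- `n' = ord u`
  have h4 := order_cuspSigmaC N q hu
  rw [hn', ← hee] at h4
  have he' : (e : ℤ) ≠ 0 := by exact_mod_cast he0.ne'
  have h5 : n' = (cuspPlaceC N q).ord u := mul_left_cancel₀ he' h4
  rwa [← h5]

/-- **(P), any modulus `p ≠ 0`**: the `u`-part of a Kummer datum of a good character is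
`p`-divisible at every place of `ℂ(X₀(N))`. -/
theorem dvd_ord_of_datum (hB : CuspBridge N) {ψ : Additive (Gamma0 N) →+ ZMod p} {h : Mer}
    {u : FC N} (D : IsKumDatum (realC N) ζ ψ h u) (hgood : IsGood N ψ)
    (Q : Place ℂ (FC N)) : (p : ℤ) ∣ Q.ord u := by
  by_cases hQ : Q.ord (jC N) < 0
  · obtain ⟨q, rfl⟩ := exists_eq_cuspPlaceC N Q hQ
    exact dvd_ord_cuspPlaceC hB D hgood.1 q
  · exact dvd_ord_of_datum_interior N D hgood.2 Q hQ

/-- **(P)** `PDivC N p ζ` from the analytic bridge at the cusps. -/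
theorem pdivC_of_cuspBridge {p : ℕ} [Fact p.Prime] {ζ : ℂ} (hB : CuspBridge N) :
    PDivC N p ζ := by
  haveI : NeZero p := ⟨(Fact.out : p.Prime).ne_zero⟩
  intro ψ h u hgood D Q
  exact dvd_ord_of_datum hB D hgood Q

end Fermat.Agent.GJ.PDiv
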