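/-
GATE-J / J2-LAT (helper13), part (B): the integral lattice `Λ = parabolicHoms ℤ Γ₀(N) ℤ` as a
module over a commutative Hecke ring, and its relation to the Hecke algebra of `S₂(Γ₀(N))`.

* `cohGen_charInvolution`, `periodHomPair_cohGen` : period equivariance for general level `N`
* `latT N l : Module.End ℤ Λ` : the Hecke operators on the lattice; they commute
* `latAlg N` : the commutative subring of `End_ℤ(Λ)` they generate; `evLat N : HeckeAlg →ₐ latAlg N`
* `heckeEvalForms_eq_zero_of_evLat_eq_zero` : `P(coh) = 0` on `Λ` implies `P(T) = 0` on `S₂`.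
-/
import Mathlib
import Fermat.Agent.GJ.J2.HeckePar
import Fermat.Agent.GJ.J2.ZStruct
import Fermat.Agent.S16.LB.HeckePeriodPair
import Fermat.Agent.S16.LB.HeckeInvol
import Fermat.Agent.S21

set_option autoImplicit false

open scoped MatrixGroups
open CongruenceSubgroup Matrix Matrix.SpecialLinearGroup ModularCurve ModularCurve.Period CuspForm
open P2MW.S_ModularForm_heckeT_slash_eq_self_of_mem_Gamma0.ModularForm.HeckeSlashInvariance

namespace Fermat.Agent.GJ.J2.Lat

open Fermat.Agent.S16_helper49 Fermat.Agent.GJ.J2.ZStruct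

/-- local instance (Prop-valued class, harmless for consumers). -/
local instance factPrimeOfPrimesLat (l : Nat.Primes) : Fact (l : ℕ).Prime := ⟨l.2⟩

variable (N : ℕ) [NeZero N]

/-! ### Period equivariance at general level -/

/-- `cohGen ℂ l` commutes with the character involution. -/
theorem cohGen_charInvolution (l : Nat.Primes) (φ : Additive (Gamma0 N) →+ ℂ) :
    cohGen N ℂ l (charInvolution N ℂ ℂ φ) = charInvolution N ℂ ℂ (cohGen N ℂ l φ) := by
  refine AddMonoidHom.ext fun γ' => ?_
  obtain ⟨γ, rfl⟩ : ∃ γ : Gamma0 N, Additive.ofMul γ = γ' := ⟨Additive.toMul γ', rfl⟩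
  rw [charInvolution_apply]
  by_cases hl : (l : ℕ) ∣ N
  · obtain ⟨σ, t, hrel, happ⟩ := cohGen_apply_of_dvd N l hl γ
    obtain ⟨σ', t', hrel', happ'⟩ := cohGen_apply_of_dvd N l hl (jConjGamma0 N γ)
    rw [happ ℂ, toMul_ofMul, happ' ℂ]
    simp only [charInvolution_apply, toMul_ofMul]
    exact Fermat.Agent.S16.LB.Invol.sum_jConj_heckeMatrix φ γ σ σ' t t' hrel hrel'
  · obtain ⟨σ, t, hrel, happ⟩ := cohGen_apply_of_not_dvd N l hl γ
    obtain ⟨σ', t', hrel', happ'⟩ := cohGen_apply_of_not_dvd N l hl (jConjGamma0 N γ)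
    rw [happ ℂ, toMul_ofMul, happ' ℂ]
    simp only [charInvolution_apply, toMul_ofMul]
    exact Fermat.Agent.S16.LB.Invol.sum_jConj_heckeRep φ γ σ σ' t t' hrel hrel'

/-- **Period equivariance**: `per(T_l f, T_l g) = cohGen ℂ l (per(f, g))`, any level, any prime. -/
theorem periodHomPair_cohGen (l : Nat.Primes) (f g : CuspForm (Gamma0 N) 2) :
    periodHomPair N
        ((heckeFormsGen N 2 l : Module.End ℂ (CuspForm (Gamma0 N) 2)) f,
          (heckeFormsGen N 2 l : Module.End ℂ (CuspForm (Gamma0 N) 2)) g)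
      = cohGen N ℂ l (periodHomPair N (f, g)) := by
  refine Fermat.Agent.S16.LB.HeckePeriod.periodHomPair_heckeFormsGen_of l (cohGen N ℂ l) ?_ ?_
    (cohGen_charInvolution N l) f g
  · intro hl γ
    obtain ⟨σ, t, hrel, happ⟩ := cohGen_apply_of_not_dvd N l hl γ
    exact ⟨σ, t, hrel, fun φ => happ ℂ φ⟩
  · intro hl γ
    obtain ⟨σ, t, hrel, happ⟩ := cohGen_apply_of_dvd N l hl γ
    exact ⟨σ, t, hrel, fun φ => happ ℂ φ⟩

/-- `cohGen R l` is `R`-linear for a commutative ring of coefficients. -/
theorem cohGen_smul {R : Type*} [Ring R] (l : Nat.Primes) (c : R)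
    (φ : Additive (Gamma0 N) →+ R) :
    cohGen N R l (c • φ) = c • cohGen N R l φ := by
  have h := cohGen_comp N (AddMonoidHom.mulLeft c) l φ
  have e : ∀ ψ : Additive (Gamma0 N) →+ R, (AddMonoidHom.mulLeft c).comp ψ = c • ψ := by
    intro ψ
    refine AddMonoidHom.ext fun γ => ?_
    rfl
  rw [e, e] at h
  exact h

/-! ### Hecke operators on the lattice -/

/-- The lattice `Λ = Hom_par(Γ₀(N), ℤ)`. -/
abbrev Lam : Type := ↥(parabolicHoms ℤ (Gamma0 N) ℤ)

/-- The Hecke operator attached to the prime `l` on the lattice `Λ`. -/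
noncomputable def latT (l : Nat.Primes) : Module.End ℤ (Lam N) where
  toFun Φ := ⟨cohGen N ℤ l (Φ : Additive (Gamma0 N) →+ ℤ),
    cohGen_isParabolicHom l _ Φ.2⟩
  map_add' Φ Ψ := by
    apply Subtype.ext
    exact map_add (cohGen N ℤ l) _ _
  map_smul' c Φ := by
    apply Subtype.ext
    exact map_zsmul (cohGen N ℤ l) c _

@[simp] theorem coe_latT (l : Nat.Primes) (Φ : Lam N) :
    ((latT N l Φ : Lam N) : Additive (Gamma0 N) →+ ℤ) = cohGen N ℤ l Φ := rfl

/-- Complexification `Λ → Hom_par(Γ₀(N), ℂ)`. -/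
noncomputable def latC : Lam N →+ (Additive (Gamma0 N) →+ ℂ) where
  toFun Φ := intHom N (Φ : Additive (Gamma0 N) →+ ℤ)
  map_zero' := by
    refine AddMonoidHom.ext fun γ => ?_
    simp [intHom]
  map_add' Φ Ψ := by
    refine AddMonoidHom.ext fun γ => ?_
    simp [intHom]

theorem latC_apply (Φ : Lam N) (γ : Additive (Gamma0 N)) :
    latC N Φ γ = (((Φ : Additive (Gamma0 N) →+ ℤ) γ : ℤ) : ℂ) := rfl

theorem latC_injective : Function.Injective (latC N) := by
  intro Φ Ψ h
  apply Subtype.ext
  refine AddMonoidHom.ext fun γ => ?_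
  have := DFunLike.congr_fun h γ
  rw [latC_apply, latC_apply] at this
  exact_mod_cast this

theorem latC_isParabolicHom (Φ : Lam N) : IsParabolicHom (Gamma0 N) (latC N Φ) :=
  intHom_isParabolicHom N Φ.2

theorem latC_latT (l : Nat.Primes) (Φ : Lam N) :
    latC N (latT N l Φ) = cohGen N ℂ l (latC N Φ) :=
  (cohGen_comp N (Int.castAddHom ℂ) l (Φ : Additive (Gamma0 N) →+ ℤ)).symm

/-- Every lattice element is a period pair. -/
theorem exists_periodHomPair_eq_latC (Φ : Lam N) :
    ∃ fg : CuspForm (Gamma0 N) 2 × CuspForm (Gamma0 N) 2, periodHomPair N fg = latC N Φ := by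
  have h : latC N Φ ∈ LinearMap.range (periodHomPair N) := by
    rw [(Fermat.Agent.S21.result N).2]
    exact latC_isParabolicHom N Φ
  exact h

/-- The lattice Hecke operators commute. -/
theorem latT_commute (l l' : Nat.Primes) : Commute (latT N l) (latT N l') := by
  show latT N l * latT N l' = latT N l' * latT N l
  refine LinearMap.ext fun Φ => ?_
  apply latC_injective N
  show latC N (latT N l (latT N l' Φ)) = latC N (latT N l' (latT N l Φ))
  obtain ⟨⟨f, g⟩, hfg⟩ := exists_periodHomPair_eq_latC N Φ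
  rw [latC_latT, latC_latT, latC_latT, latC_latT, ← hfg, ← periodHomPair_cohGen,
    ← periodHomPair_cohGen, ← periodHomPair_cohGen, ← periodHomPair_cohGen]
  have hc : ∀ h : CuspForm (Gamma0 N) 2,
      (heckeFormsGen N 2 l : Module.End ℂ (CuspForm (Gamma0 N) 2))
        ((heckeFormsGen N 2 l' : Module.End ℂ (CuspForm (Gamma0 N) 2)) h)
      = (heckeFormsGen N 2 l' : Module.End ℂ (CuspForm (Gamma0 N) 2))
        ((heckeFormsGen N 2 l : Module.End ℂ (CuspForm (Gamma0 N) 2)) h) := by
    intro h
    have := congrArg (fun t : heckeAlgebra N 2 ∅ =>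
      (t : Module.End ℂ (CuspForm (Gamma0 N) 2)) h)
      (mul_comm (heckeFormsGen N 2 l) (heckeFormsGen N 2 l'))
    exact this
  rw [hc f, hc g]

/-! ### The commutative Hecke ring of the lattice -/

/-- The subring of `End_ℤ(Λ)` generated by the Hecke operators. -/
noncomputable def latAlg : Subalgebra ℤ (Module.End ℤ (Lam N)) :=
  Algebra.adjoin ℤ (Set.range (latT N))

instance latAlg.instIsMulCommutative : IsMulCommutative (latAlg N) :=
  Algebra.isMulCommutative_adjoin ℤ fun _ hT _ hT' => by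
    obtain ⟨l, rfl⟩ := hT
    obtain ⟨l', rfl⟩ := hT'
    exact latT_commute N l l'

open scoped IsMulCommutative in
noncomputable instance latAlg.instCommRing : CommRing (latAlg N) := inferInstance

/-- The generators of `latAlg`. -/
noncomputable def latGen (l : Nat.Primes) : latAlg N :=
  ⟨latT N l, Algebra.subset_adjoin ⟨l, rfl⟩⟩

@[simp] theorem coe_latGen (l : Nat.Primes) :
    ((latGen N l : latAlg N) : Module.End ℤ (Lam N)) = latT N l := rfl

/-- Evaluation of Hecke polynomials on the lattice. -/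
noncomputable def evLat : HeckeAlg →ₐ[ℤ] latAlg N :=
  MvPolynomial.aeval (latGen N)

@[simp] theorem evLat_heckeGen (l : Nat.Primes) : evLat N (heckeGen l) = latGen N l :=
  MvPolynomial.aeval_X _ l

theorem evLat_surjective : Function.Surjective (evLat N) := by
  rintro ⟨t, ht⟩
  refine Algebra.adjoin_induction (p := fun x hx => ∃ y, evLat N y = ⟨x, hx⟩)
    ?_ ?_ ?_ ?_ ht
  · rintro x ⟨l, rfl⟩
    exact ⟨heckeGen l, evLat_heckeGen N l⟩
  · intro r
    exact ⟨MvPolynomial.C r, by
      apply Subtype.ext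
      rw [evLat, MvPolynomial.aeval_C]
      rfl⟩
  · rintro x y hx hy ⟨a, ha⟩ ⟨b, hb⟩
    exact ⟨a + b, by rw [map_add, ha, hb]; rfl⟩
  · rintro x y hx hy ⟨a, ha⟩ ⟨b, hb⟩
    exact ⟨a * b, by rw [map_mul, ha, hb]; rfl⟩

/-- **Equivariance for all Hecke polynomials.** -/
theorem periodHomPair_heckeEvalForms (P : HeckeAlg) (f g : CuspForm (Gamma0 N) 2) (Φ : Lam N)
    (h : periodHomPair N (f, g) = latC N Φ) :
    periodHomPair N
        ((heckeEvalForms N 2 P : Module.End ℂ (CuspForm (Gamma0 N) 2)) f,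
          (heckeEvalForms N 2 P : Module.End ℂ (CuspForm (Gamma0 N) 2)) g)
      = latC N ((evLat N P : Module.End ℤ (Lam N)) Φ) := by
  induction P using MvPolynomial.induction_on generalizing f g Φ with
  | C a =>
    rw [heckeEvalForms_C, evLat, MvPolynomial.aeval_C]
    have e1 : ∀ h : CuspForm (Gamma0 N) 2,
        ((algebraMap ℤ (heckeAlgebra N 2 ∅) a : heckeAlgebra N 2 ∅) :
          Module.End ℂ (CuspForm (Gamma0 N) 2)) h = a • h := by
      intro h
      rw [Subalgebra.coe_algebraMap, Module.algebraMap_end_apply]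
    have e2 : ((algebraMap ℤ (latAlg N) a : latAlg N) : Module.End ℤ (Lam N)) Φ = a • Φ := by
      rw [Subalgebra.coe_algebraMap, Module.algebraMap_end_apply]
    rw [e1, e1, e2, map_zsmul, ← h, ← map_zsmul]
    rfl
  | add P Q hP hQ =>
    rw [map_add, map_add, Subalgebra.coe_add, Subalgebra.coe_add, LinearMap.add_apply,
      LinearMap.add_apply, LinearMap.add_apply, map_add, ← hP f g Φ h, ← hQ f g Φ h, ← map_add]
    rfl
  | mul_X P l hP =>
    rw [map_mul, map_mul, Subalgebra.coe_mul, Subalgebra.coe_mul, Module.End.mul_apply,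
      Module.End.mul_apply, Module.End.mul_apply]
    have hl : heckeEvalForms N 2 (MvPolynomial.X l) = heckeFormsGen N 2 l :=
      heckeEvalForms_heckeGen N 2 l
    have hl' : evLat N (MvPolynomial.X l) = latGen N l := evLat_heckeGen N l
    rw [hl, hl', coe_latGen]
    refine hP _ _ _ ?_
    rw [periodHomPair_cohGen, h, latC_latT]

/-- **Faithfulness**: a Hecke polynomial acting as zero on the lattice acts as zero on
`S₂(Γ₀(N))`. -/
theorem heckeEvalForms_eq_zero_of_evLat_eq_zero (P : HeckeAlg) (hP : evLat N P = 0) :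
    heckeEvalForms N 2 P = 0 := by
  apply Subtype.ext
  refine LinearMap.ext fun f => ?_
  show (heckeEvalForms N 2 P : Module.End ℂ (CuspForm (Gamma0 N) 2)) f = 0
  classical
  -- expand `per(f, 0)` in the integral basis
  set ψ := periodHomPair N (f, 0) with hψ
  have hψpar : IsParabolicHom (Gamma0 N) ψ := by
    have : ψ ∈ LinearMap.range (periodHomPair N) := ⟨_, rfl⟩
    rw [(Fermat.Agent.S21.result N).2] at this
    exact this
  let Φi : I N → Lam N := fun i => ⟨Phi N i, Phi_isParabolicHom N i⟩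
  choose fg hfg using fun i => exists_periodHomPair_eq_latC N (Φi i)
  have hexp : ψ = ∑ i, ψ (beta N i) • latC N (Φi i) := by
    refine DFunLike.ext _ _ (fun γ => ?_)
    rw [expansion_complex N ψ hψpar γ, AddMonoidHom.finsetSum_apply]
    rfl
  have hsum : periodHomPair N (f, 0) = periodHomPair N (∑ i, ψ (beta N i) • fg i) := by
    rw [map_sum, ← hψ, hexp]
    refine Finset.sum_congr rfl fun i _ => ?_
    rw [map_smul, hfg i]
    congr 1
    rw [← hexp]
  have hinj := (Fermat.Agent.S21.result N).1 hsum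
  have hf : f = ∑ i, ψ (beta N i) • (fg i).1 := by
    have := congrArg Prod.fst hinj
    simpa [Prod.fst_sum] using this
  have hzero : ∀ i, (heckeEvalForms N 2 P : Module.End ℂ (CuspForm (Gamma0 N) 2)) (fg i).1 = 0 := by
    intro i
    have h1 := periodHomPair_heckeEvalForms N P (fg i).1 (fg i).2 (Φi i) (hfg i)
    rw [hP] at h1
    have h2 : periodHomPair N
        ((heckeEvalForms N 2 P : Module.End ℂ (CuspForm (Gamma0 N) 2)) (fg i).1,
          (heckeEvalForms N 2 P : Module.End ℂ (CuspForm (Gamma0 N) 2)) (fg i).2)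
        = periodHomPair N 0 := by
      rw [h1, map_zero]
      show latC N ((0 : Module.End ℤ (Lam N)) (Φi i)) = 0
      rw [LinearMap.zero_apply, map_zero]
    exact congrArg Prod.fst ((Fermat.Agent.S21.result N).1 h2)
  rw [hf, map_sum]
  refine Finset.sum_eq_zero fun i _ => ?_
  rw [map_smul, hzero i, smul_zero]

end Fermat.Agent.GJ.J2.Lat
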