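/-
GATE-J / J2-LAT (helper13), part (C): EVERY mod-`p` eigensystem of the weight-2 Hecke algebra of
level `N` (any set `S` of removed primes) occurs in `Hom_par(Γ₀(N), k0)`.

`exists_eigenclass`: for `θ : heckeAlgebra N 2 S →+* k0`, `k0` a field of characteristic `p`, there
is a nonzero `φ : Γ₀(N) → k0`, parabolic, killing the elements of finite order, a `k0`-combination
of the reductions of the integral basis `Phi N j` (helper64), with
`cohGen N k0 l φ = θ(T_l or U_l) • φ` for all primes `l ∉ S`.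

Inputs: Lattice.lean (faithfulness of the lattice over the Hecke ring, from S21 + period
equivariance), helper64's ZStruct (integral basis), helper53's EigenAlg (Deligne–Serre, mod `p`).
-/
import Mathlib
import Fermat.Agent.GJ.J2.Lattice
import Fermat.Agent.GJ.J2.EigenAlg

set_option autoImplicit false

open scoped MatrixGroups
open CongruenceSubgroup Matrix Matrix.SpecialLinearGroup ModularCurve ModularCurve.Period CuspForm

namespace Fermat.Agent.GJ.J2.Lat

open Fermat.Agent.S16_helper49 Fermat.Agent.GJ.J2.ZStruct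

variable (N : ℕ) [NeZero N] (S : Set ℕ)

/-- The primes outside `S`. -/
abbrev PrimesOff (S : Set ℕ) : Type := {l : Nat.Primes // (l : ℕ) ∉ S}

/-- The generator of `heckeAlgebra N 2 S` attached to a prime `l ∉ S`
(`U`-type if `l ∣ N`, `T`-type otherwise). -/
noncomputable def formsGenS (l : PrimesOff S) : heckeAlgebra N 2 S :=
  if h : (l.1 : ℕ) ∣ N then heckeAlgebra.U l.1.2 h l.2 else heckeAlgebra.T l.1.2 h l.2

theorem formsGenS_of_dvd (l : PrimesOff S) (h : (l.1 : ℕ) ∣ N) :
    formsGenS N S l = heckeAlgebra.U l.1.2 h l.2 := dif_pos h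

theorem formsGenS_of_not_dvd (l : PrimesOff S) (h : ¬ (l.1 : ℕ) ∣ N) :
    formsGenS N S l = heckeAlgebra.T l.1.2 h l.2 := dif_neg h

theorem coe_formsGenS (l : PrimesOff S) :
    ((formsGenS N S l : heckeAlgebra N 2 S) : Module.End ℂ (CuspForm (Gamma0 N) 2))
      = ((heckeFormsGen N 2 l.1 : heckeAlgebra N 2 ∅) : Module.End ℂ (CuspForm (Gamma0 N) 2)) := by
  by_cases h : (l.1 : ℕ) ∣ N
  · rw [formsGenS_of_dvd N S l h, heckeFormsGen_of_dvd h]
    rfl
  · rw [formsGenS_of_not_dvd N S l h, heckeFormsGen_of_not_dvd h]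
    rfl

/-- Evaluation of polynomials in the primes outside `S` in `heckeAlgebra N 2 S`. -/
noncomputable def evFormsS : MvPolynomial (PrimesOff S) ℤ →ₐ[ℤ] heckeAlgebra N 2 S :=
  MvPolynomial.aeval (formsGenS N S)

theorem coe_evFormsS (P : MvPolynomial (PrimesOff S) ℤ) :
    ((evFormsS N S P : heckeAlgebra N 2 S) : Module.End ℂ (CuspForm (Gamma0 N) 2))
      = ((heckeEvalForms N 2 (MvPolynomial.rename Subtype.val P) : heckeAlgebra N 2 ∅) :
          Module.End ℂ (CuspForm (Gamma0 N) 2)) := by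
  have h : ((heckeAlgebra N 2 S).val.comp (evFormsS N S))
      = ((heckeAlgebra N 2 ∅).val.comp (MvPolynomial.aeval (heckeFormsGen N 2))).comp
          (MvPolynomial.rename Subtype.val) := by
    apply MvPolynomial.algHom_ext
    intro l
    simp only [AlgHom.comp_apply, MvPolynomial.rename_X, evFormsS, MvPolynomial.aeval_X,
      Subalgebra.val_apply]
    exact coe_formsGenS N S l
  exact DFunLike.congr_fun h P

/-- Evaluation of polynomials in the primes outside `S` on the lattice. -/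
noncomputable def evLatS : MvPolynomial (PrimesOff S) ℤ →ₐ[ℤ] latAlg N :=
  (evLat N).comp (MvPolynomial.rename Subtype.val)

/-- The Hecke ring of the lattice generated by the primes outside `S`. -/
noncomputable def latAlgS : Subalgebra ℤ (latAlg N) := (evLatS N S).range

/-- `P(coh) = 0` on the lattice implies `P(T) = 0` in `heckeAlgebra N 2 S`. -/
theorem evFormsS_eq_zero_of_evLatS_eq_zero (P : MvPolynomial (PrimesOff S) ℤ)
    (hP : evLatS N S P = 0) : evFormsS N S P = 0 := by
  apply Subtype.ext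
  have h0 : evLat N (MvPolynomial.rename Subtype.val P) = 0 := hP
  have h1 := heckeEvalForms_eq_zero_of_evLat_eq_zero N _ h0
  have h2 := coe_evFormsS N S P
  rw [h1, ZeroMemClass.coe_zero] at h2
  rw [h2, ZeroMemClass.coe_zero]

/-- `evLatS`, corestricted to its range. -/
noncomputable def evLatS' : MvPolynomial (PrimesOff S) ℤ →ₐ[ℤ] latAlgS N S :=
  (evLatS N S).rangeRestrict

theorem evLatS'_surjective : Function.Surjective (evLatS' N S) :=
  (evLatS N S).rangeRestrict_surjective

/-- The ring hom `latAlgS → End_ℤ(Λ)`. -/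
noncomputable def latAlgSToEnd : latAlgS N S →+* Module.End ℤ (Lam N) :=
  ((latAlg N).val : latAlg N →+* Module.End ℤ (Lam N)).comp
    ((latAlgS N S).val : latAlgS N S →+* latAlg N)

theorem latAlgSToEnd_injective : Function.Injective (latAlgSToEnd N S) := by
  intro a b h
  apply Subtype.ext
  apply Subtype.ext
  exact h

theorem latAlgSToEnd_evLatS'_X (l : PrimesOff S) :
    latAlgSToEnd N S (evLatS' N S (MvPolynomial.X l)) = latT N l.1 := by
  show ((evLat N (MvPolynomial.rename Subtype.val (MvPolynomial.X l)) : latAlg N) :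
    Module.End ℤ (Lam N)) = latT N l.1
  rw [MvPolynomial.rename_X]
  show ((evLat N (heckeGen l.1) : latAlg N) : Module.End ℤ (Lam N)) = latT N l.1
  rw [evLat_heckeGen, coe_latGen]

/-- The eigencharacter transported to the lattice Hecke ring. -/
noncomputable def thetaLat {k0 : Type*} [Field k0] (θ : heckeAlgebra N 2 S →+* k0) :
    latAlgS N S →+* k0 :=
  RingHom.liftOfSurjective (evLatS' N S : MvPolynomial (PrimesOff S) ℤ →+* latAlgS N S)
    (evLatS'_surjective N S)
    ⟨θ.comp (evFormsS N S : MvPolynomial (PrimesOff S) ℤ →+* heckeAlgebra N 2 S), by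
      intro P hP
      rw [RingHom.mem_ker] at hP ⊢
      have h1 : evLatS N S P = 0 := by
        have := congrArg Subtype.val hP
        rwa [ZeroMemClass.coe_zero] at this
      rw [RingHom.comp_apply]
      show θ (evFormsS N S P) = 0
      rw [evFormsS_eq_zero_of_evLatS_eq_zero N S P h1, map_zero]⟩

theorem thetaLat_evLatS' {k0 : Type*} [Field k0] (θ : heckeAlgebra N 2 S →+* k0)
    (P : MvPolynomial (PrimesOff S) ℤ) :
    thetaLat N S θ (evLatS' N S P) = θ (evFormsS N S P) :=
  RingHom.liftOfRightInverse_comp_apply _ _ _ _ P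

/-- The reduction of the integral basis element `Phi N j` to a coefficient ring `k0`. -/
noncomputable def PhiK (k0 : Type*) [Ring k0] (j : I N) : Additive (Gamma0 N) →+ k0 :=
  (Int.castAddHom k0).comp (Phi N j)

theorem PhiK_apply (k0 : Type*) [Ring k0] (j : I N) (γ : Additive (Gamma0 N)) :
    PhiK N k0 j γ = ((Phi N j γ : ℤ) : k0) := rfl

/-- Reduction of coefficients `Λ → Hom(Γ₀(N), k0)`. -/
noncomputable def latK (k0 : Type*) [Ring k0] : Lam N →+ (Additive (Gamma0 N) →+ k0) where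
  toFun Φ := (Int.castAddHom k0).comp (Φ : Additive (Gamma0 N) →+ ℤ)
  map_zero' := by
    refine AddMonoidHom.ext fun γ => ?_
    simp
  map_add' Φ Ψ := by
    refine AddMonoidHom.ext fun γ => ?_
    simp

theorem latK_apply (k0 : Type*) [Ring k0] (Φ : Lam N) (γ : Additive (Gamma0 N)) :
    latK N k0 Φ γ = (((Φ : Additive (Gamma0 N) →+ ℤ) γ : ℤ) : k0) := rfl

theorem latK_latT (k0 : Type*) [Ring k0] (l : Nat.Primes) (Φ : Lam N) :
    latK N k0 (latT N l Φ) = cohGen N k0 l (latK N k0 Φ) :=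
  (cohGen_comp N (Int.castAddHom k0) l (Φ : Additive (Gamma0 N) →+ ℤ)).symm

theorem latK_zsmul (k0 : Type*) [Ring k0] (n : ℤ) (Φ : Lam N) :
    latK N k0 (n • Φ) = (n : k0) • latK N k0 Φ := by
  refine AddMonoidHom.ext fun γ => ?_
  rw [latK_apply]
  show (((n • (Φ : Additive (Gamma0 N) →+ ℤ)) γ : ℤ) : k0) = (n : k0) * latK N k0 Φ γ
  rw [latK_apply, AddMonoidHom.smul_apply, smul_eq_mul, Int.cast_mul]

/-- The integral basis of the lattice (helper64's `equivInt`). -/
noncomputable def latBasis : Module.Basis (I N) ℤ (Lam N) := Module.Basis.ofEquivFun (equivInt N)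

theorem latBasis_repr (x : Lam N) (i : I N) :
    (latBasis N).repr x i = (x : Additive (Gamma0 N) →+ ℤ) (beta N i) := rfl

theorem coe_latBasis (j : I N) :
    ((latBasis N j : Lam N) : Additive (Gamma0 N) →+ ℤ) = Phi N j := by
  classical
  refine AddMonoidHom.ext fun γ => ?_
  have h := expansion_int N ((latBasis N j : Lam N) : Additive (Gamma0 N) →+ ℤ) (latBasis N j).2 γ
  rw [h]
  have hr : ∀ i, ((latBasis N j : Lam N) : Additive (Gamma0 N) →+ ℤ) (beta N i)
      = if i = j then 1 else 0 := by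
    intro i
    rw [← latBasis_repr, Module.Basis.repr_self, Finsupp.single_apply]
    simp [eq_comm]
  simp_rw [hr]
  simp

theorem latK_latBasis (k0 : Type*) [Ring k0] (j : I N) :
    latK N k0 (latBasis N j) = PhiK N k0 j := by
  refine AddMonoidHom.ext fun γ => ?_
  rw [latK_apply, coe_latBasis, PhiK_apply]

theorem latK_eq_sum (k0 : Type*) [Ring k0] (x : Lam N) :
    latK N k0 x = ∑ i, (((latBasis N).repr x i : ℤ) : k0) • PhiK N k0 i := by
  conv_lhs => rw [← (latBasis N).sum_repr x]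
  rw [map_sum]
  refine Finset.sum_congr rfl fun i _ => ?_
  rw [latK_zsmul, latK_latBasis]

/-- **Every mod-`p` eigensystem occurs (coefficient form).** -/
theorem exists_eigenclass_coeff (p : ℕ) [Fact p.Prime] {k0 : Type*} [Field k0] [CharP k0 p]
    (θ : heckeAlgebra N 2 S →+* k0) :
    ∃ c : I N → k0, c ≠ 0 ∧ ∀ l : PrimesOff S,
      cohGen N k0 l.1 (∑ j, c j • PhiK N k0 j)
        = θ (formsGenS N S l) • ∑ j, c j • PhiK N k0 j := by
  classical
  letI : Module (latAlgS N S) (Lam N) := Module.compHom (Lam N) (latAlgSToEnd N S)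
  have hsmul : ∀ (t : latAlgS N S) (x : Lam N), t • x = latAlgSToEnd N S t x := fun _ _ => rfl
  have hfaith : ∀ t : latAlgS N S, (∀ x : Lam N, t • x = 0) → t = 0 := by
    intro t ht
    apply latAlgSToEnd_injective N S
    rw [map_zero]
    exact LinearMap.ext ht
  obtain ⟨c, hc0, hc⟩ :=
    EigenAlg.exists_eigenvector_of_basis (latBasis N) hfaith p (thetaLat N S θ)
  refine ⟨c, hc0, fun l => ?_⟩
  set t : latAlgS N S := evLatS' N S (MvPolynomial.X l) with ht
  have htheta : thetaLat N S θ t = θ (formsGenS N S l) := by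
    rw [ht, thetaLat_evLatS', evFormsS, MvPolynomial.aeval_X]
  have htact : ∀ x : Lam N, t • x = latT N l.1 x := by
    intro x
    rw [hsmul, ht, latAlgSToEnd_evLatS'_X]
  have h1 : ∀ j, cohGen N k0 l.1 (c j • PhiK N k0 j)
      = ∑ i, ((((latBasis N).repr (t • latBasis N j) i : ℤ) : k0) * c j) • PhiK N k0 i := by
    intro j
    rw [cohGen_smul, ← latK_latBasis, ← latK_latT, ← htact, latK_eq_sum, Finset.smul_sum]
    refine Finset.sum_congr rfl fun i _ => ?_
    rw [smul_smul, mul_comm]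
  rw [map_sum, Finset.sum_congr rfl (fun j _ => h1 j), Finset.sum_comm, Finset.smul_sum]
  refine Finset.sum_congr rfl fun i _ => ?_
  rw [← Finset.sum_smul]
  refine (congrArg (fun a : k0 => a • PhiK N k0 i) (hc t i)).trans ?_
  show (thetaLat N S θ t * c i) • PhiK N k0 i = _
  rw [htheta, mul_smul]

/-- **Every mod-`p` eigensystem of the weight-2 Hecke algebra of level `N` occurs in
`Hom_par(Γ₀(N), k0)`.** -/
theorem exists_eigenclass (p : ℕ) [Fact p.Prime] {k0 : Type*} [Field k0] [CharP k0 p]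
    (θ : heckeAlgebra N 2 S →+* k0) :
    ∃ φ : Additive (Gamma0 N) →+ k0, φ ≠ 0 ∧ IsParabolicHom (Gamma0 N) φ ∧
      (∀ g : Gamma0 N, IsOfFinOrder g → φ (Additive.ofMul g) = 0) ∧
      (∃ c : I N → k0, φ = ∑ j, c j • PhiK N k0 j) ∧
      ∀ l : PrimesOff S, cohGen N k0 l.1 φ = θ (formsGenS N S l) • φ := by
  classical
  obtain ⟨c, hc0, hc⟩ := exists_eigenclass_coeff N S p θ
  have hval : ∀ γ : Additive (Gamma0 N),
      (∑ j, c j • PhiK N k0 j) γ = ∑ j, c j * ((Phi N j γ : ℤ) : k0) := by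
    intro γ
    rw [AddMonoidHom.finsetSum_apply]
    rfl
  refine ⟨∑ j, c j • PhiK N k0 j, ?_, ?_, ?_, ⟨c, rfl⟩, hc⟩
  · intro h0
    apply hc0
    funext i
    have := DFunLike.congr_fun h0 (beta N i)
    rw [hval] at this
    simp_rw [Phi_beta] at this
    simpa using this
  · intro γ hγ
    rw [hval]
    refine Finset.sum_eq_zero fun j _ => ?_
    rw [Phi_isParabolicHom N j γ hγ, Int.cast_zero, mul_zero]
  · intro g hg
    rw [hval]
    refine Finset.sum_eq_zero fun j _ => ?_
    have hz : Phi N j (Additive.ofMul g) = 0 := by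
      obtain ⟨n, hn, hgn⟩ := (isOfFinOrder_iff_pow_eq_one).mp hg
      have h1 : (n : ℤ) • Phi N j (Additive.ofMul g) = 0 := by
        rw [← map_zsmul, natCast_zsmul, ← ofMul_pow, hgn, ofMul_one, map_zero]
      rcases smul_eq_zero.mp h1 with h | h
      · exact absurd (by exact_mod_cast h) hn.ne'
      · exact h
    rw [hz, Int.cast_zero, mul_zero]

/-- `T`-only form (the shape of the interface `EIG`): for `θ : heckeAlgebra N 2 S →+* k0` there
is a nonzero parabolic `φ : Γ₀(N) → k0`, killing the elements of finite order, with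
`cohT φ = θ(T_ℓ) • φ` for all primes `ℓ ∤ N`, `ℓ ∉ S`. -/
theorem exists_eigenclass_T (p : ℕ) [Fact p.Prime] {k0 : Type*} [Field k0] [CharP k0 p]
    (θ : heckeAlgebra N 2 S →+* k0) :
    ∃ φ : Additive (Gamma0 N) →+ k0, φ ≠ 0 ∧ IsParabolicHom (Gamma0 N) φ ∧
      (∀ g : Gamma0 N, IsOfFinOrder g → φ (Additive.ofMul g) = 0) ∧
      (∃ c : I N → k0, φ = ∑ j, c j • PhiK N k0 j) ∧
      ∀ (ℓ : ℕ) (hℓ : ℓ.Prime) (hℓN : ¬ ℓ ∣ N) (hℓS : ℓ ∉ S),
        haveI : Fact ℓ.Prime := ⟨hℓ⟩
        cohT hℓN k0 φ = θ (heckeAlgebra.T hℓ hℓN hℓS) • φ := by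
  obtain ⟨φ, h0, hpar, hfin, hc, heig⟩ := exists_eigenclass N S p θ
  refine ⟨φ, h0, hpar, hfin, hc, fun ℓ hℓ hℓN hℓS => ?_⟩
  have h := heig ⟨⟨ℓ, hℓ⟩, hℓS⟩
  rw [formsGenS_of_not_dvd N S ⟨⟨ℓ, hℓ⟩, hℓS⟩ hℓN, cohGen_of_not_dvd N k0 ⟨ℓ, hℓ⟩ hℓN] at h
  exact h

end Fermat.Agent.GJ.J2.Lat
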