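/-
GATE-J / J2 (helper13): the leaf `EigAsm.LAT N p` of helper86's assembly `eig_of_Q` / `eig_of_C`
is a THEOREM: it is `Lat.exists_eigenclass_T` (GJ/J2/Eigen.lean) in pointwise form.
-/
import Mathlib
import Fermat.Agent.GJ.J2.Eig
import Fermat.Agent.GJ.J2.Eigen

set_option autoImplicit false

open CongruenceSubgroup ModularCurve ModularCurve.Period
open scoped MatrixGroups

namespace Fermat.Agent.GJ.J2.Lat

/-- **(LAT)**: every mod-`p` eigensystem of the Hecke algebra occurs on a nonzero good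
`k0`-valued homomorphism of `Γ₀(N)`. -/
theorem lat (N : ℕ) [NeZero N] (p : ℕ) [Fact p.Prime] : Fermat.Agent.GJ.EigAsm.LAT N p := by
  intro S _ k0 _ _ _ θ
  obtain ⟨φ, h0, hpar, hfin, -, heig⟩ := exists_eigenclass_T N S p θ
  refine ⟨φ, h0, ⟨hpar, hfin⟩, fun ℓ hℓ hℓN hℓS g => ?_⟩
  have h := heig ℓ hℓ hℓN hℓS
  have h2 := DFunLike.congr_fun h (Additive.ofMul g)
  rw [h2]
  rfl

end Fermat.Agent.GJ.J2.Lat
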