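import Fermat.Agent.GJ.J2.PDivC
import Fermat.Agent.GJ.J2.Dict.CuspOrdC

/-!
# GATE-J / J2 (P) PDIV over `ℂ`, unconditional (helper71)

`CuspBridge N` of `PDivC.lean` (helper49) is `Cusp.cuspBridge` of `Dict/CuspOrdC.lean`; hence
`EigAsm.PDivC N p ζ` holds without hypotheses.
-/

set_option autoImplicit false

namespace Fermat.Agent.GJ.PDiv

open Fermat.Agent.GJ.Dict Fermat.Agent.GJ.EigAsm

/-- the analytic bridge at the cusps holds -/
theorem cuspBridge_holds (N : ℕ) [NeZero N] : CuspBridge N := fun q f hf =>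
  Cusp.cuspBridge N q f hf

/-- **(P) over `ℂ`**: the `u`-part of a Kummer datum of a good character is `p`-divisible at every
place of `ℂ(X₀(N))`. -/
theorem pdivC (N : ℕ) [NeZero N] (p : ℕ) [Fact p.Prime] (ζ : ℂ) : PDivC N p ζ :=
  pdivC_of_cuspBridge (cuspBridge_holds N)

end Fermat.Agent.GJ.PDiv
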