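/-
GATE-J / J2 + J4-TATE, LAT-ACT (helper64).  The Hecke algebra OF FORMS `heckeAlgebra N 2 S` acts
faithfully on the lattice `Λ = Lam N = parabolicHoms ℤ Γ₀(N) ℤ`, with `T_ℓ ↦ latT ℓ`.

This is the converse of helper13's `heckeEvalForms_eq_zero_of_evLat_eq_zero`: a Hecke polynomial
killing `S₂(Γ₀(N))` kills `Λ`, so `evLat` factors through `heckeEvalForms`.
-/
import Fermat.Agent.GJ.J2.Lattice

set_option autoImplicit false
set_option linter.unusedSectionVars false

open scoped MatrixGroups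
open CongruenceSubgroup ModularCurve ModularCurve.Period CuspForm

namespace Fermat.Agent.GJ.J2.LatAct

open Fermat.Agent.S16_helper49 Fermat.Agent.GJ.J2.ZStruct Fermat.Agent.GJ.J2.Lat

noncomputable section

variable (N : ℕ) [NeZero N]

/-- `heckeEvalForms` is onto the full Hecke algebra of forms. -/
theorem heckeEvalForms_surjective : Function.Surjective (heckeEvalForms N 2) := by
  rintro ⟨t, ht⟩
  refine Algebra.adjoin_induction (p := fun x hx => ∃ y, heckeEvalForms N 2 y = ⟨x, hx⟩)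
    ?_ ?_ ?_ ?_ ht
  · rintro x (⟨ℓ, hℓ, hℓN, -, rfl⟩ | ⟨q, hqN, hq, -, rfl⟩)
    · refine ⟨heckeGen ⟨ℓ, hℓ⟩, ?_⟩
      rw [heckeEvalForms_heckeGen_of_not_dvd (N := N) (k := 2) (ℓ := ⟨ℓ, hℓ⟩) hℓN]
      rfl
    · refine ⟨heckeGen ⟨q, hq⟩, ?_⟩
      rw [heckeEvalForms_heckeGen_of_dvd (N := N) (k := 2) (q := ⟨q, hq⟩) hqN]
      rfl
  · intro r
    exact ⟨MvPolynomial.C r, by
      rw [heckeEvalForms_C]
      rfl⟩
  · rintro x y hx hy ⟨a, ha⟩ ⟨b, hb⟩
    exact ⟨a + b, by rw [map_add, ha, hb]; rfl⟩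
  · rintro x y hx hy ⟨a, ha⟩ ⟨b, hb⟩
    exact ⟨a * b, by rw [map_mul, ha, hb]; rfl⟩

/-- **Converse faithfulness**: a Hecke polynomial acting as zero on `S₂(Γ₀(N))` acts as zero on the
lattice. -/
theorem evLat_eq_zero_of_heckeEvalForms_eq_zero (P : HeckeAlg)
    (hP : heckeEvalForms N 2 P = 0) : evLat N P = 0 := by
  apply Subtype.ext
  refine LinearMap.ext fun Φ => ?_
  apply latC_injective N
  obtain ⟨⟨f, g⟩, hfg⟩ := exists_periodHomPair_eq_latC N Φ
  have h1 := periodHomPair_heckeEvalForms N P f g Φ hfg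
  rw [← h1, hP]
  show periodHomPair N ((0 : Module.End ℂ (CuspForm (Gamma0 N) 2)) f,
    (0 : Module.End ℂ (CuspForm (Gamma0 N) 2)) g) = latC N ((0 : Module.End ℤ (Lam N)) Φ)
  rw [LinearMap.zero_apply, LinearMap.zero_apply, LinearMap.zero_apply, map_zero]
  exact (map_zero (periodHomPair N))

theorem ker_heckeEvalForms_le :
    RingHom.ker (heckeEvalForms N 2) ≤ RingHom.ker (evLat N : HeckeAlg →+* latAlg N) := by
  intro P hP
  rw [RingHom.mem_ker] at hP ⊢
  exact evLat_eq_zero_of_heckeEvalForms_eq_zero N P hP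

/-- the action of the full Hecke algebra of forms on the lattice, valued in `latAlg` -/
def latAct0 : ↥(heckeAlgebra N 2 ∅) →+* latAlg N :=
  RingHom.liftOfSurjective (heckeEvalForms N 2) (heckeEvalForms_surjective N)
    ⟨(evLat N : HeckeAlg →+* latAlg N), ker_heckeEvalForms_le N⟩

theorem latAct0_heckeEvalForms (P : HeckeAlg) :
    latAct0 N (heckeEvalForms N 2 P) = evLat N P :=
  RingHom.liftOfRightInverse_comp_apply _ _ _ _ P

theorem latAct0_injective : Function.Injective (latAct0 N) := by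
  rw [injective_iff_map_eq_zero]
  intro t ht
  obtain ⟨P, rfl⟩ := heckeEvalForms_surjective N t
  rw [latAct0_heckeEvalForms] at ht
  exact heckeEvalForms_eq_zero_of_evLat_eq_zero N P ht

theorem latAct0_surjective : Function.Surjective (latAct0 N) := by
  intro x
  obtain ⟨P, rfl⟩ := evLat_surjective N x
  exact ⟨heckeEvalForms N 2 P, latAct0_heckeEvalForms N P⟩

/-- `latAlg N ≃+* heckeAlgebra N 2 ∅` -/
def latAlgEquiv : ↥(heckeAlgebra N 2 ∅) ≃+* latAlg N :=
  RingEquiv.ofBijective (latAct0 N) ⟨latAct0_injective N, latAct0_surjective N⟩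

variable (S : Set ℕ)

/-- the inclusion of the Hecke algebra away from `S` into the full Hecke algebra of forms -/
def incl : ↥(heckeAlgebra N 2 S) →ₐ[ℤ] ↥(heckeAlgebra N 2 ∅) :=
  Subalgebra.inclusion (heckeAlgebra_mono (N := N) (k := 2) (Set.empty_subset S))

theorem coe_incl (t : ↥(heckeAlgebra N 2 S)) :
    ((incl N S t : ↥(heckeAlgebra N 2 ∅)) : Module.End ℂ (CuspForm (Gamma0 N) 2))
      = (t : Module.End ℂ (CuspForm (Gamma0 N) 2)) :=
  Subalgebra.coe_inclusion _ t

theorem incl_injective : Function.Injective (incl N S) :=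
  Subalgebra.inclusion_injective _

/-- **The Hecke algebra of forms away from `S` acts on the lattice.** -/
def latAct : ↥(heckeAlgebra N 2 S) →+* Module.End ℤ (Lam N) :=
  ((latAlg N).val : latAlg N →+* Module.End ℤ (Lam N)).comp
    ((latAct0 N).comp (incl N S : ↥(heckeAlgebra N 2 S) →+* ↥(heckeAlgebra N 2 ∅)))

theorem latAct_apply (t : ↥(heckeAlgebra N 2 S)) :
    latAct N S t = ((latAct0 N (incl N S t) : latAlg N) : Module.End ℤ (Lam N)) := rfl

/-- as a `ℤ`-algebra hom -/
def latActAlg : ↥(heckeAlgebra N 2 S) →ₐ[ℤ] Module.End ℤ (Lam N) :=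
  (latAct N S).toIntAlgHom

theorem latAct_mem_latAlg (t : ↥(heckeAlgebra N 2 S)) : latAct N S t ∈ latAlg N :=
  (latAct0 N _).2

theorem latAct_injective : Function.Injective (latAct N S) := by
  intro a b hab
  rw [latAct_apply, latAct_apply] at hab
  exact incl_injective N S (latAct0_injective N (Subtype.ext hab))

theorem latAct_commute (s t : ↥(heckeAlgebra N 2 S)) :
    Commute (latAct N S s) (latAct N S t) := by
  show latAct N S s * latAct N S t = latAct N S t * latAct N S s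
  rw [← map_mul, ← map_mul, mul_comm]

/-- the value on a generator, through the full algebra -/
theorem latAct0_formsGen (l : Nat.Primes) : latAct0 N (heckeFormsGen N 2 l) = latGen N l := by
  rw [← heckeEvalForms_heckeGen, latAct0_heckeEvalForms, evLat_heckeGen]

theorem latAct_T {ℓ : ℕ} (hℓ : ℓ.Prime) (hℓN : ¬ ℓ ∣ N) (hℓS : ℓ ∉ S) :
    latAct N S (heckeAlgebra.T hℓ hℓN hℓS) = latT N (⟨ℓ, hℓ⟩ : Nat.Primes) := by
  have h1 : incl N S (heckeAlgebra.T hℓ hℓN hℓS) = heckeFormsGen N 2 (⟨ℓ, hℓ⟩ : Nat.Primes) := by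
    rw [heckeFormsGen_of_not_dvd (N := N) (k := 2) (ℓ := (⟨ℓ, hℓ⟩ : Nat.Primes)) hℓN]
    apply Subtype.ext
    rw [coe_incl, heckeAlgebra.coe_T, heckeAlgebra.coe_T]
  rw [latAct_apply, h1]
  exact congrArg (fun x : latAlg N => (x : Module.End ℤ (Lam N)))
    (latAct0_formsGen N (⟨ℓ, hℓ⟩ : Nat.Primes))

theorem latAct_U {q : ℕ} (hq : q.Prime) (hqN : q ∣ N) (hqS : q ∉ S) :
    latAct N S (heckeAlgebra.U hq hqN hqS) = latT N (⟨q, hq⟩ : Nat.Primes) := by
  have h1 : incl N S (heckeAlgebra.U hq hqN hqS) = heckeFormsGen N 2 (⟨q, hq⟩ : Nat.Primes) := by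
    rw [heckeFormsGen_of_dvd (N := N) (k := 2) (q := (⟨q, hq⟩ : Nat.Primes)) hqN]
    apply Subtype.ext
    rw [coe_incl, heckeAlgebra.coe_U, heckeAlgebra.coe_U]
  rw [latAct_apply, h1]
  exact congrArg (fun x : latAlg N => (x : Module.End ℤ (Lam N)))
    (latAct0_formsGen N (⟨q, hq⟩ : Nat.Primes))

/-- **Spec**: the action is the transport of the action on forms through the period pairing. -/
theorem latAct_spec (t : ↥(heckeAlgebra N 2 S)) (f g : CuspForm (Gamma0 N) 2) (Φ : Lam N)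
    (h : periodHomPair N (f, g) = latC N Φ) :
    periodHomPair N ((t : Module.End ℂ (CuspForm (Gamma0 N) 2)) f,
        (t : Module.End ℂ (CuspForm (Gamma0 N) 2)) g) = latC N (latAct N S t Φ) := by
  obtain ⟨P, hP⟩ := heckeEvalForms_surjective N (incl N S t)
  have h1 := periodHomPair_heckeEvalForms N P f g Φ h
  have h2 : (heckeEvalForms N 2 P : Module.End ℂ (CuspForm (Gamma0 N) 2))
      = (t : Module.End ℂ (CuspForm (Gamma0 N) 2)) := by
    rw [hP, coe_incl]
  have h3 : latAct N S t = (evLat N P : Module.End ℤ (Lam N)) := by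
    rw [latAct_apply, ← hP, latAct0_heckeEvalForms]
  rw [h3, ← h1, h2]

/-- The lattice as a module over the Hecke algebra of forms (a `def`, not an instance);
`t • Φ = latAct N S t Φ` by `rfl`. -/
@[reducible] def latModule : Module ↥(heckeAlgebra N 2 S) (Lam N) :=
  Module.compHom (Lam N) (latAct N S)

/-- faithfulness in the form consumed by `EigenAlg` / `EigTensor` -/
theorem latModule_faithful (t : ↥(heckeAlgebra N 2 S))
    (h : ∀ Φ : Lam N, latAct N S t Φ = 0) : t = 0 := by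
  apply latAct_injective N S
  rw [map_zero]
  exact LinearMap.ext h

end

end Fermat.Agent.GJ.J2.LatAct
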