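/-
GATE-J / J2 (helper64).  Reduction mod `n` on the lattice `Λ = parabolicHoms ℤ Γ₀(N) ℤ`:
`redLat : Λ →+ Hom(Γ₀(N), ℤ/n)` is additive, lands in the parabolic classes killing finite order,
its kernel is exactly `nΛ`, and it commutes with the cohomological Hecke operators `cohT`.
-/
import Fermat.Agent.GJ.J2.ModCount
import Fermat.Agent.GJ.J2.HeckePar

set_option autoImplicit false

open CongruenceSubgroup
open scoped MatrixGroups

namespace Fermat.Agent.GJ.J2.ModCount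

open ModularCurve ModularCurve.Period Fermat.Agent.GJ.J2.ZStruct

noncomputable section

variable (N : ℕ) (n : ℕ)

/-- If the reduction mod `n` of an integral parabolic hom vanishes, it is `n` times an integral
parabolic hom. -/
theorem exists_eq_nsmul_of_red_eq_zero [NeZero n] {Φ : Additive (Gamma0 N) →+ ℤ}
    (hΦ : IsParabolicHom (Gamma0 N) Φ) (h0 : red N n Φ = 0) :
    ∃ Ψ : Additive (Gamma0 N) →+ ℤ, IsParabolicHom (Gamma0 N) Ψ ∧ Φ = n • Ψ := by
  have hdvd : ∀ γ, (n : ℤ) ∣ Φ γ := by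
    intro γ
    have h1 : red N n Φ γ = 0 := by rw [h0]; rfl
    rw [red_apply] at h1
    exact (ZMod.intCast_zmod_eq_zero_iff_dvd _ _).mp h1
  have hn : (n : ℤ) ≠ 0 := by exact_mod_cast NeZero.ne n
  refine ⟨AddMonoidHom.mk' (fun γ => Φ γ / (n : ℤ)) ?_, ?_, ?_⟩
  · intro a b
    show Φ (a + b) / (n : ℤ) = Φ a / (n : ℤ) + Φ b / (n : ℤ)
    rw [map_add, Int.add_ediv_of_dvd_left (hdvd a)]
  · intro γ hγ
    show Φ (Additive.ofMul γ) / (n : ℤ) = 0
    rw [hΦ γ hγ, Int.zero_ediv]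
  · refine AddMonoidHom.ext fun γ => ?_
    show Φ γ = (n • AddMonoidHom.mk' (fun γ => Φ γ / (n : ℤ)) _) γ
    rw [AddMonoidHom.smul_apply]
    show Φ γ = n • (Φ γ / (n : ℤ))
    rw [nsmul_eq_mul, Int.mul_ediv_cancel' (hdvd γ)]

/-- reduction mod `n` on the lattice of integral parabolic homs, as an additive map -/
def redLat : ↥(parabolicHoms ℤ (Gamma0 N) ℤ) →+ (Additive (Gamma0 N) →+ ZMod n) where
  toFun Φ := red N n (Φ : Additive (Gamma0 N) →+ ℤ)
  map_zero' := by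
    refine AddMonoidHom.ext fun γ => ?_
    simp [red]
  map_add' Φ Ψ := by
    refine AddMonoidHom.ext fun γ => ?_
    simp [red]

@[simp] lemma redLat_apply (Φ : ↥(parabolicHoms ℤ (Gamma0 N) ℤ)) (γ : Additive (Gamma0 N)) :
    redLat N n Φ γ = (((Φ : Additive (Gamma0 N) →+ ℤ) γ : ℤ) : ZMod n) := rfl

lemma redLat_isParFin (Φ : ↥(parabolicHoms ℤ (Gamma0 N) ℤ)) : IsParFin N n (redLat N n Φ) :=
  red_isParFin N n ((mem_parabolicHoms_iff).mp Φ.2)

/-- **the kernel of reduction mod `n` on `Λ` is `nΛ`** -/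
theorem redLat_eq_zero_iff [NeZero n] (Φ : ↥(parabolicHoms ℤ (Gamma0 N) ℤ)) :
    redLat N n Φ = 0 ↔ ∃ Ψ : ↥(parabolicHoms ℤ (Gamma0 N) ℤ), Φ = n • Ψ := by
  constructor
  · intro h
    obtain ⟨Ψ, hΨ, hΦΨ⟩ := exists_eq_nsmul_of_red_eq_zero N n
      ((mem_parabolicHoms_iff).mp Φ.2) h
    refine ⟨⟨Ψ, (mem_parabolicHoms_iff).mpr hΨ⟩, ?_⟩
    apply Subtype.ext
    rw [hΦΨ]
    rfl
  · rintro ⟨Ψ, rfl⟩
    rw [map_nsmul]
    refine AddMonoidHom.ext fun γ => ?_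
    rw [AddMonoidHom.smul_apply, AddMonoidHom.zero_apply, nsmul_eq_mul]
    simp

/-- every mod-`n` parabolic class killing finite order is the reduction of a lattice element -/
theorem redLat_surjective [NeZero N] [NeZero n] (phi : Additive (Gamma0 N) →+ ZMod n)
    (hphi : IsParFin N n phi) : ∃ Φ : ↥(parabolicHoms ℤ (Gamma0 N) ℤ), redLat N n Φ = phi := by
  obtain ⟨Φ, hΦpar, hΦ⟩ := exists_parabolic_lift_level N n phi hphi.2 hphi.1
  refine ⟨⟨Φ, (mem_parabolicHoms_iff).mpr hΦpar⟩, ?_⟩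
  refine AddMonoidHom.ext fun γ => ?_
  obtain ⟨g, rfl⟩ : ∃ g : Gamma0 N, Additive.ofMul g = γ := ⟨Additive.toMul γ, rfl⟩
  exact hΦ g

/-- reduction mod `n` commutes with the cohomological Hecke operator `T_ℓ` -/
theorem red_cohT {ℓ : ℕ} [Fact ℓ.Prime] (hℓN : ¬ ℓ ∣ N) (Φ : Additive (Gamma0 N) →+ ℤ) :
    red N n (S16_helper49.cohT hℓN ℤ Φ) = S16_helper49.cohT hℓN (ZMod n) (red N n Φ) :=
  (S16_helper49.cohT_comp hℓN (Int.castAddHom (ZMod n)) Φ).symm

end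

end Fermat.Agent.GJ.J2.ModCount
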