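/-
GATE-J / J2 EIGS-Q(b) (helper64).  The lattice `Λ = Lam N = parabolicHoms ℤ Γ₀(N) ℤ` modulo `n`:
`Λ / nΛ ≃+ parFin N n`, the group of mod-`n` parabolic classes killing finite order, for EVERY
modulus `n`, Hecke-equivariantly (`latT` vs `cohGen`) and naturally in `n`.
-/
import Fermat.Agent.GJ.J2.ModCountKer
import Fermat.Agent.GJ.J2.Lattice

set_option autoImplicit false
set_option linter.unusedSectionVars false

open CongruenceSubgroup
open scoped MatrixGroups

namespace Fermat.Agent.GJ.J2.LatMod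

open ModularCurve ModularCurve.Period Fermat.Agent.GJ.J2.ZStruct Fermat.Agent.GJ.J2.ModCount
  Fermat.Agent.GJ.J2.Lat Fermat.Agent.S16_helper49

noncomputable section

variable (N : ℕ) (n : ℕ)

/-- The mod-`n` parabolic classes killing the elements of finite order, as an additive subgroup of
`Hom(Γ₀(N), ℤ/n)`. -/
def parFin : AddSubgroup (Additive (Gamma0 N) →+ ZMod n) where
  carrier := {phi | IsParFin N n phi}
  zero_mem' := ⟨fun _ _ => rfl, fun _ _ => rfl⟩
  add_mem' := by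
    rintro a b ⟨ha1, ha2⟩ ⟨hb1, hb2⟩
    refine ⟨fun γ hγ => ?_, fun g hg => ?_⟩
    · rw [AddMonoidHom.add_apply, ha1 γ hγ, hb1 γ hγ, add_zero]
    · rw [AddMonoidHom.add_apply, ha2 g hg, hb2 g hg, add_zero]
  neg_mem' := by
    rintro a ⟨ha1, ha2⟩
    refine ⟨fun γ hγ => ?_, fun g hg => ?_⟩
    · rw [AddMonoidHom.neg_apply, ha1 γ hγ, neg_zero]
    · rw [AddMonoidHom.neg_apply, ha2 g hg, neg_zero]

lemma mem_parFin {phi : Additive (Gamma0 N) →+ ZMod n} : phi ∈ parFin N n ↔ IsParFin N n phi :=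
  Iff.rfl

/-- `IsParFin` spelled out (it is the predicate `IsGood` of `GJ/J2/Eig.lean` for `A = ZMod n`). -/
lemma isParFin_iff {phi : Additive (Gamma0 N) →+ ZMod n} :
    IsParFin N n phi ↔ IsParabolicHom (Gamma0 N) phi ∧
      ∀ g : Gamma0 N, IsOfFinOrder g → phi (Additive.ofMul g) = 0 := Iff.rfl

variable [NeZero N]

/-- reduction mod `n`, `Λ → parFin N n` -/
def redP : Lam N →+ parFin N n :=
  (redLat N n).codRestrict (parFin N n) (fun Φ => redLat_isParFin N n Φ)

@[simp] lemma coe_redP (Φ : Lam N) :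
    ((redP N n Φ : parFin N n) : Additive (Gamma0 N) →+ ZMod n) = redLat N n Φ := rfl

lemma redP_apply (Φ : Lam N) (γ : Additive (Gamma0 N)) :
    ((redP N n Φ : parFin N n) : Additive (Gamma0 N) →+ ZMod n) γ
      = (((Φ : Additive (Gamma0 N) →+ ℤ) γ : ℤ) : ZMod n) := rfl

variable [NeZero n]

theorem redP_surjective : Function.Surjective (redP N n) := by
  rintro ⟨phi, hphi⟩
  obtain ⟨Φ, hΦ⟩ := redLat_surjective N n phi hphi
  exact ⟨Φ, Subtype.ext hΦ⟩

theorem mem_ker_redP (Φ : Lam N) : Φ ∈ (redP N n).ker ↔ ∃ Ψ : Lam N, Φ = n • Ψ := by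
  rw [AddMonoidHom.mem_ker, ← redLat_eq_zero_iff N n Φ]
  constructor
  · intro h
    exact congrArg Subtype.val h
  · intro h
    exact Subtype.ext h

theorem ker_redP_eq : (redP N n).ker = (nsmulAddMonoidHom n : Lam N →+ Lam N).range := by
  ext Φ
  rw [mem_ker_redP, AddMonoidHom.mem_range]
  constructor
  · rintro ⟨Ψ, rfl⟩
    exact ⟨Ψ, rfl⟩
  · rintro ⟨Ψ, rfl⟩
    exact ⟨Ψ, rfl⟩

/-- **`Λ / nΛ ≃+ parFin N n`** -/
def latModEquiv :
    Lam N ⧸ (nsmulAddMonoidHom n : Lam N →+ Lam N).range ≃+ parFin N n :=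
  (QuotientAddGroup.quotientAddEquivOfEq (ker_redP_eq N n).symm).trans
    (QuotientAddGroup.quotientKerEquivOfSurjective (redP N n) (redP_surjective N n))

theorem latModEquiv_mk (Φ : Lam N) :
    latModEquiv N n (QuotientAddGroup.mk Φ) = redP N n Φ := rfl

/-- **Hecke equivariance**: reduction mod `n` intertwines `latT` and `cohGen`. -/
theorem redP_latT (l : Nat.Primes) (Φ : Lam N) :
    ((redP N n (latT N l Φ) : parFin N n) : Additive (Gamma0 N) →+ ZMod n)
      = cohGen N (ZMod n) l ((redP N n Φ : parFin N n) : Additive (Gamma0 N) →+ ZMod n) := by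
  rw [coe_redP, coe_redP]
  exact (cohGen_comp N (Int.castAddHom (ZMod n)) l (Φ : Additive (Gamma0 N) →+ ℤ)).symm

/-- `cohGen` preserves `parFin`. -/
theorem cohGen_mem_parFin (l : Nat.Primes) {phi : Additive (Gamma0 N) →+ ZMod n}
    (hphi : phi ∈ parFin N n) : cohGen N (ZMod n) l phi ∈ parFin N n := by
  obtain ⟨Φ, hΦ⟩ := redP_surjective N n ⟨phi, hphi⟩
  have h1 : ((redP N n Φ : parFin N n) : Additive (Gamma0 N) →+ ZMod n) = phi :=
    congrArg Subtype.val hΦ
  rw [← h1, ← redP_latT]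
  exact (redP N n (latT N l Φ)).2

omit [NeZero n] in
/-- **Naturality in the modulus** (lattice side of (T2)). -/
theorem castHom_comp_redP {d : ℕ} (h : d ∣ n) (Φ : Lam N) :
    ((ZMod.castHom h (ZMod d) : ZMod n →+* ZMod d) : ZMod n →+ ZMod d).comp
        ((redP N n Φ : parFin N n) : Additive (Gamma0 N) →+ ZMod n)
      = ((redP N d Φ : parFin N d) : Additive (Gamma0 N) →+ ZMod d) := by
  refine AddMonoidHom.ext fun γ => ?_
  rw [AddMonoidHom.comp_apply, redP_apply, redP_apply]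
  simp

/-- the number of elements of `Λ / nΛ ≅ parFin N n` -/
theorem card_parFin :
    Nat.card (parFin N n) = n ^ (2 * Module.finrank ℂ (CuspForm (Gamma0 N) 2)) :=
  card_isParFin_eq N n

instance : Finite (parFin N n) := by
  apply Nat.finite_of_card_ne_zero
  rw [card_parFin]
  exact pow_ne_zero _ (NeZero.ne n)

end

end Fermat.Agent.GJ.J2.LatMod
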