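/-
GATE-J / J2, CANONICAL EXPORTS (helper86; J2 lead ruling, board 1621).

  theorem eig (N) [NeZero N] (p) [Fact p.Prime] : KumGroup.EIG N p
  theorem fin (N) [NeZero N] (p) [Fact p.Prime] : KumGroup.FIN N p      (in `EigDescLeaves.lean`)

All ten leaves of the hypothesis-form assembly `eig_of_C` / `fin_of_C` (`EigDesc.lean`) are
theorems on main:

* `satC`, `finC`                  (helper41, `EigInputsC.lean`);
* `exC`                           (helper94 + helper57, `EigLeaves.lean`);
* `PDiv.pdivC_of_cuspBridge`      (helper49, `PDivC.lean`) with `Dict.Cusp.cuspBridge`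
                                  (helper71, `Dict/CuspOrdC.lean`);
* `descP`, `d1`, `d1conv`, `isPowDesc`   (DESC bricks of helper84's team, `EigDescLeaves.lean`);
* `HN.hn1Q`                       (helper43 + helper82, `HN/HN1Q.lean`);
* `lat`                           (helper13 + helper99, `LatInst.lean`).
-/
import Mathlib
import Fermat.Agent.GJ.J2.EigDescLeaves
import Fermat.Agent.GJ.J2.PDivC
import Fermat.Agent.GJ.J2.Dict.CuspOrdC
import Fermat.Agent.GJ.J2.LatInst

set_option autoImplicit false

open UpperHalfPlane Complex CongruenceSubgroup AlgebraicCurve ModularCurve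
open scoped MatrixGroups

noncomputable section

namespace Fermat.Agent.GJ.EigAsm

open Fermat.Agent.GJ.KumGroup

variable (N : ℕ) [NeZero N] (p : ℕ) [Fact p.Prime]

/-- **(P)** holds: the `u`-part of every Kummer datum of a good character is `p`-divisible. -/
theorem pDivC (ζ : ℂ) : PDivC N p ζ :=
  Fermat.Agent.GJ.PDiv.pdivC_of_cuspBridge
    (fun q f hf => Fermat.Agent.GJ.Dict.Cusp.cuspBridge N q f hf)

/-- **J2 export (EIG)**: every mod-`p` eigensystem of the weight-2 Hecke algebra of level `N` has a
nonzero eigenvector in `k0 ⊗ Kum_p(ℚ̄(X₀(N)))`. -/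
theorem eig : EIG N p :=
  eig_of_C (Complex.isPrimitiveRoot_exp p (NeZero.ne p)) (satC N p)
    (exC N p (Complex.isPrimitiveRoot_exp p (NeZero.ne p)).pow_eq_one) (pDivC N p _)
    (descP N p) (d1 N p) (isPowDesc N p) (Fermat.Agent.GJ.HN.hn1Q N) (lat N p)

end Fermat.Agent.GJ.EigAsm
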