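/-
GATE-J / J2 → J4 (helper86): J2's export in the shape consumed by `KumFinal.s29_of_k18s_eig`
(helper31): `eigAll : KumFinal.EIGAll`.
-/
import Mathlib
import Fermat.Agent.GJ.J2.EigFinal
import Fermat.Agent.GJ.J4.KumFinal

set_option autoImplicit false

noncomputable section

namespace Fermat.Agent.GJ.EigAsm

/-- **(J2)** for `KumFinal`: `EIG N p` for every level `N ≥ 1` and every prime `p`. -/
theorem eigAll : Fermat.Agent.GJ.KumFinal.EIGAll := fun N _ p hp =>
  haveI : Fact p.Prime := ⟨hp⟩
  eig N p

end Fermat.Agent.GJ.EigAsm
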