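/-
# GATE-J / J2 EIG-ALG (helper64): from a faithful Hecke lattice to the `tens` shape of IFACE:EIG

Pure algebra (Mathlib + `GJ/J2/EigenAlg`).

* `tmul_sum_ne_zero` (T1): an `𝔽_p`-independent finite family `x i` in an abelian group `M` killed by
  `p` stays independent after `k0 ⊗[ℤ] -` (`k0` a field of characteristic `p`), although
  `k0 ⊗[ℤ] -` is not exact.
* `exists_eigen_tens'` / `exists_eigen_tens` (T2): `Λ` a `ℤ`-lattice, faithful over a commutative
  ring `T`, `θ : T →+* k0`, `Θ : Λ →+ M` additive with `M` killed by `p` and `ker Θ ⊆ pΛ`.  Then there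
  are `c i : k0`, `x i : Λ` with `∑ c i ⊗ Θ (x i) ≠ 0` and
  `∑ c i ⊗ Θ (t • x i) = θ t • ∑ c i ⊗ Θ (x i)` for every `t : T`.
-/
import Mathlib
import Fermat.Agent.GJ.J2.EigenAlg

set_option autoImplicit false

namespace Fermat.Agent.GJ.J2.EigTensor

open TensorProduct

section T1

variable {k0 : Type*} [Field k0] (p : ℕ) [Fact p.Prime] [CharP k0 p]
variable {M : Type*} [AddCommGroup M]

/-- The `ℤ`-linear map `M → k0` attached to an additive functional `M →+ ZMod p`. -/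
noncomputable def castFun (f : M →+ ZMod p) : M →ₗ[ℤ] k0 :=
  (((ZMod.castHom (dvd_refl p) k0 : ZMod p →+* k0) : ZMod p →+ k0).comp f).toIntLinearMap

theorem castFun_apply (f : M →+ ZMod p) (m : M) :
    castFun (k0 := k0) p f m = ZMod.castHom (dvd_refl p) k0 (f m) := rfl

/-- `k0 ⊗[ℤ] M → k0`, `c ⊗ m ↦ c * f m`. -/
noncomputable def evalFun (f : M →+ ZMod p) : k0 ⊗[ℤ] M →+ k0 :=
  (TensorProduct.lift ((LinearMap.mul ℤ k0).compl₂ (castFun (k0 := k0) p f))).toAddMonoidHom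

theorem evalFun_tmul (f : M →+ ZMod p) (c : k0) (m : M) :
    evalFun (k0 := k0) p f (c ⊗ₜ[ℤ] m) = c * ZMod.castHom (dvd_refl p) k0 (f m) := by
  show TensorProduct.lift ((LinearMap.mul ℤ k0).compl₂ (castFun (k0 := k0) p f)) (c ⊗ₜ[ℤ] m) = _
  rw [TensorProduct.lift.tmul, LinearMap.compl₂_apply, LinearMap.mul_apply', castFun_apply]

/-- Dual functionals of a finite linearly independent family over a field. -/
theorem exists_dual_aux {K : Type*} [Field K] {V : Type*} [AddCommGroup V] [Module K V]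
    {ι : Type*} [Fintype ι] [DecidableEq ι] (x : ι → V) (hx : LinearIndependent K x) (i : ι) :
    ∃ f : V →ₗ[K] K, ∀ j, f (x j) = if j = i then 1 else 0 := by
  obtain ⟨f, hf⟩ := LinearMap.exists_extend
    (p := Submodule.span K (Set.range x)) ((Finsupp.lapply i : (ι →₀ K) →ₗ[K] K).comp hx.repr)
  refine ⟨f, fun j => ?_⟩
  have hmem : x j ∈ Submodule.span K (Set.range x) := Submodule.subset_span ⟨j, rfl⟩
  have h1 := LinearMap.congr_fun hf ⟨x j, hmem⟩
  simp only [LinearMap.coe_comp, Submodule.coe_subtype, Function.comp_apply] at h1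
  rw [h1]
  have h2 : hx.repr ⟨x j, hmem⟩ = Finsupp.single j 1 := hx.repr_eq_single j _ rfl
  rw [h2]
  simp [Finsupp.single_apply]

/-- Dual functionals for an `𝔽_p`-independent family in an abelian group killed by `p`. -/
theorem exists_dual (hM : ∀ m : M, p • m = 0) {ι : Type*} [Fintype ι] [DecidableEq ι]
    (x : ι → M)
    (hx : ∀ a : ι → ℤ, ∑ i, a i • x i = 0 → ∀ i, (p : ℤ) ∣ a i) (i : ι) :
    ∃ f : M →+ ZMod p, ∀ j, f (x j) = if j = i then 1 else 0 := by
  let inst : Module (ZMod p) M := AddCommGroup.zmodModule hM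
  have hli : LinearIndependent (ZMod p) x := by
    rw [Fintype.linearIndependent_iff]
    intro g hg j
    have h1 : ∑ j, ((g j).val : ℤ) • x j = 0 := by
      rw [← hg]
      apply Finset.sum_congr rfl
      intro j _
      rw [natCast_zsmul]
      conv_rhs => rw [← ZMod.natCast_zmod_val (g j)]
      rw [Nat.cast_smul_eq_nsmul]
    have h3 := hx _ h1 j
    have h4 : (((g j).val : ℤ) : ZMod p) = 0 := by
      rw [ZMod.intCast_zmod_eq_zero_iff_dvd]
      exact h3
    rw [Int.cast_natCast, ZMod.natCast_zmod_val] at h4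
    exact h4
  obtain ⟨f, hf⟩ := exists_dual_aux (K := ZMod p) x hli i
  exact ⟨f.toAddMonoidHom, hf⟩

/-- **(T1)** An `𝔽_p`-independent finite family in an abelian group killed by `p` stays independent
after `k0 ⊗[ℤ] -`, for `k0` a field of characteristic `p`. -/
theorem tmul_sum_ne_zero (hM : ∀ m : M, p • m = 0) {ι : Type*} [Fintype ι] (x : ι → M)
    (hx : ∀ a : ι → ℤ, ∑ i, a i • x i = 0 → ∀ i, (p : ℤ) ∣ a i) (c : ι → k0) (hc : c ≠ 0) :
    ∑ i, c i ⊗ₜ[ℤ] x i ≠ (0 : k0 ⊗[ℤ] M) := by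
  classical
  intro h0
  apply hc
  funext i
  obtain ⟨f, hf⟩ := exists_dual p hM x hx i
  have h1 := congrArg (evalFun (k0 := k0) p f) h0
  rw [map_sum, map_zero] at h1
  simp only [evalFun_tmul, hf] at h1
  simpa using h1

end T1

section T2

variable {T : Type*} [CommRing T] {Λ : Type*} [AddCommGroup Λ] [Module T Λ]

/-- **(T2), basis form.** -/
theorem exists_eigen_tens_of_basis {ι : Type*} [Fintype ι] [DecidableEq ι]
    (b : Module.Basis ι ℤ Λ)
    (hfaith : ∀ t : T, (∀ x : Λ, t • x = 0) → t = 0)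
    {k0 : Type*} [Field k0] (p : ℕ) [Fact p.Prime] [CharP k0 p] (θ : T →+* k0)
    {M : Type*} [AddCommGroup M] (hM : ∀ m : M, p • m = 0) (Θ : Λ →+ M)
    (hΘ : ∀ x, Θ x = 0 → ∃ y, x = p • y) :
    ∃ c : ι → k0, c ≠ 0 ∧ ∑ i, c i ⊗ₜ[ℤ] Θ (b i) ≠ (0 : k0 ⊗[ℤ] M) ∧
      ∀ t : T, ∑ i, c i ⊗ₜ[ℤ] Θ (t • b i) = θ t • ∑ i, c i ⊗ₜ[ℤ] Θ (b i) := by
  obtain ⟨c, hc0, hc⟩ := EigenAlg.exists_eigenvector_of_basis b hfaith p θ
  refine ⟨c, hc0, ?_, ?_⟩
  · apply tmul_sum_ne_zero p hM _ _ c hc0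
    intro a ha i
    have h1 : Θ (∑ j, a j • b j) = 0 := by
      rw [map_sum, ← ha]
      apply Finset.sum_congr rfl
      intro j _
      rw [map_zsmul]
    obtain ⟨y, hy⟩ := hΘ _ h1
    have h2 := congrArg (fun z => b.repr z i) hy
    simp only [map_sum, map_zsmul, Finsupp.coe_finsetSum, Finsupp.coe_smul, Finset.sum_apply,
      Pi.smul_apply, Module.Basis.repr_self, map_nsmul, Finsupp.smul_apply] at h2
    rw [Finset.sum_eq_single i] at h2
    · rw [Finsupp.single_eq_same, smul_eq_mul, mul_one] at h2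
      rw [h2]
      refine ⟨b.repr y i, ?_⟩
      rw [nsmul_eq_mul]
    · intro j _ hji
      rw [Finsupp.single_eq_of_ne (by exact fun h => hji h.symm)]
      simp
    · intro hi
      exact absurd (Finset.mem_univ i) hi
  · intro t
    have key : ∀ j, c j ⊗ₜ[ℤ] Θ (t • b j) =
        ∑ i, (((b.repr (t • b j) i : ℤ) : k0) * c j) ⊗ₜ[ℤ] Θ (b i) := by
      intro j
      conv_lhs => rw [← b.sum_repr (t • b j)]
      rw [map_sum, TensorProduct.tmul_sum]
      apply Finset.sum_congr rfl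
      intro i _
      rw [map_zsmul, TensorProduct.tmul_smul, TensorProduct.smul_tmul', zsmul_eq_mul]
    rw [Finset.sum_congr rfl (fun j _ => key j), Finset.sum_comm, Finset.smul_sum]
    apply Finset.sum_congr rfl
    intro i _
    rw [← TensorProduct.sum_tmul, hc t i, TensorProduct.smul_tmul', smul_eq_mul]

/-- **(T2)** in the `Fin n` shape of `EigIface.tens`. -/
theorem exists_eigen_tens [Module.Free ℤ Λ] [Module.Finite ℤ Λ]
    (hfaith : ∀ t : T, (∀ x : Λ, t • x = 0) → t = 0)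
    {k0 : Type*} [Field k0] (p : ℕ) [Fact p.Prime] [CharP k0 p] (θ : T →+* k0)
    {M : Type*} [AddCommGroup M] (hM : ∀ m : M, p • m = 0) (Θ : Λ →+ M)
    (hΘ : ∀ x, Θ x = 0 → ∃ y, x = p • y) :
    ∃ (n : ℕ) (c : Fin n → k0) (x : Fin n → Λ),
      ∑ i, c i ⊗ₜ[ℤ] Θ (x i) ≠ (0 : k0 ⊗[ℤ] M) ∧
      ∀ t : T, ∑ i, c i ⊗ₜ[ℤ] Θ (t • x i) = θ t • ∑ i, c i ⊗ₜ[ℤ] Θ (x i) := by
  classical
  let b0 := Module.Free.chooseBasis ℤ Λ
  let e := Fintype.equivFin (Module.Free.ChooseBasisIndex ℤ Λ)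
  let b : Module.Basis (Fin (Fintype.card (Module.Free.ChooseBasisIndex ℤ Λ))) ℤ Λ :=
    b0.reindex e
  obtain ⟨c, -, h1, h2⟩ := exists_eigen_tens_of_basis b hfaith p θ hM Θ hΘ
  exact ⟨_, c, fun i => b i, h1, h2⟩

end T2

end Fermat.Agent.GJ.J2.EigTensor
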