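/-
GATE-J / J4-TATE lattice side (helper64).  Induction principle for the Hecke action `latAct` on the
lattice: a property of endomorphisms of `Λ = Lam N` that holds for the generators `latT ℓ`
(`ℓ ∉ S`), for the integers, and is closed under `+` and `*`, holds for `latAct N S t` for EVERY
`t : heckeAlgebra N 2 S`.  Corollary: the `comm` field of `Tate.OfTower.TowerHyp` only has to be
checked on the generators `T_ℓ` / `U_q`.
-/
import Fermat.Agent.GJ.J2.LatAct

set_option autoImplicit false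
set_option linter.unusedSectionVars false

open scoped MatrixGroups
open CongruenceSubgroup ModularCurve ModularCurve.Period CuspForm

namespace Fermat.Agent.GJ.J2.LatAct

open Fermat.Agent.S16_helper49 Fermat.Agent.GJ.J2.ZStruct Fermat.Agent.GJ.J2.Lat

noncomputable section

variable (N : ℕ) [NeZero N] (S : Set ℕ)

/-- **Induction on the Hecke algebra, seen through its action on the lattice.** -/
theorem latAct_induction {C : Module.End ℤ (Lam N) → Prop}
    (hT : ∀ (ℓ : ℕ) (hℓ : ℓ.Prime), ¬ ℓ ∣ N → ℓ ∉ S → C (latT N (⟨ℓ, hℓ⟩ : Nat.Primes)))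
    (hU : ∀ (q : ℕ) (hq : q.Prime), q ∣ N → q ∉ S → C (latT N (⟨q, hq⟩ : Nat.Primes)))
    (hint : ∀ r : ℤ, C (algebraMap ℤ (Module.End ℤ (Lam N)) r))
    (hadd : ∀ a b, C a → C b → C (a + b)) (hmul : ∀ a b, C a → C b → C (a * b))
    (t : ↥(heckeAlgebra N 2 S)) : C (latAct N S t) := by
  obtain ⟨x, hx⟩ := t
  refine Algebra.adjoin_induction
    (p := fun x hx => C (latAct N S ⟨x, hx⟩)) ?_ ?_ ?_ ?_ hx
  · rintro x (⟨ℓ, hℓ, hℓN, hℓS, rfl⟩ | ⟨q, hqN, hq, hqS, rfl⟩)
    · have h := latAct_T N S hℓ hℓN hℓS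
      have h2 : C (latAct N S (heckeAlgebra.T hℓ hℓN hℓS)) := by
        rw [h]; exact hT ℓ hℓ hℓN hℓS
      exact h2
    · have h := latAct_U N S hq hqN hqS
      have h2 : C (latAct N S (heckeAlgebra.U hq hqN hqS)) := by
        rw [h]; exact hU q hq hqN hqS
      exact h2
  · intro r
    have h : latAct N S (algebraMap ℤ ↥(heckeAlgebra N 2 S) r)
        = algebraMap ℤ (Module.End ℤ (Lam N)) r := (latActAlg N S).commutes r
    have h2 : C (latAct N S (algebraMap ℤ ↥(heckeAlgebra N 2 S) r)) := by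
      rw [h]; exact hint r
    exact h2
  · intro a b ha hb hCa hCb
    have h : latAct N S (⟨a, ha⟩ + ⟨b, hb⟩) = latAct N S ⟨a, ha⟩ + latAct N S ⟨b, hb⟩ :=
      map_add _ _ _
    have h2 : C (latAct N S (⟨a, ha⟩ + ⟨b, hb⟩)) := by
      rw [h]; exact hadd _ _ hCa hCb
    exact h2
  · intro a b ha hb hCa hCb
    have h : latAct N S (⟨a, ha⟩ * ⟨b, hb⟩) = latAct N S ⟨a, ha⟩ * latAct N S ⟨b, hb⟩ :=
      map_mul _ _ _
    have h2 : C (latAct N S (⟨a, ha⟩ * ⟨b, hb⟩)) := by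
      rw [h]; exact hmul _ _ hCa hCb
    exact h2

/-- **`comm` from generators.**  Let `π : Λ →+ Q` be additive and `ρ` an additive endomorphism of
`Q` (think: `Q = Kum_{p^n}`, `ρ` a Galois element).  If the relation
`ρ (π x) = π y → ρ (π (T x)) = π (T y)` holds for the generators `T = latT ℓ`, it holds for
`T = latAct N S t` for every `t` in the Hecke algebra. -/
theorem latAct_rel_of_generators {Q : Type*} [AddCommGroup Q] (π : Lam N →+ Q)
    (ρ : AddMonoid.End Q)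
    (hT : ∀ (ℓ : ℕ) (hℓ : ℓ.Prime), ¬ ℓ ∣ N → ℓ ∉ S → ∀ x y, ρ (π x) = π y →
      ρ (π (latT N (⟨ℓ, hℓ⟩ : Nat.Primes) x)) = π (latT N (⟨ℓ, hℓ⟩ : Nat.Primes) y))
    (hU : ∀ (q : ℕ) (hq : q.Prime), q ∣ N → q ∉ S → ∀ x y, ρ (π x) = π y →
      ρ (π (latT N (⟨q, hq⟩ : Nat.Primes) x)) = π (latT N (⟨q, hq⟩ : Nat.Primes) y))
    (t : ↥(heckeAlgebra N 2 S)) (x y : Lam N) (h : ρ (π x) = π y) :
    ρ (π (latAct N S t x)) = π (latAct N S t y) := by
  refine latAct_induction N S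
    (C := fun a => ∀ x y, ρ (π x) = π y → ρ (π (a x)) = π (a y)) hT hU ?_ ?_ ?_ t x y h
  · intro r x y h
    rw [Module.algebraMap_end_apply, Module.algebraMap_end_apply, map_zsmul, map_zsmul,
      map_zsmul, h]
  · intro a b ha hb x y h
    rw [LinearMap.add_apply, LinearMap.add_apply, map_add, map_add, map_add, ha x y h,
      hb x y h]
  · intro a b ha hb x y h
    rw [Module.End.mul_apply, Module.End.mul_apply]
    exact ha _ _ (hb x y h)

/-- When `S` contains the primes dividing `N` there are no `U`-generators. -/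
theorem latAct_rel_of_T {Q : Type*} [AddCommGroup Q] (π : Lam N →+ Q)
    (ρ : AddMonoid.End Q) (hS : ∀ q : ℕ, q.Prime → q ∣ N → q ∈ S)
    (hT : ∀ (ℓ : ℕ) (hℓ : ℓ.Prime), ¬ ℓ ∣ N → ℓ ∉ S → ∀ x y, ρ (π x) = π y →
      ρ (π (latT N (⟨ℓ, hℓ⟩ : Nat.Primes) x)) = π (latT N (⟨ℓ, hℓ⟩ : Nat.Primes) y))
    (t : ↥(heckeAlgebra N 2 S)) (x y : Lam N) (h : ρ (π x) = π y) :
    ρ (π (latAct N S t x)) = π (latAct N S t y) :=
  latAct_rel_of_generators N S π ρ hT
    (fun q hq hqN hqS => absurd (hS q hq hqN) hqS) t x y h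

end

end Fermat.Agent.GJ.J2.LatAct
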