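/-
GATE-J / J2 brick (P) = PDIV_ℂ (helper65): for ANY Kummer datum `(h, u)` over `ℂ(X₀(N))`
(`realizeC N u = h ^ p`, `h` with multiplier `ζ^ψ`) whose class `ψ` kills the elements of finite
order and the parabolic elements, `p` divides the order of `u` at every place.

* interior places (`placeAt N τ`): unconditional, from (R-ell) + DICT (E1) `ordM_realizeC`,
  `eAt_spec`;
* cusps: from (R-par) (`RootCusp.lean`) + the hypothesis `CuspOrdHyp N` (= DICT-4 (E2) in the
  analytic form consumed by (R-par));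
* exhaustion: DICT (E3) `exists_placeAt_eq`.
-/
import Mathlib
import Fermat.Prelude.Def_ModularCurve_PeriodMap
import Fermat.Agent.GJ.J2.KumCore
import Fermat.Agent.GJ.J2.RootCusp
import Fermat.Agent.GJ.J2.Dict.InteriorAsmC

set_option autoImplicit false

open UpperHalfPlane hiding I
open Complex CongruenceSubgroup AlgebraicCurve
open scoped MatrixGroups Real

namespace Fermat.Agent.GJ.PDivAlt

open Fermat.Agent.S24_helper82 Fermat.Agent.GJ.Root Fermat.Agent.GJ.Dict Fermat.Agent.GJ.KumCore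
open Fermat.Agent.GJ.HeckeMer
open ModularCurve.Period (IsParabolicHom)

/-! ### elements fixing a point have finite order -/

/-- Cayley–Hamilton for `2 × 2` integer matrices of determinant one -/
theorem mat_sq {M : Matrix (Fin 2) (Fin 2) ℤ} (hdet : M.det = 1) :
    M ^ 2 = (M 0 0 + M 1 1 : ℤ) • M - 1 := by
  rw [Matrix.det_fin_two] at hdet
  ext i j
  fin_cases i <;> fin_cases j <;>
    simp only [pow_two, Matrix.mul_apply, Fin.sum_univ_two, Matrix.sub_apply, Matrix.smul_apply,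
      smul_eq_mul, Matrix.one_apply_eq, Fin.zero_eta, Fin.mk_one, Fin.isValue, ne_eq,
      zero_ne_one, one_ne_zero, not_false_eq_true, Matrix.one_apply_ne, sub_zero] <;>
    nlinarith [hdet]

theorem mat_pow_twelve {M : Matrix (Fin 2) (Fin 2) ℤ} (hdet : M.det = 1)
    (h : (M 1 0 = 0 ∧ M 0 1 = 0 ∧ M 0 0 = M 1 1) ∨ (M 0 0 + M 1 1) ^ 2 < 4) : M ^ 12 = 1 := by
  have hCH := mat_sq hdet
  rcases h with ⟨hc, hb, had⟩ | htr
  · have hdet' := hdet
    rw [Matrix.det_fin_two, hc, hb, ← had] at hdet'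
    have hM2 : M ^ 2 = 1 := by
      ext i j
      fin_cases i <;> fin_cases j <;>
        simp [pow_two, Matrix.mul_apply, Fin.sum_univ_two, hc, hb, ← had] <;> nlinarith [hdet']
    calc M ^ 12 = (M ^ 2) ^ 6 := by rw [← pow_mul]
      _ = 1 := by rw [hM2, one_pow]
  · generalize M 0 0 + M 1 1 = t at hCH htr
    have ht1 : -1 ≤ t ∧ t ≤ 1 := by
      constructor <;> nlinarith
    obtain ⟨h1, h2⟩ := ht1
    interval_cases t
    · have hM2 : M ^ 2 = -M - 1 := by rw [hCH]; simp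
      have hM3 : M ^ 3 = 1 := by
        rw [pow_succ, hM2, sub_mul, neg_mul, one_mul, ← pow_two, hM2]; abel
      calc M ^ 12 = (M ^ 3) ^ 4 := by rw [← pow_mul]
        _ = 1 := by rw [hM3, one_pow]
    · have hM2 : M ^ 2 = -1 := by rw [hCH]; simp
      calc M ^ 12 = (M ^ 2) ^ 6 := by rw [← pow_mul]
        _ = 1 := by rw [hM2]; norm_num
    · have hM2 : M ^ 2 = M - 1 := by rw [hCH]; simp
      have hM3 : M ^ 3 = -1 := by
        rw [pow_succ, hM2, sub_mul, one_mul, ← pow_two, hM2]; abel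
      calc M ^ 12 = (M ^ 3) ^ 4 := by rw [← pow_mul]
        _ = 1 := by rw [hM3]; norm_num

/-- the trace of an element of `SL(2, ℤ)` fixing a point of `ℍ` is `0, ±1`, unless the element is
`±1` -/
theorem trace_of_fixed {γ : SL(2, ℤ)} {τ : ℍ} (hfix : γ • τ = τ) :
    (γ 1 0 = 0 ∧ γ 0 1 = 0 ∧ γ 0 0 = γ 1 1) ∨ (γ 0 0 + γ 1 1) ^ 2 < 4 := by
  have hf := fixed_eq hfix
  have hq := den_sq_eq hfix
  have hy : 0 < (τ : ℂ).im := τ.im_pos
  by_cases hc : γ 1 0 = 0
  · left
    simp only [den, hc, Int.cast_zero, zero_mul, zero_add] at hf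
    have him := congrArg Complex.im hf
    have hre := congrArg Complex.re hf
    simp only [Complex.mul_im, Complex.mul_re, Complex.add_im, Complex.add_re, Complex.intCast_re,
      Complex.intCast_im, mul_zero, add_zero, zero_mul, sub_zero] at him hre
    have hda : ((γ 1 1 : ℤ) : ℝ) = (γ 0 0 : ℤ) := by
      have : (τ : ℂ).im * (((γ 1 1 : ℤ) : ℝ) - (γ 0 0 : ℤ)) = 0 := by linarith
      rcases mul_eq_zero.mp this with h | h
      · exact absurd h hy.ne'
      · linarith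
    have hb : ((γ 0 1 : ℤ) : ℝ) = 0 := by
      rw [hda] at hre
      linarith
    exact ⟨hc, by exact_mod_cast hb, by exact_mod_cast hda.symm⟩
  · right
    set l : ℂ := den γ τ with hl
    set t : ℤ := γ 0 0 + γ 1 1 with ht
    have hq' : l ^ 2 - (t : ℂ) * l + 1 = 0 := by
      rw [ht]; push_cast; exact hq
    have hlim : l.im = (γ 1 0 : ℤ) * (τ : ℂ).im := by
      simp [hl, den]
    have hlim0 : l.im ≠ 0 := by
      rw [hlim]
      exact mul_ne_zero (by exact_mod_cast hc) hy.ne'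
    have him := congrArg Complex.im hq'
    have hre := congrArg Complex.re hq'
    simp only [pow_two, Complex.add_im, Complex.sub_im, Complex.mul_im, Complex.add_re,
      Complex.sub_re, Complex.mul_re, Complex.intCast_re, Complex.intCast_im, Complex.one_im,
      Complex.one_re, Complex.zero_im, Complex.zero_re, zero_mul, add_zero] at him hre
    have h2 : 2 * l.re = (t : ℝ) := by
      have : l.im * (2 * l.re - (t : ℝ)) = 0 := by linarith
      rcases mul_eq_zero.mp this with h | h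
      · exact absurd h hlim0
      · linarith
    have h3 : ((t : ℝ)) ^ 2 < 4 := by
      have hpos : 0 < l.im ^ 2 := by positivity
      nlinarith
    exact_mod_cast h3

/-- an element of `SL(2, ℤ)` fixing a point of the upper half plane has finite order -/
theorem pow_twelve_eq_one_of_fixed {γ : SL(2, ℤ)} {τ : ℍ} (hfix : γ • τ = τ) : γ ^ 12 = 1 := by
  apply Subtype.ext
  rw [Matrix.SpecialLinearGroup.coe_pow]
  exact mat_pow_twelve γ.det_coe (trace_of_fixed hfix)

theorem isOfFinOrder_of_fixed {γ : SL(2, ℤ)} {τ : ℍ} (hfix : γ • τ = τ) : IsOfFinOrder γ :=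
  isOfFinOrder_iff_pow_eq_one.2 ⟨12, by norm_num, pow_twelve_eq_one_of_fixed hfix⟩

/-! ### interior places -/

section

variable {N : ℕ} [NeZero N] {p : ℕ} [NeZero p]

/-- **(P), interior.** -/
theorem dvd_ord_placeAt {ζ : ℂ} {ψ : Additive (Gamma0 N) →+ ZMod p} {h : Mer} {u : FC N}
    (D : IsKumDatum (realizeC N : FC N →+* Mer) ζ ψ h u)
    (hψfin : ∀ g : Gamma0 N, IsOfFinOrder g → ψ (Additive.ofMul g) = 0) (τ : ℍ) :
    (p : ℤ) ∣ (placeAt N τ).ord u := by
  have hu : u ≠ 0 := D.ne_zero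
  obtain ⟨hh, hmult, hreal⟩ := D
  obtain ⟨γ, hγ, hfix, hprim⟩ := eAt_spec N τ
  have hfin : IsOfFinOrder (⟨γ, hγ⟩ : Gamma0 N) := by
    rw [isOfFinOrder_iff_pow_eq_one]
    refine ⟨12, by norm_num, Subtype.ext ?_⟩
    rw [Subgroup.coe_pow, Subgroup.coe_one]
    exact pow_twelve_eq_one_of_fixed hfix
  have hψ := hψfin ⟨γ, hγ⟩ hfin
  have hc : compM γ h = algebraMap ℂ Mer 1 * h := by
    have := hmult ⟨γ, hγ⟩
    rw [hψ, zmodPow_zero] at this
    exact this
  have h1 : (1 : ℂ) = mult γ τ ^ (ordM τ h) := eq_mult_zpow_of_fixed hfix hh hc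
  have hdvd : (((eAt N τ).toNat : ℕ) : ℤ) ∣ ordM τ h := (hprim.zpow_eq_one_iff_dvd _).1 h1.symm
  have he : (((eAt N τ).toNat : ℕ) : ℤ) = eAt N τ := Int.toNat_of_nonneg (eAt_pos N τ).le
  rw [he] at hdvd
  obtain ⟨k, hk⟩ := hdvd
  have hord := ordM_realizeC N τ hu
  have hreal' : realizeC N u = h ^ p := hreal
  rw [hreal', ordM_pow, hk] at hord
  refine ⟨k, ?_⟩
  have : eAt N τ * ((placeAt N τ).ord u) = eAt N τ * ((p : ℤ) * k) := by rw [← hord]; ring
  exact mul_left_cancel₀ (eAt_pos N τ).ne' this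

/-! ### cusps -/

/-- the trace of `g T^w g⁻¹` is `2` -/
theorem trace_conj_T_pow (g : SL(2, ℤ)) (w : ℕ) :
    ((g * ModularGroup.T ^ w * g⁻¹ : SL(2, ℤ)) : Matrix (Fin 2) (Fin 2) ℤ).trace = 2 := by
  rw [Matrix.SpecialLinearGroup.coe_mul, Matrix.trace_mul_comm, ← Matrix.SpecialLinearGroup.coe_mul,
    ← mul_assoc, inv_mul_cancel, one_mul, ← zpow_natCast, ModularGroup.coe_T_zpow]
  simp [Matrix.trace_fin_two_of]

/-- DICT-4 (E2) in the analytic form consumed by (R-par): every place of `ℂ(X₀(N))` over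
`j = ∞` is the cusp `g ∞` of some `g`, of width `w`, and the order at that place is computed by
the expansion of `f ∘ g` at `i∞` in the parameter `𝕢 (w e)`. -/
def CuspOrdHyp (N : ℕ) [NeZero N] : Prop :=
  ∀ P : Place ℂ (FC N), P.ord (jC N) < 0 →
    ∃ (g : SL(2, ℤ)) (w e : ℕ), 0 < w ∧ 0 < e ∧ g * ModularGroup.T ^ w * g⁻¹ ∈ Gamma0 N ∧
      ∀ f : FC N, f ≠ 0 →
        MerOrdAtImInfty ((w * e : ℕ) : ℝ) (compM g (realizeC N f)) ((e : ℤ) * P.ord f)

/-- **(P), cusps.** -/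
theorem dvd_ord_cusp {ζ : ℂ} {ψ : Additive (Gamma0 N) →+ ZMod p} {h : Mer} {u : FC N}
    (D : IsKumDatum (realizeC N : FC N →+* Mer) ζ ψ h u)
    (hψpar : IsParabolicHom (Gamma0 N) ψ) {P : Place ℂ (FC N)}
    (hP : ∃ (g : SL(2, ℤ)) (w e : ℕ), 0 < w ∧ 0 < e ∧ g * ModularGroup.T ^ w * g⁻¹ ∈ Gamma0 N ∧
      ∀ f : FC N, f ≠ 0 →
        MerOrdAtImInfty ((w * e : ℕ) : ℝ) (compM g (realizeC N f)) ((e : ℤ) * P.ord f)) :
    (p : ℤ) ∣ P.ord u := by
  have hu : u ≠ 0 := D.ne_zero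
  obtain ⟨hh, hmult, hreal⟩ := D
  obtain ⟨g, w, e, hw, he, hγ, hord⟩ := hP
  have hp : 0 < p := Nat.pos_of_ne_zero (NeZero.ne p)
  have hreal' : realizeC N u = h ^ p := hreal
  have hψ : ψ (Additive.ofMul (⟨_, hγ⟩ : Gamma0 N)) = 0 := by
    apply hψpar
    show ((g * ModularGroup.T ^ w * g⁻¹ : SL(2, ℤ)) : Matrix (Fin 2) (Fin 2) ℤ).trace ^ 2 = 4
    rw [trace_conj_T_pow]; norm_num
  have hc : compM (g * ModularGroup.T ^ w * g⁻¹) h = h := by
    have := hmult ⟨_, hγ⟩
    rw [hψ, zmodPow_zero, map_one, one_mul] at this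
    exact this
  have hT : compM (g * ModularGroup.T ^ w * g⁻¹) (h ^ p) = h ^ p := by
    rw [map_pow, hc]
  have hord' := hord u hu
  rw [hreal'] at hord'
  obtain ⟨n', hn', hc'⟩ := compM_conj_T_pow_of_merOrd hp hw he hh g hord' hT
  have he' : (e : ℤ) ≠ 0 := by exact_mod_cast he.ne'
  have hn'' : P.ord u = n' := mul_left_cancel₀ he' hn'
  rw [hc] at hc'
  have h1 : algebraMap ℂ Mer 1 * h = algebraMap ℂ Mer (exp (2 * π * I * n' / p)) * h := by
    rw [map_one, one_mul]; exact hc'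
  have h2 : (1 : ℂ) = exp (2 * π * I * n' / p) :=
    algebraMap_C_injective (mul_right_cancel₀ hh h1)
  rw [hn'']
  exact (exp_two_pi_I_div_eq_one_iff hp n').1 h2.symm

/-- **(P) = PDIV_ℂ**: for any Kummer datum whose class kills the elements of finite order and the
parabolic elements, `p` divides all orders of `u`. -/
theorem pdiv_of_datum (hcusp : CuspOrdHyp N) {ζ : ℂ} {ψ : Additive (Gamma0 N) →+ ZMod p}
    {h : Mer} {u : FC N} (D : IsKumDatum (realizeC N : FC N →+* Mer) ζ ψ h u)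
    (hψfin : ∀ g : Gamma0 N, IsOfFinOrder g → ψ (Additive.ofMul g) = 0)
    (hψpar : IsParabolicHom (Gamma0 N) ψ) (P : Place ℂ (FC N)) : (p : ℤ) ∣ P.ord u := by
  by_cases hP : P.ord (jC N) < 0
  · exact dvd_ord_cusp D hψpar (hcusp P hP)
  · obtain ⟨τ, rfl⟩ := exists_placeAt_eq N P hP
    exact dvd_ord_placeAt D hψfin τ

end

end Fermat.Agent.GJ.PDivAlt
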