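/-
GATE-J / J2, cusp half of (P) PDivC, assembly (helper94).

For ANY Kummer datum `(h, u)` over `ℂ(X₀(N))` of a parabolic homomorphism `ψ : Γ₀(N) → ℤ/p`
(`h ^ p = realizeC u`, `h ∘ γ = ζ^ψ(γ) h`), `p` divides the order of `u` at every cusp place —
given the analytic bridge `CuspBridge N` of DICT-4 (the algebraic cusp expansion `cuspSigmaC N q f`
is the analytic expansion of `SigQC N q f` in `𝕢_N`).  Ingredients: helper65's (R-par)
`compM_conj_T_pow_of_merOrd`, helper71's `order_cuspSigmaC` / `cuspMultC_mul_width` /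
`exists_eq_cuspPlaceC`, and `MerCE.merOrdAtImInfty`.
-/
import Fermat.Agent.GJ.J2.PDivCusp
import Fermat.Agent.GJ.J2.Dict.CuspC
import Fermat.Agent.GJ.J2.Dict.InteriorValC
import Fermat.Agent.GJ.J2.EigDesc

set_option autoImplicit false

open Complex UpperHalfPlane Set Filter Topology Function CongruenceSubgroup AlgebraicCurve
open scoped MatrixGroups Manifold
open Fermat.Agent.S24 Fermat.Agent.S24_helper82 Fermat.Agent.S28 Fermat.Agent.GJ.Root
open Fermat.Agent.GJ.Dict Fermat.Agent.GJ.Dict.Cusp Fermat.Agent.GJ.KumCore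
open Fermat.Agent.GJ.HeckeMer

namespace Fermat.Agent.GJ.TwEis

noncomputable section

variable (N : ℕ) [NeZero N]

/-- **the analytic bridge of DICT-4** (helper71, part 3), as a Prop: the algebraic cusp expansion
of `f : FC N` along the coset `q` is the analytic expansion in `𝕢_N` of the translate
`SigQC N q f = (realizeC N f) ∘ (out q)⁻¹`. -/
def CuspBridge : Prop :=
  ∀ (q : I0 N) (f : FC N), MerCE (N : ℝ) (SigQC N q f) (cuspSigmaC N q f)

variable {N}

/-- the width of the cusp attached to the coset `q`. -/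
def widthOf (q : I0 N) : ℕ := Function.minimalPeriod ((ModularGroup.T : SL(2, ℤ)) • ·) q

lemma widthOf_pos (q : I0 N) : 0 < widthOf q := by
  have : Finite (I0 N) := Finite.of_fintype _
  have h := MulAction.minimalPeriod_pos (ModularGroup.T : SL(2, ℤ)) q
  exact Nat.pos_of_ne_zero h.out

lemma conj_T_pow_widthOf_mem (q : I0 N) :
    (q.out)⁻¹ * ModularGroup.T ^ widthOf q * ((q.out)⁻¹)⁻¹ ∈ Gamma0 N := by
  rw [inv_inv]
  exact QuotientGroup.out_conj_pow_minimalPeriod_mem (Gamma0 N) ModularGroup.T q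

lemma widthOf_eq_card (q : I0 N) :
    widthOf q = Nat.card (MulAction.orbit (Subgroup.zpowers (ModularGroup.T : SL(2, ℤ))) q) := by
  classical
  have h := MulAction.minimalPeriod_eq_card (ModularGroup.T : SL(2, ℤ)) q
  rw [Nat.card_eq_fintype_card]
  exact h

lemma widthOf_mul_cuspMult (q : I0 N) :
    widthOf q * (cuspMultC N q).toNat = N := by
  have h1 := cuspMultC_mul_width N q
  have h2 := cuspMultC_pos N q
  rw [← widthOf_eq_card] at h1
  have h3 : ((cuspMultC N q).toNat : ℤ) = cuspMultC N q := Int.toNat_of_nonneg h2.le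
  have h4 : ((widthOf q * (cuspMultC N q).toNat : ℕ) : ℤ) = (N : ℤ) := by
    push_cast
    rw [h3, mul_comm]
    exact h1
  exact_mod_cast h4

/-- **(P), cusp places**: for any Kummer datum of a parabolic homomorphism, `p` divides the order
of `u` at every cusp place. -/
theorem dvd_ord_cuspPlaceC (hbr : CuspBridge N) {p : ℕ} [NeZero p] {ζ : ℂ}
    {ψ : Additive ↥(Gamma0 N) →+ ZMod p}
    (hψ : ModularCurve.Period.IsParabolicHom (Gamma0 N) ψ) {h : Mer} {u : FC N}
    (D : IsKumDatum (EigAsm.realC N) ζ ψ h u) (q : I0 N) :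
    (p : ℤ) ∣ (cuspPlaceC N q).ord u := by
  have hp : 0 < p := NeZero.pos p
  set g : SL(2, ℤ) := (q.out)⁻¹ with hg
  set w : ℕ := widthOf q with hw
  set e : ℕ := (cuspMultC N q).toNat with he
  have hwpos : 0 < w := widthOf_pos q
  have hepos : 0 < e := by
    have := cuspMultC_pos N q
    omega
  have heZ : (e : ℤ) = cuspMultC N q := Int.toNat_of_nonneg (cuspMultC_pos N q).le
  have hwe : w * e = N := widthOf_mul_cuspMult q
  have hmem : g * ModularGroup.T ^ w * g⁻¹ ∈ Gamma0 N := conj_T_pow_widthOf_mem q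
  have hu0 : u ≠ 0 := D.ne_zero
  have hh0 : h ≠ 0 := D.1
  -- the multiplier at the parabolic element is trivial
  have hpar : compM (g * ModularGroup.T ^ w * g⁻¹) h = h := by
    have h1 := D.2.1 ⟨g * ModularGroup.T ^ w * g⁻¹, hmem⟩
    have h2 : ψ (Additive.ofMul (⟨g * ModularGroup.T ^ w * g⁻¹, hmem⟩ : ↥(Gamma0 N))) = 0 := by
      apply hψ
      show ((g * ModularGroup.T ^ w * g⁻¹ : SL(2, ℤ)) : Matrix (Fin 2) (Fin 2) ℤ).trace ^ 2 = 4
      have := trace_conj_T_zpow g (w : ℤ)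
      rw [zpow_natCast] at this
      rw [this]
      norm_num
    rw [h2, zmodPow_zero, map_one, one_mul] at h1
    exact h1
  have hT : compM (g * ModularGroup.T ^ w * g⁻¹) (h ^ p) = h ^ p := by
    rw [map_pow, hpar]
  -- the order at the cusp
  have hL0 : cuspSigmaC N q u ≠ 0 := (map_ne_zero (cuspSigmaC N q)).mpr hu0
  have hNpos : (0 : ℝ) < (N : ℝ) := by exact_mod_cast NeZero.pos N
  have h1 : MerOrdAtImInfty (N : ℝ) (SigQC N q u) (cuspSigmaC N q u).order :=
    (hbr q u).merOrdAtImInfty hNpos hL0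
  have h2 : SigQC N q u = compM g (h ^ p) := by
    show compM (q.out)⁻¹ (realizeC N u) = compM g (h ^ p)
    rw [← D.2.2]
    rfl
  have h3 : ((w * e : ℕ) : ℝ) = (N : ℝ) := by rw [hwe]
  have hord : MerOrdAtImInfty ((w * e : ℕ) : ℝ) (compM g (h ^ p)) (cuspSigmaC N q u).order := by
    rw [h3, ← h2]
    exact h1
  obtain ⟨n', hn', hc⟩ := compM_conj_T_pow_of_merOrd hp hwpos hepos hh0 g hord hT
  -- `exp (2πi n'/p) = 1`
  rw [hpar] at hc
  have h4 : algebraMap ℂ Mer (Complex.exp (2 * Real.pi * Complex.I * n' / p)) = 1 := by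
    have h5 : (algebraMap ℂ Mer (Complex.exp (2 * Real.pi * Complex.I * n' / p)) - 1) * h = 0 := by
      rw [sub_mul, one_mul, ← hc, sub_self]
    exact sub_eq_zero.mp ((mul_eq_zero.mp h5).resolve_right hh0)
  have h6 : Complex.exp (2 * Real.pi * Complex.I * n' / p) = 1 := by
    apply (algebraMap ℂ Mer).injective
    rw [h4, map_one]
  have h7 : (p : ℤ) ∣ n' := (exp_two_pi_I_div_eq_one_iff hp n').mp h6
  -- `n' = ord`
  have h8 := order_cuspSigmaC N q hu0
  rw [hn', ← heZ] at h8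
  have h9 : n' = (cuspPlaceC N q).ord u :=
    mul_left_cancel₀ (by exact_mod_cast hepos.ne' : (e : ℤ) ≠ 0) h8
  rwa [← h9]

/-- **(P), all places over `j = ∞`**. -/
theorem dvd_ord_of_ord_jC_neg (hbr : CuspBridge N) {p : ℕ} [NeZero p] {ζ : ℂ}
    {ψ : Additive ↥(Gamma0 N) →+ ZMod p}
    (hψ : ModularCurve.Period.IsParabolicHom (Gamma0 N) ψ) {h : Mer} {u : FC N}
    (D : IsKumDatum (EigAsm.realC N) ζ ψ h u) (Q : Place ℂ (FC N)) (hQ : Q.ord (jC N) < 0) :
    (p : ℤ) ∣ Q.ord u := by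
  obtain ⟨q, rfl⟩ := exists_eq_cuspPlaceC N Q hQ
  exact dvd_ord_cuspPlaceC hbr hψ D q

end

end Fermat.Agent.GJ.TwEis
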